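/-
S33, STEP L seam (helper6): **the level data of `P3G/Assembly/PointsFinal.levelPointsAt_mul` with the
vertical data `(ϖ, W, V₁, V₂)` chosen BEFORE the inertia element.**

`LevelPointsAt N q` is `∀ A σ, ∃ K₀, ∀ K ⊇ K₀ good, ∃ ϖ W V₁ V₂, VertLevel … σ … ∧ LocPChart … σ …`.
S33 uses TWO inertia elements `σ'`, `τ` at the same level with the SAME `(ϖ, W, V₁, V₂)`.  The proof of
`levelPointsAt_mul` constructs the data from the level `K` only; here the quantifiers are in that
order: at every good level `K` (no lower bound `K₀`), one datum serves all `σ ∈ I_A`.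

* `nonempty_secondVal_lvl` : the second vertical valuation `S₂` exists at every good level;
* `levelData_of_secondVal` : for EVERY `S₂` and every uniformiser `ϖ` of `O_K`, the named objects
  `W = FibreSatBridge.W … S₂`, `V₁ = gaussVS`, `V₂ = S₂.V` satisfy `VertLevel` and `LocPChart` (both
  charts) for all `σ ∈ I_A`;
* `exists_levelData_forall_inertia` : the `∃`-packed form.
-/
import Mathlib
import Fermat.Agent.P3G.Assembly.PointsFinal
import Fermat.Agent.P3G.Assembly.LevelGeomOfPoints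
import Fermat.Agent.P3G.FibreSatBridge
import Fermat.Agent.P3G.FibreIdent
import Fermat.Agent.P3G.GammaV2
import Fermat.Agent.P3G.GammaUnits
import Fermat.Agent.P3G.TwoComponentsFinal
import Fermat.Agent.P3G.TwoComponentsInfFinal
import Fermat.Agent.G.LocPChart
import Fermat.Agent.N4F.C.LevelStatements
import Fermat.Agent.N4F.C.ChartReduction
import Fermat.Agent.N4F.E.NormReduction
import Fermat.Agent.N4F.E.GaussResidue

set_option autoImplicit false
set_option linter.unusedSectionVars false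
set_option linter.dupNamespace false
set_option linter.style.haveILetI false

open ModularCurve AlgebraicCurve IntermediateField

noncomputable section

namespace Fermat.Agent.S33.L.PointsUniform

open Fermat.Agent.N4.Setting Fermat.Agent.N4.Chart Fermat.Agent.N4.S18Glue Fermat.Agent.N4.BigDVR
  Fermat.Agent.P3G.Cover.Lift Fermat.Agent.P3G.Cover.OfValuations Fermat.Agent.P3G.Assembly.PowCover
  Fermat.Agent.P3G.Assembly.StepOfLevel Fermat.Agent.P3G.Assembly.LevelStep
  Fermat.Agent.P3G.Assembly.LevelGeomOfPoints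
  Fermat.Agent.P3G.Gamma Fermat.Agent.P3G.GammaAut
  Fermat.Agent.N4F.C Fermat.Agent.N4F.C.Levels Fermat.Agent.N4F.C.Galois
  Fermat.Agent.N4F.E.GaussDVR

local notation "Qbar" => AlgebraicClosure ℚ
local notation "Γ" => (AlgebraicClosure ℚ ≃ₐ[ℚ] AlgebraicClosure ℚ)


set_option maxHeartbeats 1600000 in
set_option synthInstance.maxHeartbeats 400000 in
/-- the second vertical valuation exists at every good level -/
theorem nonempty_secondVal_lvl (M q : ℕ) [NeZero M] [Fact q.Prime] (hqM : ¬ q ∣ M)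
    (A : ValuationSubring Qbar) (hA : A.LiesOverPrime q)
    (K : IntermediateField ℚ Qbar) (hK : IsGoodLevel A q K)
    [IsDiscreteValuationRing ↥(baseRing A K)] [IsFractionRing ↥(baseRing A K) (Lvl K)] :
    Nonempty (Fermat.Agent.P3G.FibreTwo.SecondVal (Lvl K) M q (baseRing A K)) := by
  have hq : q.Prime := Fact.out
  haveI : IsAlgClosed (IsLocalRing.ResidueField ↥(baseRing A K)) := hK.algClosed
  have hGB : GoodBase (Lvl K) M (baseRing A K) q := ⟨hq, hqM, inferInstance, hK.not_unit⟩
  haveI : CharP (IsLocalRing.ResidueField ↥(baseRing A K)) q :=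
    Fermat.Agent.N4F.E.GaussResidue.charP_residueField (Lvl K) M (baseRing A K) hGB
  haveI : PerfectRing (IsLocalRing.ResidueField ↥(baseRing A K)) q := inferInstance
  have hstar := LevelStatements.starStatement_lvl hq hA K hGB hK.roots
  have hprime := hstar.1.isPrime
  have hred : PGI.RedMem (Lvl K) M (baseRing A K) := fun s hs =>
    ChartReduction.red_mem_full (Lvl K) M (baseRing A K) hGB hstar s hs
  have hA2 := Fermat.Agent.N4F.E.NormReduction.theta_mem_full (Lvl K) M (baseRing A K) hred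
  exact Fermat.Agent.P3G.FibreTwo.nonempty_secondVal (Lvl K) M q (baseRing A K)
    (Fermat.Agent.P3G.GammaV2.lvlToComplex K) hqM hprime hA2

set_option maxHeartbeats 1600000 in
set_option synthInstance.maxHeartbeats 400000 in
/-- **The level data at level `M q`, `q ∤ M`, for a given second valuation and uniformiser,
uniformly in the inertia element.** -/
theorem levelData_of_secondVal (M q : ℕ) [NeZero M] [Fact q.Prime] (hqM : ¬ q ∣ M)
    (A : ValuationSubring Qbar) (hA : A.LiesOverPrime q)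
    (K : IntermediateField ℚ Qbar) (hK : IsGoodLevel A q K)
    [IsDiscreteValuationRing ↥(baseRing A K)] [IsFractionRing ↥(baseRing A K) (Lvl K)]
    (S₂ : Fermat.Agent.P3G.FibreTwo.SecondVal (Lvl K) M q (baseRing A K))
    (ϖ : ↥(baseRing A K)) (hϖ : Irreducible ϖ) :
    IsIntegrallyClosed ↥(Fermat.Agent.P3G.FibreSatBridge.W (Lvl K) M q (baseRing A K) S₂) ∧
    IsFractionRing ↥(Fermat.Agent.P3G.FibreSatBridge.W (Lvl K) M q (baseRing A K) S₂)
      (FF (Lvl K) (M * q)) ∧
    ∀ σ ∈ A.inertiaSubgroupIn ℚ,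
      VertLevel A K hK.stable (M * q) σ ϖ
        (Fermat.Agent.P3G.FibreSatBridge.W (Lvl K) M q (baseRing A K) S₂)
        (gaussVS (Lvl K) (M * q) (baseRing A K)) S₂.V ∧
      LocPChart A K hK.stable (M * q) σ ϖ (jF (Lvl K) (M * q)) ∧
      LocPChart A K hK.stable (M * q) σ ϖ (jF (Lvl K) (M * q))⁻¹ := by
  have hq : q.Prime := Fact.out
  haveI : IsAlgClosed (IsLocalRing.ResidueField ↥(baseRing A K)) := hK.algClosed
  have hGB : GoodBase (Lvl K) M (baseRing A K) q := ⟨hq, hqM, inferInstance, hK.not_unit⟩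
  haveI : CharP (IsLocalRing.ResidueField ↥(baseRing A K)) q :=
    Fermat.Agent.N4F.E.GaussResidue.charP_residueField (Lvl K) M (baseRing A K) hGB
  haveI : PerfectRing (IsLocalRing.ResidueField ↥(baseRing A K)) q := inferInstance
  have hstar := LevelStatements.starStatement_lvl hq hA K hGB hK.roots
  have hsmooth := LevelStatements.smoothStatement_lvl hq hA hqM K hGB hK.roots
  have hprime := hstar.1.isPrime
  have hprimeInf := hstar.2.isPrime
  have hred : PGI.RedMem (Lvl K) M (baseRing A K) := fun s hs =>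
    ChartReduction.red_mem_full (Lvl K) M (baseRing A K) hGB hstar s hs
  have hA2 := Fermat.Agent.N4F.E.NormReduction.theta_mem_full (Lvl K) M (baseRing A K) hred
  have hN : IsUnit ((M : ℕ) : ↥(baseRing A K)) :=
    Fermat.Agent.P3G.GammaUnits.isUnit_natCast_baseRing K hq hA hqM
  have hB := Fermat.Agent.P3G.FibreIdent.betaOut_of_secondVal (Lvl K) M q (baseRing A K) S₂
  have hWeq := Fermat.Agent.P3G.FibreSatBridge.W_eq_iInf (Lvl K) M q (baseRing A K)
    (Fermat.Agent.P3G.GammaV2.lvlToComplex K) hqM hprime hB S₂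
  haveI := Fermat.Agent.N4.ModPolySetting.finiteDimensional_FF (Lvl K) (M * q)
  haveI : IsFractionRing ↥(Rfin (Lvl K) (M * q) (baseRing A K)) (FF (Lvl K) (M * q)) :=
    Fermat.Agent.N4.Cover.Main.isFractionRing_chartAlg (O := ↥(baseRing A K)) (K₀ := Lvl K)
      (jF (Lvl K) (M * q)) (Fermat.Agent.N4.FFAlgebraic.transcendental_jF (Lvl K) (M * q))
  have iFR : IsFractionRing ↥(Fermat.Agent.P3G.FibreSatBridge.W (Lvl K) M q (baseRing A K) S₂)
      (FF (Lvl K) (M * q)) := by
    rw [hWeq]
    exact isFractionRing_iInfSubring (R := ↥(Rfin (Lvl K) (M * q) (baseRing A K))) _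
      (Fermat.Agent.P3G.FibreSat.Rfin_le_Vpair (Lvl K) M q (baseRing A K)
        (Fermat.Agent.P3G.GammaV2.lvlToComplex K) hqM hprime hB)
  have iIC : IsIntegrallyClosed
      ↥(Fermat.Agent.P3G.FibreSatBridge.W (Lvl K) M q (baseRing A K) S₂) := by
    rw [hWeq]
    exact isIntegrallyClosed_iInfSubring (R := ↥(Rfin (Lvl K) (M * q) (baseRing A K))) _
      (Fermat.Agent.P3G.FibreSat.Rfin_le_Vpair (Lvl K) M q (baseRing A K)
        (Fermat.Agent.P3G.GammaV2.lvlToComplex K) hqM hprime hB)
  refine ⟨iIC, iFR, fun σ hσ => ?_⟩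
  have hσD : σ ∈ A.decompositionSubgroup ℚ := mem_decompositionSubgroup_of_mem_inertia hσ
  have hV : VertLevel A K hK.stable (M * q) σ ϖ
      (Fermat.Agent.P3G.FibreSatBridge.W (Lvl K) M q (baseRing A K) S₂)
      (gaussVS (Lvl K) (M * q) (baseRing A K)) S₂.V :=
    ⟨hϖ,
      Fermat.Agent.P3G.FibreSatBridge.twoVal (Lvl K) M q (baseRing A K)
        (Fermat.Agent.P3G.GammaV2.lvlToComplex K) hqM hprime hB S₂ hϖ,
      Fermat.Agent.P3G.FibreSatBridge.semiP (Lvl K) M q (baseRing A K)
        (Fermat.Agent.P3G.GammaV2.lvlToComplex K) hqM hprime hB S₂ hϖ,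
      Fermat.Agent.P3G.FibreSatBridge.semiM (Lvl K) M q (baseRing A K)
        (Fermat.Agent.P3G.GammaV2.lvlToComplex K) hqM hprime hB S₂ hprimeInf hϖ,
      fun x => Fermat.Agent.P3G.GammaGauss.valuation_levelFF_gaussVS K hK.stable (M * q) hσD x,
      fun x => Fermat.Agent.P3G.GammaV2.valuation_levelFF_secondVal K hK.stable M q S₂ hqM hσD x,
      Fermat.Agent.P3G.GammaGauss.trivialOnResidue_gaussVS K hK.stable (M * q) hσ,
      Fermat.Agent.P3G.GammaV2.trivialOnResidue_secondVal K hK.stable M q S₂ hσ⟩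
  exact ⟨hV,
    Fermat.Agent.G.LocPChartGlue.locPChart_fin A K hK.stable (M * q) hσD hV
      (Fermat.Agent.P3G.TwoComponentsFinal.locPRat_fin (Lvl K) M q (baseRing A K) hN
        (Fermat.Agent.P3G.GammaV2.lvlToComplex K) hqM hprime hsmooth.1 hA2 hϖ),
    Fermat.Agent.G.LocPChartGlue.locPChart_inf A K hK.stable (M * q) hσD hV
      (Fermat.Agent.P3G.TwoComponentsInfFinal.locPRat_inf (Lvl K) M q (baseRing A K) hN
        (Fermat.Agent.P3G.GammaV2.lvlToComplex K) hqM hprime hprimeInf hsmooth.2 hA2 hϖ)⟩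

/-- **The level data at level `M q`, `q ∤ M`, uniformly in the inertia element** (`∃`-packed). -/
theorem exists_levelData_forall_inertia (M q : ℕ) [NeZero M] [Fact q.Prime] (hqM : ¬ q ∣ M)
    (A : ValuationSubring Qbar) (hA : A.LiesOverPrime q)
    (K : IntermediateField ℚ Qbar) (hK : IsGoodLevel A q K) :
    ∃ (ϖ : ↥(baseRing A K)) (W : Subring (FF (Lvl K) (M * q))) (_ : IsIntegrallyClosed W)
      (_ : IsFractionRing W (FF (Lvl K) (M * q))) (V₁ V₂ : ValuationSubring (FF (Lvl K) (M * q))),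
      ∀ σ ∈ A.inertiaSubgroupIn ℚ,
        VertLevel A K hK.stable (M * q) σ ϖ W V₁ V₂ ∧
        LocPChart A K hK.stable (M * q) σ ϖ (jF (Lvl K) (M * q)) ∧
        LocPChart A K hK.stable (M * q) σ ϖ (jF (Lvl K) (M * q))⁻¹ := by
  haveI := hK.dvr
  haveI : IsFractionRing ↥(baseRing A K) (Lvl K) := isFractionRing_trSubring A K
  obtain ⟨S₂⟩ := nonempty_secondVal_lvl M q hqM A hA K hK
  obtain ⟨ϖ, hϖ⟩ := IsDiscreteValuationRing.exists_irreducible ↥(baseRing A K)
  obtain ⟨iIC, iFR, h⟩ := levelData_of_secondVal M q hqM A hA K hK S₂ ϖ hϖ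
  exact ⟨ϖ, _, iIC, iFR, _, _, h⟩

end Fermat.Agent.S33.L.PointsUniform
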