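/-
S33, `moonshots` row 61, STEP L (helper12): **THE CHAIN AT ONE GOOD LEVEL, in `F`-form.**

Abstract setting (= `P3G/UCrit`, `P4/TwistRoots`): `O` a discrete valuation ring with fraction field
`K`, `F ⊇ K` the function field of the level, `V₁ V₂` the two vertical valuation rings, `ϖ ∈ O` a
uniformiser, a chart `R` (later: the two charts `R₊ R₋`), `τ : F ≃+* F` the coefficientwise action of
the second inertia element.  Everything is stated with elements of `F` only (no localisation types, no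
product rings): `IsUnitAt 𝔫 x` (`x` is a unit of `R_𝔫`), `Through V 𝔫` (`V` passes through `𝔫`) are those
of `P4/TwistRoots`; `tw τ a x = τ x / x ^ a` is that of `New/FirstDiff`.

Named contracts (helper8's chain #2849 R4):

* `CongrMod V ϖ j x y`  : `x - y ∈ ϖ ^ j V`;
* `BOut`    (STEP B, helper18) : for every `m` a global `G`, unit at `V₁ V₂`, with `h / G ^ e ≡ 1` mod `ϖ ^ m (V₁ ∩ V₂)`;
* `LGAt`    (LG, helper5 `FirstDiffLevel.exists_localGen_fdK`) : local generator `β` of `E` at `𝔫` with `h = unit · β ^ e`;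
* `KOutAt`  (STEP K, helper14 one branch / helper19 node) : approximate `e`-th roots of units of `R_𝔫` in the
  valuation rings through `𝔫` are, up to roots of unity of `K`, approximated by units of `R_𝔫` (loss `k₀`);
* `TOutAt`  : `ρ` is congruent mod `ϖ ^ j` at `𝔫` to (unit of `R_𝔫`) · (local generator of `E_z`);
* `GOut`    (STEP G, helper23) : `TOutAt` at every closed point of both special fibres, `j` large, gives a
  nonzero global section `g` of `𝒪(-E_z)`: `E_z Q ≤ ord_Q g` for all places `Q`.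

Proved here:

* `tOutAt_of_kOut` (STEP T in `F`-form): `LGAt + KOutAt + BOut-instance ⇒ TOutAt` for `ρ = tw τ a G`;
* `exists_section` : `BOut + (∀ 𝔫, LGAt ∧ KOutAt) on both charts + GOut ⇒ ∃ g ≠ 0, ∀ Q, E_z Q ≤ ord_Q g`.
-/
import Mathlib
import Fermat.Agent.P4.TwistRoots
import Fermat.Agent.S33.New.FirstDiff

set_option autoImplicit false
set_option linter.unusedSectionVars false
set_option linter.style.haveILetI false

namespace Fermat.Agent.S33.L.Skeleton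

open Fermat.Agent.P4.TwistRoots Fermat.Agent.S33.New.FirstDiff Fermat.Agent.P3G.SecondDiff
  Fermat.Agent.P3G.UCrit AlgebraicCurve

/-! ### Congruences modulo `ϖ ^ j V` -/

section Congr

variable {O F : Type*} [CommRing O] [Field F] [Algebra O F]

/-- `x ≡ y` modulo `ϖ ^ j V`. -/
def CongrMod (V : ValuationSubring F) (ϖ : O) (j : ℕ) (x y : F) : Prop :=
  ∃ d ∈ V, x - y = algebraMap O F ϖ ^ j * d

variable {V : ValuationSubring F} {ϖ : O} {j : ℕ}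

theorem CongrMod.refl (x : F) : CongrMod V ϖ j x x := ⟨0, (zero_mem V), by simp⟩

theorem CongrMod.mul_left {x y : F} (h : CongrMod V ϖ j x y) {z : F} (hz : z ∈ V) :
    CongrMod V ϖ j (z * x) (z * y) := by
  obtain ⟨d, hd, e⟩ := h
  exact ⟨z * d, mul_mem hz hd, by rw [← mul_sub, e]; ring⟩

theorem CongrMod.mono {i : ℕ} (hij : i ≤ j) (hϖ : algebraMap O F ϖ ∈ V) {x y : F}
    (h : CongrMod V ϖ j x y) : CongrMod V ϖ i x y := by
  obtain ⟨d, hd, e⟩ := h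
  refine ⟨algebraMap O F ϖ ^ (j - i) * d, mul_mem (pow_mem hϖ _) hd, ?_⟩
  rw [e, ← mul_assoc, ← pow_add, Nat.add_sub_cancel' hij]

/-- `x ≡ y`, `y` a unit of `V`: `x = y (1 + ϖ ^ j s)`, `s ∈ V`. -/
theorem CongrMod.exists_eq_mul {x y : F} (h : CongrMod V ϖ j x y) (hy : V.valuation y = 1) :
    ∃ s ∈ V, x = y * (1 + algebraMap O F ϖ ^ j * s) := by
  obtain ⟨d, hd, e⟩ := h
  have hy0 : y ≠ 0 := by
    rintro rfl
    rw [map_zero] at hy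
    exact zero_ne_one hy
  have hyi : y⁻¹ ∈ V := by
    rw [← V.valuation_le_one_iff, map_inv₀, hy, inv_one]
  refine ⟨y⁻¹ * d, mul_mem hyi hd, ?_⟩
  have : x = y + algebraMap O F ϖ ^ j * d := by rw [← e]; ring
  rw [this]
  field_simp

/-- Conversely. -/
theorem congrMod_of_eq_mul {x y s : F} (hy : y ∈ V) (hs : s ∈ V)
    (h : x = y * (1 + algebraMap O F ϖ ^ j * s)) : CongrMod V ϖ j x y :=
  ⟨y * s, mul_mem hy hs, by rw [h]; ring⟩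

/-- A principal unit `1 + ϖ ^ j s` (`j ≥ 1`, `ϖ` a non-unit of `V`) is a unit of `V`. -/
theorem valuation_one_add (hϖ : algebraMap O F ϖ ∈ V.nonunits) (hj : 1 ≤ j) {s : F} (hs : s ∈ V) :
    V.valuation (1 + algebraMap O F ϖ ^ j * s) = 1 := by
  have h1 : V.valuation (algebraMap O F ϖ ^ j * s) < 1 := by
    rw [map_mul, map_pow]
    have hπ : V.valuation (algebraMap O F ϖ) < 1 := (V.mem_nonunits_iff).1 hϖ
    have hs1 : V.valuation s ≤ 1 := (V.valuation_le_one_iff _).2 hs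
    have hpow : V.valuation (algebraMap O F ϖ) ^ j < 1 := pow_lt_one₀ zero_le hπ (by omega)
    calc V.valuation (algebraMap O F ϖ) ^ j * V.valuation s
        ≤ V.valuation (algebraMap O F ϖ) ^ j * 1 := by gcongr
      _ = V.valuation (algebraMap O F ϖ) ^ j := mul_one _
      _ < 1 := hpow
  exact V.valuation.map_one_add_of_lt h1

/-- The inverse of a principal unit is a principal unit. -/
theorem exists_inv_one_add (hϖ : algebraMap O F ϖ ∈ V.nonunits) (hj : 1 ≤ j) {s : F} (hs : s ∈ V) :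
    ∃ s' ∈ V, (1 + algebraMap O F ϖ ^ j * s)⁻¹ = 1 + algebraMap O F ϖ ^ j * s' := by
  have hv := valuation_one_add hϖ hj hs
  have h0 : 1 + algebraMap O F ϖ ^ j * s ≠ 0 := by
    intro h
    rw [h, map_zero] at hv
    exact zero_ne_one hv
  have hi : (1 + algebraMap O F ϖ ^ j * s)⁻¹ ∈ V := by
    rw [← V.valuation_le_one_iff, map_inv₀, hv, inv_one]
  refine ⟨-(s * (1 + algebraMap O F ϖ ^ j * s)⁻¹), neg_mem (mul_mem hs hi), ?_⟩
  field_simp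
  ring

/-- Powers of principal units. -/
theorem exists_pow_one_add {s : F} (hϖ : algebraMap O F ϖ ∈ V) (hs : s ∈ V) (a : ℕ) :
    ∃ s' ∈ V, (1 + algebraMap O F ϖ ^ j * s) ^ a = 1 + algebraMap O F ϖ ^ j * s' := by
  induction a with
  | zero => exact ⟨0, (zero_mem V), by simp⟩
  | succ a ih =>
    obtain ⟨s', hs', e⟩ := ih
    refine ⟨s' + s + algebraMap O F ϖ ^ j * (s' * s),
      add_mem (add_mem hs' hs) (mul_mem (pow_mem hϖ _) (mul_mem hs' hs)), ?_⟩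
    rw [pow_succ, e]
    ring

end Congr

/-! ### The contracts at one chart -/

section Chart

variable {O K F R : Type*} [CommRing O] [Field K] [Field F] [Algebra K F] [Algebra O F]
  [CommRing R] [IsDomain R] [Algebra R F] [IsFractionRing R F] [Algebra O R]

/-- **(B-out)**: for every `m` a global `G ≠ 0`, unit at both vertical valuations, with
`h / G ^ e ≡ 1` modulo `ϖ ^ m (V₁ ∩ V₂)`. -/
def BOutAt (V₁ V₂ : ValuationSubring F) (ϖ : O) (h : F) (e m : ℕ) (G : F) : Prop :=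
  G ≠ 0 ∧ V₁.valuation G = 1 ∧ V₂.valuation G = 1 ∧
    ∃ w, w ∈ V₁ ∧ w ∈ V₂ ∧ h / G ^ e - 1 = algebraMap O F ϖ ^ m * w

/-- **(B-out)** for all `m`. -/
def BOut (V₁ V₂ : ValuationSubring F) (ϖ : O) (h : F) (e : ℕ) : Prop :=
  ∀ m : ℕ, ∃ G : F, BOutAt V₁ V₂ ϖ h e m G

variable (K) in
/-- **(LG) at `𝔫`**: a local generator `β` of `E` at the closed point `𝔫`, unit at both vertical
valuations, with `h = (unit of R_𝔫) · β ^ e`.
(= the conclusion of `New/FirstDiffLevel.exists_localGen_fdK`.) -/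
def LGAt (𝔫 : Ideal R) (V₁ V₂ : ValuationSubring F) (E : Place K F → ℤ) (h : F) (e : ℕ) : Prop :=
  ∃ β : F, β ≠ 0 ∧ V₁.valuation β = 1 ∧ V₂.valuation β = 1 ∧
    (∀ Q ∈ centredSet K 𝔫, Q.ord β = E Q) ∧
    ∃ a r : R, a ∉ 𝔫 ∧ r ∉ 𝔫 ∧ h * algebraMap R F a = β ^ e * algebraMap R F r

variable (K) in
/-- **(K-out) at `𝔫`**, `F`-form: if `r ^ e ≡ u` modulo `ϖ ^ m` in every vertical valuation ring
through `𝔫`, `u` a unit of `R_𝔫`, then for `k₀ + j ≤ m` there are `e`-th roots of unity `η₁ η₂` of the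
constant field and a unit `a₀` of `R_𝔫` with `η_i r ≡ a₀` modulo `ϖ ^ j V_i` (`V_i` through `𝔫`).
(`e = p ^ k`, `k₀ = k (p - 1) j₀`; at a point on one branch only the corresponding `η_i` matters.) -/
def KOutAt (𝔫 : Ideal R) (V₁ V₂ : ValuationSubring F) (ϖ : O) (e k₀ : ℕ) : Prop :=
  ∀ r u : F, r ≠ 0 → IsUnitAt 𝔫 u → ∀ m j : ℕ, k₀ + j ≤ m →
    (Through V₁ 𝔫 → CongrMod V₁ ϖ m (r ^ e) u) → (Through V₂ 𝔫 → CongrMod V₂ ϖ m (r ^ e) u) →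
    ∃ η₁ η₂ : K, η₁ ^ e = 1 ∧ η₂ ^ e = 1 ∧ ∃ a₀ : F, IsUnitAt 𝔫 a₀ ∧
      (Through V₁ 𝔫 → CongrMod V₁ ϖ j (algebraMap K F η₁ * r) a₀) ∧
      (Through V₂ 𝔫 → CongrMod V₂ ϖ j (algebraMap K F η₂ * r) a₀)

variable (K) in
/-- **(T-out) at `𝔫`**: `ρ` is congruent modulo `ϖ ^ j`, in every vertical valuation ring through
`𝔫`, to (a unit of `R_𝔫`) · (a local generator `βz` of `E` at `𝔫`, unit at both vertical
valuations). -/
def TOutAt (𝔫 : Ideal R) (V₁ V₂ : ValuationSubring F) (ϖ : O) (E : Place K F → ℤ) (j : ℕ)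
    (ρ : F) : Prop :=
  ∃ βz a' : F, βz ≠ 0 ∧ V₁.valuation βz = 1 ∧ V₂.valuation βz = 1 ∧
    (∀ Q ∈ centredSet K 𝔫, Q.ord βz = E Q) ∧ IsUnitAt 𝔫 a' ∧
    (Through V₁ 𝔫 → CongrMod V₁ ϖ j ρ (a' * βz)) ∧ (Through V₂ 𝔫 → CongrMod V₂ ϖ j ρ (a' * βz))

variable (K R) in
/-- (T-out) at every closed point of the special fibre of the chart `R`. -/
def TOut (V₁ V₂ : ValuationSubring F) (ϖ : O) (E : Place K F → ℤ) (j : ℕ) (ρ : F) : Prop :=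
  ∀ 𝔫 : Ideal R, 𝔫.IsMaximal → algebraMap O R ϖ ∈ 𝔫 → TOutAt K 𝔫 V₁ V₂ ϖ E j ρ

end Chart

/-! ### STEP T in `F`-form -/

section StepT

variable {O K F R : Type*} [CommRing O] [Field K] [Field F] [Algebra K F] [Algebra O F]
  [CommRing R] [IsDomain R] [Algebra R F] [IsFractionRing R F] [Algebra O R]

/-- One valuation ring: from `η r ≡ a₀` (mod `ϖ ^ j V`), `τ η = η ^ a`, get
`tw τ a r ≡ tw τ a a₀` (mod `ϖ ^ j V`). -/
theorem congrMod_tw {V : ValuationSubring F} {ϖ : O} {j : ℕ} (hj : 1 ≤ j)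
    (hϖV : algebraMap O F ϖ ∈ V.nonunits) (τ : F ≃+* F)
    (hval : ∀ x, V.valuation (τ x) = V.valuation x)
    (hτϖ : ∃ c ∈ V, τ (algebraMap O F ϖ) = algebraMap O F ϖ * c) (a : ℕ)
    {η r a₀ : F} (hη0 : η ≠ 0) (hη : τ η = η ^ a) (ha₀ : V.valuation a₀ = 1)
    (h : CongrMod V ϖ j (η * r) a₀) : CongrMod V ϖ j (tw τ a r) (tw τ a a₀) := by
  have hϖm : algebraMap O F ϖ ∈ V := V.nonunits_subset hϖV
  obtain ⟨s, hs, e⟩ := h.exists_eq_mul ha₀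
  have ha₀0 : a₀ ≠ 0 := by
    rintro rfl
    rw [map_zero] at ha₀
    exact zero_ne_one ha₀
  -- `tw η = 1`
  have htwη : tw τ a η = 1 := by
    unfold tw
    rw [hη]
    exact div_self (pow_ne_zero a hη0)
  -- `tw (1 + ϖ^j s) = 1 + ϖ^j s₃`
  obtain ⟨c, hc, hτϖ'⟩ := hτϖ
  have hτs : τ s ∈ V := by
    rw [← V.valuation_le_one_iff, hval]
    exact (V.valuation_le_one_iff _).2 hs
  have h1 : τ (1 + algebraMap O F ϖ ^ j * s) = 1 + algebraMap O F ϖ ^ j * (c ^ j * τ s) := by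
    rw [map_add, map_one, map_mul, map_pow, hτϖ', mul_pow]
    ring
  obtain ⟨s₁, hs₁, e₁⟩ := exists_pow_one_add (j := j) hϖm hs a
  obtain ⟨s₂, hs₂, e₂⟩ := exists_inv_one_add (j := j) hϖV hj hs₁
  have h2 : tw τ a (1 + algebraMap O F ϖ ^ j * s) =
      1 + algebraMap O F ϖ ^ j * (c ^ j * τ s + s₂ + algebraMap O F ϖ ^ j * (c ^ j * τ s * s₂)) := by
    unfold tw
    rw [h1, e₁, div_eq_mul_inv, e₂]
    ring
  have hs₃ : c ^ j * τ s + s₂ + algebraMap O F ϖ ^ j * (c ^ j * τ s * s₂) ∈ V :=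
    add_mem (add_mem (mul_mem (pow_mem hc _) hτs) hs₂)
      (mul_mem (pow_mem hϖm _) (mul_mem (mul_mem (pow_mem hc _) hτs) hs₂))
  have h3 : tw τ a r = tw τ a a₀ *
      (1 + algebraMap O F ϖ ^ j * (c ^ j * τ s + s₂ + algebraMap O F ϖ ^ j * (c ^ j * τ s * s₂))) := by
    have := congrArg (tw τ a) e
    rw [tw_mul, tw_mul, htwη, one_mul, h2] at this
    exact this
  have htwa₀ : tw τ a a₀ ∈ V := by
    rw [← V.valuation_le_one_iff, valuation_tw τ hval a ha₀]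
  exact congrMod_of_eq_mul htwa₀ hs₃ h3

variable (K) in
/-- **STEP T, `F`-form.**  At a closed point `𝔫`: from (LG) for `h` and `E`, (K-out), and a `G` with
`h / G ^ e ≡ 1` modulo `ϖ ^ m (V₁ ∩ V₂)`, the twist `ρ = τ G / G ^ a` satisfies (T-out) at `𝔫` for
the twisted divisor `Ez`, with precision `j = m - k₀ ≥ 1`. -/
theorem tOutAt_of_kOut (𝔫 : Ideal R) [h𝔫 : 𝔫.IsPrime] (V₁ V₂ : ValuationSubring F) (ϖ : O)
    (hV₁ : ∀ r : R, algebraMap R F r ∈ V₁) (hV₂ : ∀ r : R, algebraMap R F r ∈ V₂)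
    (hϖ₁ : algebraMap O F ϖ ∈ V₁.nonunits) (hϖ₂ : algebraMap O F ϖ ∈ V₂.nonunits)
    (τ : F ≃+* F) (hval₁ : ∀ x, V₁.valuation (τ x) = V₁.valuation x)
    (hval₂ : ∀ x, V₂.valuation (τ x) = V₂.valuation x)
    (hτϖ : ∃ c : F, c ∈ V₁ ∧ c ∈ V₂ ∧ τ (algebraMap O F ϖ) = algebraMap O F ϖ * c)
    (hτU : ∀ x : F, IsUnitAt 𝔫 x → IsUnitAt 𝔫 (τ x))
    (a e : ℕ) (hτη : ∀ η : K, η ^ e = 1 → τ (algebraMap K F η) = algebraMap K F η ^ a)
    (he : e ≠ 0)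
    (τP : Equiv.Perm (Place K F)) (hτP : Compat (fun (Q : Place K F) (x : F) => Q.ord x) τ τP)
    (hC : ∀ Q ∈ centredSet K 𝔫, τP.symm Q ∈ centredSet K 𝔫)
    (E Ez : Place K F → ℤ) (hEz : ∀ Q ∈ centredSet K 𝔫, Ez Q = E (τP.symm Q) - a * E Q)
    {h : F} {k₀ m j : ℕ} (hj : 1 ≤ j) (hm : k₀ + j ≤ m)
    (hLG : LGAt K 𝔫 V₁ V₂ E h e) (hK : KOutAt K 𝔫 V₁ V₂ ϖ e k₀)
    {G : F} (hG : BOutAt V₁ V₂ ϖ h e m G) :
    TOutAt K 𝔫 V₁ V₂ ϖ Ez j (tw τ a G) := by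
  obtain ⟨β, hβ0, hβ₁, hβ₂, hβE, a₁, r₁, ha₁, hr₁, hfac⟩ := hLG
  obtain ⟨hG0, hG₁, hG₂, w, hw₁, hw₂, hGw⟩ := hG
  have hm1 : 1 ≤ m := by omega
  have hOM : OrdMul (fun (Q : Place K F) (x : F) => Q.ord x) :=
    fun Q _ _ hf hg => Q.ord_mul hf hg
  -- the unit `u = h / β ^ e` of `R_𝔫`
  have ha₁F : algebraMap R F a₁ ≠ 0 := algebraMap_ne_zero_of_notMem 𝔫 ha₁
  have hβe0 : β ^ e ≠ 0 := pow_ne_zero e hβ0
  have hGe0 : G ^ e ≠ 0 := pow_ne_zero e hG0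
  set u : F := h / β ^ e with hu
  have huU : IsUnitAt 𝔫 u := by
    refine ⟨a₁, r₁, ha₁, hr₁, ?_⟩
    rw [hu, div_mul_eq_mul_div, hfac, mul_div_assoc, mul_comm, div_mul_cancel₀ _ hβe0]
  -- `r = G / β`
  set r : F := G / β with hr
  have hr0 : r ≠ 0 := div_ne_zero hG0 hβ0
  -- `r ^ e ≡ u` modulo `ϖ ^ m` in each valuation ring through `𝔫`
  have hcong : ∀ V : ValuationSubring F, (∀ x : R, algebraMap R F x ∈ V) →
      algebraMap O F ϖ ∈ V.nonunits → w ∈ V → Through V 𝔫 → CongrMod V ϖ m (r ^ e) u := by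
    intro V hV hϖV hwV ht
    have huV : V.valuation u = 1 := huU.valuation_eq_one hV ht
    have huV' : u ∈ V := by rw [← V.valuation_le_one_iff, huV]
    obtain ⟨s', hs', e'⟩ := exists_inv_one_add (j := m) hϖV hm1 hwV
    refine congrMod_of_eq_mul huV' hs' ?_
    rw [← e']
    have h1 : h / G ^ e = 1 + algebraMap O F ϖ ^ m * w := by rw [← hGw]; ring
    rw [← h1, hr, hu, div_pow]
    have hh0 : h ≠ 0 := by
      rintro rfl
      rw [zero_mul] at hfac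
      exact (mul_ne_zero hβe0 (algebraMap_ne_zero_of_notMem 𝔫 hr₁)) hfac.symm
    field_simp
  obtain ⟨η₁, η₂, hη₁, hη₂, a₀, ha₀U, hc₁, hc₂⟩ := hK r u hr0 huU m j hm
    (hcong V₁ hV₁ hϖ₁ hw₁) (hcong V₂ hV₂ hϖ₂ hw₂)
  obtain ⟨c, hcV₁, hcV₂, hτϖc⟩ := hτϖ
  -- the twisted local generator and the twisted unit
  have hβz0 : tw τ a β ≠ 0 := tw_ne_zero τ a hβ0
  have hη0 : ∀ η : K, η ^ e = 1 → algebraMap K F η ≠ 0 := by
    intro η hη h0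
    have : η = 0 := (algebraMap K F).injective (by rw [h0, map_zero])
    rw [this, zero_pow he] at hη
    exact zero_ne_one hη
  have ha'U : IsUnitAt 𝔫 (tw τ a a₀) := (hτU a₀ ha₀U).div (ha₀U.pow a)
  have hfin : ∀ V : ValuationSubring F, (∀ x : R, algebraMap R F x ∈ V) →
      algebraMap O F ϖ ∈ V.nonunits → (∀ x, V.valuation (τ x) = V.valuation x) → c ∈ V →
      V.valuation β = 1 → ∀ η : K, η ^ e = 1 → Through V 𝔫 →
      CongrMod V ϖ j (algebraMap K F η * r) a₀ →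
      CongrMod V ϖ j (tw τ a G) (tw τ a a₀ * tw τ a β) := by
    intro V hV hϖV hval hcV hβV η hη ht hc
    have h1 := congrMod_tw hj hϖV τ hval ⟨c, hcV, hτϖc⟩ a (hη0 η hη) (hτη η hη)
      (ha₀U.valuation_eq_one hV ht) hc
    have hβzV : tw τ a β ∈ V := by
      rw [← V.valuation_le_one_iff, valuation_tw τ hval a hβV]
    have h2 := h1.mul_left hβzV
    have h3 : tw τ a β * tw τ a r = tw τ a G := by
      rw [← tw_mul, hr, mul_div_cancel₀ _ hβ0]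
    rw [h3, mul_comm (tw τ a β)] at h2
    exact h2
  refine ⟨tw τ a β, tw τ a a₀, hβz0, valuation_tw τ hval₁ a hβ₁, valuation_tw τ hval₂ a hβ₂,
    fun Q hQ => ?_, ha'U, fun ht => hfin V₁ hV₁ hϖ₁ hval₁ hcV₁ hβ₁ η₁ hη₁ ht (hc₁ ht),
    fun ht => hfin V₂ hV₂ hϖ₂ hval₂ hcV₂ hβ₂ η₂ hη₂ ht (hc₂ ht)⟩
  have := ord_tw hOM hτP Q a hβ0
  rw [this, hβE Q hQ, hβE _ (hC Q hQ), hEz Q hQ]

end StepT

/-! ### The composition at one level -/

section Compose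

variable {O K F Rp Rm : Type*} [CommRing O] [Field K] [Field F] [Algebra K F] [Algebra O F]
  [CommRing Rp] [IsDomain Rp] [Algebra Rp F] [IsFractionRing Rp F] [Algebra O Rp]
  [CommRing Rm] [IsDomain Rm] [Algebra Rm F] [IsFractionRing Rm F] [Algebra O Rm]

variable (K Rp Rm) in
/-- **(G-out)**: there is `c` such that for `j > c`, every `ρ` (unit at `V₁ V₂`) satisfying (T-out)
with precision `j` at every closed point of the special fibres of both charts is approximated by a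
nonzero global section of `𝒪(-E)`: `E Q ≤ ord_Q g` at every place `Q` of `F / K`. -/
def GOut (V₁ V₂ : ValuationSubring F) (ϖ : O) (E : Place K F → ℤ) : Prop :=
  ∃ c : ℕ, ∀ j : ℕ, c < j → ∀ ρ : F, V₁.valuation ρ = 1 → V₂.valuation ρ = 1 →
    TOut K Rp V₁ V₂ ϖ E j ρ → TOut K Rm V₁ V₂ ϖ E j ρ →
    ∃ g : F, g ≠ 0 ∧ ∀ Q : Place K F, E Q ≤ Q.ord g

variable (K Rp Rm) in
/-- **The chain at one level.**  (B-out) for `h`; at every closed point of the special fibres of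
both charts (LG) for `(h, E)`, (K-out), and the `τ`-data; (G-out) for the twisted divisor `Ez`.
Then `𝒪(-Ez)` has a nonzero global section. -/
theorem exists_section (V₁ V₂ : ValuationSubring F) (ϖ : O)
    (hVp₁ : ∀ r : Rp, algebraMap Rp F r ∈ V₁) (hVp₂ : ∀ r : Rp, algebraMap Rp F r ∈ V₂)
    (hVm₁ : ∀ r : Rm, algebraMap Rm F r ∈ V₁) (hVm₂ : ∀ r : Rm, algebraMap Rm F r ∈ V₂)
    (hϖ₁ : algebraMap O F ϖ ∈ V₁.nonunits) (hϖ₂ : algebraMap O F ϖ ∈ V₂.nonunits)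
    (τ : F ≃+* F) (hval₁ : ∀ x, V₁.valuation (τ x) = V₁.valuation x)
    (hval₂ : ∀ x, V₂.valuation (τ x) = V₂.valuation x)
    (hτϖ : ∃ c : F, c ∈ V₁ ∧ c ∈ V₂ ∧ τ (algebraMap O F ϖ) = algebraMap O F ϖ * c)
    (hτUp : ∀ 𝔫 : Ideal Rp, 𝔫.IsMaximal → algebraMap O Rp ϖ ∈ 𝔫 →
      ∀ x : F, IsUnitAt 𝔫 x → IsUnitAt 𝔫 (τ x))
    (hτUm : ∀ 𝔫 : Ideal Rm, 𝔫.IsMaximal → algebraMap O Rm ϖ ∈ 𝔫 →
      ∀ x : F, IsUnitAt 𝔫 x → IsUnitAt 𝔫 (τ x))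
    (a e : ℕ) (hτη : ∀ η : K, η ^ e = 1 → τ (algebraMap K F η) = algebraMap K F η ^ a)
    (he : e ≠ 0)
    (τP : Equiv.Perm (Place K F)) (hτP : Compat (fun (Q : Place K F) (x : F) => Q.ord x) τ τP)
    (hCp : ∀ 𝔫 : Ideal Rp, 𝔫.IsMaximal → algebraMap O Rp ϖ ∈ 𝔫 →
      ∀ Q ∈ centredSet K 𝔫, τP.symm Q ∈ centredSet K 𝔫)
    (hCm : ∀ 𝔫 : Ideal Rm, 𝔫.IsMaximal → algebraMap O Rm ϖ ∈ 𝔫 →
      ∀ Q ∈ centredSet K 𝔫, τP.symm Q ∈ centredSet K 𝔫)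
    (E Ez : Place K F → ℤ) (hEz : ∀ Q, Ez Q = E (τP.symm Q) - a * E Q)
    (h : F) (k₀ : ℕ) (hB : BOut V₁ V₂ ϖ h e)
    (hLGp : ∀ 𝔫 : Ideal Rp, 𝔫.IsMaximal → algebraMap O Rp ϖ ∈ 𝔫 → LGAt K 𝔫 V₁ V₂ E h e)
    (hLGm : ∀ 𝔫 : Ideal Rm, 𝔫.IsMaximal → algebraMap O Rm ϖ ∈ 𝔫 → LGAt K 𝔫 V₁ V₂ E h e)
    (hKp : ∀ 𝔫 : Ideal Rp, 𝔫.IsMaximal → algebraMap O Rp ϖ ∈ 𝔫 → KOutAt K 𝔫 V₁ V₂ ϖ e k₀)
    (hKm : ∀ 𝔫 : Ideal Rm, 𝔫.IsMaximal → algebraMap O Rm ϖ ∈ 𝔫 → KOutAt K 𝔫 V₁ V₂ ϖ e k₀)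
    (hGo : GOut K Rp Rm V₁ V₂ ϖ Ez) :
    ∃ g : F, g ≠ 0 ∧ ∀ Q : Place K F, Ez Q ≤ Q.ord g := by
  obtain ⟨c, hc⟩ := hGo
  obtain ⟨G, hG⟩ := hB (k₀ + (c + 1))
  have hG' := hG
  obtain ⟨hG0, hG₁, hG₂, -⟩ := hG'
  refine hc (c + 1) (Nat.lt_succ_self c) (tw τ a G) (valuation_tw τ hval₁ a hG₁)
    (valuation_tw τ hval₂ a hG₂) (fun 𝔫 h𝔫 hϖ𝔫 => ?_) (fun 𝔫 h𝔫 hϖ𝔫 => ?_)
  · haveI := h𝔫.isPrime
    exact tOutAt_of_kOut K 𝔫 V₁ V₂ ϖ hVp₁ hVp₂ hϖ₁ hϖ₂ τ hval₁ hval₂ hτϖ (hτUp 𝔫 h𝔫 hϖ𝔫) a e hτη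
      he τP hτP (hCp 𝔫 h𝔫 hϖ𝔫) E Ez (fun Q _ => hEz Q) (by omega) le_rfl (hLGp 𝔫 h𝔫 hϖ𝔫)
      (hKp 𝔫 h𝔫 hϖ𝔫) hG
  · haveI := h𝔫.isPrime
    exact tOutAt_of_kOut K 𝔫 V₁ V₂ ϖ hVm₁ hVm₂ hϖ₁ hϖ₂ τ hval₁ hval₂ hτϖ (hτUm 𝔫 h𝔫 hϖ𝔫) a e hτη
      he τP hτP (hCm 𝔫 h𝔫 hϖ𝔫) E Ez (fun Q _ => hEz Q) (by omega) le_rfl (hLGm 𝔫 h𝔫 hϖ𝔫)
      (hKm 𝔫 h𝔫 hϖ𝔫) hG

end Compose

end Fermat.Agent.S33.L.Skeleton
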