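/-
S33, `moonshots` row 61, STEP L, slice (helper17): THE DESCENT FROM `Q̄` TO A GOOD LEVEL FOR (NEW-J)
— the S33 twin of `P4/LevelFrobStep.lean` (no `no_split_cover`, no `p ≠ q`).

* `newOpsK`, `twNewK` : the operator list `[(τ, a), (σ', 1)]` and the function `τ h / h ^ a`,
  `h = σ' f / f`, at a Galois-stable level `K`;  `levK_twNewK` : compatibility with `levK`;
* `NewLevelAt N q p c A τ σ' a k` : the geometric input at good levels, NORMALISED (both norms are
  exact `p ^ k`-th powers): there is a number field `K₁` such that at every good level `K ⊇ K₁` and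
  for every model `f_K` of `f`, `(τ h_K / h_K ^ a) ^ (p ^ c)` is a constant of `K` times a `p ^ k`-th
  power in `FF (Lvl K) (N q)`;
* `newRootAt_of_level : q.Prime → A.LiesOverPrime q → NewLevelAt … → NewRootAt N q p c τ σ' a k`
  (`New/NewStep`): normalise the two constants over `Q̄` (algebraically closed), go to a good level
  containing the coefficients of `f`, apply `levK`.
-/
import Mathlib
import Fermat.Agent.S33.New.NewStep
import Fermat.Agent.P4.LevelFrobStep

set_option autoImplicit false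
set_option linter.unusedSectionVars false
set_option linter.dupNamespace false
set_option linter.style.haveILetI false

open ModularCurve AlgebraicCurve IntermediateField

noncomputable section

namespace Fermat.Agent.S33.L.Descent

open Fermat.Agent.N4.Setting Fermat.Agent.N4.Chart Fermat.Agent.N4.S18Glue Fermat.Agent.N4.BigDVR
  Fermat.Agent.P3G.Assembly.LevelStep
  Fermat.Agent.P3G.GammaDict Fermat.Agent.P3G.GeomStep
  Fermat.Agent.P3G.Gamma Fermat.Agent.P3G.GammaAut
  Fermat.Agent.N4F.C Fermat.Agent.N4F.C.Levels Fermat.Agent.N4F.C.Galois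
  Fermat.Agent.P4.FrobStep Fermat.Agent.S33.New.NewStep

local notation "Qbar" => AlgebraicClosure ℚ
local notation "Γ" => (AlgebraicClosure ℚ ≃ₐ[ℚ] AlgebraicClosure ℚ)

/-! ### The operator `(τ − a)(σ' − 1)` on functions at a level -/

section TwK

variable (K : IntermediateField ℚ Qbar) (hK : ∀ (τ : Γ) (x : Qbar), x ∈ K → τ x ∈ K)
  (M : ℕ) [NeZero M]

/-- The list of operators `[(τ, a), (σ', 1)]` at the stable level `K`. -/
def newOpsK (τ σ' : Γ) (a : ℤ) : List (SemilinearAut (Lvl K) (FF (Lvl K) M) × ℤ) :=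
  [(levelFF K hK M τ, a), (levelFF K hK M σ', 1)]

/-- `τ h / h ^ a`, `h = σ' f / f`, at the stable level `K`. -/
def twNewK (τ σ' : Γ) (a : ℤ) (f : FF (Lvl K) M) : FF (Lvl K) M :=
  twFnL (newOpsK K hK M τ σ' a) f

theorem twNewK_eq (τ σ' : Γ) (a : ℤ) (f : FF (Lvl K) M) :
    twNewK K hK M τ σ' a f =
      (levelFF K hK M τ • ((levelFF K hK M σ' • f) / f)) / ((levelFF K hK M σ' • f) / f) ^ a := by
  show twFn (levelFF K hK M τ) a (twFn (levelFF K hK M σ') 1 f) = _
  rw [twFn_def, twFn_def, zpow_one]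

/-- The level map carries `twNewK` to the function `τ h / h ^ a` over `Q̄`. -/
theorem levK_twNewK (τ σ' : Γ) (a : ℤ) (f : FF (Lvl K) M) :
    levK M K (twNewK K hK M τ σ' a f) = twFnL (newOps M τ σ' a) (levK M K f) := by
  rw [twNewK_eq, twFnL_newOps, map_div₀, map_zpow₀, levK_levelFF_smul, map_div₀,
    levK_levelFF_smul]

end TwK

/-! ### The geometric input at good levels -/

/-- **(NEW-J) at good levels, normalised**: for `f ≠ 0` of level `N q` over `Q̄` with
`p ^ k ∣ div f` whose two norms to level `N` are EXACT `p ^ k`-th powers, there is a number field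
`K₁` such that at every good level `K ⊇ K₁` (for the place `A ∣ q`) and every model `f_K` of `f`,
the `p ^ c`-th power of `τ h_K / h_K ^ a` (`h_K = σ' f_K / f_K`) is a nonzero constant of `K` times a
`p ^ k`-th power. -/
def NewLevelAt (N q : ℕ) [NeZero N] [NeZero q] (p c : ℕ) (A : ValuationSubring Qbar)
    (τ σ' : Γ) (a : ℤ) (k : ℕ) : Prop :=
  ∀ (f : Fb (N * q)) (hA hB : Fb N), f ≠ 0 →
    (∀ P : Place Qb (Fb (N * q)), ((p ^ k : ℕ) : ℤ) ∣ P.ord f) →
    normAlpha N q f = hA ^ (p ^ k) →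
    normBeta N q f = hB ^ (p ^ k) →
    ∃ K₁ : IntermediateField ℚ Qbar, FiniteDimensional ℚ K₁ ∧
      ∀ (K : IntermediateField ℚ Qbar) (hK : IsGoodLevel A q K), K₁ ≤ K →
        ∀ fK : FF (Lvl K) (N * q), levK (N * q) K fK = f →
          ∃ (c' : Lvl K) (g : FF (Lvl K) (N * q)), c' ≠ 0 ∧
            twNewK K hK.stable (N * q) τ σ' a fK ^ (p ^ c) =
              algebraMap (Lvl K) (FF (Lvl K) (N * q)) c' * g ^ (p ^ k)

/-! ### The descent -/

/-- **From good levels to `Q̄`**: the normalised geometric input at good levels gives the root form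
`NewRootAt` of (NEW-J). -/
theorem newRootAt_of_level {N q : ℕ} [NeZero N] [NeZero q] {p c : ℕ} {A : ValuationSubring Qbar}
    {τ σ' : Γ} {a : ℤ} {k : ℕ} (hq : q.Prime) (hA : A.LiesOverPrime q) (hp : p ≠ 0)
    (h : NewLevelAt N q p c A τ σ' a k) : NewRootAt N q p c τ σ' a k := by
  classical
  intro f hA' hB' cA cB hf hcA hcB hdiv hnA hnB
  have hpk : 0 < p ^ k := Nat.pos_of_ne_zero (pow_ne_zero k hp)
  -- normalise the constants
  obtain ⟨rA, hrA⟩ := IsAlgClosed.exists_pow_nat_eq cA hpk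
  obtain ⟨rB, hrB⟩ := IsAlgClosed.exists_pow_nat_eq cB hpk
  have hnA' : normAlpha N q f = (algebraMap Qb (Fb N) rA * hA') ^ (p ^ k) := by
    rw [mul_pow, ← map_pow, hrA, hnA]
  have hnB' : normBeta N q f = (algebraMap Qb (Fb N) rB * hB') ^ (p ^ k) := by
    rw [mul_pow, ← map_pow, hrB, hnB]
  obtain ⟨K₁, hK₁fin, hK₁⟩ := h f _ _ hf hdiv hnA' hnB'
  -- a number field containing the coefficients of `f`
  obtain ⟨K₂, hK₂fin, hK₂⟩ := exists_finiteDimensional_level (N * q) {f} ∅
  haveI := hK₁fin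
  haveI := hK₂fin
  haveI : FiniteDimensional ℚ ↥(K₁ ⊔ K₂) := IntermediateField.finiteDimensional_sup K₁ K₂
  obtain ⟨K, hle, hK⟩ := exists_isGoodLevel_ge hq hA (K₁ ⊔ K₂)
  have h1 : K₁ ≤ K := le_sup_left.trans hle
  have h2 : K₂ ≤ K := le_sup_right.trans hle
  obtain ⟨fK, hfK⟩ := (hK₂ K h2).1 f (by simp)
  obtain ⟨c', g, hc', hg⟩ := hK₁ K hK h1 fK hfK
  refine ⟨algebraMap (Lvl K) Qb c', levK (N * q) K g, (map_ne_zero _).mpr hc', ?_⟩
  have h3 := congrArg (levK (N * q) K) hg
  rw [map_pow, levK_twNewK, hfK, map_mul, map_pow] at h3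
  rw [h3]
  congr 1
  exact (levK (N * q) K).commutes c'

end Fermat.Agent.S33.L.Descent
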