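/-
S33, `moonshots` row 61, STEP L, slice 2 (helper17): THE NORM BOOK-KEEPING AT A GOOD LEVEL FOR (NEW-J)
— the S33 twin of `P4/FrobLevelStep.lean`.

`Descent.NewLevelAt` states its hypotheses on `f` over `Q̄`.  This file hands them to the geometric
chain (B-out)…(G-out) AT THE LEVEL `K`, in the EXACT forms the ping-pong needs (no constants):

* `normAlphaK_levelFF`, `normBetaK_levelFF` : the level norms commute with the Galois action
  `levelFF K hK · σ` (every `σ ∈ Γ`);
* `normAlphaK_firstDiff`, `normBetaK_firstDiff` : if `N_α f_K = h_{A,K} ^ e` then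
  `N_α (σ' f_K / f_K) = (σ' h_{A,K} / h_{A,K}) ^ e` — "`h = σ' f / f` is new at the level `K` with
  constant `1`" (helper8's R3);
* `normAlphaK_twNewK`, `normBetaK_twNewK` : the same for `k' = τ h / h ^ a`;
* `NewLevelKAt N q p c A τ σ' a k` : the provider-friendly form of `Descent.NewLevelAt`: at every
  good level `K ⊇ K₁` the provider gets models `f_K, h_{A,K}, h_{B,K}` (nonzero), the two EXACT norm
  equations at the level, `p ^ k ∣ ord_Q f_K` at every place `Q` of `F_K`, and `K`-rationality of the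
  zeros and poles of `f_K`;
* `newLevelAt_of_levelK : NewLevelKAt … → Descent.NewLevelAt …`, `newRootAt_of_levelK`.
-/
import Mathlib
import Fermat.Agent.S33.L.Descent
import Fermat.Agent.P4.FrobLevelStep
import Fermat.Agent.P3G.GammaLevelMaps

set_option autoImplicit false
set_option linter.unusedSectionVars false
set_option linter.dupNamespace false
set_option linter.style.haveILetI false

open ModularCurve AlgebraicCurve IntermediateField

noncomputable section

namespace Fermat.Agent.S33.L.NewAtLevel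

open Fermat.Agent.N4.Setting Fermat.Agent.N4.Chart Fermat.Agent.N4.S18Glue Fermat.Agent.N4.BigDVR
  Fermat.Agent.P3G.Assembly.LevelStep
  Fermat.Agent.P3G.GammaDict Fermat.Agent.P3G.GeomStep
  Fermat.Agent.P3G.Gamma Fermat.Agent.P3G.GammaAut Fermat.Agent.P3G.GammaLevelMaps
  Fermat.Agent.N4F.C Fermat.Agent.N4F.C.Levels Fermat.Agent.N4F.C.Galois
  Fermat.Agent.N4F.E.DegreeLevelRaise
  Fermat.Agent.P4.FrobStep Fermat.Agent.P4.LevelFrobStep Fermat.Agent.P4.FrobLevelStep
  Fermat.Agent.S33.New.NewStep Fermat.Agent.S33.L.Descent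

local notation "Qbar" => AlgebraicClosure ℚ
local notation "Γ" => (AlgebraicClosure ℚ ≃ₐ[ℚ] AlgebraicClosure ℚ)

/-! ### The level norms commute with Galois -/

/-- Norms commute with a pair of compatible automorphisms (as `P4.ToricAtLevel.normAlong_comm`). -/
theorem normAlong_comm_equiv {K₀ F F' : Type*} [Field K₀] [Field F] [Field F'] [Algebra K₀ F]
    [Algebra K₀ F'] (φ : F →ₐ[K₀] F') (σ : F ≃+* F) (σ' : F' ≃+* F')
    (h : ∀ x, σ' (φ x) = φ (σ x)) (y : F') :
    normAlong φ (σ' y) = σ (normAlong φ y) := by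
  letI := algebraAlong φ
  have he : RingHom.comp (algebraMap F F') (σ : F →+* F) =
      RingHom.comp (σ' : F' →+* F') (algebraMap F F') := by
    ext x
    exact (h x).symm
  have h1 := Algebra.norm_eq_of_equiv_equiv σ σ' he y
  show Algebra.norm F (σ' y) = σ (Algebra.norm F y)
  rw [h1, RingEquiv.apply_symm_apply]

section Norm

variable (K : IntermediateField ℚ Qbar) (hK : ∀ (τ : Γ) (x : Qbar), x ∈ K → τ x ∈ K)
  (N : ℕ) [NeZero N] (q : ℕ) [NeZero q]

/-- The norm along `α` commutes with the Galois action at a stable level. -/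
theorem normAlphaK_levelFF (σ : Γ) (x : FF (Lvl K) (N * q)) :
    normAlphaK K N q (levelFF K hK (N * q) σ • x) = levelFF K hK N σ • normAlphaK K N q x :=
  normAlong_comm_equiv (alphaF (Lvl K) N q) (SemilinearAut.toRingAut (levelFF K hK N σ))
    (SemilinearAut.toRingAut (levelFF K hK (N * q) σ))
    (fun y => levelFF_smul_alphaF K hK N q σ y) x

/-- The norm along `β` commutes with the Galois action at a stable level. -/
theorem normBetaK_levelFF (σ : Γ) (x : FF (Lvl K) (N * q)) :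
    normBetaK K N q (levelFF K hK (N * q) σ • x) = levelFF K hK N σ • normBetaK K N q x :=
  normAlong_comm_equiv (betaF (Lvl K) N q) (SemilinearAut.toRingAut (levelFF K hK N σ))
    (SemilinearAut.toRingAut (levelFF K hK (N * q) σ))
    (fun y => levelFF_smul_betaF K hK N q σ y) x

omit [NeZero N] [NeZero q] in
/-- a monoid homomorphism between fields respects division by elements with nonzero image -/
theorem map_div_of_ne {F₁ F₂ : Type*} [Field F₁] [Field F₂] (φ : F₁ →* F₂) (x : F₁) {y : F₁}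
    (hy : y ≠ 0) (hφy : φ y ≠ 0) : φ (x / y) = φ x / φ y := by
  rw [eq_div_iff hφy, ← map_mul, div_mul_cancel₀ _ hy]

omit [NeZero N] [NeZero q] in
/-- a monoid homomorphism between fields respects integer powers of elements with nonzero image -/
theorem map_zpow_of_ne {F₁ F₂ : Type*} [Field F₁] [Field F₂] (φ : F₁ →* F₂) {x : F₁}
    (hx : x ≠ 0) (hφx : φ x ≠ 0) (a : ℤ) : φ (x ^ a) = φ x ^ a := by
  cases a with
  | ofNat n => simp only [Int.ofNat_eq_natCast, zpow_natCast, map_pow]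
  | negSucc n =>
    rw [zpow_negSucc, zpow_negSucc, ← one_div, ← one_div,
      map_div_of_ne φ 1 (pow_ne_zero _ hx) (by rw [map_pow]; exact pow_ne_zero _ hφx), map_one,
      map_pow]

/-- **`h = σ' f / f` is new at the level, with constant `1`** (along `α`). -/
theorem normAlphaK_firstDiff (σ' : Γ) {fK : FF (Lvl K) (N * q)} {hAK : FF (Lvl K) N} {e : ℕ}
    (hf : fK ≠ 0) (hA0 : hAK ≠ 0) (h : normAlphaK K N q fK = hAK ^ e) :
    normAlphaK K N q ((levelFF K hK (N * q) σ' • fK) / fK) =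
      ((levelFF K hK N σ' • hAK) / hAK) ^ e := by
  rw [map_div_of_ne _ _ hf (by rw [h]; exact pow_ne_zero _ hA0), normAlphaK_levelFF, h, div_pow,
    smul_pow']

/-- **`h = σ' f / f` is new at the level, with constant `1`** (along `β`). -/
theorem normBetaK_firstDiff (σ' : Γ) {fK : FF (Lvl K) (N * q)} {hBK : FF (Lvl K) N} {e : ℕ}
    (hf : fK ≠ 0) (hB0 : hBK ≠ 0) (h : normBetaK K N q fK = hBK ^ e) :
    normBetaK K N q ((levelFF K hK (N * q) σ' • fK) / fK) =
      ((levelFF K hK N σ' • hBK) / hBK) ^ e := by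
  rw [map_div_of_ne _ _ hf (by rw [h]; exact pow_ne_zero _ hB0), normBetaK_levelFF, h, div_pow,
    smul_pow']

omit [NeZero q] in
/-- the first difference of a nonzero function is nonzero -/
theorem firstDiff_ne_zero (M : ℕ) [NeZero M] (σ' : Γ) {x : FF (Lvl K) M} (hx : x ≠ 0) :
    (levelFF K hK M σ' • x) / x ≠ 0 :=
  div_ne_zero ((smul_ne_zero_iff_ne _).mpr hx) hx

omit [NeZero q] in
theorem tw_pow_eq (M : ℕ) [NeZero M] (τ : Γ) (a : ℤ) (e : ℕ) (H : FF (Lvl K) M) :
    (levelFF K hK M τ • H ^ e) / (H ^ e) ^ a = ((levelFF K hK M τ • H) / H ^ a) ^ e := by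
  rw [div_pow, smul_pow', ← zpow_natCast (H ^ a), ← zpow_natCast H, ← zpow_mul, ← zpow_mul,
    mul_comm]

/-- **`k' = τ h / h ^ a` is new at the level, with constant `1`** (along `α`). -/
theorem normAlphaK_twNewK (τ σ' : Γ) (a : ℤ) {fK : FF (Lvl K) (N * q)} {hAK : FF (Lvl K) N}
    {e : ℕ} (hf : fK ≠ 0) (hA0 : hAK ≠ 0) (h : normAlphaK K N q fK = hAK ^ e) :
    normAlphaK K N q (twNewK K hK (N * q) τ σ' a fK) = (twNewK K hK N τ σ' a hAK) ^ e := by
  have h1 := normAlphaK_firstDiff K hK N q σ' hf hA0 h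
  have hh0 := firstDiff_ne_zero K hK (N * q) σ' hf
  have hH0 := firstDiff_ne_zero K hK N σ' hA0
  have hN0 : normAlphaK K N q ((levelFF K hK (N * q) σ' • fK) / fK) ≠ 0 := by
    rw [h1]; exact pow_ne_zero _ hH0
  rw [twNewK_eq, twNewK_eq,
    map_div_of_ne _ _ (zpow_ne_zero _ hh0) (by rw [map_zpow_of_ne _ hh0 hN0]; exact zpow_ne_zero _ hN0),
    map_zpow_of_ne _ hh0 hN0, normAlphaK_levelFF, h1]
  exact tw_pow_eq K hK N τ a e _

/-- **`k' = τ h / h ^ a` is new at the level, with constant `1`** (along `β`). -/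
theorem normBetaK_twNewK (τ σ' : Γ) (a : ℤ) {fK : FF (Lvl K) (N * q)} {hBK : FF (Lvl K) N}
    {e : ℕ} (hf : fK ≠ 0) (hB0 : hBK ≠ 0) (h : normBetaK K N q fK = hBK ^ e) :
    normBetaK K N q (twNewK K hK (N * q) τ σ' a fK) = (twNewK K hK N τ σ' a hBK) ^ e := by
  have h1 := normBetaK_firstDiff K hK N q σ' hf hB0 h
  have hh0 := firstDiff_ne_zero K hK (N * q) σ' hf
  have hH0 := firstDiff_ne_zero K hK N σ' hB0
  have hN0 : normBetaK K N q ((levelFF K hK (N * q) σ' • fK) / fK) ≠ 0 := by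
    rw [h1]; exact pow_ne_zero _ hH0
  rw [twNewK_eq, twNewK_eq,
    map_div_of_ne _ _ (zpow_ne_zero _ hh0) (by rw [map_zpow_of_ne _ hh0 hN0]; exact zpow_ne_zero _ hN0),
    map_zpow_of_ne _ hh0 hN0, normBetaK_levelFF, h1]
  exact tw_pow_eq K hK N τ a e _

end Norm

/-! ### The geometric input at a level, with the level forms of the hypotheses -/

/-- **(NEW-J) at good levels, provider-friendly form**: `Descent.NewLevelAt` with the level-`K`
forms of all hypotheses on `f` available to the geometric chain: nonzero models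
`f_K, h_{A,K}, h_{B,K}` with the two EXACT norm equations at the level (no constants),
`p ^ k ∣ ord_Q f_K` at every place `Q` of `F_K`, and `K`-rationality of the zeros and poles of
`f_K`. -/
def NewLevelKAt (N q : ℕ) [NeZero N] [NeZero q] (p c : ℕ) (A : ValuationSubring Qbar)
    (τ σ' : Γ) (a : ℤ) (k : ℕ) : Prop :=
  ∀ (f : Fb (N * q)) (hA hB : Fb N), f ≠ 0 →
    (∀ P : Place Qb (Fb (N * q)), ((p ^ k : ℕ) : ℤ) ∣ P.ord f) →
    normAlpha N q f = hA ^ (p ^ k) →
    normBeta N q f = hB ^ (p ^ k) →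
    ∃ K₁ : IntermediateField ℚ Qbar, FiniteDimensional ℚ K₁ ∧
      ∀ (K : IntermediateField ℚ Qbar) (hK : IsGoodLevel A q K), K₁ ≤ K →
        ∀ (fK : FF (Lvl K) (N * q)) (hAK hBK : FF (Lvl K) N),
          levK (N * q) K fK = f → levK N K hAK = hA → levK N K hBK = hB →
          fK ≠ 0 → hAK ≠ 0 → hBK ≠ 0 →
          normAlphaK K N q fK = hAK ^ (p ^ k) →
          normBetaK K N q fK = hBK ^ (p ^ k) →
          (∀ Q : Place (Lvl K) (FF (Lvl K) (N * q)), ((p ^ k : ℕ) : ℤ) ∣ Q.ord fK) →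
          (∀ Q : Place (Lvl K) (FF (Lvl K) (N * q)), Q.ord fK ≠ 0 →
            Function.Bijective (algebraMap (Lvl K) Q.ResidueField)) →
          ∃ (c' : Lvl K) (g : FF (Lvl K) (N * q)), c' ≠ 0 ∧
            twNewK K hK.stable (N * q) τ σ' a fK ^ (p ^ c) =
              algebraMap (Lvl K) (FF (Lvl K) (N * q)) c' * g ^ (p ^ k)

section Descent

variable {N q : ℕ} [NeZero N] [NeZero q]

/-- **The provider-friendly form implies `Descent.NewLevelAt`.** -/
theorem newLevelAt_of_levelK (hq : q.Prime) (hqN : ¬ q ∣ N) {p c : ℕ} (hp : p ≠ 0)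
    {A : ValuationSubring Qbar} {τ σ' : Γ} {a : ℤ} {k : ℕ}
    (h : NewLevelKAt N q p c A τ σ' a k) : NewLevelAt N q p c A τ σ' a k := by
  classical
  intro f hA' hB' hf hdiv hnA hnB
  obtain ⟨K₁, hK₁fin, hK₁⟩ := h f hA' hB' hf hdiv hnA hnB
  -- models of `h_A`, `h_B`
  obtain ⟨K₂, hK₂fin, hK₂⟩ := exists_finiteDimensional_level N {hA', hB'} ∅
  -- a number field over which the zeros and poles of `f` are rational
  haveI := Fermat.Agent.N4F.A.LevelMaps.hasPrincipalDivisors_bar (N * q)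
  obtain ⟨D, hD, -⟩ := HasPrincipalDivisors.exists_divisor (K := Qb) f hf
  obtain ⟨K₃, hK₃fin, hK₃⟩ := exists_finiteDimensional_level (N * q) ∅ D.support
  haveI := hK₁fin
  haveI := hK₂fin
  haveI := hK₃fin
  haveI : FiniteDimensional ℚ ↥(K₁ ⊔ K₂) := IntermediateField.finiteDimensional_sup K₁ K₂
  refine ⟨K₁ ⊔ K₂ ⊔ K₃, IntermediateField.finiteDimensional_sup _ K₃, fun K hK hle fK hfK => ?_⟩
  have h1 : K₁ ≤ K := (le_sup_left.trans le_sup_left).trans hle
  have h2 : K₂ ≤ K := (le_sup_right.trans le_sup_left).trans hle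
  have h3 : K₃ ≤ K := le_sup_right.trans hle
  obtain ⟨hAK, hhAK⟩ := (hK₂ K h2).1 hA' (by simp)
  obtain ⟨hBK, hhBK⟩ := (hK₂ K h2).1 hB' (by simp)
  have hfK0 : fK ≠ 0 := by
    rintro rfl
    rw [map_zero] at hfK
    exact hf hfK.symm
  have hpk : p ^ k ≠ 0 := pow_ne_zero k hp
  have hA0 : hA' ≠ 0 := by
    rintro rfl
    rw [zero_pow hpk] at hnA
    exact normAlpha_ne_zero hf hnA
  have hB0 : hB' ≠ 0 := by
    rintro rfl
    rw [zero_pow hpk] at hnB
    exact normBeta_ne_zero hf hnB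
  have hAK0 : hAK ≠ 0 := by
    rintro rfl
    rw [map_zero] at hhAK
    exact hA0 hhAK.symm
  have hBK0 : hBK ≠ 0 := by
    rintro rfl
    rw [map_zero] at hhBK
    exact hB0 hhBK.symm
  have hnα : normAlphaK K N q fK = hAK ^ (p ^ k) := by
    have := normAlphaK_eq_of_lev K N q hq hqN (fK := fK) (hAK := hAK) (cAK := 1) (e := p ^ k)
      (by rw [map_one, map_one, one_mul, hfK, hhAK]; exact hnA)
    rwa [map_one, one_mul] at this
  have hnβ : normBetaK K N q fK = hBK ^ (p ^ k) := by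
    have := normBetaK_eq_of_lev K N q hq hqN (fK := fK) (hBK := hBK) (cBK := 1) (e := p ^ k)
      (by rw [map_one, map_one, one_mul, hfK, hhBK]; exact hnB)
    rwa [map_one, one_mul] at this
  have hdivK : ∀ Q : Place (Lvl K) (FF (Lvl K) (N * q)), ((p ^ k : ℕ) : ℤ) ∣ Q.ord fK :=
    Fermat.Agent.P3G.Glue.LevelDict.dvd_ord_of_dvd_ord_bar (N * q) K fK _ (by
      rw [hfK]
      exact hdiv)
  have hratK : ∀ Q : Place (Lvl K) (FF (Lvl K) (N * q)), Q.ord fK ≠ 0 →
      Function.Bijective (algebraMap (Lvl K) Q.ResidueField) :=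
    Fermat.Agent.P3G.Glue.LevelDict.bijective_of_ord_ne_zero (N * q) K fK (fun P hP =>
      (hK₃ K h3).2 P (by
        rw [Finsupp.mem_support_iff, hD P, ← hfK]
        exact hP))
  exact hK₁ K hK h1 fK hAK hBK hfK hhAK hhBK hfK0 hAK0 hBK0 hnα hnβ hdivK hratK

/-- **(NEW-J), root form over `Q̄`, from the provider-friendly geometric input at good levels.** -/
theorem newRootAt_of_levelK (hq : q.Prime) (hqN : ¬ q ∣ N) {p c : ℕ} (hp : p ≠ 0)
    {A : ValuationSubring Qbar} (hA : A.LiesOverPrime q) {τ σ' : Γ} {a : ℤ} {k : ℕ}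
    (h : NewLevelKAt N q p c A τ σ' a k) : NewRootAt N q p c τ σ' a k :=
  newRootAt_of_level hq hA hp (newLevelAt_of_levelK hq hqN hp h)

end Descent

end Fermat.Agent.S33.L.NewAtLevel
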