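/-
S33, row 61, STEP B, (B3) abstract (helper10): **THE PING-PONG INDUCTION.**

`F ⊇ α(F'), β(F')` two embeddings of a field `F'`, multiplicative "norms" `Nα Nβ : F →* F'`,
`V₁ V₂` two valuation subrings of `F`, `ϖ` a non-unit of both.  Hypotheses:

* (NRα) `b ≡ 1 mod ϖ^m V₂`, `m ≥ 1`  ⟹  `α (Nα b) / b ≡ 1 mod ϖ^(m+1) V₁`;
* (NRβ) `b ≡ 1 mod ϖ^m V₁`, `m ≥ 1`  ⟹  `β (Nβ b) / b ≡ 1 mod ϖ^(m+1) V₂`;
* `h` is NEW: `Nα h = g' ^ e`, `Nβ h = g'' ^ e`;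
* base case: `h / g₁ ^ e ≡ 1 mod ϖ V₁`, `h / g₂ ^ e ≡ 1 mod ϖ V₂`.

Then for every `m ≥ 1` there are `g₁ g₂ ≠ 0` with `h / g_i ^ e ≡ 1 mod ϖ^m V_i` (`exists_pair`): from
`g₂` at stage `m` the new `g₁ := g₂ · α (g' / Nα g₂)` works at stage `m + 1`, and symmetrically.  No
constants occur.  With a CRT hypothesis (helper7 `L/TwoValCRT`) this gives `Skeleton.BOut`
(`bOut_of_pingpong`).
-/
import Mathlib
import Fermat.Agent.S33.L.Skeleton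

set_option autoImplicit false
set_option linter.unusedSectionVars false

namespace Fermat.Agent.S33.L.PingPongAbs

open Fermat.Agent.S33.L.Skeleton

section MonoidHom

variable {F₁ F₂ : Type*} [Field F₁] [Field F₂] (φ : F₁ →* F₂)

theorem map_ne_zero_of_ne {x : F₁} (hx : x ≠ 0) : φ x ≠ 0 := by
  intro h
  have h1 : φ x * φ x⁻¹ = 1 := by rw [← map_mul, mul_inv_cancel₀ hx, map_one]
  rw [h, zero_mul] at h1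
  exact zero_ne_one h1

theorem map_inv_of_ne {x : F₁} (hx : x ≠ 0) : φ x⁻¹ = (φ x)⁻¹ := by
  have h1 : φ x * φ x⁻¹ = 1 := by rw [← map_mul, mul_inv_cancel₀ hx, map_one]
  exact eq_inv_of_mul_eq_one_right h1

theorem map_div_of_ne' (x : F₁) {y : F₁} (hy : y ≠ 0) : φ (x / y) = φ x / φ y := by
  rw [div_eq_mul_inv, map_mul, map_inv_of_ne φ hy, div_eq_mul_inv]

end MonoidHom

variable {O F F' : Type*} [CommRing O] [Field F] [Field F'] [Algebra O F]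
  (V₁ V₂ : ValuationSubring F) (ϖ : O) (α β : F' →+* F) (Nα Nβ : F →* F') (e : ℕ)

/-- One half-step of the ping-pong: from an approximate `e`-th root `g` of `h` at `V'` to stage `m`
to an approximate `e`-th root at `V` to stage `m + 1`. -/
theorem step {V V' : ValuationSubring F} {ι : F' →+* F} {Nι : F →* F'}
    (hϖV : algebraMap O F ϖ ∈ V.nonunits)
    (hNR : ∀ m : ℕ, 1 ≤ m → ∀ b : F, b ≠ 0 → CongrMod V' ϖ m b 1 →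
      CongrMod V ϖ (m + 1) (ι (Nι b) / b) 1)
    (he : e ≠ 0) {h : F} (hh : h ≠ 0) {g' : F'} (hn : Nι h = g' ^ e)
    {m : ℕ} (hm : 1 ≤ m) {g : F} (hg : g ≠ 0) (hcong : CongrMod V' ϖ m (h / g ^ e) 1) :
    ∃ g₁ : F, g₁ ≠ 0 ∧ CongrMod V ϖ (m + 1) (h / g₁ ^ e) 1 := by
  have hge : g ^ e ≠ 0 := pow_ne_zero e hg
  have hb0 : h / g ^ e ≠ 0 := div_ne_zero hh hge
  have hg'0 : g' ≠ 0 := by
    rintro rfl
    rw [zero_pow he] at hn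
    exact map_ne_zero_of_ne Nι hh hn
  have hNg : Nι g ≠ 0 := map_ne_zero_of_ne Nι hg
  -- the norm of `b = h / g ^ e`
  have hNb : Nι (h / g ^ e) = (g' / Nι g) ^ e := by
    rw [map_div_of_ne' Nι h hge, hn, map_pow, div_pow]
  have hιNb : ι (Nι (h / g ^ e)) = (ι (g' / Nι g)) ^ e := by rw [hNb, map_pow]
  have hc0 : ι (g' / Nι g) ≠ 0 := (map_ne_zero ι).2 (div_ne_zero hg'0 hNg)
  refine ⟨g * ι (g' / Nι g), mul_ne_zero hg hc0, ?_⟩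
  -- `h / g₁ ^ e = (ι (Nι b) / b)⁻¹`
  have hkey : h / (g * ι (g' / Nι g)) ^ e = (ι (Nι (h / g ^ e)) / (h / g ^ e))⁻¹ := by
    rw [hιNb, mul_pow]
    field_simp
  obtain ⟨d, hd, hd'⟩ := hNR m hm _ hb0 hcong
  have h1 : ι (Nι (h / g ^ e)) / (h / g ^ e) = 1 + algebraMap O F ϖ ^ (m + 1) * d := by
    rw [← hd']
    ring
  obtain ⟨s', hs', hinv⟩ := exists_inv_one_add (V := V) (ϖ := ϖ) (j := m + 1) hϖV
    (Nat.succ_le_succ (Nat.zero_le m)) hd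
  refine ⟨s', hs', ?_⟩
  rw [hkey, h1, hinv]
  ring

/-- **The ping-pong**: approximate `e`-th roots of a new `h` at both valuations to every order. -/
theorem exists_pair
    (hϖ₁ : algebraMap O F ϖ ∈ V₁.nonunits) (hϖ₂ : algebraMap O F ϖ ∈ V₂.nonunits)
    (hα : ∀ m : ℕ, 1 ≤ m → ∀ b : F, b ≠ 0 → CongrMod V₂ ϖ m b 1 →
      CongrMod V₁ ϖ (m + 1) (α (Nα b) / b) 1)
    (hβ : ∀ m : ℕ, 1 ≤ m → ∀ b : F, b ≠ 0 → CongrMod V₁ ϖ m b 1 →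
      CongrMod V₂ ϖ (m + 1) (β (Nβ b) / b) 1)
    (he : e ≠ 0) {h : F} (hh : h ≠ 0)
    (hnα : ∃ g' : F', Nα h = g' ^ e) (hnβ : ∃ g'' : F', Nβ h = g'' ^ e)
    (h₁ : ∃ g₁ : F, g₁ ≠ 0 ∧ CongrMod V₁ ϖ 1 (h / g₁ ^ e) 1)
    (h₂ : ∃ g₂ : F, g₂ ≠ 0 ∧ CongrMod V₂ ϖ 1 (h / g₂ ^ e) 1) :
    ∀ m : ℕ, 1 ≤ m →
      (∃ g₁ : F, g₁ ≠ 0 ∧ CongrMod V₁ ϖ m (h / g₁ ^ e) 1) ∧
      (∃ g₂ : F, g₂ ≠ 0 ∧ CongrMod V₂ ϖ m (h / g₂ ^ e) 1) := by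
  obtain ⟨g', hg'⟩ := hnα
  obtain ⟨g'', hg''⟩ := hnβ
  intro m hm
  induction m, hm using Nat.le_induction with
  | base => exact ⟨h₁, h₂⟩
  | succ m hm ih =>
    obtain ⟨⟨g₁, hg₁, hc₁⟩, ⟨g₂, hg₂, hc₂⟩⟩ := ih
    exact ⟨step ϖ e hϖ₁ hα he hh hg' hm hg₂ hc₂, step ϖ e hϖ₂ hβ he hh hg'' hm hg₁ hc₁⟩

/-- **(B-out) from the ping-pong and the CRT gluing** (`hcrt` = helper7 `L/TwoValCRT.bOutAt_of_pair`
with its side conditions discharged). -/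
theorem bOut_of_pingpong
    (hϖ₁ : algebraMap O F ϖ ∈ V₁.nonunits) (hϖ₂ : algebraMap O F ϖ ∈ V₂.nonunits)
    (hα : ∀ m : ℕ, 1 ≤ m → ∀ b : F, b ≠ 0 → CongrMod V₂ ϖ m b 1 →
      CongrMod V₁ ϖ (m + 1) (α (Nα b) / b) 1)
    (hβ : ∀ m : ℕ, 1 ≤ m → ∀ b : F, b ≠ 0 → CongrMod V₁ ϖ m b 1 →
      CongrMod V₂ ϖ (m + 1) (β (Nβ b) / b) 1)
    (he : e ≠ 0) {h : F} (hh : h ≠ 0)
    (hnα : ∃ g' : F', Nα h = g' ^ e) (hnβ : ∃ g'' : F', Nβ h = g'' ^ e)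
    (h₁ : ∃ g₁ : F, g₁ ≠ 0 ∧ CongrMod V₁ ϖ 1 (h / g₁ ^ e) 1)
    (h₂ : ∃ g₂ : F, g₂ ≠ 0 ∧ CongrMod V₂ ϖ 1 (h / g₂ ^ e) 1)
    (hcrt : ∀ m : ℕ, 1 ≤ m → ∀ g₁ g₂ : F, g₁ ≠ 0 → g₂ ≠ 0 →
      CongrMod V₁ ϖ m (h / g₁ ^ e) 1 → CongrMod V₂ ϖ m (h / g₂ ^ e) 1 →
        ∃ G : F, BOutAt V₁ V₂ ϖ h e m G) :
    BOut V₁ V₂ ϖ h e := by
  have key : ∀ m : ℕ, 1 ≤ m → ∃ G : F, BOutAt V₁ V₂ ϖ h e m G := by
    intro m hm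
    obtain ⟨⟨g₁, hg₁, hc₁⟩, ⟨g₂, hg₂, hc₂⟩⟩ :=
      exists_pair V₁ V₂ ϖ α β Nα Nβ e hϖ₁ hϖ₂ hα hβ he hh hnα hnβ h₁ h₂ m hm
    exact hcrt m hm g₁ g₂ hg₁ hg₂ hc₁ hc₂
  intro m
  rcases Nat.eq_zero_or_pos m with rfl | hm
  · obtain ⟨G, hG0, hG1, hG2, w, hw1, hw2, hw⟩ := key 1 le_rfl
    refine ⟨G, hG0, hG1, hG2, algebraMap O F ϖ * w, ?_, ?_, ?_⟩
    · exact V₁.mul_mem _ _ (V₁.nonunits_subset hϖ₁) hw1
    · exact V₂.mul_mem _ _ (V₂.nonunits_subset hϖ₂) hw2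
    · rw [hw]
      ring
  · exact key m hm

end Fermat.Agent.S33.L.PingPongAbs
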