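/-
S33, STEP L, leaf [CRT-m] (helper7; helper8's ruling R5.3 "DIAGONALISATION"): after the ping-pong
(STEP B) has produced a PAIR `(g₁, g₂)` of `e`-th roots of `h` modulo `ϖ^m` at the two vertical
valuations `V₁`, `V₂`, pass ONCE to a single `G ∈ F` by the Chinese remainder theorem modulo `ϖ^m`
in `W = V₁ ∩ V₂`.

* `exists_sub_eq_pow_mul` : CRT modulo `ϖ^m` for two incomparable archimedean valuation subrings,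
  ARBITRARY `g₁ g₂ : F` (poles allowed): `G - g_i ∈ ϖ^m V_i`;
* `exists_sub_mem_pow` : the same in `TwoVal` vocabulary ((a) of the leaf);
* `exists_single_root_core` / `exists_single_root` ((b) of the leaf): `h - g_i^e ∈ ϖ^m V_i`,
  `v_i(h) = 1`, `1 ≤ m`, `e ≠ 0` ⟹ one `G`, `v₁ G = v₂ G = 1`, `h - G^e ∈ ϖ^m W`;
* `exists_single_root_div`, `exists_bOutAt`, `exists_bOutAt_of_div` : the variants with
  `h / G^e - 1 = ϖ^m w`, `w ∈ V₁ ∧ w ∈ V₂` (= `L/Skeleton.BOutAt`, unfolded), from pair data in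
  either the difference form or the quotient form `h / g_i^e - 1 ∈ ϖ^m V_i`;
* `forall_exists_bOutAt_of_div`, `forall_exists_bOutAt` : `L/Skeleton.BOut` (unfolded) from pair
  data for all `m ≥ 1`.
-/
import Mathlib
import Fermat.Agent.P4.TwoValApprox
import Fermat.Agent.P3G.Assembly.PowCover

set_option autoImplicit false

namespace Fermat.Agent.S33.L.TwoValCRT

open Fermat.Agent.P4.TwoValApprox Fermat.Agent.P3G.Assembly.PowCover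

universe u

section Core

variable {F : Type*} [Field F]

/-- `1 - x^M = (1 - x) c`, `c ∈ V`, for `x ∈ V`. -/
theorem exists_one_sub_pow_eq (V : ValuationSubring F) {x : F} (hx : x ∈ V) (M : ℕ) :
    ∃ c ∈ V, 1 - x ^ M = (1 - x) * c := by
  refine ⟨∑ i ∈ Finset.range M, x ^ i, sum_mem fun i _ => pow_mem hx i, ?_⟩
  have h := geom_sum_mul x M
  linear_combination h

/-- `1 - (1 - y)^M = y c`, `c ∈ V`, for `y ∈ V`. -/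
theorem exists_one_sub_one_sub_pow_eq (V : ValuationSubring F) {y : F} (hy : y ∈ V) (M : ℕ) :
    ∃ c ∈ V, 1 - (1 - y) ^ M = y * c := by
  obtain ⟨c, hc, h⟩ := exists_one_sub_pow_eq V (sub_mem V.one_mem hy) M
  refine ⟨c, hc, ?_⟩
  rw [h]
  ring

/-- **CRT modulo `ϖ^m`** for two incomparable archimedean valuation subrings; `g₁`, `g₂`
arbitrary. -/
theorem exists_sub_eq_pow_mul (V₁ V₂ : ValuationSubring F) (hA₁ : IsArch V₁) (hA₂ : IsArch V₂)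
    (h12 : ¬ V₁ ≤ V₂) (h21 : ¬ V₂ ≤ V₁) {ϖ : F} (hϖ0 : ϖ ≠ 0) (m : ℕ) (g₁ g₂ : F) :
    ∃ G : F, (∃ w ∈ V₁, G - g₁ = ϖ ^ m * w) ∧ (∃ w ∈ V₂, G - g₂ = ϖ ^ m * w) := by
  obtain ⟨e₀, he1, he2⟩ := exists_idem V₁ V₂ h12 h21
  have he1' : 1 - e₀ ∈ V₁.nonunits := by
    have : 1 - e₀ = -(e₀ - 1) := by ring
    rw [this]; exact neg_mem_nonunits V₁ he1
  have hϖm : ϖ ^ m ≠ 0 := pow_ne_zero m hϖ0
  obtain ⟨n₁, hn₁⟩ := hA₁ ((g₂ - g₁) * (ϖ ^ m)⁻¹) (1 - e₀) he1'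
  obtain ⟨n₂, hn₂⟩ := hA₂ ((g₁ - g₂) * (ϖ ^ m)⁻¹) e₀ he2
  have heV₁ : e₀ ∈ V₁ := by
    have : e₀ = (e₀ - 1) + 1 := by ring
    rw [this]; exact V₁.add_mem _ _ (mem_of_mem_nonunits V₁ he1) V₁.one_mem
  have heV₂ : e₀ ∈ V₂ := mem_of_mem_nonunits V₂ he2
  obtain ⟨c₁, hc₁, hE1⟩ := exists_one_sub_pow_eq V₁ heV₁ (max n₁ n₂)
  obtain ⟨c₂, hc₂, hE2⟩ := exists_one_sub_one_sub_pow_eq V₂ (pow_mem heV₂ (max n₁ n₂)) (max n₁ n₂)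
  refine ⟨g₂ + (1 - (1 - e₀ ^ max n₁ n₂) ^ max n₁ n₂) * (g₁ - g₂),
    ⟨(g₂ - g₁) * (ϖ ^ m)⁻¹ * (1 - e₀) ^ max n₁ n₂ * c₁ ^ max n₁ n₂, ?_, ?_⟩,
    ⟨(g₁ - g₂) * (ϖ ^ m)⁻¹ * e₀ ^ max n₁ n₂ * c₂, ?_, ?_⟩⟩
  · exact V₁.mul_mem _ _ (mem_of_mem_nonunits V₁ (hn₁ _ (le_max_left _ _))) (pow_mem hc₁ _)
  · have h1 : g₂ + (1 - (1 - e₀ ^ max n₁ n₂) ^ max n₁ n₂) * (g₁ - g₂) - g₁ =
        (g₂ - g₁) * (1 - e₀ ^ max n₁ n₂) ^ max n₁ n₂ := by ring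
    rw [h1, hE1, mul_pow]
    field_simp
  · exact V₂.mul_mem _ _ (mem_of_mem_nonunits V₂ (hn₂ _ (le_max_right _ _))) hc₂
  · have h1 : g₂ + (1 - (1 - e₀ ^ max n₁ n₂) ^ max n₁ n₂) * (g₁ - g₂) - g₂ =
        (g₁ - g₂) * (1 - (1 - e₀ ^ max n₁ n₂) ^ max n₁ n₂) := by ring
    rw [h1, hE2]
    field_simp

/-- `x^e - y^e = (x - y) c`, `c ∈ V`, for `x y ∈ V`. -/
theorem exists_pow_sub_pow_eq (V : ValuationSubring F) {x y : F} (hx : x ∈ V) (hy : y ∈ V)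
    (e : ℕ) : ∃ c ∈ V, x ^ e - y ^ e = (x - y) * c := by
  refine ⟨∑ i ∈ Finset.range e, x ^ i * y ^ (e - 1 - i),
    sum_mem fun i _ => V.mul_mem _ _ (pow_mem hx i) (pow_mem hy _), ?_⟩
  have h := (Commute.all x y).geom_sum₂_mul e
  rw [← h]
  ring

/-- a root of a unit modulo a nonunit is a unit. -/
theorem valuation_eq_one_of_pow (V : ValuationSubring F) {ϖ h g : F} (hϖ : ϖ ∈ V.nonunits)
    {e m : ℕ} (he : e ≠ 0) (hm : 1 ≤ m) (hh : V.valuation h = 1)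
    (hg : ∃ w ∈ V, h - g ^ e = ϖ ^ m * w) : V.valuation g = 1 := by
  obtain ⟨w, hw, hgw⟩ := hg
  have hlt : V.valuation (ϖ ^ m * w) < 1 := by
    have h1 : V.valuation ϖ < 1 := (V.mem_nonunits_iff).1 hϖ
    have h2 : V.valuation w ≤ 1 := (V.valuation_le_one_iff w).2 hw
    have h3 : V.valuation (ϖ ^ m) < 1 := by
      rw [map_pow]
      exact pow_lt_one₀ zero_le h1 (by omega)
    rw [map_mul]
    calc V.valuation (ϖ ^ m) * V.valuation w ≤ V.valuation (ϖ ^ m) * 1 :=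
          mul_le_mul_right h2 _
      _ < 1 := by rwa [mul_one]
  have hge : g ^ e = h - ϖ ^ m * w := by rw [← hgw]; ring
  have hve : V.valuation (g ^ e) = 1 := by
    rw [hge, sub_eq_add_neg, Valuation.map_add_eq_of_lt_left _ (by rwa [Valuation.map_neg, hh]), hh]
  rw [map_pow] at hve
  exact (pow_eq_one_iff_of_nonneg zero_le he).1 hve

/-- **(b), core form**: one `G` from the pair `(g₁, g₂)`. -/
theorem exists_single_root_core (V₁ V₂ : ValuationSubring F) (hA₁ : IsArch V₁) (hA₂ : IsArch V₂)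
    (h12 : ¬ V₁ ≤ V₂) (h21 : ¬ V₂ ≤ V₁) {ϖ : F} (hϖ0 : ϖ ≠ 0) (hϖ₁ : ϖ ∈ V₁.nonunits)
    (hϖ₂ : ϖ ∈ V₂.nonunits) {h g₁ g₂ : F} {e m : ℕ} (he : e ≠ 0) (hm : 1 ≤ m)
    (hh₁ : V₁.valuation h = 1) (hh₂ : V₂.valuation h = 1)
    (h₁ : ∃ w ∈ V₁, h - g₁ ^ e = ϖ ^ m * w) (h₂ : ∃ w ∈ V₂, h - g₂ ^ e = ϖ ^ m * w) :
    ∃ G : F, G ≠ 0 ∧ V₁.valuation G = 1 ∧ V₂.valuation G = 1 ∧
      ∃ w, w ∈ V₁ ∧ w ∈ V₂ ∧ h - G ^ e = ϖ ^ m * w := by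
  have hg₁ := valuation_eq_one_of_pow V₁ hϖ₁ he hm hh₁ h₁
  have hg₂ := valuation_eq_one_of_pow V₂ hϖ₂ he hm hh₂ h₂
  obtain ⟨G, ⟨u₁, hu₁, hGu₁⟩, ⟨u₂, hu₂, hGu₂⟩⟩ :=
    exists_sub_eq_pow_mul V₁ V₂ hA₁ hA₂ h12 h21 hϖ0 m g₁ g₂
  have hsmall : ∀ (V : ValuationSubring F), ϖ ∈ V.nonunits → ∀ u ∈ V,
      V.valuation (ϖ ^ m * u) < 1 := by
    intro V hϖ u hu
    have h1 : V.valuation ϖ < 1 := (V.mem_nonunits_iff).1 hϖ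
    have h2 : V.valuation u ≤ 1 := (V.valuation_le_one_iff u).2 hu
    have h3 : V.valuation (ϖ ^ m) < 1 := by
      rw [map_pow]
      exact pow_lt_one₀ zero_le h1 (by omega)
    rw [map_mul]
    calc V.valuation (ϖ ^ m) * V.valuation u ≤ V.valuation (ϖ ^ m) * 1 :=
          mul_le_mul_right h2 _
      _ < 1 := by rwa [mul_one]
  have hvG : ∀ (V : ValuationSubring F) (g u : F), V.valuation g = 1 →
      V.valuation (ϖ ^ m * u) < 1 → G - g = ϖ ^ m * u → V.valuation G = 1 := by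
    intro V g u hg hu hGg
    have : G = g + ϖ ^ m * u := by rw [← hGg]; ring
    rw [this, Valuation.map_add_eq_of_lt_left _ (by rwa [hg]), hg]
  have hG₁ : V₁.valuation G = 1 := hvG V₁ g₁ u₁ hg₁ (hsmall V₁ hϖ₁ u₁ hu₁) hGu₁
  have hG₂ : V₂.valuation G = 1 := hvG V₂ g₂ u₂ hg₂ (hsmall V₂ hϖ₂ u₂ hu₂) hGu₂
  have hG0 : G ≠ 0 := by
    intro h0
    rw [h0, map_zero] at hG₁
    exact zero_ne_one hG₁
  have hmem : ∀ (V : ValuationSubring F) (x : F), V.valuation x = 1 → x ∈ V := fun V x hx =>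
    (V.valuation_le_one_iff x).1 hx.le
  obtain ⟨w₁, hw₁, hhw₁⟩ := h₁
  obtain ⟨w₂, hw₂, hhw₂⟩ := h₂
  obtain ⟨c₁, hc₁, hc₁e⟩ := exists_pow_sub_pow_eq V₁ (hmem V₁ G hG₁) (hmem V₁ g₁ hg₁) e
  obtain ⟨c₂, hc₂, hc₂e⟩ := exists_pow_sub_pow_eq V₂ (hmem V₂ G hG₂) (hmem V₂ g₂ hg₂) e
  have hϖm : ϖ ^ m ≠ 0 := pow_ne_zero m hϖ0
  have e₁ : h - G ^ e = ϖ ^ m * (w₁ - u₁ * c₁) := by
    have : h - G ^ e = (h - g₁ ^ e) - (G ^ e - g₁ ^ e) := by ring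
    rw [this, hhw₁, hc₁e, hGu₁]
    ring
  have e₂ : h - G ^ e = ϖ ^ m * (w₂ - u₂ * c₂) := by
    have : h - G ^ e = (h - g₂ ^ e) - (G ^ e - g₂ ^ e) := by ring
    rw [this, hhw₂, hc₂e, hGu₂]
    ring
  refine ⟨G, hG0, hG₁, hG₂, w₁ - u₁ * c₁, sub_mem hw₁ (V₁.mul_mem _ _ hu₁ hc₁), ?_, e₁⟩
  have : w₁ - u₁ * c₁ = w₂ - u₂ * c₂ := mul_left_cancel₀ hϖm (e₁.symm.trans e₂)
  rw [this]
  exact sub_mem hw₂ (V₂.mul_mem _ _ hu₂ hc₂)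

/-- difference form ⟹ quotient form, for a unit `G`. -/
theorem div_sub_one_of_sub (V₁ V₂ : ValuationSubring F) {ϖ h G : F} {e m : ℕ} (hG0 : G ≠ 0)
    (hG₁ : V₁.valuation G = 1) (hG₂ : V₂.valuation G = 1)
    (hw : ∃ w, w ∈ V₁ ∧ w ∈ V₂ ∧ h - G ^ e = ϖ ^ m * w) :
    ∃ w, w ∈ V₁ ∧ w ∈ V₂ ∧ h / G ^ e - 1 = ϖ ^ m * w := by
  obtain ⟨w, hw₁, hw₂, hhw⟩ := hw
  have hinv : ∀ (V : ValuationSubring F), V.valuation G = 1 → (G ^ e)⁻¹ ∈ V := by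
    intro V hV
    rw [← V.valuation_le_one_iff, map_inv₀, map_pow, hV, one_pow, inv_one]
  refine ⟨w * (G ^ e)⁻¹, V₁.mul_mem _ _ hw₁ (hinv V₁ hG₁), V₂.mul_mem _ _ hw₂ (hinv V₂ hG₂), ?_⟩
  have hGe : G ^ e ≠ 0 := pow_ne_zero e hG0
  have : h / G ^ e - 1 = (h - G ^ e) * (G ^ e)⁻¹ := by field_simp
  rw [this, hhw]
  ring

/-- quotient form ⟹ difference form, for the pair data (`v(h) = 1`, `1 ≤ m`). -/
theorem sub_of_div_sub_one (V : ValuationSubring F) {ϖ h g : F} (hϖ : ϖ ∈ V.nonunits) {e m : ℕ}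
    (hm : 1 ≤ m) (hg0 : g ≠ 0) (hh : V.valuation h = 1)
    (hw : ∃ w ∈ V, h / g ^ e - 1 = ϖ ^ m * w) : ∃ w ∈ V, h - g ^ e = ϖ ^ m * w := by
  obtain ⟨w, hw, hhw⟩ := hw
  have hge : g ^ e ≠ 0 := pow_ne_zero e hg0
  have hq : h / g ^ e = 1 + ϖ ^ m * w := by rw [← hhw]; ring
  have hlt : V.valuation (ϖ ^ m * w) < 1 := by
    have h1 : V.valuation ϖ < 1 := (V.mem_nonunits_iff).1 hϖ
    have h2 : V.valuation w ≤ 1 := (V.valuation_le_one_iff w).2 hw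
    have h3 : V.valuation (ϖ ^ m) < 1 := by
      rw [map_pow]
      exact pow_lt_one₀ zero_le h1 (by omega)
    rw [map_mul]
    calc V.valuation (ϖ ^ m) * V.valuation w ≤ V.valuation (ϖ ^ m) * 1 :=
          mul_le_mul_right h2 _
      _ < 1 := by rwa [mul_one]
  have hvq : V.valuation (h / g ^ e) = 1 := by
    rw [hq, Valuation.map_one_add_of_lt _ hlt]
  have hvge : V.valuation (g ^ e) = 1 := by
    rw [map_div₀, hh] at hvq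
    have h0 : V.valuation (g ^ e) ≠ 0 := by rw [Valuation.ne_zero_iff]; exact hge
    rw [div_eq_iff h0, one_mul] at hvq
    exact hvq.symm
  refine ⟨g ^ e * w, V.mul_mem _ _ ((V.valuation_le_one_iff _).1 hvge.le) hw, ?_⟩
  have : h - g ^ e = g ^ e * (h / g ^ e - 1) := by field_simp
  rw [this, hhw]
  ring

end Core

section TwoValForm

variable {O : Type*} [CommRing O] {F : Type u} [Field F] [Algebra O F]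
  {π : O} {W : Subring F} {V₁ V₂ : ValuationSubring F}

theorem not_le_of_twoVal (hT : TwoVal π W V₁ V₂) (hne : V₁ ≠ V₂) (hA₁ : IsArch V₁) :
    ¬ V₁ ≤ V₂ :=
  not_le_of_isArch V₁ V₂ hA₁ hne (ne_top_of_mem_nonunits V₂ hT.pi_ne hT.pi_mem₂)

/-- **(a)**: CRT modulo `π^m` in `TwoVal` vocabulary. -/
theorem exists_sub_mem_pow (hT : TwoVal π W V₁ V₂) (hne : V₁ ≠ V₂) (hA₁ : IsArch V₁)
    (hA₂ : IsArch V₂) (m : ℕ) (g₁ g₂ : F) :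
    ∃ G : F, (∃ w ∈ V₁, G - g₁ = algebraMap O F π ^ m * w) ∧
      (∃ w ∈ V₂, G - g₂ = algebraMap O F π ^ m * w) :=
  exists_sub_eq_pow_mul V₁ V₂ hA₁ hA₂ (not_le_of_twoVal hT hne hA₁)
    (not_le_of_twoVal hT.symm hne.symm hA₂) hT.pi_ne m g₁ g₂

/-- **(b)**: a single `e`-th root of `h` modulo `π^m W`. -/
theorem exists_single_root (hT : TwoVal π W V₁ V₂) (hne : V₁ ≠ V₂) (hA₁ : IsArch V₁)
    (hA₂ : IsArch V₂) {h g₁ g₂ : F} {e m : ℕ} (he : e ≠ 0) (hm : 1 ≤ m)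
    (hh₁ : V₁.valuation h = 1) (hh₂ : V₂.valuation h = 1)
    (h₁ : ∃ w ∈ V₁, h - g₁ ^ e = algebraMap O F π ^ m * w)
    (h₂ : ∃ w ∈ V₂, h - g₂ ^ e = algebraMap O F π ^ m * w) :
    ∃ G : F, G ≠ 0 ∧ V₁.valuation G = 1 ∧ V₂.valuation G = 1 ∧
      ∃ w ∈ W, h - G ^ e = algebraMap O F π ^ m * w := by
  obtain ⟨G, hG0, hG₁, hG₂, w, hw₁, hw₂, hw⟩ := exists_single_root_core V₁ V₂ hA₁ hA₂
    (not_le_of_twoVal hT hne hA₁) (not_le_of_twoVal hT.symm hne.symm hA₂) hT.pi_ne hT.pi_mem₁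
    hT.pi_mem₂ he hm hh₁ hh₂ h₁ h₂
  exact ⟨G, hG0, hG₁, hG₂, w, (hT.mem_iff w).2 ⟨hw₁, hw₂⟩, hw⟩

/-- **(b), quotient variant**: `h / G^e - 1 ∈ π^m W`. -/
theorem exists_single_root_div (hT : TwoVal π W V₁ V₂) (hne : V₁ ≠ V₂) (hA₁ : IsArch V₁)
    (hA₂ : IsArch V₂) {h g₁ g₂ : F} {e m : ℕ} (he : e ≠ 0) (hm : 1 ≤ m)
    (hh₁ : V₁.valuation h = 1) (hh₂ : V₂.valuation h = 1)
    (h₁ : ∃ w ∈ V₁, h - g₁ ^ e = algebraMap O F π ^ m * w)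
    (h₂ : ∃ w ∈ V₂, h - g₂ ^ e = algebraMap O F π ^ m * w) :
    ∃ G : F, G ≠ 0 ∧ V₁.valuation G = 1 ∧ V₂.valuation G = 1 ∧
      ∃ w ∈ W, h / G ^ e - 1 = algebraMap O F π ^ m * w := by
  obtain ⟨G, hG0, hG₁, hG₂, hw⟩ := exists_single_root_core V₁ V₂ hA₁ hA₂
    (not_le_of_twoVal hT hne hA₁) (not_le_of_twoVal hT.symm hne.symm hA₂) hT.pi_ne hT.pi_mem₁
    hT.pi_mem₂ he hm hh₁ hh₂ h₁ h₂
  obtain ⟨w, hw₁, hw₂, hw⟩ := div_sub_one_of_sub V₁ V₂ hG0 hG₁ hG₂ hw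
  exact ⟨G, hG0, hG₁, hG₂, w, (hT.mem_iff w).2 ⟨hw₁, hw₂⟩, hw⟩

end TwoValForm

section BOutForm

variable {O : Type*} [CommRing O] {F : Type*} [Field F] [Algebra O F]
  {V₁ V₂ : ValuationSubring F} {ϖ : O}

/-- **`L/Skeleton.BOutAt` (unfolded) from pair data in the difference form.**  No `W` needed:
hypotheses = the two valuation rings are distinct, archimedean, and `ϖ ≠ 0` is a nonunit of
both. -/
theorem exists_bOutAt (hne : V₁ ≠ V₂) (hA₁ : IsArch V₁) (hA₂ : IsArch V₂)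
    (hϖ0 : algebraMap O F ϖ ≠ 0) (hϖ₁ : algebraMap O F ϖ ∈ V₁.nonunits)
    (hϖ₂ : algebraMap O F ϖ ∈ V₂.nonunits) {h g₁ g₂ : F} {e m : ℕ} (he : e ≠ 0) (hm : 1 ≤ m)
    (hh₁ : V₁.valuation h = 1) (hh₂ : V₂.valuation h = 1)
    (h₁ : ∃ w ∈ V₁, h - g₁ ^ e = algebraMap O F ϖ ^ m * w)
    (h₂ : ∃ w ∈ V₂, h - g₂ ^ e = algebraMap O F ϖ ^ m * w) :
    ∃ G : F, G ≠ 0 ∧ V₁.valuation G = 1 ∧ V₂.valuation G = 1 ∧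
      ∃ w, w ∈ V₁ ∧ w ∈ V₂ ∧ h / G ^ e - 1 = algebraMap O F ϖ ^ m * w := by
  obtain ⟨G, hG0, hG₁, hG₂, hw⟩ := exists_single_root_core V₁ V₂ hA₁ hA₂
    (not_le_of_isArch V₁ V₂ hA₁ hne (ne_top_of_mem_nonunits V₂ hϖ0 hϖ₂))
    (not_le_of_isArch V₂ V₁ hA₂ hne.symm (ne_top_of_mem_nonunits V₁ hϖ0 hϖ₁)) hϖ0 hϖ₁ hϖ₂
    he hm hh₁ hh₂ h₁ h₂
  exact ⟨G, hG0, hG₁, hG₂, div_sub_one_of_sub V₁ V₂ hG0 hG₁ hG₂ hw⟩

/-- **`L/Skeleton.BOutAt` (unfolded) from pair data in the quotient form**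
`h / g_i^e - 1 ∈ ϖ^m V_i` (the output shape of the ping-pong, STEP B3). -/
theorem exists_bOutAt_of_div (hne : V₁ ≠ V₂) (hA₁ : IsArch V₁) (hA₂ : IsArch V₂)
    (hϖ0 : algebraMap O F ϖ ≠ 0) (hϖ₁ : algebraMap O F ϖ ∈ V₁.nonunits)
    (hϖ₂ : algebraMap O F ϖ ∈ V₂.nonunits) {h g₁ g₂ : F} {e m : ℕ} (he : e ≠ 0) (hm : 1 ≤ m)
    (hg₁ : g₁ ≠ 0) (hg₂ : g₂ ≠ 0)
    (hh₁ : V₁.valuation h = 1) (hh₂ : V₂.valuation h = 1)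
    (h₁ : ∃ w ∈ V₁, h / g₁ ^ e - 1 = algebraMap O F ϖ ^ m * w)
    (h₂ : ∃ w ∈ V₂, h / g₂ ^ e - 1 = algebraMap O F ϖ ^ m * w) :
    ∃ G : F, G ≠ 0 ∧ V₁.valuation G = 1 ∧ V₂.valuation G = 1 ∧
      ∃ w, w ∈ V₁ ∧ w ∈ V₂ ∧ h / G ^ e - 1 = algebraMap O F ϖ ^ m * w :=
  exists_bOutAt hne hA₁ hA₂ hϖ0 hϖ₁ hϖ₂ he hm hh₁ hh₂
    (sub_of_div_sub_one V₁ hϖ₁ hm hg₁ hh₁ h₁) (sub_of_div_sub_one V₂ hϖ₂ hm hg₂ hh₂ h₂)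

/-- **`L/Skeleton.BOut V₁ V₂ ϖ h e` (unfolded)** from the ping-pong output for all `m ≥ 1`:
pairs `(g₁, g₂)` with `h / g_i^e - 1 ∈ ϖ^m V_i`. -/
theorem forall_exists_bOutAt_of_div (hne : V₁ ≠ V₂) (hA₁ : IsArch V₁) (hA₂ : IsArch V₂)
    (hϖ0 : algebraMap O F ϖ ≠ 0) (hϖ₁ : algebraMap O F ϖ ∈ V₁.nonunits)
    (hϖ₂ : algebraMap O F ϖ ∈ V₂.nonunits) {h : F} {e : ℕ} (he : e ≠ 0)
    (hh₁ : V₁.valuation h = 1) (hh₂ : V₂.valuation h = 1)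
    (hpair : ∀ m, 1 ≤ m → ∃ g₁ g₂ : F, g₁ ≠ 0 ∧ g₂ ≠ 0 ∧
      (∃ w ∈ V₁, h / g₁ ^ e - 1 = algebraMap O F ϖ ^ m * w) ∧
      (∃ w ∈ V₂, h / g₂ ^ e - 1 = algebraMap O F ϖ ^ m * w)) (m : ℕ) :
    ∃ G : F, G ≠ 0 ∧ V₁.valuation G = 1 ∧ V₂.valuation G = 1 ∧
      ∃ w, w ∈ V₁ ∧ w ∈ V₂ ∧ h / G ^ e - 1 = algebraMap O F ϖ ^ m * w := by
  obtain ⟨g₁, g₂, hg₁, hg₂, h₁, h₂⟩ := hpair (m + 1) (by omega)
  obtain ⟨G, hG0, hG₁, hG₂, w, hw₁, hw₂, hw⟩ := exists_bOutAt_of_div hne hA₁ hA₂ hϖ0 hϖ₁ hϖ₂ he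
    (by omega : 1 ≤ m + 1) hg₁ hg₂ hh₁ hh₂ h₁ h₂
  refine ⟨G, hG0, hG₁, hG₂, algebraMap O F ϖ * w, ?_, ?_, ?_⟩
  · exact V₁.mul_mem _ _ (mem_of_mem_nonunits V₁ hϖ₁) hw₁
  · exact V₂.mul_mem _ _ (mem_of_mem_nonunits V₂ hϖ₂) hw₂
  · rw [hw]; ring

/-- the same from pair data in the difference form `h - g_i^e ∈ ϖ^m V_i`. -/
theorem forall_exists_bOutAt (hne : V₁ ≠ V₂) (hA₁ : IsArch V₁) (hA₂ : IsArch V₂)
    (hϖ0 : algebraMap O F ϖ ≠ 0) (hϖ₁ : algebraMap O F ϖ ∈ V₁.nonunits)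
    (hϖ₂ : algebraMap O F ϖ ∈ V₂.nonunits) {h : F} {e : ℕ} (he : e ≠ 0)
    (hh₁ : V₁.valuation h = 1) (hh₂ : V₂.valuation h = 1)
    (hpair : ∀ m, 1 ≤ m → ∃ g₁ g₂ : F,
      (∃ w ∈ V₁, h - g₁ ^ e = algebraMap O F ϖ ^ m * w) ∧
      (∃ w ∈ V₂, h - g₂ ^ e = algebraMap O F ϖ ^ m * w)) (m : ℕ) :
    ∃ G : F, G ≠ 0 ∧ V₁.valuation G = 1 ∧ V₂.valuation G = 1 ∧
      ∃ w, w ∈ V₁ ∧ w ∈ V₂ ∧ h / G ^ e - 1 = algebraMap O F ϖ ^ m * w := by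
  obtain ⟨g₁, g₂, h₁, h₂⟩ := hpair (m + 1) (by omega)
  obtain ⟨G, hG0, hG₁, hG₂, w, hw₁, hw₂, hw⟩ := exists_bOutAt hne hA₁ hA₂ hϖ0 hϖ₁ hϖ₂ he
    (by omega : 1 ≤ m + 1) hh₁ hh₂ h₁ h₂
  refine ⟨G, hG0, hG₁, hG₂, algebraMap O F ϖ * w, ?_, ?_, ?_⟩
  · exact V₁.mul_mem _ _ (mem_of_mem_nonunits V₁ hϖ₁) hw₁
  · exact V₂.mul_mem _ _ (mem_of_mem_nonunits V₂ hϖ₂) hw₂
  · rw [hw]; ring

end BOutForm

end Fermat.Agent.S33.L.TwoValCRT
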