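/-
S33 (`moonshots` row 61), STEP B, **level instance** (helper10): the contract `Skeleton.BOut` at a
GOOD LEVEL `K`, for the two vertical valuation rings `V₁ = gaussVS`, `V₂ = S₂.V` of
`F = FF (Lvl K) (M * q)` and the first difference `h = σ'_K f / f` of a function `f` whose norms along
`α` and `β` are `e`-th powers.

Ingredients (all kernel-checked elsewhere):
* `L/PingPongAbs.exists_pair`        : the ping-pong induction;
* `New/NormResidueM.nr_alpha/nr_beta` : (NR-m) along `α`, `β` (helper18);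
* `L/BaseCase.firstDiff_gaussVS/_secondVal` : the base case (helper26);
* `L/NewAtLevel.normAlphaK_firstDiff/normBetaK_firstDiff` : newness of `h` (helper17);
* `L/TwoValCRT.forall_exists_bOutAt_of_div` : CRT modulo `ϖ ^ m` (helper7).

Exports: `nrAlpha_level`, `nrBeta_level` (the named hypotheses (NRα), (NRβ) of `PingPongAbs` at a good
level), `base_gaussVS`, `base_secondVal` (B0 in `CongrMod` quotient shape), `isArch_gaussVS`,
`isArch_secondVal`, `exists_pair_level`, the main `bOut_level`, and the provider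
`bProv : Contracts.BProv M p A k σ'` (the exact Prop `L/Main.lean` consumes).
-/
import Mathlib
import Fermat.Agent.S33.L.PingPongAbs
import Fermat.Agent.S33.L.TwoValCRT
import Fermat.Agent.S33.L.BaseCase
import Fermat.Agent.S33.L.NewAtLevel
import Fermat.Agent.S33.New.NormResidueM
import Fermat.Agent.S33.New.FirstDiffLevel
import Fermat.Agent.P3G.Glue.GoodLevel
import Fermat.Agent.P3G.SecondValBridge
import Fermat.Agent.P3G.GammaVert
import Fermat.Agent.S33.L.Contracts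

set_option autoImplicit false
set_option linter.unusedSectionVars false
set_option linter.dupNamespace false
set_option linter.style.haveILetI false
set_option linter.style.longLine false

open ModularCurve AlgebraicCurve IntermediateField

noncomputable section

namespace Fermat.Agent.S33.L.BOutGood

open Fermat.Agent.N4.Setting Fermat.Agent.N4.BigDVR
  Fermat.Agent.P3G.Assembly.LevelStep
  Fermat.Agent.P3G.Gamma Fermat.Agent.P3G.GammaAut
  Fermat.Agent.N4F.C Fermat.Agent.N4F.C.Levels Fermat.Agent.N4F.C.Galois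
  Fermat.Agent.N4F.E.GaussDVR Fermat.Agent.N4F.E.DegreeLevelRaise
  Fermat.Agent.P4.FrobLevelStep Fermat.Agent.P4.TwoValApprox
  Fermat.Agent.S33.L.Skeleton Fermat.Agent.S33.New.FirstDiffLevel Fermat.Agent.N4.FibreEmbedding
  Fermat.Agent.S28.Gauss

local notation "Qbar" => AlgebraicClosure ℚ
local notation "Γ" => (AlgebraicClosure ℚ ≃ₐ[ℚ] AlgebraicClosure ℚ)

variable (M q : ℕ) [NeZero M] [Fact q.Prime] (hqM : ¬ q ∣ M)
  (A : ValuationSubring Qbar) (hA : A.LiesOverPrime q)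
  (K : IntermediateField ℚ Qbar) (hK : IsGoodLevel A q K)
  [IsDiscreteValuationRing ↥(baseRing A K)] [IsFractionRing ↥(baseRing A K) (Lvl K)]
  (S₂ : Fermat.Agent.P3G.FibreTwo.SecondVal (Lvl K) M q (baseRing A K))
  (ϖ : ↥(baseRing A K)) (hϖ : Irreducible ϖ)

/-! ### (NRα), (NRβ) at a good level, in the shape of `L/PingPongAbs` -/

include hqM hA hK hϖ in
/-- **(NRα) at a good level**: `b ≡ 1 (mod ϖ ^ m V₂)`, `m ≥ 1` ⟹
`α (N_α b) / b ≡ 1 (mod ϖ ^ (m + 1) V₁)`. -/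
theorem nrAlpha_level (m : ℕ) (hm : 1 ≤ m) (b : FF (Lvl K) (M * q)) (hb : b ≠ 0)
    (hcong : CongrMod S₂.V ϖ m b 1) :
    CongrMod (gaussVS (Lvl K) (M * q) (baseRing A K)) ϖ (m + 1)
      ((alphaF (Lvl K) M q : FF (Lvl K) M →+* FF (Lvl K) (M * q)) (normAlphaK K M q b) / b) 1 := by
  have hq : q.Prime := Fact.out
  haveI := Fermat.Agent.P3G.Glue.GoodLevel.charP hq hK
  obtain ⟨w, hw, hbw⟩ := hcong
  obtain ⟨z, hz, hEq⟩ := Fermat.Agent.S33.New.NormResidueM.nr_alpha (Lvl K) M q (baseRing A K)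
    (Fermat.Agent.P3G.SecondValBridge.ofTwo S₂) (Fermat.Agent.P3G.Glue.GoodLevel.iota K) hqM
    (Fermat.Agent.P3G.Glue.GoodLevel.hA2 hq hA hK M hqM) hϖ hm hb ⟨w, hw, hbw⟩
  refine ⟨z, hz, ?_⟩
  have h1 : (alphaF (Lvl K) M q : FF (Lvl K) M →+* FF (Lvl K) (M * q)) (normAlphaK K M q b) =
      b * (1 + algebraMap (Lvl K) (FF (Lvl K) (M * q)) (ϖ : Lvl K) ^ (m + 1) * z) := hEq
  rw [h1, mul_div_right_comm, div_self hb, one_mul, add_sub_cancel_left]
  rfl

include hqM hA hK hϖ in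
/-- **(NRβ) at a good level**: `b ≡ 1 (mod ϖ ^ m V₁)`, `m ≥ 1` ⟹
`β (N_β b) / b ≡ 1 (mod ϖ ^ (m + 1) V₂)`. -/
theorem nrBeta_level (m : ℕ) (hm : 1 ≤ m) (b : FF (Lvl K) (M * q)) (hb : b ≠ 0)
    (hcong : CongrMod (gaussVS (Lvl K) (M * q) (baseRing A K)) ϖ m b 1) :
    CongrMod S₂.V ϖ (m + 1)
      ((betaF (Lvl K) M q : FF (Lvl K) M →+* FF (Lvl K) (M * q)) (normBetaK K M q b) / b) 1 := by
  have hq : q.Prime := Fact.out
  haveI := Fermat.Agent.P3G.Glue.GoodLevel.charP hq hK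
  obtain ⟨w, hw, hbw⟩ := hcong
  obtain ⟨z, hz, hEq⟩ := Fermat.Agent.S33.New.NormResidueM.nr_beta (Lvl K) M q (baseRing A K)
    (Fermat.Agent.P3G.SecondValBridge.ofTwo S₂) (Fermat.Agent.P3G.Glue.GoodLevel.iota K) hqM
    (Fermat.Agent.P3G.Glue.GoodLevel.hA2 hq hA hK M hqM) hϖ
    (fun b hb => Fermat.Agent.P3G.GammaV2.exists_zpow_valuation_secondVal K M q S₂ hqM hϖ hb)
    hm hb ⟨w, hw, hbw⟩
  refine ⟨z, hz, ?_⟩
  have h1 : (betaF (Lvl K) M q : FF (Lvl K) M →+* FF (Lvl K) (M * q)) (normBetaK K M q b) =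
      b * (1 + algebraMap (Lvl K) (FF (Lvl K) (M * q)) (ϖ : Lvl K) ^ (m + 1) * z) := hEq
  rw [h1, mul_div_right_comm, div_self hb, one_mul, add_sub_cancel_left]
  rfl


/-! ### The base case in quotient shape -/

/-- from `h - a = ϖ w` (`a` a unit of `V` with `a⁻¹ ∈ V`) to `h / a - 1 = ϖ ^ 1 (w a⁻¹)`. -/
theorem congrMod_div_of_sub {F : Type*} [Field F] {O : Type*} [CommRing O] [Algebra O F]
    (V : ValuationSubring F) (π : O) {h a w : F} (ha0 : a ≠ 0) (hainv : a⁻¹ ∈ V) (hw : w ∈ V)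
    (heq : h - a = algebraMap O F π * w) : CongrMod V π 1 (h / a) 1 := by
  refine ⟨w * a⁻¹, V.mul_mem _ _ hw hainv, ?_⟩
  rw [pow_one, ← mul_assoc, ← heq, sub_mul, mul_inv_cancel₀ ha0, div_eq_mul_inv]

include hK hϖ in
/-- **B0 at `V₁ = gaussVS`**, quotient shape: `h / g₁ ^ e ≡ 1 (mod ϖ V₁)` with `g₁` the image of a
unit of `O_K`. -/
theorem base_gaussVS {σ : Γ} (hσ : σ ∈ A.inertiaSubgroupIn ℚ) {e : ℕ} (he : e ≠ 0)
    {f : FF (Lvl K) (M * q)} (hf : f ≠ 0) :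
    ∃ g₁ : FF (Lvl K) (M * q), g₁ ≠ 0 ∧
      CongrMod (gaussVS (Lvl K) (M * q) (baseRing A K)) ϖ 1
        (fdK K hK.stable (M * q) σ f / g₁ ^ e) 1 := by
  haveI : IsAlgClosed (IsLocalRing.ResidueField ↥(baseRing A K)) := hK.algClosed
  obtain ⟨d, w, hw, heq⟩ := Fermat.Agent.S33.L.BaseCase.firstDiff_gaussVS K hK.stable (A := A)
    (M * q) hσ hϖ he hf
  have hinj := Fermat.Agent.S33.L.BaseCase.algebraMap_base_injective K (A := A) (M * q)
  have hd0 : algebraMap ↥(baseRing A K) (FF (Lvl K) (M * q)) (d : ↥(baseRing A K)) ≠ 0 := by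
    rw [Ne, map_eq_zero_iff _ hinj]
    exact d.ne_zero
  refine ⟨algebraMap ↥(baseRing A K) (FF (Lvl K) (M * q)) (d : ↥(baseRing A K)), hd0, ?_⟩
  refine congrMod_div_of_sub _ ϖ (pow_ne_zero e hd0) ?_ hw (by rw [← map_pow]; exact heq)
  have h1 : (algebraMap ↥(baseRing A K) (FF (Lvl K) (M * q)) (d : ↥(baseRing A K)) ^ e)⁻¹ =
      algebraMap ↥(baseRing A K) (FF (Lvl K) (M * q)) (((d⁻¹ : (↥(baseRing A K))ˣ) :
        ↥(baseRing A K)) ^ e) := by
    rw [map_pow, ← inv_pow]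
    congr 1
    apply inv_eq_of_mul_eq_one_right
    rw [← map_mul, ← Units.val_mul, mul_inv_cancel, Units.val_one, map_one]
  rw [h1]
  exact (gaussSubalgebra (Lvl K) (M * q) (baseRing A K)).algebraMap_mem _

include hqM hK hϖ in
/-- **B0 at `V₂ = S₂.V`**, quotient shape. -/
theorem base_secondVal {σ : Γ} (hσ : σ ∈ A.inertiaSubgroupIn ℚ) {e : ℕ} (he : e ≠ 0)
    {f : FF (Lvl K) (M * q)} (hf : f ≠ 0) :
    ∃ g₂ : FF (Lvl K) (M * q), g₂ ≠ 0 ∧
      CongrMod S₂.V ϖ 1 (fdK K hK.stable (M * q) σ f / g₂ ^ e) 1 := by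
  haveI : IsAlgClosed (IsLocalRing.ResidueField ↥(baseRing A K)) := hK.algClosed
  obtain ⟨d, w, hw, heq⟩ := Fermat.Agent.S33.L.BaseCase.firstDiff_secondVal K hK.stable (A := A)
    M q S₂ hqM hσ hϖ he hf
  have hinj := Fermat.Agent.S33.L.BaseCase.algebraMap_base_injective K (A := A) (M * q)
  have hd0 : algebraMap ↥(baseRing A K) (FF (Lvl K) (M * q)) (d : ↥(baseRing A K)) ≠ 0 := by
    rw [Ne, map_eq_zero_iff _ hinj]
    exact d.ne_zero
  refine ⟨algebraMap ↥(baseRing A K) (FF (Lvl K) (M * q)) (d : ↥(baseRing A K)), hd0, ?_⟩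
  refine congrMod_div_of_sub _ ϖ (pow_ne_zero e hd0) ?_ hw (by rw [← map_pow]; exact heq)
  have h1 : (algebraMap ↥(baseRing A K) (FF (Lvl K) (M * q)) (d : ↥(baseRing A K)) ^ e)⁻¹ =
      algebraMap ↥(baseRing A K) (FF (Lvl K) (M * q)) (((d⁻¹ : (↥(baseRing A K))ˣ) :
        ↥(baseRing A K)) ^ e) := by
    rw [map_pow, ← inv_pow]
    congr 1
    apply inv_eq_of_mul_eq_one_right
    rw [← map_mul, ← Units.val_mul, mul_inv_cancel, Units.val_one, map_one]
  rw [h1]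
  exact Fermat.Agent.P3G.GammaVert.algebraMap_mem_secondVal K M q A S₂ _

/-! ### Archimedean property of the two vertical valuation rings -/

/-- `V₁ = gaussVS` is archimedean (it is a discrete valuation ring). -/
theorem isArch_gaussVS : IsArch (gaussVS (Lvl K) (M * q) (baseRing A K)) := by
  haveI : IsDiscreteValuationRing ↥(gaussVS (Lvl K) (M * q) (baseRing A K)) :=
    isDiscreteValuationRing_gauss (Lvl K) (M * q) (baseRing A K)
  exact isArch_of_dvr _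

include hqM hϖ in
/-- `V₂ = S₂.V` is archimedean (its value group is generated by `v₂(ϖ)`). -/
theorem isArch_secondVal : IsArch S₂.V :=
  isArch_of_disc S₂.V (Fermat.Agent.P3G.GammaV2.algebraMap_unif_ne_zero K M q hϖ)
    (Fermat.Agent.P3G.GammaV2.unif_mem_nonunits_secondVal K M q S₂ hϖ)
    (fun _ hb => Fermat.Agent.P3G.GammaV2.exists_zpow_valuation_secondVal K M q S₂ hqM hϖ hb)

/-! ### The ping-pong and (B-out) at a good level -/

include hqM hA hK hϖ in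
/-- **The ping-pong at a good level**: if the norms of `f` along `α` and `β` are `e`-th powers, then
for every `m ≥ 1` the first difference `h = σ_K f / f` is an `e`-th power modulo `ϖ ^ m` at both
vertical valuations. -/
theorem exists_pair_level {σ : Γ} (hσ : σ ∈ A.inertiaSubgroupIn ℚ) {e : ℕ} (he : e ≠ 0)
    {f : FF (Lvl K) (M * q)} {hAK hBK : FF (Lvl K) M} (hf : f ≠ 0) (hA0 : hAK ≠ 0) (hB0 : hBK ≠ 0)
    (hnα : normAlphaK K M q f = hAK ^ e) (hnβ : normBetaK K M q f = hBK ^ e) (m : ℕ) (hm : 1 ≤ m) :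
    (∃ g₁ : FF (Lvl K) (M * q), g₁ ≠ 0 ∧
      CongrMod (gaussVS (Lvl K) (M * q) (baseRing A K)) ϖ m
        (fdK K hK.stable (M * q) σ f / g₁ ^ e) 1) ∧
    (∃ g₂ : FF (Lvl K) (M * q), g₂ ≠ 0 ∧
      CongrMod S₂.V ϖ m (fdK K hK.stable (M * q) σ f / g₂ ^ e) 1) := by
  have hq : q.Prime := Fact.out
  haveI : NeZero q := ⟨hq.ne_zero⟩
  exact Fermat.Agent.S33.L.PingPongAbs.exists_pair
    (gaussVS (Lvl K) (M * q) (baseRing A K)) S₂.V ϖ
    (alphaF (Lvl K) M q : FF (Lvl K) M →+* FF (Lvl K) (M * q))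
    (betaF (Lvl K) M q : FF (Lvl K) M →+* FF (Lvl K) (M * q))
    (normAlphaK K M q) (normBetaK K M q) e
    (Fermat.Agent.P3G.GammaVert.unif_mem_nonunits_gaussVS K A (M * q) hϖ)
    (Fermat.Agent.P3G.GammaV2.unif_mem_nonunits_secondVal K M q S₂ hϖ)
    (nrAlpha_level M q hqM A hA K hK S₂ ϖ hϖ) (nrBeta_level M q hqM A hA K hK S₂ ϖ hϖ) he
    (fdK_ne_zero K hK.stable (M * q) σ hf)
    ⟨_, Fermat.Agent.S33.L.NewAtLevel.normAlphaK_firstDiff K hK.stable M q σ hf hA0 hnα⟩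
    ⟨_, Fermat.Agent.S33.L.NewAtLevel.normBetaK_firstDiff K hK.stable M q σ hf hB0 hnβ⟩
    (base_gaussVS M q A K hK ϖ hϖ hσ he hf) (base_secondVal M q hqM A K hK S₂ ϖ hϖ hσ he hf) m hm

include hqM hA hK hϖ in
/-- **(B-out) at a good level** = the contract `L/Skeleton.BOut` for `V₁ = gaussVS`, `V₂ = S₂.V`,
`h = σ_K f / f`: for every `m` a single `G ≠ 0`, unit at both vertical valuations, with
`h / G ^ e ≡ 1` modulo `ϖ ^ m (V₁ ∩ V₂)`. -/
theorem bOut_level {σ : Γ} (hσ : σ ∈ A.inertiaSubgroupIn ℚ) {e : ℕ} (he : e ≠ 0)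
    {f : FF (Lvl K) (M * q)} {hAK hBK : FF (Lvl K) M} (hf : f ≠ 0) (hA0 : hAK ≠ 0) (hB0 : hBK ≠ 0)
    (hnα : normAlphaK K M q f = hAK ^ e) (hnβ : normBetaK K M q f = hBK ^ e) :
    BOut (gaussVS (Lvl K) (M * q) (baseRing A K)) S₂.V ϖ (fdK K hK.stable (M * q) σ f) e := by
  intro m
  have hdec := mem_decompositionSubgroup_of_mem_inertia hσ
  have hv₁ : (gaussVS (Lvl K) (M * q) (baseRing A K)).valuation (fdK K hK.stable (M * q) σ f) = 1 := by
    rw [fdK_eq_fd]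
    exact Fermat.Agent.S33.New.FirstDiff.valuation_fd _
      (Fermat.Agent.P3G.GammaGauss.valuation_levelFF_gaussVS K hK.stable (M * q) hdec) hf
  have hv₂ : S₂.V.valuation (fdK K hK.stable (M * q) σ f) = 1 := by
    rw [fdK_eq_fd]
    exact Fermat.Agent.S33.New.FirstDiff.valuation_fd _
      (Fermat.Agent.P3G.GammaV2.valuation_levelFF_secondVal K hK.stable M q S₂ hqM hdec) hf
  exact Fermat.Agent.S33.L.TwoValCRT.forall_exists_bOutAt_of_div
    (fun h => S₂.ne_gauss h.symm) (isArch_gaussVS M q A K) (isArch_secondVal M q hqM A K S₂ ϖ hϖ)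
    (Fermat.Agent.P3G.GammaV2.algebraMap_unif_ne_zero K M q hϖ)
    (Fermat.Agent.P3G.GammaVert.unif_mem_nonunits_gaussVS K A (M * q) hϖ)
    (Fermat.Agent.P3G.GammaV2.unif_mem_nonunits_secondVal K M q S₂ hϖ) he hv₁ hv₂
    (fun m hm => by
      obtain ⟨⟨g₁, hg₁, h₁⟩, ⟨g₂, hg₂, h₂⟩⟩ :=
        exists_pair_level M q hqM A hA K hK S₂ ϖ hϖ hσ he hf hA0 hB0 hnα hnβ m hm
      exact ⟨g₁, g₂, hg₁, hg₂, h₁, h₂⟩) m

/-! ### The provider of `L/Contracts` -/

/-- **STEP B provider**: `Contracts.BProv M p A k σ'` for every `σ'` in the inertia group of `A`. -/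
theorem bProv (M p : ℕ) [NeZero M] [Fact p.Prime] (hpM : ¬ p ∣ M)
    (A : ValuationSubring Qbar) (hA : A.LiesOverPrime p) (k : ℕ) {σ' : Γ}
    (hσ' : σ' ∈ A.inertiaSubgroupIn ℚ) : Fermat.Agent.S33.L.Contracts.BProv M p A k σ' := by
  intro K hK _ S₂ ϖ hϖ fK hAK hBK hf hA0 hB0 hnα hnβ
  exact bOut_level M p hpM A hA K hK S₂ ϖ hϖ hσ' (pow_ne_zero k (Fact.out : p.Prime).ne_zero)
    hf hA0 hB0 hnα hnβ

end Fermat.Agent.S33.L.BOutGood
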