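/-
S33, `moonshots` row 61, STEP L (helper12): **THE PROVIDER CONTRACTS AT A GOOD LEVEL.**

`L/Skeleton.lean` states the chain (B-out) → (LG) → (K-out) → (T-out) → (G-out) in an abstract setting.
This file fixes the CONCRETE setting of a good level `K` (for the place `A ∣ p`) at level `M p`, `p ∤ M`:

* `O = baseRing A K`, constant field `Lvl K`, `F = FF (Lvl K) (M p)`;
* the two charts `chartAlg O F {jF}` and `chartAlg O F {jF⁻¹}` (global instances `IsFractionRing`,
  `IsNoetherianRing`, `IsIntegrallyClosed` below, so that the contracts can be STATED);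
* the vertical valuation rings `V₁ = gaussVS (Lvl K) (M p) O`, `V₂ = S₂.V` (`S₂ : SecondVal (Lvl K) M p O`,
  as in helper6's `L/PointsUniform.levelData_of_secondVal`);
* `h = fdK K hK.stable (M p) σ' f_K = σ'_K f_K / f_K`, `e = p ^ k`.

Contracts (each is what ONE provider proves; `L/Main.lean` composes them):

* `KOutLevel`, `GOutLevel` : (K-out) at every closed point of both special fibres / (G-out) for every
  divisor with finite support, for given `V₁ V₂ ϖ`;
* `BProv` (STEP B, helper18), `KProv` (STEP K, helper14 + helper19), `GProv` (STEP G, helper23 + helper6):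
  the three statements at EVERY good level, every `S₂`, every uniformiser.
-/
import Mathlib
import Fermat.Agent.S33.L.Skeleton
import Fermat.Agent.S33.New.FirstDiffLevel
import Fermat.Agent.P3G.FibreTwo
import Fermat.Agent.P4.FrobLevelStep
import Fermat.Agent.N4F.C.ChartDataLevel

set_option autoImplicit false
set_option linter.unusedSectionVars false
set_option linter.dupNamespace false
set_option linter.style.haveILetI false

open ModularCurve AlgebraicCurve IntermediateField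

noncomputable section

namespace Fermat.Agent.S33.L.Contracts

open Fermat.Agent.N4.Setting Fermat.Agent.N4.Chart Fermat.Agent.N4.S18Glue Fermat.Agent.N4.BigDVR
  Fermat.Agent.P3G.Assembly.LevelStep
  Fermat.Agent.P3G.Gamma Fermat.Agent.P3G.GammaAut
  Fermat.Agent.N4F.C Fermat.Agent.N4F.C.Levels Fermat.Agent.N4F.C.Galois
  Fermat.Agent.N4F.E.GaussDVR
  Fermat.Agent.P4.FrobLevelStep
  Fermat.Agent.S33.New.FirstDiffLevel Fermat.Agent.S33.L.Skeleton

local notation "Qbar" => AlgebraicClosure ℚ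
local notation "Γ" => (AlgebraicClosure ℚ ≃ₐ[ℚ] AlgebraicClosure ℚ)

/-! ### Instances for the two charts of a level -/

section Instances

variable (A : ValuationSubring Qbar) (K : IntermediateField ℚ Qbar) (N : ℕ) [NeZero N]

instance isFractionRing_base : IsFractionRing ↥(baseRing A K) (Lvl K) := isFractionRing_trSubring A K

instance finiteDimensional_adjoin_jF :
    FiniteDimensional (IntermediateField.adjoin (Lvl K) {jF (Lvl K) N}) (FF (Lvl K) N) :=
  Fermat.Agent.N4.ModPolySetting.finiteDimensional_FF (Lvl K) N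

instance finiteDimensional_adjoin_jF_inv :
    FiniteDimensional (IntermediateField.adjoin (Lvl K) {(jF (Lvl K) N)⁻¹}) (FF (Lvl K) N) := by
  rw [Fermat.Agent.N4.Cover.Main.adjoin_inv_eq]
  infer_instance

instance isFractionRing_chartFin :
    IsFractionRing (chartAlg ↥(baseRing A K) (FF (Lvl K) N) {jF (Lvl K) N}) (FF (Lvl K) N) :=
  Fermat.Agent.N4.Cover.Main.isFractionRing_chartAlg (O := ↥(baseRing A K)) (K₀ := Lvl K)
    (jF (Lvl K) N) (Fermat.Agent.N4.FFAlgebraic.transcendental_jF (Lvl K) N)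

instance isFractionRing_chartInf :
    IsFractionRing (chartAlg ↥(baseRing A K) (FF (Lvl K) N) {(jF (Lvl K) N)⁻¹}) (FF (Lvl K) N) :=
  Fermat.Agent.N4.Cover.Main.isFractionRing_chartAlg (O := ↥(baseRing A K)) (K₀ := Lvl K)
    (jF (Lvl K) N)⁻¹ (Fermat.Agent.N4.FFAlgebraic.transcendental_jF_inv (Lvl K) N)

instance isIntegrallyClosed_chartFin :
    IsIntegrallyClosed (chartAlg ↥(baseRing A K) (FF (Lvl K) N) {jF (Lvl K) N}) :=
  Fermat.Agent.N4.Cover.Main.isIntegrallyClosed_chartAlg (O := ↥(baseRing A K)) (K₀ := Lvl K)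
    (jF (Lvl K) N) (Fermat.Agent.N4.FFAlgebraic.transcendental_jF (Lvl K) N)

instance isIntegrallyClosed_chartInf :
    IsIntegrallyClosed (chartAlg ↥(baseRing A K) (FF (Lvl K) N) {(jF (Lvl K) N)⁻¹}) :=
  Fermat.Agent.N4.Cover.Main.isIntegrallyClosed_chartAlg (O := ↥(baseRing A K)) (K₀ := Lvl K)
    (jF (Lvl K) N)⁻¹ (Fermat.Agent.N4.FFAlgebraic.transcendental_jF_inv (Lvl K) N)

instance isNoetherianRing_chartFin [IsDiscreteValuationRing ↥(baseRing A K)] :
    IsNoetherianRing (chartAlg ↥(baseRing A K) (FF (Lvl K) N) {jF (Lvl K) N}) :=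
  Fermat.Agent.N4.IntClosure.isNoetherianRing_chartAlg (K := Lvl K) (jF (Lvl K) N)
    (Fermat.Agent.N4.FFAlgebraic.transcendental_jF (Lvl K) N)

instance isNoetherianRing_chartInf [IsDiscreteValuationRing ↥(baseRing A K)] :
    IsNoetherianRing (chartAlg ↥(baseRing A K) (FF (Lvl K) N) {(jF (Lvl K) N)⁻¹}) :=
  Fermat.Agent.N4.IntClosure.isNoetherianRing_chartAlg (K := Lvl K) (jF (Lvl K) N)⁻¹
    (Fermat.Agent.N4.FFAlgebraic.transcendental_jF_inv (Lvl K) N)

end Instances

/-! ### The contracts at one level, for given vertical data -/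

section Level

variable (A : ValuationSubring Qbar) (K : IntermediateField ℚ Qbar) (N : ℕ) [NeZero N]

/-- **(K-out) at a level**: `Skeleton.KOutAt` with the SAME loss `k₀` at every closed point of the
special fibres of both charts. -/
def KOutLevel (V₁ V₂ : ValuationSubring (FF (Lvl K) N)) (ϖ : ↥(baseRing A K)) (e k₀ : ℕ) : Prop :=
  (∀ 𝔫 : Ideal (chartAlg ↥(baseRing A K) (FF (Lvl K) N) {jF (Lvl K) N}), 𝔫.IsMaximal →
    algebraMap ↥(baseRing A K) (chartAlg ↥(baseRing A K) (FF (Lvl K) N) {jF (Lvl K) N}) ϖ ∈ 𝔫 →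
    KOutAt (Lvl K) 𝔫 V₁ V₂ ϖ e k₀) ∧
  (∀ 𝔫 : Ideal (chartAlg ↥(baseRing A K) (FF (Lvl K) N) {(jF (Lvl K) N)⁻¹}), 𝔫.IsMaximal →
    algebraMap ↥(baseRing A K) (chartAlg ↥(baseRing A K) (FF (Lvl K) N) {(jF (Lvl K) N)⁻¹}) ϖ ∈ 𝔫 →
    KOutAt (Lvl K) 𝔫 V₁ V₂ ϖ e k₀)

omit [NeZero N] in
/-- (K-out) is monotone in the loss. -/
theorem kOutAt_mono {O K₀ F R : Type*} [CommRing O] [Field K₀] [Field F] [Algebra K₀ F] [Algebra O F]
    [CommRing R] [IsDomain R] [Algebra R F] [IsFractionRing R F] [Algebra O R]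
    {𝔫 : Ideal R} {V₁ V₂ : ValuationSubring F} {ϖ : O} {e k₀ k₁ : ℕ} (hk : k₀ ≤ k₁)
    (h : KOutAt K₀ 𝔫 V₁ V₂ ϖ e k₀) : KOutAt K₀ 𝔫 V₁ V₂ ϖ e k₁ :=
  fun r u hr hu m j hm h₁ h₂ => h r u hr hu m j (by omega) h₁ h₂

variable {A K N} in
/-- (K-out) at a level is monotone in the loss. -/
theorem KOutLevel.mono {V₁ V₂ : ValuationSubring (FF (Lvl K) N)} {ϖ : ↥(baseRing A K)} {e k₀ k₁ : ℕ}
    (hk : k₀ ≤ k₁) (h : KOutLevel A K N V₁ V₂ ϖ e k₀) : KOutLevel A K N V₁ V₂ ϖ e k₁ :=
  ⟨fun 𝔫 h𝔫 hϖ => kOutAt_mono hk (h.1 𝔫 h𝔫 hϖ), fun 𝔫 h𝔫 hϖ => kOutAt_mono hk (h.2 𝔫 h𝔫 hϖ)⟩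

/-- **(G-out) at a level**: `Skeleton.GOut` on the two charts, for every divisor with finite
support. -/
def GOutLevel (V₁ V₂ : ValuationSubring (FF (Lvl K) N)) (ϖ : ↥(baseRing A K)) : Prop :=
  ∀ Ez : Place (Lvl K) (FF (Lvl K) N) → ℤ, (Function.support Ez).Finite →
    GOut (Lvl K) (chartAlg ↥(baseRing A K) (FF (Lvl K) N) {jF (Lvl K) N})
      (chartAlg ↥(baseRing A K) (FF (Lvl K) N) {(jF (Lvl K) N)⁻¹}) V₁ V₂ ϖ Ez

end Level

/-! ### The three providers -/

section Providers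

variable (M p : ℕ) [NeZero M] [Fact p.Prime] (A : ValuationSubring Qbar)

/-- **STEP B (helper18)**: at every good level, for a function `f_K ≠ 0` whose two level norms are
exact `p ^ k`-th powers, the first difference `h = σ'_K f_K / f_K` is, for every `m`, a `p ^ k`-th
power of a unit of `V₁ V₂` modulo `ϖ ^ m (V₁ ∩ V₂)`. -/
def BProv (k : ℕ) (σ' : Γ) : Prop :=
  ∀ (K : IntermediateField ℚ Qbar) (hK : IsGoodLevel A p K)
    [IsDiscreteValuationRing ↥(baseRing A K)]
    (S₂ : Fermat.Agent.P3G.FibreTwo.SecondVal (Lvl K) M p (baseRing A K))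
    (ϖ : ↥(baseRing A K)), Irreducible ϖ →
    ∀ (fK : FF (Lvl K) (M * p)) (hAK hBK : FF (Lvl K) M), fK ≠ 0 → hAK ≠ 0 → hBK ≠ 0 →
      normAlphaK K M p fK = hAK ^ (p ^ k) → normBetaK K M p fK = hBK ^ (p ^ k) →
      BOut (gaussVS (Lvl K) (M * p) (baseRing A K)) S₂.V ϖ
        (fdK K hK.stable (M * p) σ' fK) (p ^ k)

/-- **STEP K (helper14 on one branch, helper19 at the nodes)**: at every good level containing a
primitive `p ^ k`-th root of unity there is a loss `k₀` with (K-out) at every closed point of the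
special fibres of both charts. -/
def KProv (k : ℕ) : Prop :=
  ∀ (K : IntermediateField ℚ Qbar) (_ : IsGoodLevel A p K)
    [IsDiscreteValuationRing ↥(baseRing A K)]
    (S₂ : Fermat.Agent.P3G.FibreTwo.SecondVal (Lvl K) M p (baseRing A K))
    (ϖ : ↥(baseRing A K)), Irreducible ϖ →
    (∃ z : ↥(baseRing A K), IsPrimitiveRoot z (p ^ k)) →
    ∃ k₀ : ℕ, KOutLevel A K (M * p) (gaussVS (Lvl K) (M * p) (baseRing A K)) S₂.V ϖ (p ^ k) k₀

/-- **STEP G (helper23, helper6)**: at every good level, (G-out) for every divisor with finite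
support. -/
def GProv : Prop :=
  ∀ (K : IntermediateField ℚ Qbar) (_ : IsGoodLevel A p K)
    [IsDiscreteValuationRing ↥(baseRing A K)]
    (S₂ : Fermat.Agent.P3G.FibreTwo.SecondVal (Lvl K) M p (baseRing A K))
    (ϖ : ↥(baseRing A K)), Irreducible ϖ →
    GOutLevel A K (M * p) (gaussVS (Lvl K) (M * p) (baseRing A K)) S₂.V ϖ

end Providers

end Fermat.Agent.S33.L.Contracts
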