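/-
S33, row 61, STEP L, slice L-CYCLO (helper29): **the cyclotomic constants at a level containing `ζ_p`
and the group `Ξ` of ambiguities of STEP K.**

Abstract part (Mathlib + `New/KummerLoc`):

* `exists_cyclo_const` : `O` a discrete valuation ring in which the prime `p` is not a unit, `ϖ` a
  uniformiser, `ζ ≠ 1` with `ζ ^ p = 1`.  Then there are `j₀ ≥ 1` and units `lam0`, `υ` with
  `ζ - 1 = lam0 * ϖ ^ j₀` and `(p : O) = υ * ϖ ^ ((p - 1) * j₀)`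
  (the hypotheses `hlam`, `hpυ` of `KLoc/CycloConst` and `hpυ` of `KummerLoc.Hyp`, via
  `KummerSmoothTheta.natCast_eq_of_base`);
* `rootGroup u` : the subgroup `⟨u⟩ ≤ Dˣ`; for `u` a primitive `p ^ n`-th root of unity of a domain `D`
  it contains every `p`-th root of unity (`mem_rootGroup_of_pow_prime_eq_one`) and is `p`-divisible on
  its `p ^ k`-torsion, `k < n` (`exists_pow_eq_of_mem_rootGroup`): the hypotheses `hΞ`, `hroot` of
  `KummerIter.exists_approx_iter_units` at a point on ONE component;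
* `rootGroupProd u₁ u₂ ≤ (D₁ × D₂)ˣ` : the pairs `(u₁ ^ x, u₂ ^ y)`, with the same two properties:
  the hypotheses `hΞ`, `hroot` at a NODE (`B = V₁ × V₂`).
-/
import Mathlib
import Fermat.Agent.S33.New.KummerLoc

set_option autoImplicit false
set_option linter.unusedSectionVars false
set_option linter.style.haveILetI false

namespace Fermat.Agent.S33.L.CycloLevel

/-! ### The constants `j₀`, `lam0`, `υ` -/

section Const

variable {O : Type*} [CommRing O] [IsDomain O] [IsDiscreteValuationRing O]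

/-- **The cyclotomic constants.** -/
theorem exists_cyclo_const {p : ℕ} (hp : p.Prime) (hpO : ¬ IsUnit ((p : ℕ) : O)) {ϖ : O}
    (hϖ : Irreducible ϖ) {ζ : O} (hζ : ζ ^ p = 1) (hζ1 : ζ ≠ 1) :
    ∃ (j₀ : ℕ) (lam0 υ : Oˣ), 1 ≤ j₀ ∧ ζ - 1 = lam0 * ϖ ^ j₀ ∧
      ((p : ℕ) : O) = υ * ϖ ^ ((p - 1) * j₀) := by
  obtain ⟨q, hq⟩ : ∃ q, p = q + 1 := ⟨p - 1, by have := hp.two_le; omega⟩
  have hq' : p - 1 = q := by omega
  set y : O := ζ - 1 with hy
  have hy0 : y ≠ 0 := sub_ne_zero.mpr hζ1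
  obtain ⟨g, hg⟩ := Fermat.Agent.S33.New.KummerLoc.exists_one_add_pow_prime hp y
  have hζ' : (1 + y) ^ p = 1 := by rw [hy, add_sub_cancel, hζ]
  rw [hζ'] at hg
  -- `y ^ q = - p (1 + y g)`
  have h1 : y * (y ^ q + (p : O) * (1 + y * g)) = 0 := by
    have : y * (y ^ q + (p : O) * (1 + y * g))
        = (1 + y ^ p + (p : O) * y + (p : O) * y ^ 2 * g) - 1 := by
      rw [hq]; ring
    rw [this, ← hg, sub_self]
  have h2 : y ^ q + (p : O) * (1 + y * g) = 0 := by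
    rcases mul_eq_zero.mp h1 with h | h
    · exact absurd h hy0
    · exact h
  -- `y` is not a unit
  have hyn : ¬ IsUnit y := by
    intro hu
    apply hpO
    have h3 : IsUnit ((p : O) * (1 + y * g)) := by
      have : (p : O) * (1 + y * g) = -(y ^ q) := by linear_combination h2
      rw [this]
      exact (hu.pow q).neg
    exact isUnit_of_mul_isUnit_left h3
  have hw : IsUnit (1 + y * g) := by
    have h4 : -(y * g) ∈ nonunits O := by
      rw [mem_nonunits_iff, IsUnit.neg_iff]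
      intro hu
      exact hyn (isUnit_of_mul_isUnit_left hu)
    have := IsLocalRing.isUnit_one_sub_self_of_mem_nonunits _ h4
    rwa [sub_neg_eq_add] at this
  obtain ⟨w, hw⟩ := hw
  obtain ⟨j₀, lam0, hlam⟩ := IsDiscreteValuationRing.eq_unit_mul_pow_irreducible hy0 hϖ
  have hj₀ : 1 ≤ j₀ := by
    by_contra h
    have h0 : j₀ = 0 := by omega
    rw [h0, pow_zero, mul_one] at hlam
    exact hyn (hlam ▸ lam0.isUnit)
  refine ⟨j₀, lam0, -(w⁻¹ * lam0 ^ q), hj₀, hlam, ?_⟩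
  rw [hq']
  have h5 : (p : O) * (w : O) = -(y ^ q) := by
    rw [hw]; linear_combination h2
  have h6 : (p : O) = -(y ^ q) * ((w⁻¹ : Oˣ) : O) := by
    rw [← h5, mul_assoc, Units.mul_inv, mul_one]
  rw [h6, hlam, mul_pow, ← pow_mul, mul_comm j₀ q]
  push_cast
  ring

end Const

/-! ### Roots of unity in a domain -/

section Roots

variable {D : Type*} [CommRing D] [IsDomain D]

/-- The group generated by a unit. -/
def rootGroup (u : Dˣ) : Subgroup Dˣ := Subgroup.zpowers u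

theorem mem_rootGroup_iff {u ξ : Dˣ} : ξ ∈ rootGroup u ↔ ∃ i : ℤ, u ^ i = ξ :=
  Subgroup.mem_zpowers_iff

theorem pow_mem_rootGroup (u : Dˣ) (i : ℕ) : u ^ i ∈ rootGroup u :=
  Subgroup.npow_mem_zpowers u i

/-- Elements of `⟨u⟩`, `u` of finite order, are powers with natural exponents. -/
theorem exists_pow_eq_of_mem_rootGroup' {u ξ : Dˣ} {m : ℕ} (hm : 0 < m) (hu : u ^ m = 1)
    (hξ : ξ ∈ rootGroup u) : ∃ i : ℕ, u ^ i = ξ := by
  obtain ⟨i, rfl⟩ := mem_rootGroup_iff.mp hξ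
  refine ⟨(i % (m : ℤ)).toNat, ?_⟩
  have hm' : (m : ℤ) ≠ 0 := by exact_mod_cast hm.ne'
  have h1 : ((i % (m : ℤ)).toNat : ℤ) = i % (m : ℤ) :=
    Int.toNat_of_nonneg (Int.emod_nonneg i hm')
  rw [← zpow_natCast, h1]
  have h2 : i = i % (m : ℤ) + (m : ℤ) * (i / (m : ℤ)) := (Int.emod_add_mul_ediv i m).symm
  conv_rhs => rw [h2, zpow_add, zpow_mul, zpow_natCast, hu, one_zpow, mul_one]

variable {p n : ℕ}

/-- In a domain containing a primitive `p ^ n`-th root of unity `u` (`n ≥ 1`), every `p`-th root of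
unity is a power of `u`. -/
theorem mem_rootGroup_of_pow_prime_eq_one (hp : p.Prime) (hn : 1 ≤ n) {u : Dˣ}
    (hu : IsPrimitiveRoot (u : D) (p ^ n)) {ξ : Dˣ} (hξ : ξ ^ p = 1) : ξ ∈ rootGroup u := by
  haveI : NeZero (p ^ n) := ⟨pow_ne_zero n hp.ne_zero⟩
  have h1 : (ξ : D) ^ (p ^ n) = 1 := by
    obtain ⟨m, rfl⟩ := Nat.exists_eq_add_of_le hn
    rw [pow_add, pow_one, pow_mul, ← Units.val_pow_eq_pow_val, hξ, Units.val_one, one_pow]
  obtain ⟨i, -, hi⟩ := hu.eq_pow_of_pow_eq_one h1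
  rw [mem_rootGroup_iff]
  refine ⟨(i : ℤ), ?_⟩
  apply Units.ext
  rw [zpow_natCast, Units.val_pow_eq_pow_val, hi]

/-- `⟨u⟩` is `p`-divisible on its `p ^ k`-torsion for `k < n`. -/
theorem exists_pow_eq_of_mem_rootGroup (hp : p.Prime) {u : Dˣ}
    (hu : IsPrimitiveRoot (u : D) (p ^ n)) {k : ℕ} (hk : k < n) {η : Dˣ} (hη : η ∈ rootGroup u)
    (hη1 : η ^ p ^ k = 1) : ∃ η' ∈ rootGroup u, η' ^ p = η := by
  have hu1 : u ^ (p ^ n) = 1 := by
    apply Units.ext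
    rw [Units.val_pow_eq_pow_val, hu.pow_eq_one, Units.val_one]
  obtain ⟨x, rfl⟩ := exists_pow_eq_of_mem_rootGroup' (pow_pos hp.pos n) hu1 hη
  -- `p ^ n ∣ x * p ^ k`, hence `p ∣ x`
  have h1 : (u : D) ^ (x * p ^ k) = 1 := by
    have := congrArg (fun v : Dˣ => (v : D)) hη1
    simpa [← pow_mul] using this
  have h2 : p ^ n ∣ x * p ^ k := (hu.pow_eq_one_iff_dvd _).mp h1
  obtain ⟨d, hd⟩ := Nat.exists_eq_add_of_lt hk
  have h3 : p ∣ x := by
    have h4 : p ^ (k + 1) ∣ x * p ^ k := (pow_dvd_pow p (by omega)).trans h2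
    rw [pow_succ, mul_comm x] at h4
    exact Nat.dvd_of_mul_dvd_mul_left (pow_pos hp.pos k) h4
  obtain ⟨x', rfl⟩ := h3
  exact ⟨u ^ x', pow_mem_rootGroup u x', by rw [← pow_mul, mul_comm]⟩

end Roots

/-! ### Pairs of roots of unity: the ambiguities at a node -/

section Pairs

variable {D₁ D₂ : Type*} [CommRing D₁] [IsDomain D₁] [CommRing D₂] [IsDomain D₂]

/-- The group of pairs `(u₁ ^ x, u₂ ^ y)` in `(D₁ × D₂)ˣ`. -/
def rootGroupProd (u₁ : D₁ˣ) (u₂ : D₂ˣ) : Subgroup (D₁ × D₂)ˣ :=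
  ((rootGroup u₁).prod (rootGroup u₂)).comap (MulEquiv.prodUnits (M := D₁) (N := D₂)).toMonoidHom

theorem mem_rootGroupProd_iff {u₁ : D₁ˣ} {u₂ : D₂ˣ} {ξ : (D₁ × D₂)ˣ} :
    ξ ∈ rootGroupProd u₁ u₂ ↔
      (MulEquiv.prodUnits ξ).1 ∈ rootGroup u₁ ∧ (MulEquiv.prodUnits ξ).2 ∈ rootGroup u₂ := by
  unfold rootGroupProd
  rw [Subgroup.mem_comap, Subgroup.mem_prod]
  rfl

variable {p n : ℕ}

/-- Every `p`-th root of unity of `D₁ × D₂` is a pair of powers. -/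
theorem mem_rootGroupProd_of_pow_prime_eq_one (hp : p.Prime) (hn : 1 ≤ n) {u₁ : D₁ˣ} {u₂ : D₂ˣ}
    (hu₁ : IsPrimitiveRoot (u₁ : D₁) (p ^ n)) (hu₂ : IsPrimitiveRoot (u₂ : D₂) (p ^ n))
    {ξ : (D₁ × D₂)ˣ} (hξ : ξ ^ p = 1) : ξ ∈ rootGroupProd u₁ u₂ := by
  rw [mem_rootGroupProd_iff]
  have h := congrArg (MulEquiv.prodUnits (M := D₁) (N := D₂)) hξ
  rw [map_pow, map_one] at h
  exact ⟨mem_rootGroup_of_pow_prime_eq_one hp hn hu₁ (congrArg Prod.fst h),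
    mem_rootGroup_of_pow_prime_eq_one hp hn hu₂ (congrArg Prod.snd h)⟩

/-- The group of pairs is `p`-divisible on its `p ^ k`-torsion for `k < n`. -/
theorem exists_pow_eq_of_mem_rootGroupProd (hp : p.Prime) {u₁ : D₁ˣ} {u₂ : D₂ˣ}
    (hu₁ : IsPrimitiveRoot (u₁ : D₁) (p ^ n)) (hu₂ : IsPrimitiveRoot (u₂ : D₂) (p ^ n))
    {k : ℕ} (hk : k < n) {η : (D₁ × D₂)ˣ} (hη : η ∈ rootGroupProd u₁ u₂) (hη1 : η ^ p ^ k = 1) :
    ∃ η' ∈ rootGroupProd u₁ u₂, η' ^ p = η := by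
  rw [mem_rootGroupProd_iff] at hη
  have h := congrArg (MulEquiv.prodUnits (M := D₁) (N := D₂)) hη1
  rw [map_pow, map_one] at h
  obtain ⟨a, ha, hap⟩ := exists_pow_eq_of_mem_rootGroup hp hu₁ hk hη.1 (congrArg Prod.fst h)
  obtain ⟨b, hb, hbp⟩ := exists_pow_eq_of_mem_rootGroup hp hu₂ hk hη.2 (congrArg Prod.snd h)
  refine ⟨(MulEquiv.prodUnits (M := D₁) (N := D₂)).symm (a, b), ?_, ?_⟩
  · rw [mem_rootGroupProd_iff, MulEquiv.apply_symm_apply]
    exact ⟨ha, hb⟩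
  · apply (MulEquiv.prodUnits (M := D₁) (N := D₂)).injective
    rw [map_pow, MulEquiv.apply_symm_apply]
    exact Prod.ext hap hbp

/-- Explicit form of the members: pairs `(u₁ ^ x, u₂ ^ y)` with natural exponents. -/
theorem exists_pow_pair_of_mem_rootGroupProd {m : ℕ} (hm : 0 < m) {u₁ : D₁ˣ} {u₂ : D₂ˣ}
    (hu₁ : u₁ ^ m = 1) (hu₂ : u₂ ^ m = 1) {η : (D₁ × D₂)ˣ} (hη : η ∈ rootGroupProd u₁ u₂) :
    ∃ x y : ℕ, ((η : (D₁ × D₂)ˣ) : D₁ × D₂) = (((u₁ : D₁ˣ) : D₁) ^ x, ((u₂ : D₂ˣ) : D₂) ^ y) := by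
  rw [mem_rootGroupProd_iff] at hη
  obtain ⟨x, hx⟩ := exists_pow_eq_of_mem_rootGroup' hm hu₁ hη.1
  obtain ⟨y, hy⟩ := exists_pow_eq_of_mem_rootGroup' hm hu₂ hη.2
  have e1 : (((MulEquiv.prodUnits η).1 : D₁ˣ) : D₁) = ((η : (D₁ × D₂)ˣ) : D₁ × D₂).1 := rfl
  have e2 : (((MulEquiv.prodUnits η).2 : D₂ˣ) : D₂) = ((η : (D₁ × D₂)ˣ) : D₁ × D₂).2 := rfl
  refine ⟨x, y, Prod.ext ?_ ?_⟩
  · rw [← e1, ← hx, Units.val_pow_eq_pow_val]
  · rw [← e2, ← hy, Units.val_pow_eq_pow_val]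

end Pairs

end Fermat.Agent.S33.L.CycloLevel
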