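/-
S33, row 61, STEP L, slice L-CYCLO, instance at a good level (helper29).

`A` a place of `ℚ̄` over `p`, `K` a good level (`P3G.Assembly.LevelStep.IsGoodLevel A p K`) containing a
primitive `p ^ n`-th root of unity `ζ` of `ℚ̄`, `O = baseRing A K = A ∩ K`, `ϖ` a uniformiser of `O`.

* `exists_primitiveRoot_baseRing` : `ζ` comes from a primitive `p ^ n`-th root of unity `z` of `O`
  (any level `K ∋ ζ`, any order `m`);
* `exists_cyclo_const_level` : `j₀ ≥ 1` and units `lam0`, `υ` of `O` with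
  `z ^ p ^ (n - 1) - 1 = lam0 * ϖ ^ j₀` and `(p : O) = υ * ϖ ^ ((p - 1) * j₀)` — the constants of
  `KummerLoc.Hyp.hpυ` (through `KummerSmoothTheta.natCast_eq_of_base`) and of `KLoc/CycloConst`;
* `isPrimitiveRoot_algebraMap` : the image of `z` in any domain containing `O` is again primitive
  (feeds `CycloLevel.rootGroup`, `rootGroupProd` in `V₁`, `V₂`).
-/
import Mathlib
import Fermat.Agent.S33.L.CycloLevel
import Fermat.Agent.P3G.Assembly.LevelStep

set_option autoImplicit false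
set_option linter.unusedSectionVars false
set_option linter.style.haveILetI false

noncomputable section

namespace Fermat.Agent.S33.L.CycloLevelInst

open Fermat.Agent.N4.BigDVR Fermat.Agent.N4F.C.Levels Fermat.Agent.P3G.Assembly.LevelStep
  Fermat.Agent.S33.L.CycloLevel

local notation "Qbar" => AlgebraicClosure ℚ

variable (A : ValuationSubring Qbar) (K : IntermediateField ℚ Qbar)

/-- A root of unity of `ℚ̄` lies in every valuation ring. -/
theorem mem_of_pow_eq_one {m : ℕ} (hm : 0 < m) {ζ : Qbar} (hζ : ζ ^ m = 1) : ζ ∈ A := by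
  rcases A.mem_or_inv_mem ζ with h | h
  · exact h
  · obtain ⟨d, rfl⟩ : ∃ d, m = d + 1 := ⟨m - 1, by omega⟩
    have h1 : ζ = (ζ⁻¹) ^ d := by
      have hζ0 : ζ ≠ 0 := by
        rintro rfl
        rw [zero_pow (by omega)] at hζ
        exact zero_ne_one hζ
      rw [inv_pow]
      field_simp
      rw [← pow_succ', hζ]
    rw [h1]
    exact A.pow_mem h d

/-- A primitive root of unity of `ℚ̄` lying in `K` comes from a primitive root of unity of
`O = A ∩ K`. -/
theorem exists_primitiveRoot_baseRing {m : ℕ} (hm : 0 < m) {ζ : Qbar} (hζ : IsPrimitiveRoot ζ m)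
    (hζK : ζ ∈ K) :
    ∃ z : ↥(baseRing A K), IsPrimitiveRoot z m ∧ algebraMap (Lvl K) Qbar (z : Lvl K) = ζ := by
  have hζA : ζ ∈ A := mem_of_pow_eq_one A hm hζ.pow_eq_one
  let ζK : Lvl K := (Lvl.toSub K).symm ⟨ζ, hζK⟩
  have hζK' : algebraMap (Lvl K) Qbar ζK = ζ := rfl
  have hmem : ζK ∈ baseRing A K := by
    show (⟨ζ, hζK⟩ : ↥K) ∈ tr A ↥K
    exact (mem_tr_iff A ↥K).mpr hζA
  refine ⟨⟨ζK, hmem⟩, ?_, hζK'⟩
  have hinj : Function.Injective ((algebraMap (Lvl K) Qbar).comp (baseRing A K).subtype) :=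
    (algebraMap (Lvl K) Qbar).injective.comp Subtype.val_injective
  refine IsPrimitiveRoot.of_map_of_injective
    (f := (algebraMap (Lvl K) Qbar).comp (baseRing A K).subtype) ?_ hinj
  show IsPrimitiveRoot (algebraMap (Lvl K) Qbar ζK) m
  rw [hζK']
  exact hζ

variable {A K}

/-- **The cyclotomic constants at a good level containing `ζ_{p^n}`.** -/
theorem exists_cyclo_const_level {p : ℕ} (hp : p.Prime) (hK : IsGoodLevel A p K)
    {ϖ : ↥(baseRing A K)} (hϖ : Irreducible ϖ) {n : ℕ} (hn : 1 ≤ n)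
    {z : ↥(baseRing A K)} (hz : IsPrimitiveRoot z (p ^ n)) :
    ∃ (j₀ : ℕ) (lam0 υ : (↥(baseRing A K))ˣ), 1 ≤ j₀ ∧
      z ^ p ^ (n - 1) - 1 = lam0 * ϖ ^ j₀ ∧
      ((p : ℕ) : ↥(baseRing A K)) = υ * ϖ ^ ((p - 1) * j₀) := by
  haveI := hK.dvr
  obtain ⟨d, rfl⟩ : ∃ d, n = d + 1 := ⟨n - 1, by omega⟩
  have h1 : (z ^ p ^ (d + 1 - 1)) ^ p = 1 := by
    rw [Nat.add_sub_cancel, ← pow_mul, ← pow_succ]
    exact hz.pow_eq_one
  have h2 : z ^ p ^ (d + 1 - 1) ≠ 1 := by
    rw [Nat.add_sub_cancel]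
    intro h
    have h3 := hz.dvd_of_pow_eq_one _ h
    have h4 : p ^ (d + 1) ≤ p ^ d := Nat.le_of_dvd (pow_pos hp.pos d) h3
    have h5 : p ^ d < p ^ (d + 1) := Nat.pow_lt_pow_right hp.one_lt (Nat.lt_succ_self d)
    omega
  have hnu : ¬ IsUnit ((p : ℕ) : ↥(baseRing A K)) := hK.not_unit
  exact exists_cyclo_const (O := ↥(baseRing A K)) hp hnu hϖ h1 h2

/-- The image of a primitive root of unity of `O` in a domain containing `O`. -/
theorem isPrimitiveRoot_algebraMap {O D : Type*} [CommRing O] [CommRing D] [IsDomain D]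
    [Algebra O D] (hinj : Function.Injective (algebraMap O D)) {z : O} {m : ℕ}
    (hz : IsPrimitiveRoot z m) : IsPrimitiveRoot (algebraMap O D z) m :=
  hz.map_of_injective hinj

end Fermat.Agent.S33.L.CycloLevelInst
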