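/-
S33, `moonshots` row 61, STEP L, slice 3 (helper17; requested by helper12, = helper8's [G3b]):
THE DESCENT WITH THE REGULARITY CONCLUSION — NO "constants of `F_K`" at the level, slack `c = 0`.

The chain at a good level (`L/Skeleton.exists_section`) produces a nonzero `g ∈ F_K` with
`E_z ≤ div g`, i.e. `ord_Q (τ h_K / h_K ^ a) ≤ p ^ k · ord_Q g` at every place `Q` of `F_K / K`.
That is all that is needed:

* `exists_const_of_forall_ord_nonneg`, `exists_const_of_forall_mem` : over `Q̄` a nonzero function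
  without poles is constant (principal divisors have degree `0`, all places have degree `1`);
* `forall_mem_lev_of_forall_ord_nonneg` : "no poles" passes from the level `K` to `Q̄` along `levK`;
* `NewLevelOrdAt N q p A τ σ' a k` : `Descent.NewLevelAt` with the conclusion ONLY
  `∃ g ≠ 0, ∀ Q, ord_Q (twNewK … f_K) ≤ p ^ k * ord_Q g`;
  `NewLevelKOrdAt` : the same with the provider-friendly binder block of `NewAtLevel.NewLevelKAt`;
* `newRootAt_of_levelOrd : NewLevelOrdAt … → NewRootAt N q p 0 τ σ' a k`,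
  `newLevelOrdAt_of_levelK`, `newRootAt_of_levelKOrd`;
* `newRootInertia_of_levelKOrd` : the single target of STEP L (`NewJOfRoot.NewRootInertia N' p 0`) from
  `NewLevelKOrdAt` at all `m`, all places `P ∣ p`, all `σ', τ ∈ I_P`, all `a` with `τ = (·)^a` on
  `μ_{p^m}`.
-/
import Mathlib
import Fermat.Agent.S33.L.NewAtLevel
import Fermat.Agent.S33.New.NewJOfRoot
import Fermat.Agent.N4F.E.HeckeFibre

set_option autoImplicit false
set_option linter.unusedSectionVars false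
set_option linter.dupNamespace false
set_option linter.style.haveILetI false

open ModularCurve AlgebraicCurve IntermediateField

noncomputable section

namespace Fermat.Agent.S33.L.LevelOrd

open Fermat.Agent.N4.Setting Fermat.Agent.N4.Chart Fermat.Agent.N4.S18Glue Fermat.Agent.N4.BigDVR
  Fermat.Agent.P3G.Assembly.LevelStep
  Fermat.Agent.P3G.GammaDict Fermat.Agent.P3G.GeomStep
  Fermat.Agent.P3G.Gamma Fermat.Agent.P3G.GammaAut Fermat.Agent.P3G.GammaLevelMaps
  Fermat.Agent.N4F.C Fermat.Agent.N4F.C.Levels Fermat.Agent.N4F.C.Galois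
  Fermat.Agent.P4.FrobStep Fermat.Agent.P4.LevelFrobStep Fermat.Agent.P4.FrobLevelStep
  Fermat.Agent.S33.New.NewStep Fermat.Agent.S33.L.Descent Fermat.Agent.S33.L.NewAtLevel

local notation "Qbar" => AlgebraicClosure ℚ
local notation "Γ" => (AlgebraicClosure ℚ ≃ₐ[ℚ] AlgebraicClosure ℚ)

/-! ### Over `Q̄`: no poles implies constant -/

section Const

variable (N : ℕ) [NeZero N]

/-- A nonzero function on `X_0(N)_{Q̄}` without poles is constant. -/
theorem exists_const_of_forall_ord_nonneg {t : Fb N} (ht : t ≠ 0)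
    (h : ∀ P : Place Qb (Fb N), 0 ≤ P.ord t) :
    ∃ c : Qb, c ≠ 0 ∧ t = algebraMap Qb (Fb N) c := by
  classical
  haveI := Fermat.Agent.N4F.A.LevelMaps.hasPrincipalDivisors_bar N
  obtain ⟨D, hD, hdeg⟩ := HasPrincipalDivisors.exists_divisor (K := Qb) t ht
  refine exists_const_of_forall_ord_eq_zero N ht (fun P => ?_)
  have hsum : Divisor.degree D = ∑ v ∈ D.support, D v := by
    have h1 : Divisor.degree D = D.sum fun v n => n * (v.deg : ℤ) := by
      simp [Divisor.degree, Finsupp.liftAddHom_apply]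
    rw [h1, Finsupp.sum]
    refine Finset.sum_congr rfl (fun v _ => ?_)
    rw [Fermat.Agent.N4F.E.HeckeFibre.deg_bar N v, Nat.cast_one, mul_one]
  rw [hsum] at hdeg
  have hnn : ∀ v ∈ D.support, 0 ≤ D v := fun v _ => by rw [hD v]; exact h v
  have hz := (Finset.sum_eq_zero_iff_of_nonneg hnn).1 hdeg
  by_cases hP : P ∈ D.support
  · rw [← hD P]; exact hz P hP
  · rw [← hD P]; exact Finsupp.notMem_support_iff.1 hP

/-- The membership form. -/
theorem exists_const_of_forall_mem {t : Fb N} (ht : t ≠ 0)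
    (h : ∀ P : Place Qb (Fb N), t ∈ P.toValuationSubring) :
    ∃ c : Qb, c ≠ 0 ∧ t = algebraMap Qb (Fb N) c :=
  exists_const_of_forall_ord_nonneg N ht
    (fun P => (Fermat.Agent.S24.PlaceExtend.mem_iff_ord_nonneg P ht).1 (h P))

end Const

/-! ### "No poles" passes from a level to `Q̄` -/

section Transfer

variable (M : ℕ) [NeZero M] (K : IntermediateField ℚ Qbar)

/-- A nonzero function of `F_K` without poles (at the places of `F_K / K`) has no poles over `Q̄`. -/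
theorem forall_mem_lev_of_forall_ord_nonneg {x : FF (Lvl K) M} (hx : x ≠ 0)
    (h : ∀ Q : Place (Lvl K) (FF (Lvl K) M), 0 ≤ Q.ord x)
    (P : Place Qb (Fb M)) : levK M K x ∈ P.toValuationSubring :=
  (mem_restrictK_iff M K P x).1
    ((Fermat.Agent.S24.PlaceExtend.mem_iff_ord_nonneg (restrictK M K P) hx).2 (h _))

/-- `ord_Q t ≤ e · ord_Q g` at all places of `F_K / K` (`t, g ≠ 0`): over `Q̄`, `lev t` is a nonzero
constant times `(lev g) ^ e`. -/
theorem exists_const_of_forall_ord_le {t g : FF (Lvl K) M} (ht : t ≠ 0) (hg : g ≠ 0) (e : ℕ)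
    (h : ∀ Q : Place (Lvl K) (FF (Lvl K) M), Q.ord t ≤ (e : ℤ) * Q.ord g) :
    ∃ c : Qb, c ≠ 0 ∧ levK M K t = algebraMap Qb (Fb M) c * levK M K g ^ e := by
  have hge : g ^ e ≠ 0 := pow_ne_zero e hg
  have hx : g ^ e / t ≠ 0 := div_ne_zero hge ht
  have hord : ∀ Q : Place (Lvl K) (FF (Lvl K) M), 0 ≤ Q.ord (g ^ e / t) := by
    intro Q
    have hpw : Q.ord (g ^ e) = (e : ℤ) * Q.ord g := by
      rw [← zpow_natCast, Q.ord_zpow]
    rw [div_eq_mul_inv, Q.ord_mul hge (inv_ne_zero ht), Q.ord_inv, hpw]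
    have := h Q
    linarith
  have hlx : levK M K (g ^ e / t) ≠ 0 := (map_ne_zero _).2 hx
  obtain ⟨c, hc, hcx⟩ := exists_const_of_forall_mem M hlx
    (forall_mem_lev_of_forall_ord_nonneg M K hx hord)
  have hlt : levK M K t ≠ 0 := (map_ne_zero _).2 ht
  refine ⟨c⁻¹, inv_ne_zero hc, ?_⟩
  rw [map_div₀, map_pow] at hcx
  have hc' : algebraMap Qb (Fb M) c ≠ 0 := (map_ne_zero _).2 hc
  rw [map_inv₀]
  field_simp
  rw [div_eq_iff hlt] at hcx
  rw [hcx]
  ring

end Transfer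

/-! ### The geometric input at good levels, regularity form -/

/-- **(NEW-J) at good levels, regularity form** (normalised norms): as `Descent.NewLevelAt`, but the
conclusion is only a nonzero `g ∈ F_K` with `div (τ h_K / h_K ^ a) ≤ p ^ k · div g`. -/
def NewLevelOrdAt (N q : ℕ) [NeZero N] [NeZero q] (p : ℕ) (A : ValuationSubring Qbar)
    (τ σ' : Γ) (a : ℤ) (k : ℕ) : Prop :=
  ∀ (f : Fb (N * q)) (hA hB : Fb N), f ≠ 0 →
    (∀ P : Place Qb (Fb (N * q)), ((p ^ k : ℕ) : ℤ) ∣ P.ord f) →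
    normAlpha N q f = hA ^ (p ^ k) →
    normBeta N q f = hB ^ (p ^ k) →
    ∃ K₁ : IntermediateField ℚ Qbar, FiniteDimensional ℚ K₁ ∧
      ∀ (K : IntermediateField ℚ Qbar) (hK : IsGoodLevel A q K), K₁ ≤ K →
        ∀ fK : FF (Lvl K) (N * q), levK (N * q) K fK = f →
          ∃ g : FF (Lvl K) (N * q), g ≠ 0 ∧
            ∀ Q : Place (Lvl K) (FF (Lvl K) (N * q)),
              Q.ord (twNewK K hK.stable (N * q) τ σ' a fK) ≤ ((p ^ k : ℕ) : ℤ) * Q.ord g

/-- **(NEW-J) at good levels, regularity form, provider-friendly**: the binder block of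
`NewAtLevel.NewLevelKAt` (level models `f_K, h_{A,K}, h_{B,K} ≠ 0`, the two EXACT level norm
equations, `p ^ k ∣ ord_Q f_K`, `K`-rational zeros and poles) with the regularity conclusion. -/
def NewLevelKOrdAt (N q : ℕ) [NeZero N] [NeZero q] (p : ℕ) (A : ValuationSubring Qbar)
    (τ σ' : Γ) (a : ℤ) (k : ℕ) : Prop :=
  ∀ (f : Fb (N * q)) (hA hB : Fb N), f ≠ 0 →
    (∀ P : Place Qb (Fb (N * q)), ((p ^ k : ℕ) : ℤ) ∣ P.ord f) →
    normAlpha N q f = hA ^ (p ^ k) →
    normBeta N q f = hB ^ (p ^ k) →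
    ∃ K₁ : IntermediateField ℚ Qbar, FiniteDimensional ℚ K₁ ∧
      ∀ (K : IntermediateField ℚ Qbar) (hK : IsGoodLevel A q K), K₁ ≤ K →
        ∀ (fK : FF (Lvl K) (N * q)) (hAK hBK : FF (Lvl K) N),
          levK (N * q) K fK = f → levK N K hAK = hA → levK N K hBK = hB →
          fK ≠ 0 → hAK ≠ 0 → hBK ≠ 0 →
          normAlphaK K N q fK = hAK ^ (p ^ k) →
          normBetaK K N q fK = hBK ^ (p ^ k) →
          (∀ Q : Place (Lvl K) (FF (Lvl K) (N * q)), ((p ^ k : ℕ) : ℤ) ∣ Q.ord fK) →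
          (∀ Q : Place (Lvl K) (FF (Lvl K) (N * q)), Q.ord fK ≠ 0 →
            Function.Bijective (algebraMap (Lvl K) Q.ResidueField)) →
          ∃ g : FF (Lvl K) (N * q), g ≠ 0 ∧
            ∀ Q : Place (Lvl K) (FF (Lvl K) (N * q)),
              Q.ord (twNewK K hK.stable (N * q) τ σ' a fK) ≤ ((p ^ k : ℕ) : ℤ) * Q.ord g

section Descent

variable {N q : ℕ} [NeZero N] [NeZero q]

/-- `twNewK` of a nonzero function is nonzero. -/
theorem twNewK_ne_zero (K : IntermediateField ℚ Qbar)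
    (hK : ∀ (τ : Γ) (x : Qbar), x ∈ K → τ x ∈ K) (M : ℕ) [NeZero M] (τ σ' : Γ) (a : ℤ)
    {f : FF (Lvl K) M} (hf : f ≠ 0) : twNewK K hK M τ σ' a f ≠ 0 :=
  twFnL_ne_zero _ hf

/-- **From good levels to `Q̄`, regularity form, slack `0`.** -/
theorem newRootAt_of_levelOrd {p : ℕ} {A : ValuationSubring Qbar} {τ σ' : Γ} {a : ℤ} {k : ℕ}
    (hq : q.Prime) (hA : A.LiesOverPrime q) (hp : p ≠ 0)
    (h : NewLevelOrdAt N q p A τ σ' a k) : NewRootAt N q p 0 τ σ' a k := by
  classical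
  intro f hA' hB' cA cB hf hcA hcB hdiv hnA hnB
  have hpk : 0 < p ^ k := Nat.pos_of_ne_zero (pow_ne_zero k hp)
  obtain ⟨rA, hrA⟩ := IsAlgClosed.exists_pow_nat_eq cA hpk
  obtain ⟨rB, hrB⟩ := IsAlgClosed.exists_pow_nat_eq cB hpk
  have hnA' : normAlpha N q f = (algebraMap Qb (Fb N) rA * hA') ^ (p ^ k) := by
    rw [mul_pow, ← map_pow, hrA, hnA]
  have hnB' : normBeta N q f = (algebraMap Qb (Fb N) rB * hB') ^ (p ^ k) := by
    rw [mul_pow, ← map_pow, hrB, hnB]
  obtain ⟨K₁, hK₁fin, hK₁⟩ := h f _ _ hf hdiv hnA' hnB'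
  obtain ⟨K₂, hK₂fin, hK₂⟩ := exists_finiteDimensional_level (N * q) {f} ∅
  haveI := hK₁fin
  haveI := hK₂fin
  haveI : FiniteDimensional ℚ ↥(K₁ ⊔ K₂) := IntermediateField.finiteDimensional_sup K₁ K₂
  obtain ⟨K, hle, hK⟩ := exists_isGoodLevel_ge hq hA (K₁ ⊔ K₂)
  have h1 : K₁ ≤ K := le_sup_left.trans hle
  have h2 : K₂ ≤ K := le_sup_right.trans hle
  obtain ⟨fK, hfK⟩ := (hK₂ K h2).1 f (by simp)
  have hfK0 : fK ≠ 0 := by
    rintro rfl
    rw [map_zero] at hfK
    exact hf hfK.symm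
  obtain ⟨g, hg0, hg⟩ := hK₁ K hK h1 fK hfK
  obtain ⟨c', hc', hc⟩ := exists_const_of_forall_ord_le (N * q) K
    (twNewK_ne_zero K hK.stable (N * q) τ σ' a hfK0) hg0 (p ^ k) hg
  refine ⟨c', levK (N * q) K g, hc', ?_⟩
  rw [pow_zero, pow_one, ← hfK, ← levK_twNewK K hK.stable (N * q) τ σ' a fK, hc]

/-- The provider-friendly form implies `NewLevelOrdAt`. -/
theorem newLevelOrdAt_of_levelK (hq : q.Prime) (hqN : ¬ q ∣ N) {p : ℕ} (hp : p ≠ 0)
    {A : ValuationSubring Qbar} {τ σ' : Γ} {a : ℤ} {k : ℕ}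
    (h : NewLevelKOrdAt N q p A τ σ' a k) : NewLevelOrdAt N q p A τ σ' a k := by
  classical
  intro f hA' hB' hf hdiv hnA hnB
  obtain ⟨K₁, hK₁fin, hK₁⟩ := h f hA' hB' hf hdiv hnA hnB
  obtain ⟨K₂, hK₂fin, hK₂⟩ := exists_finiteDimensional_level N {hA', hB'} ∅
  haveI := Fermat.Agent.N4F.A.LevelMaps.hasPrincipalDivisors_bar (N * q)
  obtain ⟨D, hD, -⟩ := HasPrincipalDivisors.exists_divisor (K := Qb) f hf
  obtain ⟨K₃, hK₃fin, hK₃⟩ := exists_finiteDimensional_level (N * q) ∅ D.support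
  haveI := hK₁fin
  haveI := hK₂fin
  haveI := hK₃fin
  haveI : FiniteDimensional ℚ ↥(K₁ ⊔ K₂) := IntermediateField.finiteDimensional_sup K₁ K₂
  refine ⟨K₁ ⊔ K₂ ⊔ K₃, IntermediateField.finiteDimensional_sup _ K₃, fun K hK hle fK hfK => ?_⟩
  have h1 : K₁ ≤ K := (le_sup_left.trans le_sup_left).trans hle
  have h2 : K₂ ≤ K := (le_sup_right.trans le_sup_left).trans hle
  have h3 : K₃ ≤ K := le_sup_right.trans hle
  obtain ⟨hAK, hhAK⟩ := (hK₂ K h2).1 hA' (by simp)
  obtain ⟨hBK, hhBK⟩ := (hK₂ K h2).1 hB' (by simp)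
  have hfK0 : fK ≠ 0 := by
    rintro rfl
    rw [map_zero] at hfK
    exact hf hfK.symm
  have hpk : p ^ k ≠ 0 := pow_ne_zero k hp
  have hA0 : hA' ≠ 0 := by
    rintro rfl
    rw [zero_pow hpk] at hnA
    exact normAlpha_ne_zero hf hnA
  have hB0 : hB' ≠ 0 := by
    rintro rfl
    rw [zero_pow hpk] at hnB
    exact normBeta_ne_zero hf hnB
  have hAK0 : hAK ≠ 0 := by
    rintro rfl
    rw [map_zero] at hhAK
    exact hA0 hhAK.symm
  have hBK0 : hBK ≠ 0 := by
    rintro rfl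
    rw [map_zero] at hhBK
    exact hB0 hhBK.symm
  have hnα : normAlphaK K N q fK = hAK ^ (p ^ k) := by
    have := normAlphaK_eq_of_lev K N q hq hqN (fK := fK) (hAK := hAK) (cAK := 1) (e := p ^ k)
      (by rw [map_one, map_one, one_mul, hfK, hhAK]; exact hnA)
    rwa [map_one, one_mul] at this
  have hnβ : normBetaK K N q fK = hBK ^ (p ^ k) := by
    have := normBetaK_eq_of_lev K N q hq hqN (fK := fK) (hBK := hBK) (cBK := 1) (e := p ^ k)
      (by rw [map_one, map_one, one_mul, hfK, hhBK]; exact hnB)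
    rwa [map_one, one_mul] at this
  have hdivK : ∀ Q : Place (Lvl K) (FF (Lvl K) (N * q)), ((p ^ k : ℕ) : ℤ) ∣ Q.ord fK :=
    Fermat.Agent.P3G.Glue.LevelDict.dvd_ord_of_dvd_ord_bar (N * q) K fK _ (by
      rw [hfK]
      exact hdiv)
  have hratK : ∀ Q : Place (Lvl K) (FF (Lvl K) (N * q)), Q.ord fK ≠ 0 →
      Function.Bijective (algebraMap (Lvl K) Q.ResidueField) :=
    Fermat.Agent.P3G.Glue.LevelDict.bijective_of_ord_ne_zero (N * q) K fK (fun P hP =>
      (hK₃ K h3).2 P (by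
        rw [Finsupp.mem_support_iff, hD P, ← hfK]
        exact hP))
  exact hK₁ K hK h1 fK hAK hBK hfK hhAK hhBK hfK0 hAK0 hBK0 hnα hnβ hdivK hratK

/-- **(NEW-J), root form over `Q̄` with slack `0`, from the provider-friendly regularity input.** -/
theorem newRootAt_of_levelKOrd (hq : q.Prime) (hqN : ¬ q ∣ N) {p : ℕ} (hp : p ≠ 0)
    {A : ValuationSubring Qbar} (hA : A.LiesOverPrime q) {τ σ' : Γ} {a : ℤ} {k : ℕ}
    (h : NewLevelKOrdAt N q p A τ σ' a k) : NewRootAt N q p 0 τ σ' a k :=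
  newRootAt_of_levelOrd hq hA hp (newLevelOrdAt_of_levelK hq hqN hp h)

end Descent

/-! ### The single target of STEP L -/

/-- **`NewJOfRoot.NewRootInertia N' p 0` from the geometric input at good levels**: for all `m`, all
places `P ∣ p`, all `σ', τ ∈ I_P` and all `a` with `τ = (·)^a` on `μ_{p^m}`, the provider-friendly
regularity statement `NewLevelKOrdAt N' p p P τ σ' a m`. -/
theorem newRootInertia_of_levelKOrd (N' p : ℕ) [NeZero N'] [NeZero p] (hp : p.Prime)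
    (hpN' : ¬ p ∣ N')
    (h : ∀ (m : ℕ) (P : ValuationSubring Qbar), P.LiesOverPrime p →
      ∀ σ' ∈ P.inertiaSubgroupIn ℚ, ∀ τ ∈ P.inertiaSubgroupIn ℚ, ∀ a : ℕ,
        (∀ μ : Qbar, μ ^ p ^ m = 1 → τ μ = μ ^ a) → NewLevelKOrdAt N' p p P τ σ' (a : ℤ) m) :
    Fermat.Agent.S33.New.NewJOfRoot.NewRootInertia N' p 0 :=
  fun m P hP σ' hσ' τ hτ a ha =>
    newRootAt_of_levelKOrd hp hpN' hp.ne_zero hP (h m P hP σ' hσ' τ hτ a ha)

end Fermat.Agent.S33.L.LevelOrd
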