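/-
S33, `moonshots` row 61, STEP L (helper12): **THE ASSEMBLY AT ONE GOOD LEVEL.**

`Skeleton.exists_section` instantiated at a good level `K` (place `A ∣ p`), level `M p`, `p ∤ M`, with the
vertical data of helper6's `PointsUniform.levelData_of_secondVal` (`V₁ = gaussVS`, `V₂ = S₂.V`), the two
charts `jF`, `jF⁻¹`, `τ = levelFF K _ (M p) τ`, `h = σ'_K f_K / f_K`, `e = p ^ k`:

* the `τ`-data of the skeleton (`τ ϖ = ϖ · unit`, `τ` preserves the units at the closed points of the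
  special fibres, `τ η = η ^ a` on roots of unity of `K`, `Compat`, stability of `centredSet`);
* (LG) at every closed point = helper5's `FirstDiffLevel.exists_localGen_fdK`;
* the horizontal computation `ord_Q (τ h / h ^ a) = p ^ k · Ez Q`;
* `exists_ord_twNewK_le` : from (B-out) for `h`, (K-out) and (G-out) at the level:
  `∃ g ≠ 0, ∀ Q, ord_Q (twNewK … f_K) ≤ p ^ k · ord_Q g`;
* `newLevelKOrdAt_of_providers` : `Contracts.BProv + KProv + GProv ⇒ LevelOrd.NewLevelKOrdAt`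
  (`K₁ = ℚ(ζ_{p^k})`);
* **`newRootInertia_of_providers`** : the single target of STEP L, `NewJOfRoot.NewRootInertia N' p 0`, from
  the three providers.
-/
import Mathlib
import Fermat.Agent.S33.L.Contracts
import Fermat.Agent.S33.L.PointsUniform
import Fermat.Agent.S33.L.NewAtLevel
import Fermat.Agent.S33.L.LevelOrd
import Fermat.Agent.S33.L.CycloLevelInst
import Fermat.Agent.S33.New.ChartTwist

set_option autoImplicit false
set_option linter.unusedSectionVars false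
set_option linter.dupNamespace false
set_option linter.style.haveILetI false

open ModularCurve AlgebraicCurve IntermediateField

noncomputable section

namespace Fermat.Agent.S33.L.Main

open Fermat.Agent.N4.Setting Fermat.Agent.N4.Chart Fermat.Agent.N4.S18Glue Fermat.Agent.N4.BigDVR
  Fermat.Agent.P3G.Cover.Lift Fermat.Agent.P3G.Assembly.PowCover
  Fermat.Agent.P3G.Assembly.LevelStep Fermat.Agent.P3G.Assembly.LevelGeomOfPoints
  Fermat.Agent.P3G.Gamma Fermat.Agent.P3G.GammaAut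
  Fermat.Agent.P3G.SecondDiff Fermat.Agent.P3G.UCrit
  Fermat.Agent.N4F.C Fermat.Agent.N4F.C.Levels Fermat.Agent.N4F.C.Galois
  Fermat.Agent.N4F.E.GaussDVR
  Fermat.Agent.P4.TwistRoots Fermat.Agent.P4.FrobStep Fermat.Agent.P4.FrobLevelStep
  Fermat.Agent.G.Points Fermat.Agent.G.PointsLoc
  Fermat.Agent.S33.New.FirstDiff Fermat.Agent.S33.New.FirstDiffLevel Fermat.Agent.S33.New.ChartTwist
  Fermat.Agent.S33.L.Skeleton Fermat.Agent.S33.L.Contracts Fermat.Agent.S33.L.Descent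
open Fermat.Agent.S24.PlaceDeriv (ResidueTrivial)

local notation "Qbar" => AlgebraicClosure ℚ
local notation "Γ" => (AlgebraicClosure ℚ ≃ₐ[ℚ] AlgebraicClosure ℚ)

/-! ### Rational places -/

/-- A place whose residue field is `K` has trivial residue field extension. -/
theorem residueTrivial_of_bijective {K F : Type*} [Field K] [Field F] [Algebra K F] {v : Place K F}
    (h : Function.Bijective (algebraMap K v.ResidueField)) : ResidueTrivial v := by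
  intro u
  obtain ⟨c, hc⟩ := h.2 (IsLocalRing.residue v.toValuationSubring u)
  refine ⟨c, ?_⟩
  rw [← IsLocalRing.residue_eq_zero_iff, map_sub, sub_eq_zero, ← hc]
  rfl

/-! ### The `τ`-data at a level -/

section TauData

variable {A : ValuationSubring Qbar} {K : IntermediateField ℚ Qbar}
  {hKs : ∀ (τ : Γ) (x : Qbar), x ∈ K → τ x ∈ K} {N : ℕ} [NeZero N] {σ : Γ}

/-- `τ_K ϖ = ϖ · c`, `c` a unit of `O_K`. -/
theorem exists_smul_unif [IsDiscreteValuationRing ↥(baseRing A K)]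
    (hσ : σ ∈ A.decompositionSubgroup ℚ) {ϖ : ↥(baseRing A K)} (hϖ : Irreducible ϖ)
    (V₁ V₂ : ValuationSubring (FF (Lvl K) N))
    (hO₁ : ∀ x : ↥(baseRing A K), algebraMap ↥(baseRing A K) (FF (Lvl K) N) x ∈ V₁)
    (hO₂ : ∀ x : ↥(baseRing A K), algebraMap ↥(baseRing A K) (FF (Lvl K) N) x ∈ V₂) :
    ∃ c : FF (Lvl K) N, c ∈ V₁ ∧ c ∈ V₂ ∧
      SemilinearAut.toRingAut (levelFF K hKs N σ)
          (algebraMap ↥(baseRing A K) (FF (Lvl K) N) ϖ) =
        algebraMap ↥(baseRing A K) (FF (Lvl K) N) ϖ * c := by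
  have h1 : Irreducible (baseAut K hKs hσ ϖ) :=
    (MulEquiv.irreducible_iff (baseAut K hKs hσ).toMulEquiv).2 hϖ
  obtain ⟨u, hu⟩ := IsDiscreteValuationRing.associated_of_irreducible _ hϖ h1
  refine ⟨algebraMap ↥(baseRing A K) (FF (Lvl K) N) (u : ↥(baseRing A K)), hO₁ _, hO₂ _, ?_⟩
  have h2 := levelFF_smul_algebraMap_base K hKs N hσ ϖ
  rw [← map_mul, hu]
  exact h2

/-- `τ_K` preserves the units at a closed point of the special fibre of a chart. -/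
theorem isUnitAt_smul [IsDiscreteValuationRing ↥(baseRing A K)]
    (hσ : σ ∈ A.decompositionSubgroup ℚ)
    {ϖ : ↥(baseRing A K)} {W : Subring (FF (Lvl K) N)}
    {V₁ V₂ : ValuationSubring (FF (Lvl K) N)} (hV : VertLevel A K hKs N σ ϖ W V₁ V₂)
    (s : FF (Lvl K) N) (hs : levelFF K hKs N σ • s = s)
    [IsFractionRing (chartAlg ↥(baseRing A K) (FF (Lvl K) N) {s}) (FF (Lvl K) N)]
    (hWs : IsSemiGaussRing W
      (algebraMap ↥(baseRing A K) (chartAlg ↥(baseRing A K) (FF (Lvl K) N) {s}) ϖ))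
    (𝔫 : Ideal (chartAlg ↥(baseRing A K) (FF (Lvl K) N) {s}))
    (hϖ𝔫 : algebraMap ↥(baseRing A K) (chartAlg ↥(baseRing A K) (FF (Lvl K) N) {s}) ϖ ∈ 𝔫)
    {x : FF (Lvl K) N} (hx : IsUnitAt 𝔫 x) :
    IsUnitAt 𝔫 (SemilinearAut.toRingAut (levelFF K hKs N σ) x) := by
  have hR := stableUnder_chart (A := A) (hKs := hKs) hσ s hs
  have ht := trivialMod_chart hσ hV s hs hWs
  obtain ⟨a, r, ha, hr, hxa⟩ := hx
  refine ⟨chartEnd (levelFF K hKs N σ) _ hR a, chartEnd (levelFF K hKs N σ) _ hR r,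
    chartEnd_not_mem (levelFF K hKs N σ) _ hR ht 𝔫 hϖ𝔫 a ha,
    chartEnd_not_mem (levelFF K hKs N σ) _ hR ht 𝔫 hϖ𝔫 r hr, ?_⟩
  rw [← algebraMap_chartEnd, ← algebraMap_chartEnd, ← map_mul, hxa]

/-- `τ_K η = η ^ a` on the `e`-th roots of unity of `K`, if `τ = (·) ^ a` on `μ_e(Q̄)`. -/
theorem smul_rootOfUnity (τ : Γ) (a e : ℕ) (h : ∀ μ : Qbar, μ ^ e = 1 → τ μ = μ ^ a) (η : Lvl K)
    (hη : η ^ e = 1) :
    SemilinearAut.toRingAut (levelFF K hKs N τ) (algebraMap (Lvl K) (FF (Lvl K) N) η) =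
      algebraMap (Lvl K) (FF (Lvl K) N) η ^ a := by
  show levelFF K hKs N τ • algebraMap (Lvl K) (FF (Lvl K) N) η = _
  rw [levelFF_smul_algebraMap, ← map_pow]
  congr 1
  apply (algebraMap (Lvl K) Qbar).injective
  rw [algebraMap_levelAut, map_pow]
  apply h
  rw [← map_pow, hη, map_one]

end TauData

/-! ### The assembly at one level -/

section Core

variable (M p : ℕ) [NeZero M] [Fact p.Prime]
  (A : ValuationSubring Qbar)
  (K : IntermediateField ℚ Qbar) (hK : IsGoodLevel A p K)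
  [IsDiscreteValuationRing ↥(baseRing A K)]
  (S₂ : Fermat.Agent.P3G.FibreTwo.SecondVal (Lvl K) M p (baseRing A K))
  (ϖ : ↥(baseRing A K))

set_option maxHeartbeats 1600000 in
set_option synthInstance.maxHeartbeats 400000 in
/-- **The chain at one good level.**  From (B-out) for `h = σ'_K f_K / f_K`, (K-out) and (G-out) at the
level: `𝒪(-div(τ h / h ^ a) / p ^ k)` has a nonzero global section. -/
theorem exists_ord_twNewK_le (hpM : ¬ p ∣ M) (hA : A.LiesOverPrime p) (hϖ : Irreducible ϖ)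
    {σ' τ : Γ} (hσ' : σ' ∈ A.inertiaSubgroupIn ℚ) (hτ : τ ∈ A.inertiaSubgroupIn ℚ) (a k : ℕ)
    (hτμ : ∀ μ : Qbar, μ ^ p ^ k = 1 → τ μ = μ ^ a)
    {fK : FF (Lvl K) (M * p)} (hfK : fK ≠ 0)
    (hdiv : ∀ Q : Place (Lvl K) (FF (Lvl K) (M * p)), ((p ^ k : ℕ) : ℤ) ∣ Q.ord fK)
    (hrat : ∀ Q : Place (Lvl K) (FF (Lvl K) (M * p)), Q.ord fK ≠ 0 →
      Function.Bijective (algebraMap (Lvl K) Q.ResidueField))
    (hB : BOut (gaussVS (Lvl K) (M * p) (baseRing A K)) S₂.V ϖ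
      (fdK K hK.stable (M * p) σ' fK) (p ^ k))
    (hKo : ∃ k₀ : ℕ, KOutLevel A K (M * p) (gaussVS (Lvl K) (M * p) (baseRing A K)) S₂.V ϖ
      (p ^ k) k₀)
    (hG : GOutLevel A K (M * p) (gaussVS (Lvl K) (M * p) (baseRing A K)) S₂.V ϖ) :
    ∃ g : FF (Lvl K) (M * p), g ≠ 0 ∧ ∀ Q : Place (Lvl K) (FF (Lvl K) (M * p)),
      Q.ord (twNewK K hK.stable (M * p) τ σ' (a : ℤ) fK) ≤ ((p ^ k : ℕ) : ℤ) * Q.ord g := by
  classical
  obtain ⟨iIC, iFR, hdata⟩ :=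
    Fermat.Agent.S33.L.PointsUniform.levelData_of_secondVal M p hpM A hA K hK S₂ ϖ hϖ
  obtain ⟨hVσ, hPpσ, hPmσ⟩ := hdata σ' hσ'
  obtain ⟨hVτ, hPpτ, hPmτ⟩ := hdata τ hτ
  have hτD : τ ∈ A.decompositionSubgroup ℚ := mem_decompositionSubgroup_of_mem_inertia hτ
  have he : p ^ k ≠ 0 := pow_ne_zero k (Fact.out : p.Prime).ne_zero
  have he' : ((p ^ k : ℕ) : ℤ) ≠ 0 := Nat.cast_ne_zero.mpr he
  -- the support of `div f_K`
  obtain ⟨S₀, hS₀⟩ :=
    Fermat.Agent.P3G.Glue.LevelDict.exists_finset_ord_ne_zero (M * p) K fK hfK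
  set S : Finset (Place (Lvl K) (FF (Lvl K) (M * p))) := S₀.filter (fun Q => Q.ord fK ≠ 0) with hSdef
  have hS : ∀ Q : Place (Lvl K) (FF (Lvl K) (M * p)), Q.ord fK ≠ 0 → Q ∈ S := fun Q hQ =>
    Finset.mem_filter.mpr ⟨hS₀ Q hQ, hQ⟩
  have hSrat : ∀ Q ∈ S, ResidueTrivial Q := fun Q hQ =>
    residueTrivial_of_bijective (hrat Q (Finset.mem_filter.mp hQ).2)
  -- the divisors
  set gσ := levelFF K hK.stable (M * p) σ' with hgσ
  set gτ := levelFF K hK.stable (M * p) τ with hgτ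
  set E : Place (Lvl K) (FF (Lvl K) (M * p)) → ℤ := fun Q =>
    (gσ⁻¹ • Q).ord fK / ((p ^ k : ℕ) : ℤ) - Q.ord fK / ((p ^ k : ℕ) : ℤ) with hE
  set Ez : Place (Lvl K) (FF (Lvl K) (M * p)) → ℤ := fun Q =>
    E ((tauPerm gτ).symm Q) - a * E Q with hEz
  have hDmul : ∀ Q : Place (Lvl K) (FF (Lvl K) (M * p)),
      Q.ord fK = ((p ^ k : ℕ) : ℤ) * (Q.ord fK / ((p ^ k : ℕ) : ℤ)) := fun Q =>
    (Int.mul_ediv_cancel' (hdiv Q)).symm
  -- finite supports
  have hTfin : {Q : Place (Lvl K) (FF (Lvl K) (M * p)) | Q.ord fK ≠ 0}.Finite :=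
    (Finset.finite_toSet S₀).subset fun Q hQ => hS₀ Q hQ
  have hEfin : (Function.support E).Finite := by
    refine ((hTfin.image (fun Q => gσ • Q)).union hTfin).subset fun Q hQ => ?_
    rw [Function.mem_support] at hQ
    by_cases h1 : Q.ord fK = 0
    · left
      refine ⟨gσ⁻¹ • Q, ?_, smul_inv_smul gσ Q⟩
      intro h2
      apply hQ
      have h2' : (gσ⁻¹ • Q).ord fK = 0 := h2
      simp only [hE, h1, h2', Int.zero_ediv, sub_zero]
    · right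
      exact h1
  have hEzfin : (Function.support Ez).Finite := by
    refine ((hEfin.image (fun Q => gτ • Q)).union hEfin).subset fun Q hQ => ?_
    rw [Function.mem_support] at hQ
    by_cases h1 : E Q = 0
    · left
      refine ⟨gτ⁻¹ • Q, ?_, smul_inv_smul gτ Q⟩
      intro h2
      apply hQ
      have h2' : E ((tauPerm gτ).symm Q) = 0 := h2
      simp only [hEz, h1, h2', mul_zero, sub_zero]
    · right
      exact h1
  -- the vertical data
  have hVp₁ : ∀ r : chartAlg ↥(baseRing A K) (FF (Lvl K) (M * p)) {jF (Lvl K) (M * p)},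
      algebraMap _ (FF (Lvl K) (M * p)) r ∈ gaussVS (Lvl K) (M * p) (baseRing A K) := fun r =>
    hVτ.twoVal.mem₁ (hVτ.semiP.le r)
  have hVp₂ : ∀ r : chartAlg ↥(baseRing A K) (FF (Lvl K) (M * p)) {jF (Lvl K) (M * p)},
      algebraMap _ (FF (Lvl K) (M * p)) r ∈ S₂.V := fun r =>
    hVτ.twoVal.mem₂ (hVτ.semiP.le r)
  have hVm₁ : ∀ r : chartAlg ↥(baseRing A K) (FF (Lvl K) (M * p)) {(jF (Lvl K) (M * p))⁻¹},
      algebraMap _ (FF (Lvl K) (M * p)) r ∈ gaussVS (Lvl K) (M * p) (baseRing A K) := fun r =>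
    hVτ.twoVal.mem₁ (hVτ.semiM.le r)
  have hVm₂ : ∀ r : chartAlg ↥(baseRing A K) (FF (Lvl K) (M * p)) {(jF (Lvl K) (M * p))⁻¹},
      algebraMap _ (FF (Lvl K) (M * p)) r ∈ S₂.V := fun r =>
    hVτ.twoVal.mem₂ (hVτ.semiM.le r)
  have hO₁ : ∀ x : ↥(baseRing A K), algebraMap ↥(baseRing A K) (FF (Lvl K) (M * p)) x ∈
      gaussVS (Lvl K) (M * p) (baseRing A K) := fun x => by
    rw [IsScalarTower.algebraMap_apply ↥(baseRing A K)
      (chartAlg ↥(baseRing A K) (FF (Lvl K) (M * p)) {jF (Lvl K) (M * p)}) (FF (Lvl K) (M * p))]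
    exact hVp₁ _
  have hO₂ : ∀ x : ↥(baseRing A K), algebraMap ↥(baseRing A K) (FF (Lvl K) (M * p)) x ∈
      S₂.V := fun x => by
    rw [IsScalarTower.algebraMap_apply ↥(baseRing A K)
      (chartAlg ↥(baseRing A K) (FF (Lvl K) (M * p)) {jF (Lvl K) (M * p)}) (FF (Lvl K) (M * p))]
    exact hVp₂ _
  obtain ⟨k₀, hKp, hKm⟩ := hKo
  obtain ⟨g, hg0, hg⟩ := exists_section (Lvl K)
    (chartAlg ↥(baseRing A K) (FF (Lvl K) (M * p)) {jF (Lvl K) (M * p)})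
    (chartAlg ↥(baseRing A K) (FF (Lvl K) (M * p)) {(jF (Lvl K) (M * p))⁻¹})
    (gaussVS (Lvl K) (M * p) (baseRing A K)) S₂.V ϖ hVp₁ hVp₂ hVm₁ hVm₂
    hVτ.twoVal.pi_mem₁ hVτ.twoVal.pi_mem₂
    (SemilinearAut.toRingAut gτ) hVτ.val₁ hVτ.val₂
    (exists_smul_unif hτD hϖ _ _ hO₁ hO₂)
    (fun 𝔫 _ hϖ𝔫 x hx => isUnitAt_smul hτD hVτ (jF (Lvl K) (M * p))
      (levelFF_smul_jF K hK.stable (M * p) τ) hVτ.semiP 𝔫 hϖ𝔫 hx)
    (fun 𝔫 _ hϖ𝔫 x hx => isUnitAt_smul hτD hVτ (jF (Lvl K) (M * p))⁻¹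
      (levelFF_smul_jF_inv K hK.stable (M * p) τ) hVτ.semiM 𝔫 hϖ𝔫 hx)
    a (p ^ k) (fun η hη => smul_rootOfUnity τ a (p ^ k) hτμ η hη) he
    (tauPerm gτ) (compat_tauPerm gτ)
    (fun 𝔫 h𝔫 hϖ𝔫 => (hPpτ 𝔫 h𝔫 hϖ𝔫).1) (fun 𝔫 h𝔫 hϖ𝔫 => (hPmτ 𝔫 h𝔫 hϖ𝔫).1)
    E Ez (fun Q => rfl) (fdK K hK.stable (M * p) σ' fK) k₀ hB
    (fun 𝔫 h𝔫 hϖ𝔫 => exists_localGen_fdK hVσ (jF (Lvl K) (M * p)) hVσ.semiP hPpσ hfK he hdiv S hS
      hSrat 𝔫 h𝔫 hϖ𝔫)
    (fun 𝔫 h𝔫 hϖ𝔫 => exists_localGen_fdK hVσ (jF (Lvl K) (M * p))⁻¹ hVσ.semiM hPmσ hfK he hdiv S hS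
      hSrat 𝔫 h𝔫 hϖ𝔫)
    hKp hKm (hG Ez hEzfin)
  refine ⟨g, hg0, fun Q => ?_⟩
  -- the horizontal computation
  have hOM := ordMul_place (K₀ := Lvl K) (F₀ := FF (Lvl K) (M * p))
  have hfd : ∀ Q' : Place (Lvl K) (FF (Lvl K) (M * p)),
      Q'.ord (fd (SemilinearAut.toRingAut gσ) fK) = ((p ^ k : ℕ) : ℤ) * E Q' := by
    intro Q'
    rw [ord_fd hOM (compat_tauPerm gσ) Q' hfK, tauPerm_symm_apply]
    simp only [hE]
    rw [mul_sub, ← hDmul, ← hDmul]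
  have htw : twNewK K hK.stable (M * p) τ σ' (a : ℤ) fK =
      tw (SemilinearAut.toRingAut gτ) a (fd (SemilinearAut.toRingAut gσ) fK) := by
    rw [twNewK_eq, zpow_natCast]
    rfl
  rw [htw, ord_tw hOM (compat_tauPerm gτ) Q a (fd_ne_zero _ hfK), hfd, hfd]
  have h1 : ((p ^ k : ℕ) : ℤ) * E ((tauPerm gτ).symm Q) - a * (((p ^ k : ℕ) : ℤ) * E Q) =
      ((p ^ k : ℕ) : ℤ) * Ez Q := by
    simp only [hEz]
    ring
  rw [h1]
  exact mul_le_mul_of_nonneg_left (hg Q) (Nat.cast_nonneg _)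

end Core

/-! ### From the providers to the target of STEP L -/

section Final

open Fermat.Agent.S33.L.LevelOrd

/-- **The regularity statement at good levels from the three providers.** -/
theorem newLevelKOrdAt_of_providers (M p : ℕ) [NeZero M] [NeZero p] [Fact p.Prime] (hpM : ¬ p ∣ M)
    (A : ValuationSubring Qbar) (hA : A.LiesOverPrime p)
    {σ' τ : Γ} (hσ' : σ' ∈ A.inertiaSubgroupIn ℚ) (hτ : τ ∈ A.inertiaSubgroupIn ℚ) (a k : ℕ)
    (hτμ : ∀ μ : Qbar, μ ^ p ^ k = 1 → τ μ = μ ^ a)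
    (hBp : BProv M p A k σ') (hKp : KProv M p A k) (hGp : GProv M p A) :
    NewLevelKOrdAt M p p A τ σ' (a : ℤ) k := by
  classical
  intro f hA' hB' hf hdiv hnA hnB
  have hp : p.Prime := Fact.out
  have hpk : 0 < p ^ k := Nat.pos_of_ne_zero (pow_ne_zero k hp.ne_zero)
  -- a primitive `p ^ k`-th root of unity and the number field it generates
  haveI : NeZero ((p : ℕ) : Qbar) := ⟨Nat.cast_ne_zero.mpr hp.ne_zero⟩
  obtain ⟨ζ, hζ⟩ := HasEnoughRootsOfUnity.exists_primitiveRoot Qbar (p ^ k)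
  have hζint : IsIntegral ℚ ζ := (hζ.isIntegral hpk).tower_top
  refine ⟨IntermediateField.adjoin ℚ {ζ}, IntermediateField.adjoin.finiteDimensional hζint,
    fun K hK hle fK hAK hBK _ _ _ hfK0 hAK0 hBK0 hnα hnβ hdivK hratK => ?_⟩
  haveI := hK.dvr
  have hζK : ζ ∈ K := hle (IntermediateField.mem_adjoin_simple_self ℚ ζ)
  obtain ⟨z, hz, -⟩ := Fermat.Agent.S33.L.CycloLevelInst.exists_primitiveRoot_baseRing A K hpk hζ hζK
  obtain ⟨S₂⟩ := Fermat.Agent.S33.L.PointsUniform.nonempty_secondVal_lvl M p hpM A hA K hK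
  obtain ⟨ϖ, hϖ⟩ := IsDiscreteValuationRing.exists_irreducible ↥(baseRing A K)
  exact exists_ord_twNewK_le M p A K hK S₂ ϖ hpM hA hϖ hσ' hτ a k hτμ hfK0 hdivK hratK
    (hBp K hK S₂ ϖ hϖ fK hAK hBK hfK0 hAK0 hBK0 hnα hnβ)
    (hKp K hK S₂ ϖ hϖ ⟨z, hz⟩) (hGp K hK S₂ ϖ hϖ)

/-- **THE TARGET OF STEP L from the three providers**: `NewRootInertia N' p 0`. -/
theorem newRootInertia_of_providers (N' p : ℕ) [NeZero N'] [NeZero p] [Fact p.Prime]
    (hpN' : ¬ p ∣ N')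
    (hBp : ∀ (A : ValuationSubring Qbar), A.LiesOverPrime p → ∀ σ' ∈ A.inertiaSubgroupIn ℚ,
      ∀ k : ℕ, BProv N' p A k σ')
    (hKp : ∀ (A : ValuationSubring Qbar), A.LiesOverPrime p → ∀ k : ℕ, KProv N' p A k)
    (hGp : ∀ (A : ValuationSubring Qbar), A.LiesOverPrime p → GProv N' p A) :
    Fermat.Agent.S33.New.NewJOfRoot.NewRootInertia N' p 0 :=
  newRootInertia_of_levelKOrd N' p Fact.out hpN' fun m P hP σ' hσ' _ hτ a ha =>
    newLevelKOrdAt_of_providers N' p hpN' P hP hσ' hτ a m ha (hBp P hP σ' hσ' m) (hKp P hP m)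
      (hGp P hP)

end Final

end Fermat.Agent.S33.L.Main
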