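/-
S33 / row 61, STEP B, the level instance (helper18): **(B-out) at a level `(K, O)` of block E.**

`V₁ = gaussVS K (N ℓ) O`, `V₂ = S.V` (`S : SecondVal K N ℓ O`), `ϖ` a uniformiser of `O`.  For a NEW
`h ∈ FF K (N ℓ)^×` (`N_α h = g'^e`, `N_β h = g''^e`, constants normalised), unit at both valuations, which
is an `e`-th power modulo `ϖ` at both valuations (base case), `L/Skeleton.BOut V₁ V₂ ϖ h e` holds:
for every `m` there is ONE global `G`, unit at both `V_i`, with `h / G^e ≡ 1` mod `ϖ^m (V₁ ∩ V₂)`.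

= `New/NormResidueM.nr_alpha/nr_beta` (the contraction estimate (NR-m))
  + `L/PingPongAbs.bOut_of_pingpong` (helper10, the abstract induction)
  + `L/TwoValCRT.exists_bOutAt_of_div` (helper7, CRT modulo `ϖ^m`).
-/
import Mathlib
import Fermat.Agent.S33.New.NormResidueM
import Fermat.Agent.S33.L.PingPongAbs
import Fermat.Agent.S33.L.TwoValCRT

set_option autoImplicit false
set_option linter.unusedSectionVars false
set_option linter.style.haveILetI false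
set_option linter.style.longLine false

open ModularCurve AlgebraicCurve
open Fermat.Agent.S28.Gauss Fermat.Agent.N4.Setting Fermat.Agent.N4.FibreEmbedding
open Fermat.Agent.N4F.E.DegreeLevelRaise Fermat.Agent.N4F.E.GaussDVR
open Fermat.Agent.N4F.E Fermat.Agent.P3G.SecondValuation
open Fermat.Agent.S33.New.NormValuation Fermat.Agent.S33.New.NormResidueM
open Fermat.Agent.S33.L.Skeleton

noncomputable section

namespace Fermat.Agent.S33.L.BOutLevel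

section Disc

variable {L : Type*} [Field L]

/-- From the factorisation shape of discreteness to the `zpow` shape. -/
theorem zpow_of_hdisc (V : ValuationSubring L) {ϖ : L}
    (hdisc : ∀ x ∈ V, x ≠ 0 → ∃ (k : ℕ) (u : L), u ∈ V ∧ u⁻¹ ∈ V ∧ x = ϖ ^ k * u) :
    ∀ b : L, b ≠ 0 → ∃ n : ℤ, V.valuation b = V.valuation ϖ ^ n := by
  have key : ∀ x ∈ V, x ≠ 0 → ∃ k : ℕ, V.valuation x = V.valuation ϖ ^ k := by
    intro x hx hx0
    obtain ⟨k, u, hu, hu', rfl⟩ := hdisc x hx hx0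
    refine ⟨k, ?_⟩
    have hu0 : u ≠ 0 := by
      rintro rfl
      rw [mul_zero] at hx0
      exact hx0 rfl
    have h1 : V.valuation u ≤ 1 := (V.valuation_le_one_iff u).2 hu
    have h2 : V.valuation u⁻¹ ≤ 1 := (V.valuation_le_one_iff _).2 hu'
    rw [map_inv₀] at h2
    have h3 : 0 < V.valuation u := by rw [Valuation.pos_iff]; exact hu0
    have h4 : V.valuation u = 1 := le_antisymm h1 ((inv_le_one₀ h3).mp h2)
    rw [map_mul, map_pow, h4, mul_one]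
  intro b hb
  rcases V.mem_or_inv_mem b with h | h
  · obtain ⟨k, hk⟩ := key b h hb
    exact ⟨k, by rw [hk, zpow_natCast]⟩
  · obtain ⟨k, hk⟩ := key b⁻¹ h (inv_ne_zero hb)
    refine ⟨-k, ?_⟩
    rw [map_inv₀] at hk
    rw [zpow_neg, zpow_natCast, ← hk, inv_inv]

end Disc

variable (K : Type) [Field K] [CharZero K] (N : ℕ) [NeZero N] (ℓ : ℕ) [Fact ℓ.Prime]
  (O : Subring K) [IsDiscreteValuationRing ↥O] [IsFractionRing ↥O K]
  (S : SecondVal K N ℓ O) [CharP (IsLocalRing.ResidueField ↥O) ℓ]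
  (ι : K →+* ℂ) (hℓN : ¬ ℓ ∣ N)
  (hA2 : ∀ x : gaussSubalgebra K N O,
    theta K N O x ∈ modularFunctionFieldFullC (IsLocalRing.ResidueField ↥O) N)

theorem algebraMap_base (M : ℕ) (a : ↥O) :
    algebraMap ↥O (FF K M) a = algebraMap K (FF K M) (a : K) := rfl

include ι hℓN hA2 in
/-- (NRα) in the shape of `L/PingPongAbs`. -/
theorem nrAlpha_congr {ϖ : ↥O} (hϖ : Irreducible ϖ) :
    ∀ m : ℕ, 1 ≤ m → ∀ b : FF K (N * ℓ), b ≠ 0 → CongrMod S.V ϖ m b 1 →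
      CongrMod (gaussVS K (N * ℓ) O) ϖ (m + 1)
        ((alphaF K N ℓ : FF K N →+* FF K (N * ℓ))
          (Fermat.Agent.P4.FrobStep.normAlong (alphaF K N ℓ) b) / b) 1 := by
  intro m hm b hb hcong
  obtain ⟨z, hz, hzb⟩ := nr_alpha K N ℓ O S ι hℓN hA2 hϖ hm hb hcong
  refine ⟨z, hz, ?_⟩
  have h1 : (alphaF K N ℓ : FF K N →+* FF K (N * ℓ))
      (Fermat.Agent.P4.FrobStep.normAlong (alphaF K N ℓ) b) =
      b * (1 + algebraMap K (FF K (N * ℓ)) (ϖ : K) ^ (m + 1) * z) := hzb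
  rw [h1, algebraMap_base]
  field_simp
  ring

include ι hℓN hA2 in
/-- (NRβ) in the shape of `L/PingPongAbs`. -/
theorem nrBeta_congr {ϖ : ↥O} (hϖ : Irreducible ϖ)
    (hdisc : ∀ b : FF K (N * ℓ), b ≠ 0 → ∃ n : ℤ, S.V.valuation b =
      S.V.valuation (algebraMap K (FF K (N * ℓ)) (ϖ : K)) ^ n) :
    ∀ m : ℕ, 1 ≤ m → ∀ b : FF K (N * ℓ), b ≠ 0 → CongrMod (gaussVS K (N * ℓ) O) ϖ m b 1 →
      CongrMod S.V ϖ (m + 1)
        ((betaF K N ℓ : FF K N →+* FF K (N * ℓ))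
          (Fermat.Agent.P4.FrobStep.normAlong (betaF K N ℓ) b) / b) 1 := by
  intro m hm b hb hcong
  obtain ⟨z, hz, hzb⟩ := nr_beta K N ℓ O S ι hℓN hA2 hϖ hdisc hm hb hcong
  refine ⟨z, hz, ?_⟩
  have h1 : (betaF K N ℓ : FF K N →+* FF K (N * ℓ))
      (Fermat.Agent.P4.FrobStep.normAlong (betaF K N ℓ) b) =
      b * (1 + algebraMap K (FF K (N * ℓ)) (ϖ : K) ^ (m + 1) * z) := hzb
  rw [h1, algebraMap_base]
  field_simp
  ring

include ι hℓN hA2 in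
/-- **(B-out) at a level**: a new `h`, unit at both vertical valuations and an `e`-th power modulo
`ϖ` at both, has for every `m` one global approximate `e`-th root `G` modulo `ϖ^m (V₁ ∩ V₂)`. -/
theorem bOut_level {ϖ : ↥O} (hϖ : Irreducible ϖ)
    (hdisc : ∀ b : FF K (N * ℓ), b ≠ 0 → ∃ n : ℤ, S.V.valuation b =
      S.V.valuation (algebraMap K (FF K (N * ℓ)) (ϖ : K)) ^ n)
    {e : ℕ} (he : e ≠ 0) {h : FF K (N * ℓ)} (hh : h ≠ 0)
    (hh₁ : (gaussVS K (N * ℓ) O).valuation h = 1) (hh₂ : S.V.valuation h = 1)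
    (hnα : ∃ g' : FF K N, Fermat.Agent.P4.FrobStep.normAlong (alphaF K N ℓ) h = g' ^ e)
    (hnβ : ∃ g'' : FF K N, Fermat.Agent.P4.FrobStep.normAlong (betaF K N ℓ) h = g'' ^ e)
    (h₁ : ∃ g₁ : FF K (N * ℓ), g₁ ≠ 0 ∧ CongrMod (gaussVS K (N * ℓ) O) ϖ 1 (h / g₁ ^ e) 1)
    (h₂ : ∃ g₂ : FF K (N * ℓ), g₂ ≠ 0 ∧ CongrMod S.V ϖ 1 (h / g₂ ^ e) 1) :
    BOut (gaussVS K (N * ℓ) O) S.V ϖ h e := by
  have hne := unif_ne_zero' K O hϖ (N * ℓ)
  have hϖ₁ : algebraMap ↥O (FF K (N * ℓ)) ϖ ∈ (gaussVS K (N * ℓ) O).nonunits :=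
    unif_mem_nonunits_gaussVS K O hϖ (N * ℓ)
  have hϖ₂ : algebraMap ↥O (FF K (N * ℓ)) ϖ ∈ S.V.nonunits :=
    unif_mem_nonunits_secondVal K N ℓ O S hϖ
  have hA₁ : Fermat.Agent.P4.TwoValApprox.IsArch (gaussVS K (N * ℓ) O) :=
    Fermat.Agent.P4.TwoValApprox.isArch_of_disc _ hne hϖ₁
      (zpow_of_hdisc _ (hdisc_gaussVS K O hϖ (N * ℓ)))
  have hA₂ : Fermat.Agent.P4.TwoValApprox.IsArch S.V :=
    Fermat.Agent.P4.TwoValApprox.isArch_of_disc _ hne hϖ₂ hdisc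
  refine Fermat.Agent.S33.L.PingPongAbs.bOut_of_pingpong (gaussVS K (N * ℓ) O) S.V ϖ
    (alphaF K N ℓ : FF K N →+* FF K (N * ℓ)) (betaF K N ℓ : FF K N →+* FF K (N * ℓ))
    (Fermat.Agent.P4.FrobStep.normAlong (alphaF K N ℓ))
    (Fermat.Agent.P4.FrobStep.normAlong (betaF K N ℓ)) e hϖ₁ hϖ₂
    (nrAlpha_congr K N ℓ O S ι hℓN hA2 hϖ) (nrBeta_congr K N ℓ O S ι hℓN hA2 hϖ hdisc)
    he hh hnα hnβ h₁ h₂ ?_
  intro m hm g₁ g₂ hg₁ hg₂ hc₁ hc₂
  exact Fermat.Agent.S33.L.TwoValCRT.exists_bOutAt_of_div S.ne_gauss.symm hA₁ hA₂ hne hϖ₁ hϖ₂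
    he hm hg₁ hg₂ hh₁ hh₂ hc₁ hc₂

end Fermat.Agent.S33.L.BOutLevel
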