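/-
S33, row 61, STEP B, base case [B0], abstract part (helper10).

`V` a valuation subring of a field `F`, `O → F` a ring of constants inside `V`, `ϖ ∈ O` a
uniformiser of `V` (value group `v(ϖ)^ℤ`), `σ` a ring automorphism of `F` acting
trivially on the residue field of `V`, with `σ ϖ = υ ϖ`, `υ ∈ Oˣ`; every unit of `O` is an `n`-th power
modulo `ϖ` (e.g. the residue field of `O` is algebraically closed).  Then for every `f ≠ 0` the first
difference `σ f / f` is congruent to the `n`-th power of a unit of `O` modulo the maximal ideal of `V`: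

  `exists_unit_pow_sub_mem : ∃ d : Oˣ, σ f / f - algebraMap O F (d ^ n) ∈ V.nonunits`.

(`f = ϖ^t u`, `u ∈ V^×`: `σ f / f = υ^t · σ u / u ≡ υ^t`.)
-/
import Mathlib

set_option autoImplicit false

namespace Fermat.Agent.S33.L.BaseCaseAbs

variable {O F : Type*} [CommRing O] [Field F] [Algebra O F]

/-- In a ring whose quotient by `ϖ` is an algebraically closed field, every unit is an `n`-th power
of a unit modulo `ϖ` (`0 < n`). -/
theorem exists_unit_pow_add_of_isAlgClosed [IsLocalRing O]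
    [IsAlgClosed (IsLocalRing.ResidueField O)] {ϖ : O}
    (hϖ : IsLocalRing.maximalIdeal O = Ideal.span {ϖ}) {n : ℕ} (hn : 0 < n) (u : Oˣ) :
    ∃ (d : Oˣ) (b : O), (u : O) = (d : O) ^ n + ϖ * b := by
  obtain ⟨z, hz⟩ := IsAlgClosed.exists_pow_nat_eq (IsLocalRing.residue O (u : O)) hn
  obtain ⟨d, rfl⟩ := IsLocalRing.residue_surjective z
  have hu : IsLocalRing.residue O (u : O) ≠ 0 := by
    rw [Ne, IsLocalRing.residue_eq_zero_iff, IsLocalRing.mem_maximalIdeal, mem_nonunits_iff,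
      not_not]
    exact u.isUnit
  have hd : IsUnit d := by
    by_contra hd
    have : IsLocalRing.residue O d = 0 := by
      rw [IsLocalRing.residue_eq_zero_iff, IsLocalRing.mem_maximalIdeal]
      exact hd
    rw [this, zero_pow hn.ne'] at hz
    exact hu hz.symm
  have hmem : (u : O) - d ^ n ∈ IsLocalRing.maximalIdeal O := by
    rw [← IsLocalRing.residue_eq_zero_iff, map_sub, map_pow, hz, sub_self]
  rw [hϖ, Ideal.mem_span_singleton'] at hmem
  obtain ⟨b, hb⟩ := hmem
  refine ⟨hd.unit, b, ?_⟩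
  rw [IsUnit.unit_spec, mul_comm, hb]
  ring

variable (V : ValuationSubring F) (ϖ : O)

/-- **The base case of the `U_p`-contraction, abstract form.** -/
theorem exists_unit_pow_sub_mem
    (hO : ∀ a : O, algebraMap O F a ∈ V)
    (hϖ0 : algebraMap O F ϖ ≠ 0)
    (hϖV : algebraMap O F ϖ ∈ V.nonunits)
    (hdisc : ∀ f : F, f ≠ 0 → ∃ t : ℤ, V.valuation f = V.valuation (algebraMap O F ϖ) ^ t)
    (σ : F ≃+* F)
    (htriv : ∀ x ∈ V, σ x - x ∈ V.nonunits)
    (υ : Oˣ) (hσϖ : σ (algebraMap O F ϖ) = algebraMap O F (υ : O) * algebraMap O F ϖ)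
    (n : ℕ) (hroot : ∀ u : Oˣ, ∃ (d : Oˣ) (b : O), (u : O) = (d : O) ^ n + ϖ * b)
    {f : F} (hf : f ≠ 0) :
    ∃ d : Oˣ, σ f / f - algebraMap O F ((d : O) ^ n) ∈ V.nonunits := by
  set π : F := algebraMap O F ϖ with hπ
  obtain ⟨t, ht⟩ := hdisc f hf
  -- `f = π ^ t * u` with `u` a unit of `V`
  set u : F := f / π ^ t with hu
  have hπt : π ^ t ≠ 0 := zpow_ne_zero t hϖ0
  have hfu : f = π ^ t * u := by rw [hu, mul_div_cancel₀ _ hπt]
  have hu0 : u ≠ 0 := div_ne_zero hf hπt
  have hvu : V.valuation u = 1 := by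
    rw [hu, map_div₀, map_zpow₀, ht]
    exact div_self (zpow_ne_zero t ((Valuation.ne_zero_iff _).mpr hϖ0))
  have huV : u ∈ V := (V.valuation_le_one_iff u).1 hvu.le
  have huinvV : u⁻¹ ∈ V := by
    rw [← V.valuation_le_one_iff, map_inv₀, hvu, inv_one]
  -- the unit `υ ^ t` of `O`
  set θ : Oˣ := υ ^ t with hθ
  have hθF : algebraMap O F (θ : O) = (algebraMap O F (υ : O)) ^ t := by
    have h1 : ((Units.map (algebraMap O F).toMonoidHom (υ ^ t) : Fˣ) : F) =
        ((Units.map (algebraMap O F).toMonoidHom υ : Fˣ) : F) ^ t := by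
      rw [map_zpow, Units.val_zpow_eq_zpow_val]
    exact h1
  -- `σ f / f = υ^t · (σ u / u)`
  have hσπt : σ (π ^ t) = (algebraMap O F (υ : O)) ^ t * π ^ t := by
    rw [map_zpow₀, hσϖ, mul_zpow]
  have hdiff : σ f / f = algebraMap O F (θ : O) * (σ u / u) := by
    rw [hθF]
    conv_lhs => rw [hfu]
    rw [map_mul, hσπt]
    field_simp
  -- `σ u / u - 1 ∈ 𝔪_V`
  have h1 : σ u / u - 1 ∈ V.nonunits := by
    have h2 : σ u / u - 1 = (σ u - u) * u⁻¹ := by
      field_simp
    rw [h2, V.mem_nonunits_iff, map_mul]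
    have h3 : V.valuation (σ u - u) < 1 := V.mem_nonunits_iff.1 (htriv u huV)
    have h4 : V.valuation u⁻¹ ≤ 1 := (V.valuation_le_one_iff _).2 huinvV
    exact mul_lt_one_of_lt_of_le h3 h4
  obtain ⟨d, b, hdb⟩ := hroot θ
  refine ⟨d, ?_⟩
  have h5 : σ f / f - algebraMap O F ((d : O) ^ n) =
      algebraMap O F (θ : O) * (σ u / u - 1) + π * algebraMap O F b := by
    rw [hdiff, hdb, hπ]
    simp only [map_add, map_mul, map_pow]
    ring
  rw [h5, V.mem_nonunits_iff]
  refine lt_of_le_of_lt (V.valuation.map_add _ _) (max_lt ?_ ?_)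
  · rw [map_mul, mul_comm]
    exact mul_lt_one_of_lt_of_le (V.mem_nonunits_iff.1 h1) ((V.valuation_le_one_iff _).2 (hO _))
  · rw [map_mul]
    exact mul_lt_one_of_lt_of_le (V.mem_nonunits_iff.1 hϖV) ((V.valuation_le_one_iff _).2 (hO _))

end Fermat.Agent.S33.L.BaseCaseAbs
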