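/-
S33 / row 61 / STEP L slice (helper26): **the base case of STEP B at a good level.**

For an automorphism `τ` acting trivially on the residue field of a discrete valuation ring `V` of a
field `F` (value group generated by `v(π)`, `e = 1`), with `τ π = c π` for a constant unit `c`, and a
ring of constants `O ⊆ V` whose units are `e`-th powers modulo `π`: every first difference `τ b / b`
is `≡ d ^ e (mod π V)` for a constant unit `d`.

* `exists_unit_pow_of_firstDiff` : the abstract statement (Mathlib + `P3G.GammaTame`);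
* `firstDiff_gaussVS`, `firstDiff_secondVal` : the instances at a good level `K` for the Gauss
  valuation `V₁` and the second vertical valuation `V₂ = S.V` of `F_K(N ℓ)`, `τ = levelFF K hK _ σ`,
  `σ` in the inertia group.
-/
import Mathlib
import Fermat.Agent.P3G.GammaV2
import Fermat.Agent.P3G.Assembly.LevelStep

set_option autoImplicit false
set_option linter.unusedSectionVars false
set_option linter.style.haveILetI false

namespace Fermat.Agent.S33.L.BaseCaseFD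

open Fermat.Agent.P3G.GammaTame

section Abstract

variable {F : Type*} [Field F] {V : ValuationSubring F} {τ : F ≃+* F} {π : F} {O : Subring F}

/-- **First differences are `e`-th powers of constant units modulo `π`.** -/
theorem exists_unit_pow_of_firstDiff (hτ : TrivialOnResidue V τ)
    (hπ0 : π ≠ 0) (hram : ∀ x ∈ V.nonunits, x * π⁻¹ ∈ V)
    (hdisc : ∀ b : F, b ≠ 0 → ∃ n : ℤ, V.valuation b = V.valuation π ^ n)
    (hOV : ∀ o ∈ O, o ∈ V) {c : F} (hc : τ π = c * π) (hcO : c ∈ O) (hcO' : c⁻¹ ∈ O)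
    (e : ℕ)
    (hpow : ∀ u ∈ O, u ≠ 0 → u⁻¹ ∈ O → ∃ d ∈ O, d ≠ 0 ∧ d⁻¹ ∈ O ∧ ∃ o ∈ O, u - d ^ e = π * o)
    {b : F} (hb : b ≠ 0) :
    ∃ d ∈ O, d ≠ 0 ∧ d⁻¹ ∈ O ∧ ∃ w ∈ V, τ b / b - d ^ e = π * w := by
  obtain ⟨n, hn⟩ := hdisc b hb
  have hc0 : c ≠ 0 := by
    rintro rfl
    rw [zero_mul] at hc
    exact hπ0 ((map_eq_zero τ).1 hc)
  -- `b = π ^ n * u`, `u` a unit of `V`
  set u : F := b / π ^ n with hu
  have hπn0 : π ^ n ≠ 0 := zpow_ne_zero n hπ0
  have hu0 : u ≠ 0 := div_ne_zero hb hπn0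
  have hvπ0 : V.valuation π ≠ 0 := (Valuation.ne_zero_iff _).2 hπ0
  have huv : V.valuation u = 1 := by
    rw [hu, map_div₀, map_zpow₀, hn, div_self (zpow_ne_zero n hvπ0)]
  have hbu : b = π ^ n * u := by
    rw [hu, mul_div_cancel₀ _ hπn0]
  -- the first difference of `b`
  have hτπn : τ (π ^ n) = c ^ n * π ^ n := by
    rw [map_zpow₀, hc, mul_zpow]
  have hτu0 : τ u ≠ 0 := (map_ne_zero τ).2 hu0
  have hfd : τ b / b = c ^ n * (τ u / u) := by
    rw [hbu, map_mul, hτπn]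
    field_simp
  -- `c ^ n` is a unit of `O`
  have hcn : c ^ n ∈ O ∧ (c ^ n)⁻¹ ∈ O := by
    rcases n with m | m
    · refine ⟨?_, ?_⟩
      · rw [Int.ofNat_eq_natCast, zpow_natCast]
        exact O.pow_mem hcO m
      · rw [Int.ofNat_eq_natCast, zpow_natCast, ← inv_pow]
        exact O.pow_mem hcO' m
    · refine ⟨?_, ?_⟩
      · rw [zpow_negSucc, ← inv_pow]
        exact O.pow_mem hcO' _
      · rw [zpow_negSucc, inv_inv]
        exact O.pow_mem hcO _
  obtain ⟨d, hdO, hd0, hdO', o, hoO, hod⟩ := hpow (c ^ n) hcn.1 (zpow_ne_zero n hc0) hcn.2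
  refine ⟨d, hdO, hd0, hdO', c ^ n * ((τ u / u - 1) * π⁻¹) + o, ?_, ?_⟩
  · exact V.add_mem _ _ (V.mul_mem _ _ (hOV _ hcn.1) (hram _ (hτ.div_sub_one_mem huv)))
      (hOV _ hoO)
  · rw [hfd, mul_add, ← hod]
    field_simp
    ring

/-- In a discrete valuation ring whose maximal ideal is generated by `π`, the value of every nonzero
element is an integral power of `v(π)`. -/
theorem exists_zpow_valuation_of_dvr [IsDiscreteValuationRing ↥V] (hπV : π ∈ V.nonunits)
    (hπ0 : π ≠ 0) (hram : ∀ x ∈ V.nonunits, x * π⁻¹ ∈ V) {b : F} (hb : b ≠ 0) :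
    ∃ n : ℤ, V.valuation b = V.valuation π ^ n := by
  have hπmem : π ∈ V := V.nonunits_subset hπV
  -- `π` is a uniformiser of `V`
  have hirr : Irreducible (⟨π, hπmem⟩ : ↥V) := by
    rw [IsDiscreteValuationRing.irreducible_iff_uniformizer]
    apply le_antisymm
    · intro x hx
      have hx' : (x : F) ∈ V.nonunits := by
        rw [ValuationSubring.mem_nonunits_iff_exists_mem_maximalIdeal]
        exact ⟨x.2, hx⟩
      rw [Ideal.mem_span_singleton]
      refine ⟨⟨(x : F) * π⁻¹, hram _ hx'⟩, Subtype.ext ?_⟩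
      show (x : F) = π * ((x : F) * π⁻¹)
      field_simp
    · rw [Ideal.span_singleton_le_iff_mem]
      have := (ValuationSubring.mem_nonunits_iff_exists_mem_maximalIdeal (A := V) (a := π)).1 hπV
      obtain ⟨h1, h2⟩ := this
      exact h2
  have key : ∀ x : ↥V, x ≠ 0 → ∃ n : ℕ, V.valuation (x : F) = V.valuation π ^ n := by
    intro x hx
    obtain ⟨n, u, hu⟩ := IsDiscreteValuationRing.eq_unit_mul_pow_irreducible hx hirr
    refine ⟨n, ?_⟩
    have h1 : (x : F) = ((u : ↥V) : F) * π ^ n := by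
      have := congrArg (fun z : ↥V => (z : F)) hu
      simpa using this
    rw [h1, map_mul, map_pow, (V.valuation_eq_one_iff (u : ↥V)).1 u.isUnit, one_mul]
  rcases V.mem_or_inv_mem b with h | h
  · obtain ⟨n, hn⟩ := key ⟨b, h⟩ (fun h0 => hb (congrArg Subtype.val h0))
    exact ⟨n, by rw [hn, zpow_natCast]⟩
  · obtain ⟨n, hn⟩ := key ⟨b⁻¹, h⟩ (fun h0 => inv_ne_zero hb (congrArg Subtype.val h0))
    refine ⟨-n, ?_⟩
    have hn' : (V.valuation b)⁻¹ = V.valuation π ^ n := by rw [← map_inv₀]; exact hn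
    rw [zpow_neg, zpow_natCast, ← hn', inv_inv]

end Abstract

/-! ### The instance at a stable level -/

section Level

open AlgebraicCurve ModularCurve
open Fermat.Agent.N4.BigDVR Fermat.Agent.N4.Setting
open Fermat.Agent.N4F.C Fermat.Agent.N4F.C.Levels Fermat.Agent.N4F.C.Galois
open Fermat.Agent.N4.FibreEmbedding Fermat.Agent.N4F.E.DegreeLevelRaise
open Fermat.Agent.N4F.E.GaussDVR
open Fermat.Agent.P3G.Gamma Fermat.Agent.P3G.GammaAut Fermat.Agent.P3G.GammaGauss
  Fermat.Agent.P3G.GammaV2 Fermat.Agent.P3G.FibreTwo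

local notation "Qb" => AlgebraicClosure ℚ
local notation "Γ" => (AlgebraicClosure ℚ ≃ₐ[ℚ] AlgebraicClosure ℚ)

variable (K : IntermediateField ℚ Qb) (hK : ∀ (τ : Γ) (x : Qb), x ∈ K → τ x ∈ K)
  {A : ValuationSubring Qb} [IsDiscreteValuationRing ↥(baseRing A K)]
  [IsAlgClosed (IsLocalRing.ResidueField ↥(baseRing A K))]

theorem algebraMap_base_injective (M : ℕ) [NeZero M] :
    Function.Injective (algebraMap ↥(baseRing A K) (FF (Lvl K) M)) := by
  intro x y hxy
  apply Subtype.ext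
  exact (algebraMap (Lvl K) (FF (Lvl K) M)).injective hxy

/-- Units of `O_K` are `e`-th powers modulo the uniformiser (algebraically closed residue field). -/
theorem exists_unit_pow_sub_eq {ϖ : ↥(baseRing A K)} (hϖ : Irreducible ϖ) {e : ℕ} (he : e ≠ 0)
    (a : (↥(baseRing A K))ˣ) :
    ∃ d : (↥(baseRing A K))ˣ, ∃ o : ↥(baseRing A K),
      (a : ↥(baseRing A K)) - (d : ↥(baseRing A K)) ^ e = ϖ * o := by
  obtain ⟨y, hy⟩ := IsAlgClosed.exists_pow_nat_eq
    (IsLocalRing.residue ↥(baseRing A K) (a : ↥(baseRing A K))) (Nat.pos_of_ne_zero he)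
  obtain ⟨d₀, hd₀⟩ := IsLocalRing.residue_surjective y
  have hy0 : y ≠ 0 := by
    rintro rfl
    rw [zero_pow he] at hy
    exact (IsLocalRing.residue_ne_zero_iff_isUnit _).2 a.isUnit hy.symm
  have hd₀u : IsUnit d₀ := by
    rw [← IsLocalRing.residue_ne_zero_iff_isUnit, hd₀]
    exact hy0
  have hmem : (a : ↥(baseRing A K)) - d₀ ^ e ∈ IsLocalRing.maximalIdeal ↥(baseRing A K) := by
    rw [← IsLocalRing.residue_eq_zero_iff, map_sub, map_pow, hd₀, hy, sub_self]
  rw [hϖ.maximalIdeal_eq, Ideal.mem_span_singleton] at hmem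
  obtain ⟨o, ho⟩ := hmem
  exact ⟨hd₀u.unit, o, ho⟩

set_option maxHeartbeats 1600000 in
set_option synthInstance.maxHeartbeats 400000 in
/-- **Base case of STEP B, general vertical valuation.**  `V` a valuation ring of `F_K(M)` containing
`O_K`, with maximal ideal generated by `ϖ` and value group generated by `v(ϖ)`, on whose residue
field `σ ∈ I_A` acts trivially: every first difference `σ b / b` is `≡ d ^ e (mod ϖ V)` for a unit
`d` of `O_K`. -/
theorem firstDiff_of_trivialOnResidue (M : ℕ) [NeZero M] (V : ValuationSubring (FF (Lvl K) M))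
    {σ : Γ} (hσ : σ ∈ A.inertiaSubgroupIn ℚ)
    (hτ : TrivialOnResidue V (SemilinearAut.toRingAut (levelFF K hK M σ)))
    {ϖ : ↥(baseRing A K)} (hϖ : Irreducible ϖ)
    (hram : ∀ x ∈ V.nonunits, x * (algebraMap ↥(baseRing A K) (FF (Lvl K) M) ϖ)⁻¹ ∈ V)
    (hdisc : ∀ b : FF (Lvl K) M, b ≠ 0 → ∃ n : ℤ,
      V.valuation b = V.valuation (algebraMap ↥(baseRing A K) (FF (Lvl K) M) ϖ) ^ n)
    (hOV : ∀ a : ↥(baseRing A K), algebraMap ↥(baseRing A K) (FF (Lvl K) M) a ∈ V)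
    {e : ℕ} (he : e ≠ 0) {b : FF (Lvl K) M} (hb : b ≠ 0) :
    ∃ d : (↥(baseRing A K))ˣ, ∃ w ∈ V,
      levelFF K hK M σ • b / b -
          algebraMap ↥(baseRing A K) (FF (Lvl K) M) ((d : ↥(baseRing A K)) ^ e) =
        algebraMap ↥(baseRing A K) (FF (Lvl K) M) ϖ * w := by
  have hinj := algebraMap_base_injective K (A := A) M
  have hdec := mem_decompositionSubgroup_of_mem_inertia hσ
  -- `σ ϖ = u ϖ`
  have hirr : Irreducible (baseAut K hK hdec ϖ) :=
    (MulEquiv.irreducible_iff (baseAut K hK hdec)).mpr hϖ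
  obtain ⟨u, hu⟩ := IsDiscreteValuationRing.associated_of_irreducible ↥(baseRing A K) hϖ hirr
  set O : Subring (FF (Lvl K) M) := (algebraMap ↥(baseRing A K) (FF (Lvl K) M)).range with hO
  have hπ0 : algebraMap ↥(baseRing A K) (FF (Lvl K) M) ϖ ≠ 0 := by
    rw [Ne, map_eq_zero_iff _ hinj]
    exact hϖ.ne_zero
  have hunit : ∀ v : (↥(baseRing A K))ˣ,
      algebraMap ↥(baseRing A K) (FF (Lvl K) M) (v : ↥(baseRing A K)) ∈ O ∧
      (algebraMap ↥(baseRing A K) (FF (Lvl K) M) (v : ↥(baseRing A K)))⁻¹ ∈ O := by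
    intro v
    refine ⟨⟨_, rfl⟩, ⟨((v⁻¹ : (↥(baseRing A K))ˣ) : ↥(baseRing A K)), ?_⟩⟩
    apply eq_inv_of_mul_eq_one_left
    rw [← map_mul, Units.inv_mul, map_one]
  have hc : (SemilinearAut.toRingAut (levelFF K hK M σ))
      (algebraMap ↥(baseRing A K) (FF (Lvl K) M) ϖ) =
      algebraMap ↥(baseRing A K) (FF (Lvl K) M) (u : ↥(baseRing A K)) *
        algebraMap ↥(baseRing A K) (FF (Lvl K) M) ϖ := by
    have h1 := levelFF_smul_algebraMap_base K hK M hdec ϖ
    rw [← map_mul, mul_comm, hu]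
    exact h1
  have hne : ∀ v : (↥(baseRing A K))ˣ,
      algebraMap ↥(baseRing A K) (FF (Lvl K) M) (v : ↥(baseRing A K)) ≠ 0 := by
    intro v
    rw [Ne, map_eq_zero_iff _ hinj]
    exact v.ne_zero
  obtain ⟨d, ⟨d₀, hd₀⟩, hd0, ⟨d₁, hd₁⟩, w, hw, hdw⟩ :=
    exists_unit_pow_of_firstDiff (O := O) hτ hπ0 hram hdisc
      (by rintro _ ⟨a, rfl⟩; exact hOV a) hc (hunit u).1 (hunit u).2 e
      (by
        rintro _ ⟨a, rfl⟩ ha0 ⟨a', ha'⟩
        have haa' : a * a' = 1 := by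
          apply hinj
          rw [map_mul, ha', map_one]
          exact mul_inv_cancel₀ ha0
        obtain ⟨dd, o, hdo⟩ := exists_unit_pow_sub_eq K hϖ he (Units.mkOfMulEqOne a a' haa')
        refine ⟨_, (hunit dd).1, hne dd, (hunit dd).2, _, ⟨o, rfl⟩, ?_⟩
        rw [← map_pow, ← map_sub, ← map_mul]
        exact congrArg _ hdo)
      hb
  have hdu : IsUnit d₀ := by
    rw [isUnit_iff_exists_inv]
    refine ⟨d₁, hinj ?_⟩
    have h1 := RingHom.map_mul (algebraMap ↥(baseRing A K) (FF (Lvl K) M)) d₀ d₁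
    have h2 := RingHom.map_one (algebraMap ↥(baseRing A K) (FF (Lvl K) M))
    rw [h1, h2, hd₀, hd₁]
    exact mul_inv_cancel₀ hd0
  refine ⟨hdu.unit, w, hw, ?_⟩
  rw [IsUnit.unit_spec, map_pow, hd₀]
  exact hdw

/-- The uniformiser of `O_K` is a nonunit of the Gauss valuation ring. -/
theorem unif_mem_nonunits_gaussVS (M : ℕ) [NeZero M] {ϖ : ↥(baseRing A K)} (hϖ : Irreducible ϖ) :
    algebraMap ↥(baseRing A K) (FF (Lvl K) M) ϖ ∈ (gaussVS (Lvl K) M (baseRing A K)).nonunits := by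
  rw [mem_nonunits_gaussVS_iff (Lvl K) M (baseRing A K)
    ((gaussSubalgebra (Lvl K) M (baseRing A K)).algebraMap_mem ϖ)]
  exact theta_unif (Lvl K) M (baseRing A K) hϖ

set_option maxHeartbeats 1600000 in
set_option synthInstance.maxHeartbeats 400000 in
/-- **Base case of STEP B at the Gauss valuation `V₁`**: for `σ ∈ I_A` and `b ≠ 0` in `F_K(M)`,
`σ b / b ≡ d ^ e (mod ϖ V₁)` for a unit `d` of `O_K`. -/
theorem firstDiff_gaussVS (M : ℕ) [NeZero M] {σ : Γ} (hσ : σ ∈ A.inertiaSubgroupIn ℚ)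
    {ϖ : ↥(baseRing A K)} (hϖ : Irreducible ϖ) {e : ℕ} (he : e ≠ 0) {b : FF (Lvl K) M}
    (hb : b ≠ 0) :
    ∃ d : (↥(baseRing A K))ˣ, ∃ w ∈ gaussVS (Lvl K) M (baseRing A K),
      levelFF K hK M σ • b / b -
          algebraMap ↥(baseRing A K) (FF (Lvl K) M) ((d : ↥(baseRing A K)) ^ e) =
        algebraMap ↥(baseRing A K) (FF (Lvl K) M) ϖ * w := by
  haveI : IsDiscreteValuationRing ↥(gaussVS (Lvl K) M (baseRing A K)) :=
    isDiscreteValuationRing_gauss (Lvl K) M (baseRing A K)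
  have hπ0 : algebraMap ↥(baseRing A K) (FF (Lvl K) M) ϖ ≠ 0 := by
    rw [Ne, map_eq_zero_iff _ (algebraMap_base_injective K (A := A) M)]
    exact hϖ.ne_zero
  have hram : ∀ x ∈ (gaussVS (Lvl K) M (baseRing A K)).nonunits,
      x * (algebraMap ↥(baseRing A K) (FF (Lvl K) M) ϖ)⁻¹ ∈ gaussVS (Lvl K) M (baseRing A K) :=
    fun x hx => mul_inv_mem_gaussVS K M hϖ hx
  exact firstDiff_of_trivialOnResidue K hK M _ hσ (trivialOnResidue_gaussVS K hK M hσ) hϖ hram
    (fun b hb => exists_zpow_valuation_of_dvr (unif_mem_nonunits_gaussVS K M hϖ) hπ0 hram hb)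
    (fun a => (gaussSubalgebra (Lvl K) M (baseRing A K)).algebraMap_mem a) he hb

variable (N : ℕ) [NeZero N] (ℓ : ℕ) [hℓ : Fact ℓ.Prime]
  (S : SecondVal (Lvl K) N ℓ (baseRing A K))

set_option maxHeartbeats 1600000 in
set_option synthInstance.maxHeartbeats 400000 in
/-- **Base case of STEP B at the second vertical valuation `V₂ = S.V`.** -/
theorem firstDiff_secondVal (hℓN : ¬ ℓ ∣ N) {σ : Γ} (hσ : σ ∈ A.inertiaSubgroupIn ℚ)
    {ϖ : ↥(baseRing A K)} (hϖ : Irreducible ϖ) {e : ℕ} (he : e ≠ 0)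
    {b : FF (Lvl K) (N * ℓ)} (hb : b ≠ 0) :
    ∃ d : (↥(baseRing A K))ˣ, ∃ w ∈ S.V,
      levelFF K hK (N * ℓ) σ • b / b -
          algebraMap ↥(baseRing A K) (FF (Lvl K) (N * ℓ)) ((d : ↥(baseRing A K)) ^ e) =
        algebraMap ↥(baseRing A K) (FF (Lvl K) (N * ℓ)) ϖ * w := by
  refine firstDiff_of_trivialOnResidue K hK (N * ℓ) S.V hσ
    (trivialOnResidue_secondVal K hK N ℓ S hσ) hϖ (S.ram_one ϖ hϖ)
    (fun b hb => exists_zpow_valuation_secondVal K N ℓ S hℓN hϖ hb) (fun a => ?_) he hb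
  have h1 : algebraMap ↥(baseRing A K) (FF (Lvl K) (N * ℓ)) a =
      betaF (Lvl K) N ℓ (algebraMap ↥(baseRing A K) (FF (Lvl K) N) a) := by
    rw [algebraMap_base_eq, algebraMap_base_eq, AlgHom.commutes]
  rw [h1]
  exact S.beta_mem _ ((gaussSubalgebra (Lvl K) N (baseRing A K)).algebraMap_mem a)

end Level

end Fermat.Agent.S33.L.BaseCaseFD
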