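/-
S33, row 61, STEP B, base case [B0] at a good level (helper10).

`K` a `Γ`-stable level with `O_K = baseRing A K` a discrete valuation ring with algebraically closed
residue field, `σ ∈ I_A`, `ϖ` a uniformiser of `O_K`.  For a valuation subring `V` of
`F_K(M) = FF (Lvl K) M` containing `O_K`, with uniformiser `ϖ` and value group `v(ϖ)^ℤ`, on whose
residue field `σ_K = levelFF K hK M σ` acts trivially: for every `f ≠ 0` and `n > 0`

  `∃ d : O_Kˣ, σ_K f / f - d ^ n ∈ 𝔪_V`      (`exists_unit_pow_sub_mem_level`).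

Instances: `V₁ = gaussVS` (any level `M`; `exists_unit_pow_sub_mem_gaussVS`), `V₂ = S.V`
(`S : SecondVal`, level `N ℓ`; `exists_unit_pow_sub_mem_secondVal`), and both at once for the
vertical pair of `GammaVert` (`baseCase_vert`) — the base case of helper8's ruling R4 / (B-out).
-/
import Mathlib
import Fermat.Agent.P3G.GammaVert
import Fermat.Agent.P3G.SecondDiff
import Fermat.Agent.S33.L.BaseCaseAbs

set_option autoImplicit false
set_option linter.unusedSectionVars false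
set_option linter.style.haveILetI false

open AlgebraicCurve ModularCurve
open Fermat.Agent.N4.BigDVR Fermat.Agent.N4.FrobDensity Fermat.Agent.N4.Setting
open Fermat.Agent.N4.Chart Fermat.Agent.N4.FibreEmbedding
open Fermat.Agent.N4F.C Fermat.Agent.N4F.C.Levels Fermat.Agent.N4F.C.LevelCharts
open Fermat.Agent.N4F.C.CoeffAut Fermat.Agent.N4F.C.Galois Fermat.Agent.N4F.C.LevelTheta
open Fermat.Agent.N4F.E.DegreeLevelRaise Fermat.Agent.N4F.E.GaussDVR
open Fermat.Agent.S28.Gauss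

namespace Fermat.Agent.S33.L.BaseCaseVert

open Fermat.Agent.P3G.Gamma Fermat.Agent.P3G.GammaTame Fermat.Agent.P3G.GammaAut
open Fermat.Agent.P3G.GammaGauss Fermat.Agent.P3G.GammaLevelMaps Fermat.Agent.P3G.FibreTwo
open Fermat.Agent.P3G.GammaV2 Fermat.Agent.P3G.GammaVert
open Fermat.Agent.S33.L.BaseCaseAbs

local notation "Γ" => (AlgebraicClosure ℚ ≃ₐ[ℚ] AlgebraicClosure ℚ)

section Level

variable (K : IntermediateField ℚ Qb) (hK : ∀ (τ : Γ) (x : Qb), x ∈ K → τ x ∈ K)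
  {A : ValuationSubring Qb} [IsDiscreteValuationRing ↥(baseRing A K)]

/-- `σ_K ϖ = υ ϖ` with `υ` a unit of `O_K`, for `σ` in the decomposition group. -/
theorem exists_unit_baseAut_eq {τ : Γ} (hτ : τ ∈ A.decompositionSubgroup ℚ)
    {ϖ : ↥(baseRing A K)} (hϖ : Irreducible ϖ) :
    ∃ υ : (↥(baseRing A K))ˣ, baseAut K hK hτ ϖ = (υ : ↥(baseRing A K)) * ϖ := by
  have h1 : Irreducible (baseAut K hK hτ ϖ) :=
    (MulEquiv.irreducible_iff (baseAut K hK hτ)).2 hϖ
  obtain ⟨υ, hυ⟩ := IsDiscreteValuationRing.associated_of_irreducible _ hϖ h1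
  exact ⟨υ, by rw [← hυ, mul_comm]⟩

variable (M : ℕ) [NeZero M]

/-- **The base case of STEP B at a good level**, for one valuation subring `V` of `F_K(M)`. -/
theorem exists_unit_pow_sub_mem_level
    [IsAlgClosed (IsLocalRing.ResidueField ↥(baseRing A K))]
    {σ : Γ} (hσ : σ ∈ A.inertiaSubgroupIn ℚ)
    {ϖ : ↥(baseRing A K)} (hϖ : Irreducible ϖ)
    (V : ValuationSubring (FF (Lvl K) M))
    (hO : ∀ a : ↥(baseRing A K), algebraMap ↥(baseRing A K) (FF (Lvl K) M) a ∈ V)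
    (hϖV : algebraMap ↥(baseRing A K) (FF (Lvl K) M) ϖ ∈ V.nonunits)
    (hdisc : ∀ f : FF (Lvl K) M, f ≠ 0 → ∃ t : ℤ,
      V.valuation f = V.valuation (algebraMap ↥(baseRing A K) (FF (Lvl K) M) ϖ) ^ t)
    (htriv : ∀ x ∈ V, levelFF K hK M σ • x - x ∈ V.nonunits)
    {n : ℕ} (hn : 0 < n) {f : FF (Lvl K) M} (hf : f ≠ 0) :
    ∃ d : (↥(baseRing A K))ˣ,
      levelFF K hK M σ • f / f -
        algebraMap ↥(baseRing A K) (FF (Lvl K) M) ((d : ↥(baseRing A K)) ^ n) ∈ V.nonunits := by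
  have hτ := mem_decompositionSubgroup_of_mem_inertia hσ
  obtain ⟨υ, hυ⟩ := exists_unit_baseAut_eq K hK hτ hϖ
  have hϖ0 : algebraMap ↥(baseRing A K) (FF (Lvl K) M) ϖ ≠ 0 := by
    rw [algebraMap_base_eq K M ϖ, Ne,
      map_eq_zero_iff _ (algebraMap (Lvl K) (FF (Lvl K) M)).injective]
    exact fun h => hϖ.ne_zero (Subtype.ext h)
  have hσϖ : SemilinearAut.toRingAut (levelFF K hK M σ)
      (algebraMap ↥(baseRing A K) (FF (Lvl K) M) ϖ) =
      algebraMap ↥(baseRing A K) (FF (Lvl K) M) (υ : ↥(baseRing A K)) *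
        algebraMap ↥(baseRing A K) (FF (Lvl K) M) ϖ := by
    show levelFF K hK M σ • algebraMap ↥(baseRing A K) (FF (Lvl K) M) ϖ = _
    rw [algebraMap_base_eq K M ϖ, levelFF_smul_algebraMap,
      algebraMap_base_eq K M (υ : ↥(baseRing A K)), ← map_mul]
    congr 1
    have h1 : levelAut K hK σ (ϖ : Lvl K) = ((baseAut K hK hτ ϖ : ↥(baseRing A K)) : Lvl K) := rfl
    rw [h1, hυ]
    rfl
  exact exists_unit_pow_sub_mem V ϖ hO hϖ0 hϖV hdisc
    (SemilinearAut.toRingAut (levelFF K hK M σ)) htriv υ hσϖ n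
    (fun u => exists_unit_pow_add_of_isAlgClosed hϖ.maximalIdeal_eq hn u) hf

/-- **The base case at the Gauss valuation `V₁`** (any level `M`). -/
theorem exists_unit_pow_sub_mem_gaussVS
    [IsAlgClosed (IsLocalRing.ResidueField ↥(baseRing A K))]
    {σ : Γ} (hσ : σ ∈ A.inertiaSubgroupIn ℚ)
    {ϖ : ↥(baseRing A K)} (hϖ : Irreducible ϖ)
    {n : ℕ} (hn : 0 < n) {f : FF (Lvl K) M} (hf : f ≠ 0) :
    ∃ d : (↥(baseRing A K))ˣ,
      levelFF K hK M σ • f / f -
        algebraMap ↥(baseRing A K) (FF (Lvl K) M) ((d : ↥(baseRing A K)) ^ n) ∈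
          (gaussVS (Lvl K) M (baseRing A K)).nonunits := by
  haveI : IsDiscreteValuationRing ↥(gaussVS (Lvl K) M (baseRing A K)) :=
    isDiscreteValuationRing_gauss (Lvl K) M (baseRing A K)
  refine exists_unit_pow_sub_mem_level K hK M hσ hϖ (gaussVS (Lvl K) M (baseRing A K))
    (fun a => (gaussSubalgebra (Lvl K) M (baseRing A K)).algebraMap_mem a)
    (unif_mem_nonunits_gaussVS K A M hϖ) (fun f hf => ?_)
    (trivialOnResidue_gaussVS K hK M hσ) hn hf
  exact Fermat.Agent.P3G.SecondDiff.exists_zpow_of_irreducible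
    (V := gaussVS (Lvl K) M (baseRing A K)) (ϖ := unif (Lvl K) M (baseRing A K) ϖ)
    (irreducible_unif (Lvl K) M (baseRing A K) hϖ) f hf

end Level

section Second

variable (K : IntermediateField ℚ Qb) (hK : ∀ (τ : Γ) (x : Qb), x ∈ K → τ x ∈ K)
  (N : ℕ) [NeZero N] (ℓ : ℕ) [hℓ : Fact ℓ.Prime]
  {A : ValuationSubring Qb} [IsDiscreteValuationRing ↥(baseRing A K)]
  (S : SecondVal (Lvl K) N ℓ (baseRing A K))

/-- **The base case at the second vertical valuation `V₂`** (level `N ℓ`). -/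
theorem exists_unit_pow_sub_mem_secondVal
    [IsAlgClosed (IsLocalRing.ResidueField ↥(baseRing A K))] (hℓN : ¬ ℓ ∣ N)
    {σ : Γ} (hσ : σ ∈ A.inertiaSubgroupIn ℚ)
    {ϖ : ↥(baseRing A K)} (hϖ : Irreducible ϖ)
    {n : ℕ} (hn : 0 < n) {f : FF (Lvl K) (N * ℓ)} (hf : f ≠ 0) :
    ∃ d : (↥(baseRing A K))ˣ,
      levelFF K hK (N * ℓ) σ • f / f -
        algebraMap ↥(baseRing A K) (FF (Lvl K) (N * ℓ)) ((d : ↥(baseRing A K)) ^ n) ∈
          S.V.nonunits :=
  exists_unit_pow_sub_mem_level K hK (N * ℓ) hσ hϖ S.V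
    (algebraMap_mem_secondVal K N ℓ A S)
    (unif_mem_nonunits_secondVal K N ℓ S hϖ)
    (fun _ hf => exists_zpow_valuation_secondVal K N ℓ S hℓN hϖ hf)
    (trivialOnResidue_secondVal K hK N ℓ S hσ) hn hf

/-- **[B0] The base case of STEP B at a good level, both vertical valuations** (`Vvert 0 = V₁`
Gauss, `Vvert 1 = V₂`): `h = σ_K f / f` is, modulo `𝔪_{V_i}`, the `n`-th power of a unit of `O_K`. -/
theorem baseCase_vert
    [IsAlgClosed (IsLocalRing.ResidueField ↥(baseRing A K))] (hℓN : ¬ ℓ ∣ N)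
    {σ : Γ} (hσ : σ ∈ A.inertiaSubgroupIn ℚ)
    {ϖ : ↥(baseRing A K)} (hϖ : Irreducible ϖ)
    {n : ℕ} (hn : 0 < n) {f : FF (Lvl K) (N * ℓ)} (hf : f ≠ 0) :
    (∃ d : (↥(baseRing A K))ˣ,
      levelFF K hK (N * ℓ) σ • f / f -
        algebraMap ↥(baseRing A K) (FF (Lvl K) (N * ℓ)) ((d : ↥(baseRing A K)) ^ n) ∈
          (gaussVS (Lvl K) (N * ℓ) (baseRing A K)).nonunits) ∧
    (∃ d : (↥(baseRing A K))ˣ,
      levelFF K hK (N * ℓ) σ • f / f -
        algebraMap ↥(baseRing A K) (FF (Lvl K) (N * ℓ)) ((d : ↥(baseRing A K)) ^ n) ∈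
          S.V.nonunits) :=
  ⟨exists_unit_pow_sub_mem_gaussVS K hK (N * ℓ) hσ hϖ hn hf,
    exists_unit_pow_sub_mem_secondVal K hK N ℓ S hℓN hσ hϖ hn hf⟩

end Second

end Fermat.Agent.S33.L.BaseCaseVert
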