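/-
S33, row 61, STEP L, slice L-CYCLO part (d) (helper29): **`τ η = η ^ a` on the groups of ambiguities.**

The hypothesis `hη : τB η = η ^ a` of `KummerTwist.approx_twist` / `exists_sub_eq_of_twist` for
`η ∈ CycloLevel.rootGroup u` (a point on one component) and `η ∈ CycloLevel.rootGroupProd u₁ u₂` (a
node), from `τ u = u ^ a` on the generators.  Also the field-level form
(`map_eq_pow_of_pow_eq_one`): if `τ ζ = ζ ^ a` for a primitive `e`-th root of unity `ζ` of a domain,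
then `τ η = η ^ a` for every `η` with `η ^ e = 1`.
-/
import Mathlib
import Fermat.Agent.S33.L.CycloLevel

set_option autoImplicit false
set_option linter.unusedSectionVars false
set_option linter.style.haveILetI false

namespace Fermat.Agent.S33.L.CycloTwist

open Fermat.Agent.S33.L.CycloLevel

section One

variable {D : Type*} [CommRing D]

/-- `τ (u ^ i) = (u ^ i) ^ a` from `τ u = u ^ a`. -/
theorem map_pow_eq_pow {D' : Type*} [CommRing D'] (τ : D →+* D') (ι : D →+* D') {u : D} {a : ℕ}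
    (hu : τ u = ι u ^ a) (i : ℕ) : τ (u ^ i) = ι (u ^ i) ^ a := by
  rw [map_pow, hu, map_pow, ← pow_mul, ← pow_mul, mul_comm]

/-- **(d), one component.**  `τ η = η ^ a` for `η ∈ ⟨u⟩`, `u` of finite order. -/
theorem map_eq_pow_of_mem_rootGroup [IsDomain D] (τ : D →+* D) {u : Dˣ} {m : ℕ} (hm : 0 < m) (hum : u ^ m = 1)
    {a : ℕ} (hu : τ (u : D) = (u : D) ^ a) {η : Dˣ} (hη : η ∈ rootGroup u) :
    τ (η : D) = (η : D) ^ a := by
  obtain ⟨i, rfl⟩ := exists_pow_eq_of_mem_rootGroup' hm hum hη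
  rw [Units.val_pow_eq_pow_val]
  exact map_pow_eq_pow τ (RingHom.id D) hu i

/-- **Field-level form.**  In a domain, if `τ ζ = ζ ^ a` for a primitive `e`-th root of unity `ζ`,
then `τ η = η ^ a` for all `η` with `η ^ e = 1`. -/
theorem map_eq_pow_of_pow_eq_one [IsDomain D] {D' : Type*} [CommRing D'] (τ ι : D →+* D') {e : ℕ}
    (he : e ≠ 0) {ζ : D} (hζ : IsPrimitiveRoot ζ e) {a : ℕ} (hτ : τ ζ = ι ζ ^ a) {η : D}
    (hη : η ^ e = 1) : τ η = ι η ^ a := by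
  haveI : NeZero e := ⟨he⟩
  obtain ⟨i, -, rfl⟩ := hζ.eq_pow_of_pow_eq_one hη
  exact map_pow_eq_pow τ ι hτ i

end One

section Pair

variable {D₁ D₂ : Type*} [CommRing D₁] [IsDomain D₁] [CommRing D₂] [IsDomain D₂]

/-- **(d), node.**  `τB η = η ^ a` for `η ∈ rootGroupProd u₁ u₂`, for a ring endomorphism `τB` of
`D₁ × D₂` acting as the `a`-th power on the two generators `(u₁, 1)`, `(1, u₂)`. -/
theorem map_eq_pow_of_mem_rootGroupProd (τB : D₁ × D₂ →+* D₁ × D₂) {u₁ : D₁ˣ} {u₂ : D₂ˣ} {m : ℕ}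
    (hm : 0 < m) (hu₁ : u₁ ^ m = 1) (hu₂ : u₂ ^ m = 1) {a : ℕ}
    (h₁ : τB ((u₁ : D₁), 1) = ((u₁ : D₁) ^ a, 1)) (h₂ : τB (1, (u₂ : D₂)) = (1, (u₂ : D₂) ^ a))
    {η : (D₁ × D₂)ˣ} (hη : η ∈ rootGroupProd u₁ u₂) :
    τB (η : D₁ × D₂) = (η : D₁ × D₂) ^ a := by
  obtain ⟨x, y, hxy⟩ := exists_pow_pair_of_mem_rootGroupProd hm hu₁ hu₂ hη
  have e1 : (((u₁ : D₁) ^ x, (u₂ : D₂) ^ y) : D₁ × D₂) =
      ((u₁ : D₁), (1 : D₂)) ^ x * ((1 : D₁), (u₂ : D₂)) ^ y := by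
    ext <;> simp
  rw [hxy, e1, map_mul, map_pow, map_pow, h₁, h₂]
  ext <;> simp [← pow_mul, mul_comm]

/-- The same for a componentwise endomorphism `τ₁ × τ₂`. -/
theorem prodMap_eq_pow_of_mem_rootGroupProd (τ₁ : D₁ →+* D₁) (τ₂ : D₂ →+* D₂) {u₁ : D₁ˣ}
    {u₂ : D₂ˣ} {m : ℕ} (hm : 0 < m) (hu₁ : u₁ ^ m = 1) (hu₂ : u₂ ^ m = 1) {a : ℕ}
    (h₁ : τ₁ (u₁ : D₁) = (u₁ : D₁) ^ a) (h₂ : τ₂ (u₂ : D₂) = (u₂ : D₂) ^ a)
    {η : (D₁ × D₂)ˣ} (hη : η ∈ rootGroupProd u₁ u₂) :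
    RingHom.prodMap τ₁ τ₂ (η : D₁ × D₂) = (η : D₁ × D₂) ^ a := by
  refine map_eq_pow_of_mem_rootGroupProd (RingHom.prodMap τ₁ τ₂) hm hu₁ hu₂ ?_ ?_ hη
  · ext
    · simpa using h₁
    · simp
  · ext
    · simp
    · simpa using h₂

end Pair

end Fermat.Agent.S33.L.CycloTwist
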