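/-
S33, `moonshots` row 61, STEP L, leaf L-TRIV (helper27): **inertia acts trivially on the special
fibres of the charts, fixes their closed points and acts on the local rings.**

Setting of STEP T (`New/KummerTwist`): `A = (R_±)_𝔫` the local ring of a chart of a good level at a
closed point `𝔫 ∋ ϖ`, `B` the product of the vertical valuation rings through `𝔫`; the twist lemma
`approx_map`/`approx_twist`/`exists_sub_eq_of_twist` needs ring endomorphisms `τA : A →+* A`,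
`τB : B →+* B` compatible with `A → B` and with `τA ϖ ∈ ϖ A`.  This file produces them.

Abstract part (conventions of `P4/TwistRoots`: `σ : F ≃+* F`, `ρ : R ≃+* R`,
`hρ : ∀ r, algebraMap R F (ρ r) = σ (algebraMap R F r)`):

* `exists_sub_eq_mul_of_twoVal` : `σ` trivial on the residue fields of `V₁ V₂` ⇒ `σ w - w ∈ ϖ W`
  on `W = V₁ ∩ V₂`;
* `dvd_sub_of_semiGauss` : hence `ϖ ∣ ρ r - r` in the chart `R` (saturation of `W` over `R`);
* `mem_iff_of_dvd_sub`, `comap_eq_of_dvd_sub`, `map_eq_of_dvd_sub` : every ideal `𝔫 ∋ ϖ` is fixed;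
* `exists_map_eq_mul` : `ρ ϖ = ϖ * c`;
* `locEquiv ρ 𝔫 hfix : A ≃+* A` for any localisation `A` of `R` at a fixed prime `𝔫`, with
  `locEquiv_algebraMap`, `algebraMap_locEquiv` (it is the restriction of `σ` when `A → F`);
* `locEquiv_comp` : compatibility of two such (e.g. `A = R_𝔫`, `B = R_𝔓 = V_i`);
  `map_algebraMap_of_injective` : compatibility for any `B ⊆ F`; `prodMap_algebraMap` : products;
* `mem_centre_iff_of_stable` : the centre of a `σ`-stable valuation ring is fixed;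
* `approx_locEquiv` : **the consumer form** — `KummerLoc.Approx ϖ j` is stable under `τB`.

Level part (`P3G` vocabulary: `VertLevel`, `chartAut`, `locAlg`), `σ_K = levelFF K hKs N σ`:

* `vertLevel_smul_mem_iff₁/₂`, `vertLevel_smul_mem_W_iff`, `vertLevel_exists_smul_sub_eq`
  (`σ_K w - w ∈ ϖ W`), `vertLevel_dvd_chartAut_sub` (`ϖ ∣ σ_K r - r` on a chart),
  `vertLevel_chartAut_mem_iff` (+ `_rfinAut_`, `_rinfAut_`): every ideal `𝔫 ∋ ϖ` of a chart is fixed;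
* `locAut` : the automorphism `τA` of `locAlg R 𝔫`, `coe_locAut`, `exists_locAut_unif_eq_mul`;
  `vertAut₁/₂` : the automorphisms `τB` of `V₁ V₂`; `vertLevel_chartAut_mem_centre_iff₁/₂`;
* `exists_unit_baseAut_eq`, `exists_unit_levelFF_smul_unif` : `σ ϖ = ϖ · (unit of O_K)`;
* **the `τ`-data of `L/Skeleton.exists_section`, binder by binder**: `vertLevel_exists_unif_mul`
  (`hτϖ`), `vertLevel_isUnitAt_map(_rfin/_rinf)` (`hτUp`, `hτUm`), `levelFF_algebraMap_root` (`hτη`, from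
  `∀ μ : Q̄, μ ^ e = 1 → τ μ = μ ^ a`), `vertLevel_centredSet_symm` (`hCp`, `hCm`; no (Loc-P) needed);
  `hval_i = hV.val_i`, `τP = tauPerm _`, `hτP = compat_tauPerm _`;
* `exists_section_level` : **`Skeleton.exists_section` at a good level with all `τ`-data discharged**
  (remaining inputs: `BOut`, `LGAt`, `KOutAt` on both charts, `GOut`).
-/
import Mathlib
import Fermat.Agent.P3G.GammaTame
import Fermat.Agent.P3G.Cover.Lift
import Fermat.Agent.P3G.Assembly.PowCover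
import Fermat.Agent.P3G.Assembly.LevelGeomOfPoints
import Fermat.Agent.P4.CrossingFrobLevel
import Fermat.Agent.G.PointsLoc
import Fermat.Agent.G.LocPChart
import Fermat.Agent.S33.New.KummerTwist
import Fermat.Agent.S33.New.ChartTwist
import Fermat.Agent.S33.L.Skeleton

set_option autoImplicit false
set_option linter.unusedSectionVars false
set_option linter.style.haveILetI false

namespace Fermat.Agent.S33.L.InertiaTriv

open Fermat.Agent.P3G.GammaTame Fermat.Agent.P3G.Cover.Lift Fermat.Agent.P3G.Assembly.PowCover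

/-! ### Triviality on `W / ϖ W` and on `R / ϖ R` -/

section Trivial

universe u

variable {O : Type*} [CommRing O] {F : Type u} [Field F] [Algebra O F]

/-- `σ` trivial on the residue fields of `V₁` and `V₂` ⇒ `σ w - w ∈ ϖ W` for `w ∈ W = V₁ ∩ V₂`. -/
theorem exists_sub_eq_mul_of_twoVal {π : O} {W : Subring F} {V₁ V₂ : ValuationSubring F}
    (hT : TwoVal π W V₁ V₂) (σ : F ≃+* F)
    (h₁ : ∀ x ∈ V₁, σ x - x ∈ V₁.nonunits) (h₂ : ∀ x ∈ V₂, σ x - x ∈ V₂.nonunits) :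
    ∀ w ∈ W, ∃ w' ∈ W, σ w - w = algebraMap O F π * w' := fun _ hw =>
  hT.exists_eq_mul (h₁ _ (hT.mem₁ hw)) (h₂ _ (hT.mem₂ hw))

/-- `W` is `σ`-stable. -/
theorem mem_of_twoVal {π : O} {W : Subring F} {V₁ V₂ : ValuationSubring F}
    (hT : TwoVal π W V₁ V₂) (σ : F ≃+* F)
    (h₁ : ∀ x ∈ V₁, σ x - x ∈ V₁.nonunits) (h₂ : ∀ x ∈ V₂, σ x - x ∈ V₂.nonunits)
    {w : F} (hw : w ∈ W) : σ w ∈ W := by
  obtain ⟨w', hw', h⟩ := exists_sub_eq_mul_of_twoVal hT σ h₁ h₂ w hw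
  have hπ : algebraMap O F π ∈ W :=
    (hT.mem_iff _).2 ⟨V₁.nonunits_subset hT.pi_mem₁, V₂.nonunits_subset hT.pi_mem₂⟩
  have : σ w = w + algebraMap O F π * w' := by rw [← h]; ring
  rw [this]
  exact W.add_mem hw (W.mul_mem hπ hw')

end Trivial

section Chart

variable {R F : Type*} [CommRing R] [Field F] [Algebra R F]
variable (σ : F ≃+* F) (ρ : R ≃+* R) (hρ : ∀ r : R, algebraMap R F (ρ r) = σ (algebraMap R F r))

include hρ in
/-- **Inertia is trivial on `R / ϖ R`**: if `σ w - w ∈ ϖ W` on a semilocal Gauss ring `W` for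
`(R, ϖ)`, then `ϖ ∣ ρ r - r` in `R`. -/
theorem dvd_sub_of_semiGauss [IsDomain R] {W : Subring F} {ϖ : R} (hW : IsSemiGaussRing W ϖ)
    (hσW : ∀ w ∈ W, ∃ w' ∈ W, σ w - w = algebraMap R F ϖ * w') (r : R) : ϖ ∣ ρ r - r := by
  apply hW.sat
  obtain ⟨w', hw', h⟩ := hσW _ (hW.le r)
  exact ⟨w', hw', by rw [map_sub, hρ, h]⟩

include hρ in
/-- The same with the uniformiser coming from a base ring `O` (the shape of `TwoVal`). -/
theorem dvd_sub_of_semiGauss_base [IsDomain R] {O : Type*} [CommRing O] [Algebra O R] [Algebra O F]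
    [IsScalarTower O R F] {W : Subring F} {π : O} (hW : IsSemiGaussRing W (algebraMap O R π))
    (hσW : ∀ w ∈ W, ∃ w' ∈ W, σ w - w = algebraMap O F π * w') (r : R) :
    algebraMap O R π ∣ ρ r - r :=
  dvd_sub_of_semiGauss σ ρ hρ hW (fun w hw => by
    obtain ⟨w', hw', h⟩ := hσW w hw
    exact ⟨w', hw', by rw [h, IsScalarTower.algebraMap_apply O R F]⟩) r

variable {ρ}

/-- Ideals containing `ϖ` are fixed by an automorphism which is trivial modulo `ϖ`. -/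
theorem mem_iff_of_dvd_sub {ϖ : R} (htriv : ∀ r : R, ϖ ∣ ρ r - r) (𝔫 : Ideal R) (hϖ : ϖ ∈ 𝔫)
    (r : R) : ρ r ∈ 𝔫 ↔ r ∈ 𝔫 := by
  have h : ρ r - r ∈ 𝔫 := 𝔫.mem_of_dvd (htriv r) hϖ
  constructor
  · intro h1
    have := 𝔫.sub_mem h1 h
    rwa [sub_sub_cancel] at this
  · intro h1
    have := 𝔫.add_mem h h1
    rwa [sub_add_cancel] at this

theorem comap_eq_of_dvd_sub {ϖ : R} (htriv : ∀ r : R, ϖ ∣ ρ r - r) (𝔫 : Ideal R) (hϖ : ϖ ∈ 𝔫) :
    𝔫.comap (ρ : R →+* R) = 𝔫 := by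
  ext r
  rw [Ideal.mem_comap]
  exact mem_iff_of_dvd_sub htriv 𝔫 hϖ r

theorem map_eq_of_dvd_sub {ϖ : R} (htriv : ∀ r : R, ϖ ∣ ρ r - r) (𝔫 : Ideal R) (hϖ : ϖ ∈ 𝔫) :
    𝔫.map (ρ : R →+* R) = 𝔫 := by
  conv_lhs => rw [← comap_eq_of_dvd_sub htriv 𝔫 hϖ]
  exact Ideal.map_comap_of_surjective _ ρ.surjective _

/-- The inverse is trivial modulo `ϖ` as well. -/
theorem dvd_symm_sub {ϖ : R} (htriv : ∀ r : R, ϖ ∣ ρ r - r) (r : R) : ϖ ∣ ρ.symm r - r := by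
  have h := htriv (ρ.symm r)
  rw [RingEquiv.apply_symm_apply] at h
  have : ρ.symm r - r = -(r - ρ.symm r) := by ring
  rw [this]
  exact (dvd_neg).2 h

/-- `ρ ϖ = ϖ * c`. -/
theorem exists_map_eq_mul {ϖ : R} (htriv : ∀ r : R, ϖ ∣ ρ r - r) : ∃ c : R, ρ ϖ = ϖ * c := by
  obtain ⟨c, hc⟩ := htriv ϖ
  exact ⟨1 + c, by rw [mul_add, mul_one, ← hc]; ring⟩

end Chart

/-! ### The action on the local rings -/

section Loc

variable {R : Type*} [CommRing R] (ρ : R ≃+* R)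
variable {A : Type*} [CommRing A] [Algebra R A] (𝔫 : Ideal R) [h𝔫 : 𝔫.IsPrime]
  [IsLocalization.AtPrime A 𝔫]

theorem primeCompl_map_eq (hfix : ∀ r : R, ρ r ∈ 𝔫 ↔ r ∈ 𝔫) :
    𝔫.primeCompl.map ρ.toMonoidHom = 𝔫.primeCompl := by
  ext x
  constructor
  · rintro ⟨y, hy, rfl⟩
    exact fun h => hy ((hfix y).1 h)
  · intro hx
    refine ⟨ρ.symm x, fun h => hx ?_, ρ.apply_symm_apply x⟩
    have := (hfix (ρ.symm x)).2 h
    rwa [RingEquiv.apply_symm_apply] at this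

/-- **The automorphism of a localisation `A` of `R` at a `ρ`-fixed prime `𝔫`.** -/
noncomputable def locEquiv (hfix : ∀ r : R, ρ r ∈ 𝔫 ↔ r ∈ 𝔫) : A ≃+* A :=
  IsLocalization.ringEquivOfRingEquiv (M := 𝔫.primeCompl) (T := 𝔫.primeCompl) A A ρ
    (primeCompl_map_eq ρ 𝔫 hfix)

@[simp] theorem locEquiv_algebraMap (hfix : ∀ r : R, ρ r ∈ 𝔫 ↔ r ∈ 𝔫) (r : R) :
    locEquiv (A := A) ρ 𝔫 hfix (algebraMap R A r) = algebraMap R A (ρ r) :=
  IsLocalization.ringEquivOfRingEquiv_eq _ r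

/-- `locEquiv` is the restriction of `σ` when `A` maps to `F`. -/
theorem algebraMap_locEquiv {F : Type*} [Field F] [Algebra R F] [Algebra A F] [IsScalarTower R A F]
    (σ : F ≃+* F) (hρ : ∀ r : R, algebraMap R F (ρ r) = σ (algebraMap R F r))
    (hfix : ∀ r : R, ρ r ∈ 𝔫 ↔ r ∈ 𝔫) (a : A) :
    algebraMap A F (locEquiv (A := A) ρ 𝔫 hfix a) = σ (algebraMap A F a) := by
  have key : (algebraMap A F).comp ((locEquiv (A := A) ρ 𝔫 hfix : A ≃+* A) : A →+* A) =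
      ((σ : F ≃+* F) : F →+* F).comp (algebraMap A F) := by
    apply IsLocalization.ringHom_ext 𝔫.primeCompl
    ext r
    simp only [RingHom.comp_apply, RingEquiv.coe_toRingHom, locEquiv_algebraMap]
    rw [← IsScalarTower.algebraMap_apply R A F, ← IsScalarTower.algebraMap_apply R A F, hρ]
  exact RingHom.congr_fun key a

/-- `τA ϖ = ϖ * c` in the local ring. -/
theorem exists_locEquiv_eq_mul {ϖ : R} (htriv : ∀ r : R, ϖ ∣ ρ r - r)
    (hfix : ∀ r : R, ρ r ∈ 𝔫 ↔ r ∈ 𝔫) :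
    ∃ c : A, locEquiv (A := A) ρ 𝔫 hfix (algebraMap R A ϖ) = algebraMap R A ϖ * c := by
  obtain ⟨c, hc⟩ := exists_map_eq_mul htriv
  exact ⟨algebraMap R A c, by rw [locEquiv_algebraMap, hc, map_mul]⟩

/-- **Compatibility of the automorphisms of two localisations** `A = R_𝔫 → B = R_𝔓`. -/
theorem locEquiv_comp {B : Type*} [CommRing B] [Algebra R B] [Algebra A B] [IsScalarTower R A B]
    (𝔓 : Ideal R) [h𝔓 : 𝔓.IsPrime] [IsLocalization.AtPrime B 𝔓]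
    (hfix : ∀ r : R, ρ r ∈ 𝔫 ↔ r ∈ 𝔫) (hfix' : ∀ r : R, ρ r ∈ 𝔓 ↔ r ∈ 𝔓) (a : A) :
    locEquiv (A := B) ρ 𝔓 hfix' (algebraMap A B a) =
      algebraMap A B (locEquiv (A := A) ρ 𝔫 hfix a) := by
  have key : ((locEquiv (A := B) ρ 𝔓 hfix' : B ≃+* B) : B →+* B).comp (algebraMap A B) =
      (algebraMap A B).comp ((locEquiv (A := A) ρ 𝔫 hfix : A ≃+* A) : A →+* A) := by
    apply IsLocalization.ringHom_ext 𝔫.primeCompl
    ext r
    simp only [RingHom.comp_apply, RingEquiv.coe_toRingHom, locEquiv_algebraMap]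
    rw [← IsScalarTower.algebraMap_apply R A B, ← IsScalarTower.algebraMap_apply R A B,
      locEquiv_algebraMap]
  exact RingHom.congr_fun key a

end Loc

/-! ### Compatibility for rings inside `F`, products -/

section Compat

variable {A B F : Type*} [CommRing A] [CommRing B] [Field F] [Algebra A B] [Algebra A F]
  [Algebra B F] [IsScalarTower A B F]

/-- If `τA` and `τB` are both restrictions of `σ` and `B → F` is injective, then they are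
compatible with `A → B`. -/
theorem map_algebraMap_of_injective (hinj : Function.Injective (algebraMap B F)) (σ : F ≃+* F)
    (τA : A →+* A) (τB : B →+* B) (hA : ∀ a : A, algebraMap A F (τA a) = σ (algebraMap A F a))
    (hB : ∀ b : B, algebraMap B F (τB b) = σ (algebraMap B F b)) (a : A) :
    τB (algebraMap A B a) = algebraMap A B (τA a) := by
  apply hinj
  rw [hB, ← IsScalarTower.algebraMap_apply A B F, ← IsScalarTower.algebraMap_apply A B F, hA]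

end Compat

section Prod

variable {A B₁ B₂ : Type*} [CommRing A] [CommRing B₁] [CommRing B₂] [Algebra A B₁] [Algebra A B₂]

/-- Compatibility for a product `B = B₁ × B₂` (the two branches through a node). -/
theorem prodMap_algebraMap (τA : A →+* A) (τ₁ : B₁ →+* B₁) (τ₂ : B₂ →+* B₂)
    (h₁ : ∀ a : A, τ₁ (algebraMap A B₁ a) = algebraMap A B₁ (τA a))
    (h₂ : ∀ a : A, τ₂ (algebraMap A B₂ a) = algebraMap A B₂ (τA a)) (a : A) :
    (RingHom.prodMap τ₁ τ₂) (algebraMap A (B₁ × B₂) a) = algebraMap A (B₁ × B₂) (τA a) := by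
  rw [Prod.algebraMap_apply, Prod.algebraMap_apply]
  show (τ₁ (algebraMap A B₁ a), τ₂ (algebraMap A B₂ a)) = _
  rw [h₁, h₂]

end Prod

/-! ### Valuation rings -/

section Val

variable {R F : Type*} [CommRing R] [Field F] [Algebra R F]
variable (σ : F ≃+* F) (ρ : R ≃+* R) (hρ : ∀ r : R, algebraMap R F (ρ r) = σ (algebraMap R F r))

/-- A valuation ring whose valuation is `σ`-invariant is `σ`-stable. -/
theorem mem_iff_of_valuation (V : ValuationSubring F)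
    (hval : ∀ x : F, V.valuation (σ x) = V.valuation x) (x : F) : σ x ∈ V ↔ x ∈ V := by
  rw [← V.valuation_le_one_iff, ← V.valuation_le_one_iff, hval]

theorem mem_nonunits_iff_of_valuation (V : ValuationSubring F)
    (hval : ∀ x : F, V.valuation (σ x) = V.valuation x) (x : F) :
    σ x ∈ V.nonunits ↔ x ∈ V.nonunits := by
  rw [ValuationSubring.mem_nonunits_iff, ValuationSubring.mem_nonunits_iff, hval]

include hρ in
/-- **The centre of a `σ`-invariant valuation ring is fixed.** -/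
theorem mem_centre_iff_of_valuation (V : ValuationSubring F)
    (hval : ∀ x : F, V.valuation (σ x) = V.valuation x) (𝔓 : Ideal R)
    (h𝔓 : ∀ r : R, r ∈ 𝔓 ↔ algebraMap R F r ∈ V.nonunits) (r : R) : ρ r ∈ 𝔓 ↔ r ∈ 𝔓 := by
  rw [h𝔓, h𝔓, hρ, mem_nonunits_iff_of_valuation σ V hval]

end Val

/-! ### The consumer form -/

section Consumer

open Fermat.Agent.S33.New.KummerLoc Fermat.Agent.S33.New.KummerTwist

variable {R : Type*} [CommRing R] {ρ : R ≃+* R}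
variable {A B : Type*} [CommRing A] [CommRing B] [Algebra R A] [Algebra A B]
  (𝔫 : Ideal R) [h𝔫 : 𝔫.IsPrime] [IsLocalization.AtPrime A 𝔫]

/-- **STEP T input.**  `ρ` trivial modulo `ϖ`, `𝔫 ∋ ϖ` a prime, `A = R_𝔫`, `τB` an endomorphism of
`B` compatible with the automorphism `locEquiv ρ 𝔫` of `A`: `Approx ϖ j` is `τB`-stable. -/
theorem approx_locEquiv {ϖ : R} (htriv : ∀ r : R, ϖ ∣ ρ r - r) (hϖ : ϖ ∈ 𝔫) (τB : B →+* B)
    (hτ : ∀ a : A, τB (algebraMap A B a) =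
      algebraMap A B (locEquiv (A := A) ρ 𝔫 (mem_iff_of_dvd_sub htriv 𝔫 hϖ) a))
    {j : ℕ} {x : B} (hx : Approx (algebraMap R A ϖ) j x) :
    Approx (algebraMap R A ϖ) j (τB x) :=
  approx_map ((locEquiv (A := A) ρ 𝔫 (mem_iff_of_dvd_sub htriv 𝔫 hϖ) : A ≃+* A) : A →+* A) τB hτ
    (exists_locEquiv_eq_mul ρ 𝔫 htriv _) hx

end Consumer

/-! ### At a good level: the vertical data `VertLevel` -/

section Level

open AlgebraicCurve ModularCurve IntermediateField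
open Fermat.Agent.N4.Setting Fermat.Agent.N4.Chart Fermat.Agent.N4.BigDVR
  Fermat.Agent.N4F.C Fermat.Agent.N4F.C.Levels Fermat.Agent.N4F.C.Galois
  Fermat.Agent.P3G.Gamma Fermat.Agent.P3G.GammaAut
  Fermat.Agent.P3G.Assembly.LevelGeomOfPoints Fermat.Agent.P4.CrossingFrobLevel
  Fermat.Agent.G.PointsLoc

local notation "Qbar" => AlgebraicClosure ℚ
local notation "Γ" => (AlgebraicClosure ℚ ≃ₐ[ℚ] AlgebraicClosure ℚ)

variable {A : ValuationSubring Qbar} {K : IntermediateField ℚ Qbar}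
  {hKs : ∀ (τ : Γ) (x : Qbar), x ∈ K → τ x ∈ K} {N : ℕ} [NeZero N] {σ : Γ}
  {ϖ : ↥(baseRing A K)} {W : Subring (FF (Lvl K) N)} {V₁ V₂ : ValuationSubring (FF (Lvl K) N)}

/-- `σ_K` preserves `V₁`. -/
theorem vertLevel_smul_mem_iff₁ (hV : VertLevel A K hKs N σ ϖ W V₁ V₂) (x : FF (Lvl K) N) :
    levelFF K hKs N σ • x ∈ V₁ ↔ x ∈ V₁ :=
  mem_iff_of_valuation (SemilinearAut.toRingAut (levelFF K hKs N σ)) V₁ hV.val₁ x

/-- `σ_K` preserves `V₂`. -/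
theorem vertLevel_smul_mem_iff₂ (hV : VertLevel A K hKs N σ ϖ W V₁ V₂) (x : FF (Lvl K) N) :
    levelFF K hKs N σ • x ∈ V₂ ↔ x ∈ V₂ :=
  mem_iff_of_valuation (SemilinearAut.toRingAut (levelFF K hKs N σ)) V₂ hV.val₂ x

/-- `σ_K` preserves `W = V₁ ∩ V₂`. -/
theorem vertLevel_smul_mem_W_iff (hV : VertLevel A K hKs N σ ϖ W V₁ V₂) (x : FF (Lvl K) N) :
    levelFF K hKs N σ • x ∈ W ↔ x ∈ W := by
  rw [hV.twoVal.mem_iff, hV.twoVal.mem_iff, vertLevel_smul_mem_iff₁ hV, vertLevel_smul_mem_iff₂ hV]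

/-- **Inertia is trivial on `W / ϖ W`.** -/
theorem vertLevel_exists_smul_sub_eq (hV : VertLevel A K hKs N σ ϖ W V₁ V₂) :
    ∀ w ∈ W, ∃ w' ∈ W, SemilinearAut.toRingAut (levelFF K hKs N σ) w - w =
      algebraMap ↥(baseRing A K) (FF (Lvl K) N) ϖ * w' :=
  exists_sub_eq_mul_of_twoVal hV.twoVal _ hV.triv₁ hV.triv₂

/-- **Inertia is trivial on the special fibre of a chart**: `ϖ ∣ σ_K r - r`. -/
theorem vertLevel_dvd_chartAut_sub (hV : VertLevel A K hKs N σ ϖ W V₁ V₂)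
    (hσ : σ ∈ A.decompositionSubgroup ℚ) (s : FF (Lvl K) N)
    (hs : ∀ τ : Γ, levelFF K hKs N τ • s = s)
    (hsemi : IsSemiGaussRing W
      (algebraMap ↥(baseRing A K) (chartAlg ↥(baseRing A K) (FF (Lvl K) N) {s}) ϖ))
    (r : ↥(chartAlg ↥(baseRing A K) (FF (Lvl K) N) {s})) :
    algebraMap ↥(baseRing A K) (chartAlg ↥(baseRing A K) (FF (Lvl K) N) {s}) ϖ ∣
      chartAut K hKs N hσ s hs r - r :=
  dvd_sub_of_semiGauss_base (SemilinearAut.toRingAut (levelFF K hKs N σ))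
    (chartAut K hKs N hσ s hs) (algebraMap_chartAut K hKs N hσ s hs) hsemi
    (vertLevel_exists_smul_sub_eq hV) r

/-- **Inertia fixes every closed point of the special fibre of a chart** (indeed every ideal
containing `ϖ`). -/
theorem vertLevel_chartAut_mem_iff (hV : VertLevel A K hKs N σ ϖ W V₁ V₂)
    (hσ : σ ∈ A.decompositionSubgroup ℚ) (s : FF (Lvl K) N)
    (hs : ∀ τ : Γ, levelFF K hKs N τ • s = s)
    (hsemi : IsSemiGaussRing W
      (algebraMap ↥(baseRing A K) (chartAlg ↥(baseRing A K) (FF (Lvl K) N) {s}) ϖ))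
    (𝔫 : Ideal ↥(chartAlg ↥(baseRing A K) (FF (Lvl K) N) {s}))
    (hϖ𝔫 : algebraMap ↥(baseRing A K) (chartAlg ↥(baseRing A K) (FF (Lvl K) N) {s}) ϖ ∈ 𝔫)
    (r : ↥(chartAlg ↥(baseRing A K) (FF (Lvl K) N) {s})) :
    chartAut K hKs N hσ s hs r ∈ 𝔫 ↔ r ∈ 𝔫 :=
  mem_iff_of_dvd_sub (vertLevel_dvd_chartAut_sub hV hσ s hs hsemi) 𝔫 hϖ𝔫 r

/-- The finite chart. -/
theorem vertLevel_rfinAut_mem_iff (hV : VertLevel A K hKs N σ ϖ W V₁ V₂)
    (hσ : σ ∈ A.decompositionSubgroup ℚ) (𝔫 : Ideal ↥(Rfin (Lvl K) N (baseRing A K)))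
    (hϖ𝔫 : algebraMap ↥(baseRing A K) ↥(Rfin (Lvl K) N (baseRing A K)) ϖ ∈ 𝔫)
    (r : ↥(Rfin (Lvl K) N (baseRing A K))) : rfinAut K hKs N hσ r ∈ 𝔫 ↔ r ∈ 𝔫 :=
  vertLevel_chartAut_mem_iff hV hσ _ _ hV.semiP 𝔫 hϖ𝔫 r

/-- The chart at infinity. -/
theorem vertLevel_rinfAut_mem_iff (hV : VertLevel A K hKs N σ ϖ W V₁ V₂)
    (hσ : σ ∈ A.decompositionSubgroup ℚ) (𝔫 : Ideal ↥(Rinf (Lvl K) N (baseRing A K)))
    (hϖ𝔫 : algebraMap ↥(baseRing A K) ↥(Rinf (Lvl K) N (baseRing A K)) ϖ ∈ 𝔫)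
    (r : ↥(Rinf (Lvl K) N (baseRing A K))) : rinfAut K hKs N hσ r ∈ 𝔫 ↔ r ∈ 𝔫 :=
  vertLevel_chartAut_mem_iff hV hσ _ _ hV.semiM 𝔫 hϖ𝔫 r

/-! ### The local ring of a chart at a closed point of the special fibre -/

section LocalRing

variable [IsDiscreteValuationRing ↥(baseRing A K)]
  (hV : VertLevel A K hKs N σ ϖ W V₁ V₂) (hσ : σ ∈ A.decompositionSubgroup ℚ)
  (s : FF (Lvl K) N) (hs : ∀ τ : Γ, levelFF K hKs N τ • s = s)
  (hsemi : IsSemiGaussRing W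
    (algebraMap ↥(baseRing A K) (chartAlg ↥(baseRing A K) (FF (Lvl K) N) {s}) ϖ))
  (𝔫 : Ideal ↥(chartAlg ↥(baseRing A K) (FF (Lvl K) N) {s})) [h𝔫 : 𝔫.IsPrime]
  (hϖ𝔫 : algebraMap ↥(baseRing A K) (chartAlg ↥(baseRing A K) (FF (Lvl K) N) {s}) ϖ ∈ 𝔫)

/-- **The automorphism `τA` of the local ring `(R_±)_𝔫`** of a chart at a closed point of the special
fibre induced by an inertia element. -/
noncomputable def locAut :
    ↥(locAlg (chartAlg ↥(baseRing A K) (FF (Lvl K) N) {s}) 𝔫) ≃+*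
      ↥(locAlg (chartAlg ↥(baseRing A K) (FF (Lvl K) N) {s}) 𝔫) :=
  locEquiv (A := ↥(locAlg (chartAlg ↥(baseRing A K) (FF (Lvl K) N) {s}) 𝔫))
    (chartAut K hKs N hσ s hs) 𝔫 (vertLevel_chartAut_mem_iff hV hσ s hs hsemi 𝔫 hϖ𝔫)

theorem locAut_algebraMap (r : ↥(chartAlg ↥(baseRing A K) (FF (Lvl K) N) {s})) :
    locAut hV hσ s hs hsemi 𝔫 hϖ𝔫 (algebraMap _ _ r) =
      algebraMap ↥(chartAlg ↥(baseRing A K) (FF (Lvl K) N) {s})
        ↥(locAlg (chartAlg ↥(baseRing A K) (FF (Lvl K) N) {s}) 𝔫)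
        (chartAut K hKs N hσ s hs r) :=
  locEquiv_algebraMap _ _ _ r

/-- `τA` is the restriction of `σ_K`. -/
theorem coe_locAut (a : ↥(locAlg (chartAlg ↥(baseRing A K) (FF (Lvl K) N) {s}) 𝔫)) :
    ((locAut hV hσ s hs hsemi 𝔫 hϖ𝔫 a :
      ↥(locAlg (chartAlg ↥(baseRing A K) (FF (Lvl K) N) {s}) 𝔫)) : FF (Lvl K) N) =
      levelFF K hKs N σ • (a : FF (Lvl K) N) := by
  haveI : IsScalarTower ↥(chartAlg ↥(baseRing A K) (FF (Lvl K) N) {s})
      ↥(locAlg (chartAlg ↥(baseRing A K) (FF (Lvl K) N) {s}) 𝔫) (FF (Lvl K) N) :=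
    IsScalarTower.of_algebraMap_eq fun _ => rfl
  exact algebraMap_locEquiv (A := ↥(locAlg (chartAlg ↥(baseRing A K) (FF (Lvl K) N) {s}) 𝔫))
    (chartAut K hKs N hσ s hs) 𝔫 (SemilinearAut.toRingAut (levelFF K hKs N σ))
    (algebraMap_chartAut K hKs N hσ s hs) (vertLevel_chartAut_mem_iff hV hσ s hs hsemi 𝔫 hϖ𝔫) a

/-- `τA ϖ = ϖ * c`. -/
theorem exists_locAut_unif_eq_mul :
    ∃ c : ↥(locAlg (chartAlg ↥(baseRing A K) (FF (Lvl K) N) {s}) 𝔫),
      locAut hV hσ s hs hsemi 𝔫 hϖ𝔫 (algebraMap _ _ (algebraMap ↥(baseRing A K)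
        (chartAlg ↥(baseRing A K) (FF (Lvl K) N) {s}) ϖ)) =
      algebraMap ↥(chartAlg ↥(baseRing A K) (FF (Lvl K) N) {s})
        ↥(locAlg (chartAlg ↥(baseRing A K) (FF (Lvl K) N) {s}) 𝔫)
        (algebraMap ↥(baseRing A K) (chartAlg ↥(baseRing A K) (FF (Lvl K) N) {s}) ϖ) * c :=
  exists_locEquiv_eq_mul _ 𝔫 (vertLevel_dvd_chartAut_sub hV hσ s hs hsemi) _

end LocalRing

/-! ### The vertical valuation rings -/

section Vertical

variable (hV : VertLevel A K hKs N σ ϖ W V₁ V₂)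

/-- The automorphism `τB₁` of `V₁` induced by `σ_K`. -/
noncomputable def vertAut₁ : ↥V₁ ≃+* ↥V₁ :=
  restrictEquiv V₁ (SemilinearAut.toRingAut (levelFF K hKs N σ)) (vertLevel_smul_mem_iff₁ hV)

/-- The automorphism `τB₂` of `V₂` induced by `σ_K`. -/
noncomputable def vertAut₂ : ↥V₂ ≃+* ↥V₂ :=
  restrictEquiv V₂ (SemilinearAut.toRingAut (levelFF K hKs N σ)) (vertLevel_smul_mem_iff₂ hV)

@[simp] theorem coe_vertAut₁ (x : ↥V₁) :
    ((vertAut₁ hV x : ↥V₁) : FF (Lvl K) N) = levelFF K hKs N σ • (x : FF (Lvl K) N) := rfl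

@[simp] theorem coe_vertAut₂ (x : ↥V₂) :
    ((vertAut₂ hV x : ↥V₂) : FF (Lvl K) N) = levelFF K hKs N σ • (x : FF (Lvl K) N) := rfl

include hV in
/-- The centre of `V₁` on a chart is fixed by `σ_K`. -/
theorem vertLevel_chartAut_mem_centre_iff₁ (hσ : σ ∈ A.decompositionSubgroup ℚ) (s : FF (Lvl K) N)
    (hs : ∀ τ : Γ, levelFF K hKs N τ • s = s)
    (𝔓 : Ideal ↥(chartAlg ↥(baseRing A K) (FF (Lvl K) N) {s}))
    (h𝔓 : ∀ r : ↥(chartAlg ↥(baseRing A K) (FF (Lvl K) N) {s}),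
      r ∈ 𝔓 ↔ algebraMap _ (FF (Lvl K) N) r ∈ V₁.nonunits)
    (r : ↥(chartAlg ↥(baseRing A K) (FF (Lvl K) N) {s})) :
    chartAut K hKs N hσ s hs r ∈ 𝔓 ↔ r ∈ 𝔓 :=
  mem_centre_iff_of_valuation (SemilinearAut.toRingAut (levelFF K hKs N σ))
    (chartAut K hKs N hσ s hs) (algebraMap_chartAut K hKs N hσ s hs) V₁ hV.val₁ 𝔓 h𝔓 r

include hV in
/-- The centre of `V₂` on a chart is fixed by `σ_K`. -/
theorem vertLevel_chartAut_mem_centre_iff₂ (hσ : σ ∈ A.decompositionSubgroup ℚ) (s : FF (Lvl K) N)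
    (hs : ∀ τ : Γ, levelFF K hKs N τ • s = s)
    (𝔓 : Ideal ↥(chartAlg ↥(baseRing A K) (FF (Lvl K) N) {s}))
    (h𝔓 : ∀ r : ↥(chartAlg ↥(baseRing A K) (FF (Lvl K) N) {s}),
      r ∈ 𝔓 ↔ algebraMap _ (FF (Lvl K) N) r ∈ V₂.nonunits)
    (r : ↥(chartAlg ↥(baseRing A K) (FF (Lvl K) N) {s})) :
    chartAut K hKs N hσ s hs r ∈ 𝔓 ↔ r ∈ 𝔓 :=
  mem_centre_iff_of_valuation (SemilinearAut.toRingAut (levelFF K hKs N σ))
    (chartAut K hKs N hσ s hs) (algebraMap_chartAut K hKs N hσ s hs) V₂ hV.val₂ 𝔓 h𝔓 r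

end Vertical

/-! ### The uniformiser -/

section Unif

variable [IsDiscreteValuationRing ↥(baseRing A K)]

/-- **`σ ϖ = ϖ · (unit of O_K)`** for `σ` in the decomposition group. -/
theorem exists_unit_baseAut_eq {τ : Γ} (hτ : τ ∈ A.decompositionSubgroup ℚ)
    {ϖ : ↥(baseRing A K)} (hϖ : Irreducible ϖ) :
    ∃ u : (↥(baseRing A K))ˣ, baseAut K hKs hτ ϖ = ϖ * u := by
  have hirr : Irreducible (baseAut K hKs hτ ϖ) :=
    (MulEquiv.irreducible_iff (baseAut K hKs hτ)).mpr hϖ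
  obtain ⟨u, hu⟩ := IsDiscreteValuationRing.associated_of_irreducible _ hϖ hirr
  exact ⟨u, hu.symm⟩

/-- The same in the function field of the level. -/
theorem exists_unit_levelFF_smul_unif {τ : Γ} (hτ : τ ∈ A.decompositionSubgroup ℚ)
    {ϖ : ↥(baseRing A K)} (hϖ : Irreducible ϖ) :
    ∃ u : (↥(baseRing A K))ˣ,
      levelFF K hKs N τ • algebraMap ↥(baseRing A K) (FF (Lvl K) N) ϖ =
        algebraMap ↥(baseRing A K) (FF (Lvl K) N) ϖ *
          algebraMap ↥(baseRing A K) (FF (Lvl K) N) (u : ↥(baseRing A K)) := by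
  obtain ⟨u, hu⟩ := exists_unit_baseAut_eq (hKs := hKs) hτ hϖ
  refine ⟨u, ?_⟩
  have h := levelFF_smul_algebraMap_base K hKs N hτ ϖ
  rw [hu, map_mul] at h
  exact h

end Unif

/-! ### The `τ`-data of `L/Skeleton.exists_section` at a good level

`τF := SemilinearAut.toRingAut (levelFF K hKs N τ)`; the binders `hval₁ hval₂` are `hV.val₁ hV.val₂`,
`τP := tauPerm (levelFF K hKs N τ)`, `hτP := compat_tauPerm _`. -/

section SkeletonData

open Fermat.Agent.P4.TwistRoots Fermat.Agent.P3G.UCrit Fermat.Agent.S33.New.ChartTwist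
  Fermat.Agent.S33.L.Skeleton Fermat.Agent.S33.New.FirstDiff Fermat.Agent.P3G.SecondDiff

/-- **`hτϖ`**: `τ ϖ = ϖ c` with `c ∈ V₁ ∩ V₂` (indeed `c ∈ 1 + ϖ W`). -/
theorem vertLevel_exists_unif_mul (hV : VertLevel A K hKs N σ ϖ W V₁ V₂) :
    ∃ c : FF (Lvl K) N, c ∈ V₁ ∧ c ∈ V₂ ∧
      SemilinearAut.toRingAut (levelFF K hKs N σ)
          (algebraMap ↥(baseRing A K) (FF (Lvl K) N) ϖ) =
        algebraMap ↥(baseRing A K) (FF (Lvl K) N) ϖ * c := by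
  have hϖW : algebraMap ↥(baseRing A K) (FF (Lvl K) N) ϖ ∈ W :=
    (hV.twoVal.mem_iff _).2
      ⟨V₁.nonunits_subset hV.twoVal.pi_mem₁, V₂.nonunits_subset hV.twoVal.pi_mem₂⟩
  obtain ⟨w', hw', h⟩ := vertLevel_exists_smul_sub_eq hV _ hϖW
  have h1 : (1 : FF (Lvl K) N) + w' ∈ W := W.add_mem W.one_mem hw'
  refine ⟨1 + w', hV.twoVal.mem₁ h1, hV.twoVal.mem₂ h1, ?_⟩
  rw [mul_add, mul_one, ← h]
  ring

/-- **`hτU`** on a chart: `τ_K` maps units of `R_𝔫` to units of `R_𝔫`, for every ideal `𝔫 ∋ ϖ`. -/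
theorem vertLevel_isUnitAt_map (hV : VertLevel A K hKs N σ ϖ W V₁ V₂)
    (hσ : σ ∈ A.decompositionSubgroup ℚ) (s : FF (Lvl K) N)
    (hs : ∀ τ : Γ, levelFF K hKs N τ • s = s)
    (hsemi : IsSemiGaussRing W
      (algebraMap ↥(baseRing A K) (chartAlg ↥(baseRing A K) (FF (Lvl K) N) {s}) ϖ))
    (𝔫 : Ideal ↥(chartAlg ↥(baseRing A K) (FF (Lvl K) N) {s}))
    (hϖ𝔫 : algebraMap ↥(baseRing A K) (chartAlg ↥(baseRing A K) (FF (Lvl K) N) {s}) ϖ ∈ 𝔫)
    {x : FF (Lvl K) N} (hx : IsUnitAt 𝔫 x) :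
    IsUnitAt 𝔫 (SemilinearAut.toRingAut (levelFF K hKs N σ) x) := by
  refine IsUnitAt.map (SemilinearAut.toRingAut (levelFF K hKs N σ)) (chartAut K hKs N hσ s hs)
    (algebraMap_chartAut K hKs N hσ s hs) ?_
  rw [comap_eq_of_dvd_sub (vertLevel_dvd_chartAut_sub hV hσ s hs hsemi) 𝔫 hϖ𝔫]
  exact hx

/-- **`hτUp`** of `Skeleton.exists_section` (finite chart). -/
theorem vertLevel_isUnitAt_map_rfin (hV : VertLevel A K hKs N σ ϖ W V₁ V₂)
    (hσ : σ ∈ A.decompositionSubgroup ℚ) :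
    ∀ 𝔫 : Ideal ↥(Rfin (Lvl K) N (baseRing A K)), 𝔫.IsMaximal →
      algebraMap ↥(baseRing A K) ↥(Rfin (Lvl K) N (baseRing A K)) ϖ ∈ 𝔫 →
      ∀ x : FF (Lvl K) N, IsUnitAt 𝔫 x →
        IsUnitAt 𝔫 (SemilinearAut.toRingAut (levelFF K hKs N σ) x) :=
  fun 𝔫 _ hϖ𝔫 _ hx =>
    vertLevel_isUnitAt_map hV hσ _ (fun τ => levelFF_smul_jF K hKs N τ) hV.semiP 𝔫 hϖ𝔫 hx

/-- **`hτUm`** of `Skeleton.exists_section` (chart at infinity). -/
theorem vertLevel_isUnitAt_map_rinf (hV : VertLevel A K hKs N σ ϖ W V₁ V₂)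
    (hσ : σ ∈ A.decompositionSubgroup ℚ) :
    ∀ 𝔫 : Ideal ↥(Rinf (Lvl K) N (baseRing A K)), 𝔫.IsMaximal →
      algebraMap ↥(baseRing A K) ↥(Rinf (Lvl K) N (baseRing A K)) ϖ ∈ 𝔫 →
      ∀ x : FF (Lvl K) N, IsUnitAt 𝔫 x →
        IsUnitAt 𝔫 (SemilinearAut.toRingAut (levelFF K hKs N σ) x) :=
  fun 𝔫 _ hϖ𝔫 _ hx =>
    vertLevel_isUnitAt_map hV hσ _ (fun τ => levelFF_smul_jF_inv K hKs N τ) hV.semiM 𝔫 hϖ𝔫 hx

/-- **`hτη`**: if `τ` raises the `e`-th roots of unity of `Q̄` to the power `a`, then `τ_K` raises the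
`e`-th roots of unity of the constant field `Lvl K` to the power `a`. -/
theorem levelFF_algebraMap_root (τ : Γ) (a e : ℕ) (hroot : ∀ μ : Qbar, μ ^ e = 1 → τ μ = μ ^ a) :
    ∀ η : Lvl K, η ^ e = 1 →
      SemilinearAut.toRingAut (levelFF K hKs N τ) (algebraMap (Lvl K) (FF (Lvl K) N) η) =
        algebraMap (Lvl K) (FF (Lvl K) N) η ^ a := by
  intro η hη
  have h1 : levelAut K hKs τ η = η ^ a := by
    apply (algebraMap (Lvl K) Qbar).injective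
    rw [algebraMap_levelAut, map_pow]
    apply hroot
    rw [← map_pow, hη, map_one]
  show levelFF K hKs N τ • algebraMap (Lvl K) (FF (Lvl K) N) η = _
  rw [levelFF_smul_algebraMap, h1, map_pow]

/-- **`hCp`/`hCm`** on a chart: the places centred at a closed point of the special fibre are
permuted by `τ_K⁻¹` (no (Loc-P) needed). -/
theorem vertLevel_centredSet_symm [IsDiscreteValuationRing ↥(baseRing A K)]
    [IsFractionRing ↥(baseRing A K) (Lvl K)] (hV : VertLevel A K hKs N σ ϖ W V₁ V₂)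
    (hσ : σ ∈ A.decompositionSubgroup ℚ) (s : FF (Lvl K) N)
    (hs : levelFF K hKs N σ • s = s)
    (hsemi : IsSemiGaussRing W
      (algebraMap ↥(baseRing A K) (chartAlg ↥(baseRing A K) (FF (Lvl K) N) {s}) ϖ))
    (𝔫 : Ideal ↥(chartAlg ↥(baseRing A K) (FF (Lvl K) N) {s})) [𝔫.IsPrime]
    (hϖ𝔫 : algebraMap ↥(baseRing A K) (chartAlg ↥(baseRing A K) (FF (Lvl K) N) {s}) ϖ ∈ 𝔫) :
    ∀ Q ∈ centredSet (F := FF (Lvl K) N) (Lvl K) 𝔫,
      (tauPerm (levelFF K hKs N σ)).symm Q ∈ centredSet (F := FF (Lvl K) N) (Lvl K) 𝔫 :=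
  Fermat.Agent.G.LocPChartGlue.ucrit_centredSet_inv_smul _ hV.twoVal hsemi _
    (stableUnder_chart hσ s hs) hV.triv₁ hV.triv₂ 𝔫 hϖ𝔫

/-- **The chain at one good level with the `τ`-data discharged**: `Skeleton.exists_section` for
`τ_K = levelFF K hKs N τ`, `τ` in the decomposition group with vertical data `VertLevel` and acting as
`μ ↦ μ ^ a` on the `e`-th roots of unity. -/
theorem exists_section_level [IsDiscreteValuationRing ↥(baseRing A K)]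
    [IsFractionRing ↥(baseRing A K) (Lvl K)]
    [IsFractionRing ↥(Rfin (Lvl K) N (baseRing A K)) (FF (Lvl K) N)]
    [IsFractionRing ↥(Rinf (Lvl K) N (baseRing A K)) (FF (Lvl K) N)]
    (hV : VertLevel A K hKs N σ ϖ W V₁ V₂) (hσ : σ ∈ A.decompositionSubgroup ℚ)
    (a e : ℕ) (he : e ≠ 0) (hroot : ∀ μ : Qbar, μ ^ e = 1 → σ μ = μ ^ a)
    (E Ez : Place (Lvl K) (FF (Lvl K) N) → ℤ)
    (hEz : ∀ Q, Ez Q = E ((levelFF K hKs N σ)⁻¹ • Q) - a * E Q)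
    (h : FF (Lvl K) N) (k₀ : ℕ) (hB : BOut V₁ V₂ ϖ h e)
    (hLGp : ∀ 𝔫 : Ideal ↥(Rfin (Lvl K) N (baseRing A K)), 𝔫.IsMaximal →
      algebraMap ↥(baseRing A K) ↥(Rfin (Lvl K) N (baseRing A K)) ϖ ∈ 𝔫 →
      LGAt (Lvl K) 𝔫 V₁ V₂ E h e)
    (hLGm : ∀ 𝔫 : Ideal ↥(Rinf (Lvl K) N (baseRing A K)), 𝔫.IsMaximal →
      algebraMap ↥(baseRing A K) ↥(Rinf (Lvl K) N (baseRing A K)) ϖ ∈ 𝔫 →
      LGAt (Lvl K) 𝔫 V₁ V₂ E h e)
    (hKp : ∀ 𝔫 : Ideal ↥(Rfin (Lvl K) N (baseRing A K)), 𝔫.IsMaximal →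
      algebraMap ↥(baseRing A K) ↥(Rfin (Lvl K) N (baseRing A K)) ϖ ∈ 𝔫 →
      KOutAt (Lvl K) 𝔫 V₁ V₂ ϖ e k₀)
    (hKm : ∀ 𝔫 : Ideal ↥(Rinf (Lvl K) N (baseRing A K)), 𝔫.IsMaximal →
      algebraMap ↥(baseRing A K) ↥(Rinf (Lvl K) N (baseRing A K)) ϖ ∈ 𝔫 →
      KOutAt (Lvl K) 𝔫 V₁ V₂ ϖ e k₀)
    (hGo : GOut (Lvl K) ↥(Rfin (Lvl K) N (baseRing A K)) ↥(Rinf (Lvl K) N (baseRing A K))
      V₁ V₂ ϖ Ez) :
    ∃ g : FF (Lvl K) N, g ≠ 0 ∧ ∀ Q : Place (Lvl K) (FF (Lvl K) N), Ez Q ≤ Q.ord g :=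
  exists_section (Lvl K) ↥(Rfin (Lvl K) N (baseRing A K)) ↥(Rinf (Lvl K) N (baseRing A K))
    V₁ V₂ ϖ
    (fun r => hV.twoVal.mem₁ (hV.semiP.le r)) (fun r => hV.twoVal.mem₂ (hV.semiP.le r))
    (fun r => hV.twoVal.mem₁ (hV.semiM.le r)) (fun r => hV.twoVal.mem₂ (hV.semiM.le r))
    hV.twoVal.pi_mem₁ hV.twoVal.pi_mem₂
    (SemilinearAut.toRingAut (levelFF K hKs N σ)) hV.val₁ hV.val₂
    (vertLevel_exists_unif_mul hV)
    (vertLevel_isUnitAt_map_rfin hV hσ) (vertLevel_isUnitAt_map_rinf hV hσ)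
    a e (levelFF_algebraMap_root σ a e hroot) he
    (tauPerm (levelFF K hKs N σ)) (compat_tauPerm _)
    (fun 𝔫 h𝔫 hϖ𝔫 => by
      haveI := h𝔫.isPrime
      exact vertLevel_centredSet_symm hV hσ _ (levelFF_smul_jF K hKs N σ) hV.semiP 𝔫 hϖ𝔫)
    (fun 𝔫 h𝔫 hϖ𝔫 => by
      haveI := h𝔫.isPrime
      exact vertLevel_centredSet_symm hV hσ _ (levelFF_smul_jF_inv K hKs N σ) hV.semiM 𝔫 hϖ𝔫)
    E Ez (fun Q => by rw [hEz Q]; rfl) h k₀ hB hLGp hLGm hKp hKm hGo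

end SkeletonData

end Level

end Fermat.Agent.S33.L.InertiaTriv
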