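/-
S33, `moonshots` row 61, STEP L, [KT-WIRE] (helper5): **the generic bridge from the abstract Kummer
integrality lemma to the `F`-form contract `Skeleton.KOutAt`.**

`KummerLoc.Hyp` (helper8) and `KummerIter.exists_approx_iter'` (helper5) live on abstract rings
`A → B`.  The contract `(K-out)` of `L/Skeleton` (helper12) is stated with elements of the function
field `F` only.  Here the link is made through ring homomorphisms `ιA : A →+* F`,
`π i : B →+* F` (`i` running over the vertical valuation rings `Vf i` through the closed point `𝔫`),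
with `B ≅ ∏ Vf i` (`hπV`, `hsurj`, `hinj`):

* `kOut_core` : from `r ^ p ^ n ≡ ιA u` modulo `ϖ ^ m Vf i` for all `i` (`u ∈ Aˣ`), get roots of unity
  `ξ i ∈ F` and `a ∈ Aˣ` with `ξ i r ≡ ιA a` modulo `ϖ ^ j Vf i`, `n (p-1) j₀ + j ≤ m`.
  The ambiguity monoid of `exists_approx_iter'` is the `p`-power torsion of `B`;
* `exists_root_of_primitiveRoot`, `exists_algebraMap_eq_of_primitiveRoot` : the two facts on roots of
  unity (`hdiv`, `hμK`) from a primitive `p ^ n`-th root of unity in the constant field `K`;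
* `kOutAt_of_hyp` : `Skeleton.KOutAt K 𝔫 V₁ V₂ ϖ (p ^ n) (n * ((p - 1) * j₀))`, uniformly for a point on
  one branch (`I = Unit`) and for a node (`I = Bool`).
-/
import Mathlib
import Fermat.Agent.S33.L.Skeleton
import Fermat.Agent.S33.New.KummerIter

set_option autoImplicit false
set_option linter.unusedSectionVars false

namespace Fermat.Agent.S33.L.KTWire

open Fermat.Agent.S33.L.Skeleton Fermat.Agent.S33.New.KummerLoc Fermat.Agent.S33.New.KummerIter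
  Fermat.Agent.P4.TwistRoots AlgebraicCurve

/-! ### Roots of unity -/

section Roots

variable {K F : Type*} [Field K] [Field F] [Algebra K F]

/-- All `e`-th roots of unity of `F` come from `K` if `K` contains a primitive one. -/
theorem exists_algebraMap_eq_of_primitiveRoot {e : ℕ} (he : e ≠ 0) {ζ : K}
    (hζ : IsPrimitiveRoot ζ e) (x : F) (hx : x ^ e = 1) :
    ∃ η : K, η ^ e = 1 ∧ algebraMap K F η = x := by
  haveI : NeZero e := ⟨he⟩
  have hζF : IsPrimitiveRoot (algebraMap K F ζ) e :=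
    hζ.map_of_injective (algebraMap K F).injective
  obtain ⟨i, -, hi⟩ := hζF.eq_pow_of_pow_eq_one hx
  refine ⟨ζ ^ i, ?_, by rw [map_pow, hi]⟩
  rw [← pow_mul, mul_comm, pow_mul, hζ.pow_eq_one, one_pow]

/-- `p`-th roots of `p ^ k`-th roots of unity, `k < n`, if `K` contains a primitive `p ^ n`-th root of
unity. -/
theorem exists_root_of_primitiveRoot {p n : ℕ} (hp : p ≠ 0) {ζ : K}
    (hζ : IsPrimitiveRoot ζ (p ^ n)) (k : ℕ) (hk : k < n) (x : F) (hx : x ^ p ^ k = 1) :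
    ∃ y : F, y ^ p = x := by
  have he : p ^ n ≠ 0 := pow_ne_zero n hp
  haveI : NeZero (p ^ n) := ⟨he⟩
  have hζF : IsPrimitiveRoot (algebraMap K F ζ) (p ^ n) :=
    hζ.map_of_injective (algebraMap K F).injective
  -- `x` is a `p ^ n`-th root of unity, hence a power `ζ ^ i`, and `p ^ (n - k) ∣ i`
  obtain ⟨d, hd⟩ : ∃ d, n = k + 1 + d := ⟨n - (k + 1), by omega⟩
  have hx' : x ^ p ^ n = 1 := by
    rw [hd, pow_add, pow_add, pow_mul, pow_mul, hx, one_pow, one_pow]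
  obtain ⟨i, -, hi⟩ := hζF.eq_pow_of_pow_eq_one hx'
  have hdvd : p ^ n ∣ i * p ^ k := by
    rw [← hi, ← pow_mul] at hx
    exact (hζF.pow_eq_one_iff_dvd _).1 hx
  have hpk : p ^ k ≠ 0 := pow_ne_zero k hp
  have hdvd' : p ^ (1 + d) ∣ i := by
    have h1 : p ^ n = p ^ (1 + d) * p ^ k := by
      rw [hd, ← pow_add]; congr 1; omega
    rw [h1] at hdvd
    exact Nat.dvd_of_mul_dvd_mul_right (Nat.pos_of_ne_zero hpk) hdvd
  obtain ⟨c, hc⟩ := hdvd'
  refine ⟨algebraMap K F ζ ^ (p ^ d * c), ?_⟩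
  rw [← pow_mul, ← hi, hc]
  congr 1
  rw [pow_add, pow_one]
  ring

end Roots

/-! ### The core: from `Hyp` to congruences in `F` -/

section Core

variable {O F : Type*} [CommRing O] [Field F] [Algebra O F]
  {I : Type*} (Vf : I → ValuationSubring F)
  {A B : Type*} [CommRing A] [CommRing B] [Algebra A B] (ιA : A →+* F) (π : I → B →+* F)

/-- An element of `F` whose `e`-th power lies in a valuation ring lies in it. -/
theorem mem_of_pow_mem (V : ValuationSubring F) {e : ℕ} (he : e ≠ 0) {x : F} (h : x ^ e ∈ V) :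
    x ∈ V := by
  rw [← V.valuation_le_one_iff] at h ⊢
  rw [map_pow] at h
  exact (pow_le_one_iff_of_nonneg zero_le he).1 h

/-- **(K-out), core.**  `B ≅ ∏ Vf i` through the `π i`; `Hyp` for `A → B`; `p`-divisibility of the
`p`-power roots of unity of `F` below level `n`.  If `r ^ p ^ n ≡ ιA u` modulo `ϖ ^ m Vf i` for all
`i`, `u ∈ Aˣ`, then there are `p ^ n`-th roots of unity `ξ i` and `a ∈ Aˣ` with `ξ i r ≡ ιA a` modulo
`ϖ ^ j Vf i` whenever `n (p - 1) j₀ + j ≤ m`. -/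
theorem kOut_core
    (hπA : ∀ i a, π i (algebraMap A B a) = ιA a) (hπV : ∀ i b, π i b ∈ Vf i)
    (hsurj : ∀ x : I → F, (∀ i, x i ∈ Vf i) → ∃ b : B, ∀ i, π i b = x i)
    (hinj : ∀ b : B, (∀ i, π i b = 0) → b = 0)
    {ϖ : O} {ϖA : A} (hϖ : ιA ϖA = algebraMap O F ϖ) {p j₀ : ℕ} {υ : Aˣ}
    (H : Hyp (B := B) ϖA p j₀ υ) (n : ℕ)
    (hdiv : ∀ k < n, ∀ x : F, x ^ p ^ k = 1 → ∃ y : F, y ^ p = x)
    (r : F) (u : Aˣ) (m j : ℕ) (hmj : n * ((p - 1) * j₀) + j ≤ m)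
    (hr : ∀ i, CongrMod (Vf i) ϖ m (r ^ p ^ n) (ιA u)) :
    ∃ (ξ : I → F) (a : Aˣ), (∀ i, ξ i ^ p ^ n = 1) ∧ ∀ i, CongrMod (Vf i) ϖ j (ξ i * r) (ιA a) := by
  classical
  have hp : p.Prime := H.hp
  have hpn : p ^ n ≠ 0 := pow_ne_zero n hp.ne_zero
  have hext : ∀ b b' : B, (∀ i, π i b = π i b') → b = b' := by
    intro b b' h
    have := hinj (b - b') (fun i => by rw [map_sub, h i, sub_self])
    exact sub_eq_zero.1 this
  have hιAV : ∀ i (a : A), ιA a ∈ Vf i := fun i a => hπA i a ▸ hπV i _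
  -- `r` lies in every `Vf i`
  choose d hd hde using hr
  have hrV : ∀ i, r ∈ Vf i := by
    intro i
    apply mem_of_pow_mem (Vf i) hpn
    have : r ^ p ^ n = ιA u + algebraMap O F ϖ ^ m * d i := by rw [← hde i]; ring
    rw [this]
    refine add_mem (hιAV i _) (mul_mem (pow_mem ?_ _) (hd i))
    rw [← hϖ]; exact hιAV i _
  -- lift `r` and the `d i` to `B`
  obtain ⟨rB, hrB⟩ := hsurj (fun _ => r) hrV
  obtain ⟨c, hc⟩ := hsurj d hd
  have heq : rB ^ p ^ n = algebraMap A B u + algebraMap A B ϖA ^ m * c := by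
    apply hext
    intro i
    rw [map_pow, hrB i, map_add, map_mul, map_pow, hπA, hπA, hc i, hϖ, ← hde i]
    ring
  -- the ambiguity monoid: the `p`-power torsion of `B`
  let Ξ : Submonoid B :=
    { carrier := {η | ∃ k : ℕ, η ^ p ^ k = 1}
      one_mem' := ⟨0, one_pow _⟩
      mul_mem' := by
        rintro x y ⟨k, hk⟩ ⟨l, hl⟩
        refine ⟨k + l, ?_⟩
        rw [mul_pow, pow_add, pow_mul, hk, one_pow, mul_comm (p ^ k), pow_mul, hl, one_pow,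
          one_mul] }
  have hΞ : ∀ ξ : B, ξ ^ p = 1 → (∃ d, ξ = 1 + algebraMap A B ϖA ^ j₀ * d) → ξ ∈ Ξ :=
    fun ξ h _ => ⟨1, by rw [pow_one]; exact h⟩
  have hroot : ∀ k < n, ∀ η ∈ Ξ, η ^ p ^ k = 1 → ∃ η' ∈ Ξ, η' ^ p = η := by
    intro k hk η _ hη
    have h1 : ∀ i, ∃ y : F, y ^ p = π i η := fun i =>
      hdiv k hk (π i η) (by rw [← map_pow, hη, map_one])
    choose y hy using h1
    have hyV : ∀ i, y i ∈ Vf i := fun i =>
      mem_of_pow_mem (Vf i) hp.ne_zero (by rw [hy i]; exact hπV i η)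
    obtain ⟨η', hη'⟩ := hsurj y hyV
    have hη'p : η' ^ p = η := by
      apply hext
      intro i
      rw [map_pow, hη' i, hy i]
    exact ⟨η', ⟨k + 1, by rw [pow_succ', pow_mul, hη'p, hη]⟩, hη'p⟩
  obtain ⟨η, -, hη1, hη⟩ := exists_approx_iter H Ξ hΞ n hroot u rB c m heq
  obtain ⟨a, s, has⟩ := hη j hmj
  refine ⟨fun i => π i η, a, fun i => by rw [← map_pow, hη1, map_one], fun i => ?_⟩
  refine ⟨ιA a * π i s, mul_mem (hιAV i _) (hπV i s), ?_⟩
  have := congrArg (π i) has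
  rw [map_mul, hrB i, map_mul, map_add, map_one, map_mul, map_pow, hπA, hπA, hϖ] at this
  rw [this]
  ring

end Core

/-! ### The contract `KOutAt` -/

section Contract

variable {O K F R : Type*} [CommRing O] [Field K] [Field F] [Algebra K F] [Algebra O F]
  [CommRing R] [IsDomain R] [Algebra R F] [IsFractionRing R F] [Algebra O R]
  {I : Type*} (Vf : I → ValuationSubring F)
  {A B : Type*} [CommRing A] [CommRing B] [Algebra A B] (ιA : A →+* F) (π : I → B →+* F)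

/-- **(K-out) at `𝔫` from `Hyp`**, uniformly for a point on one branch (`I = Unit`) and a node
(`I = Bool`): `Vf` enumerates the vertical valuation rings through `𝔫`, `A = R_𝔫` (`hUA`, `hAU`),
`B ≅ ∏ Vf i`. -/
theorem kOutAt_of_hyp (𝔫 : Ideal R) (V₁ V₂ : ValuationSubring F)
    (hVf : ∀ i, (Vf i = V₁ ∧ Through V₁ 𝔫) ∨ (Vf i = V₂ ∧ Through V₂ 𝔫))
    (hcov₁ : Through V₁ 𝔫 → ∃ i, Vf i = V₁) (hcov₂ : Through V₂ 𝔫 → ∃ i, Vf i = V₂)
    (hπA : ∀ i a, π i (algebraMap A B a) = ιA a) (hπV : ∀ i b, π i b ∈ Vf i)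
    (hsurj : ∀ x : I → F, (∀ i, x i ∈ Vf i) → ∃ b : B, ∀ i, π i b = x i)
    (hinj : ∀ b : B, (∀ i, π i b = 0) → b = 0)
    (hUA : ∀ u : F, IsUnitAt 𝔫 u → ∃ u' : Aˣ, ιA u' = u) (hAU : ∀ a : Aˣ, IsUnitAt 𝔫 (ιA a))
    {ϖ : O} {ϖA : A} (hϖ : ιA ϖA = algebraMap O F ϖ) {p j₀ : ℕ} {υ : Aˣ}
    (H : Hyp (B := B) ϖA p j₀ υ) (n : ℕ)
    (hdiv : ∀ k < n, ∀ x : F, x ^ p ^ k = 1 → ∃ y : F, y ^ p = x)
    (hμK : ∀ x : F, x ^ p ^ n = 1 → ∃ η : K, η ^ p ^ n = 1 ∧ algebraMap K F η = x) :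
    KOutAt K 𝔫 V₁ V₂ ϖ (p ^ n) (n * ((p - 1) * j₀)) := by
  classical
  intro r u _ hu m j hmj h₁ h₂
  obtain ⟨u', rfl⟩ := hUA u hu
  have hr : ∀ i, CongrMod (Vf i) ϖ m (r ^ p ^ n) (ιA u') := by
    intro i
    rcases hVf i with ⟨e, ht⟩ | ⟨e, ht⟩
    · rw [e]; exact h₁ ht
    · rw [e]; exact h₂ ht
  obtain ⟨ξ, a, hξ, hξr⟩ := kOut_core Vf ιA π hπA hπV hsurj hinj hϖ H n hdiv r u' m j hmj hr
  -- the root of unity on each of the two branches
  have hη : ∀ (V : ValuationSubring F), (Through V 𝔫 → ∃ i, Vf i = V) →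
      ∃ η : K, η ^ p ^ n = 1 ∧ (Through V 𝔫 → CongrMod V ϖ j (algebraMap K F η * r) (ιA a)) := by
    intro V hcov
    by_cases ht : Through V 𝔫
    · obtain ⟨i, hi⟩ := hcov ht
      obtain ⟨η, hη1, hηi⟩ := hμK (ξ i) (hξ i)
      refine ⟨η, hη1, fun _ => ?_⟩
      rw [hηi, ← hi]
      exact hξr i
    · exact ⟨1, one_pow _, fun h => absurd h ht⟩
  obtain ⟨η₁, hη₁, hc₁⟩ := hη V₁ hcov₁
  obtain ⟨η₂, hη₂, hc₂⟩ := hη V₂ hcov₂
  exact ⟨η₁, η₂, hη₁, hη₂, ιA a, hAU a, hc₁, hc₂⟩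

/-- The same with the roots of unity supplied by a primitive `p ^ n`-th root of unity of `K`. -/
theorem kOutAt_of_hyp_of_primitiveRoot (𝔫 : Ideal R) (V₁ V₂ : ValuationSubring F)
    (hVf : ∀ i, (Vf i = V₁ ∧ Through V₁ 𝔫) ∨ (Vf i = V₂ ∧ Through V₂ 𝔫))
    (hcov₁ : Through V₁ 𝔫 → ∃ i, Vf i = V₁) (hcov₂ : Through V₂ 𝔫 → ∃ i, Vf i = V₂)
    (hπA : ∀ i a, π i (algebraMap A B a) = ιA a) (hπV : ∀ i b, π i b ∈ Vf i)
    (hsurj : ∀ x : I → F, (∀ i, x i ∈ Vf i) → ∃ b : B, ∀ i, π i b = x i)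
    (hinj : ∀ b : B, (∀ i, π i b = 0) → b = 0)
    (hUA : ∀ u : F, IsUnitAt 𝔫 u → ∃ u' : Aˣ, ιA u' = u) (hAU : ∀ a : Aˣ, IsUnitAt 𝔫 (ιA a))
    {ϖ : O} {ϖA : A} (hϖ : ιA ϖA = algebraMap O F ϖ) {p j₀ : ℕ} {υ : Aˣ}
    (H : Hyp (B := B) ϖA p j₀ υ) (n : ℕ) {ζ : K} (hζ : IsPrimitiveRoot ζ (p ^ n)) :
    KOutAt K 𝔫 V₁ V₂ ϖ (p ^ n) (n * ((p - 1) * j₀)) :=
  kOutAt_of_hyp Vf ιA π 𝔫 V₁ V₂ hVf hcov₁ hcov₂ hπA hπV hsurj hinj hUA hAU hϖ H n
    (fun k hk x hx => exists_root_of_primitiveRoot H.hp.ne_zero hζ k hk x hx)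
    (fun x hx => exists_algebraMap_eq_of_primitiveRoot (pow_ne_zero n H.hp.ne_zero) hζ x hx)

end Contract

end Fermat.Agent.S33.L.KTWire
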