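/-
S33, `moonshots` row 61, STEP K/L, [K-PKG] (helper5): **the `(A, B, ιA, π)` packages of `L/KTWire` for
the local ring of a concrete chart.**

`R : Subalgebra O F` a chart (`chartAlg O F {s}`), `𝔫` a prime of `R`, `A := locAlg R 𝔫` the local
ring of `R` at `𝔫` as a subalgebra of `F` (`G/PointsLoc`, with its `IsLocalization.AtPrime` instance),
`B := V₁`, `V₂` (closed point on one branch) or `V₁ × V₂` (node), with ANY algebra structure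
`A → B` compatible with the coercions to `F`.  Then `KummerLoc.Hyp` for `A → B` gives the `F`-form
contract `Skeleton.KOutAt` with loss `k₀ = n (p - 1) j₀`, the same in the three cases.

* `exists_unit_of_isUnitAt`, `isUnitAt_of_unit` : `IsUnitAt 𝔫 u ↔ u` is a unit of `locAlg R 𝔫`;
* `locAlg_le_of_through` : `locAlg R 𝔫 ⊆ V` if `R ⊆ V` and `V` passes through `𝔫`;
* `algV`, `algNode` : the canonical algebra structures `locAlg R 𝔫 → V`, `→ V₁ × V₂`;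
* `kOutAt_oneBranch₁`, `kOutAt_oneBranch₂`, `kOutAt_node`, `kOutAt_of_not_through`;
* `kOutAt_cases` : the four-case glue.
-/
import Mathlib
import Fermat.Agent.S33.L.KTWire
import Fermat.Agent.G.PointsLoc

set_option autoImplicit false
set_option linter.unusedSectionVars false
set_option linter.style.haveILetI false

namespace Fermat.Agent.S33.L.KTWireLoc

open Fermat.Agent.S33.L.Skeleton Fermat.Agent.S33.L.KTWire Fermat.Agent.S33.New.KummerLoc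
  Fermat.Agent.P4.TwistRoots Fermat.Agent.G.PointsLoc AlgebraicCurve

variable {O K F : Type*} [CommRing O] [IsDomain O] [IsDiscreteValuationRing O]
  [Field K] [Algebra O K] [IsFractionRing O K]
  [Field F] [Algebra K F] [Algebra O F] [IsScalarTower O K F]

variable (R : Subalgebra O F) [IsFractionRing ↥R F] (𝔫 : Ideal ↥R) [h𝔫 : 𝔫.IsPrime]

/-! ### Units of `locAlg R 𝔫` -/

/-- The coercion `locAlg R 𝔫 → F` as a ring homomorphism. -/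
def ιLoc : ↥(locAlg R 𝔫) →+* F := (locAlg R 𝔫).toSubring.subtype

@[simp] theorem ιLoc_apply (a : ↥(locAlg R 𝔫)) : ιLoc R 𝔫 a = (a : F) := rfl

/-- A unit of `R_𝔫` in the sense of `P4/TwistRoots` is a unit of `locAlg R 𝔫`. -/
theorem exists_unit_of_isUnitAt {u : F} (h : IsUnitAt 𝔫 u) :
    ∃ u' : (↥(locAlg R 𝔫))ˣ, ιLoc R 𝔫 u' = u := by
  obtain ⟨a, r, ha, hr, e⟩ := h
  have ha0 : (a : F) ≠ 0 := algebraMap_ne_zero_of_notMem 𝔫 ha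
  have hr0 : (r : F) ≠ 0 := algebraMap_ne_zero_of_notMem 𝔫 hr
  have e' : u * (a : F) = (r : F) := e
  have hu0 : u ≠ 0 := by
    rintro rfl
    rw [zero_mul] at e'
    exact hr0 e'.symm
  have hu : u ∈ locAlg R 𝔫 := (mem_locAlg_iff R 𝔫).2 ⟨r, a, ha, e'⟩
  have hui : u⁻¹ ∈ locAlg R 𝔫 := by
    refine (mem_locAlg_iff R 𝔫).2 ⟨a, r, hr, ?_⟩
    rw [← e']
    field_simp
  refine ⟨⟨⟨u, hu⟩, ⟨u⁻¹, hui⟩, ?_, ?_⟩, rfl⟩
  · apply Subtype.ext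
    show u * u⁻¹ = 1
    exact mul_inv_cancel₀ hu0
  · apply Subtype.ext
    show u⁻¹ * u = 1
    exact inv_mul_cancel₀ hu0

/-- An element `x ∈ locAlg R 𝔫` whose inverse lies in `locAlg R 𝔫` is a unit of `R_𝔫` in the sense
of `P4/TwistRoots`. -/
theorem isUnitAt_of_mem_of_inv_mem {x : F} (hx : x ∈ locAlg R 𝔫) (hxi : x⁻¹ ∈ locAlg R 𝔫)
    (hx0 : x ≠ 0) : IsUnitAt 𝔫 x := by
  obtain ⟨a, b, hb, e⟩ := (mem_locAlg_iff R 𝔫).1 hx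
  obtain ⟨c, d, hd, e'⟩ := (mem_locAlg_iff R 𝔫).1 hxi
  -- `x b = a`, `x⁻¹ d = c`, hence `a c = b d ∉ 𝔫`
  have hac : a * c = b * d := by
    apply Subtype.ext
    show (a : F) * (c : F) = (b : F) * (d : F)
    rw [← e, ← e']
    field_simp
  have ha : a ∉ 𝔫 := by
    intro ha
    have : b * d ∈ 𝔫 := hac ▸ 𝔫.mul_mem_right c ha
    rcases h𝔫.mem_or_mem this with h | h
    · exact hb h
    · exact hd h
  exact ⟨b, a, hb, ha, e⟩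

/-- A unit of `locAlg R 𝔫` is a unit of `R_𝔫` in the sense of `P4/TwistRoots`. -/
theorem isUnitAt_of_unit (a : (↥(locAlg R 𝔫))ˣ) : IsUnitAt 𝔫 (ιLoc R 𝔫 a) := by
  have h1 : ((a : ↥(locAlg R 𝔫)) : F) * ((a⁻¹ : (↥(locAlg R 𝔫))ˣ) : ↥(locAlg R 𝔫)) = 1 := by
    have := congrArg (fun z : ↥(locAlg R 𝔫) => (z : F)) a.mul_inv
    exact this
  have h0 : ((a : ↥(locAlg R 𝔫)) : F) ≠ 0 := left_ne_zero_of_mul_eq_one h1
  have hinv : ((a : ↥(locAlg R 𝔫)) : F)⁻¹ =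
      (((a⁻¹ : (↥(locAlg R 𝔫))ˣ) : ↥(locAlg R 𝔫)) : F) := by
    rw [eq_comm, ← mul_eq_one_iff_eq_inv₀ h0, mul_comm]
    exact h1
  refine isUnitAt_of_mem_of_inv_mem R 𝔫 (a : ↥(locAlg R 𝔫)).2 ?_ h0
  show ((a : ↥(locAlg R 𝔫)) : F)⁻¹ ∈ locAlg R 𝔫
  rw [hinv]
  exact ((a⁻¹ : (↥(locAlg R 𝔫))ˣ) : ↥(locAlg R 𝔫)).2

/-! ### `locAlg R 𝔫 ⊆ V` for `V` through `𝔫` -/

/-- `R_𝔫 ⊆ V` if `R ⊆ V` and the centre of `V` on `R` is contained in `𝔫`. -/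
theorem locAlg_le_of_through {V : ValuationSubring F} (hV : ∀ r : R, (r : F) ∈ V)
    (ht : Through V 𝔫) {x : F} (hx : x ∈ locAlg R 𝔫) : x ∈ V := by
  obtain ⟨a, b, hb, e⟩ := (mem_locAlg_iff R 𝔫).1 hx
  have hb0 : (b : F) ≠ 0 := algebraMap_ne_zero_of_notMem 𝔫 hb
  have hbu : V.valuation (b : F) = 1 := by
    have h1 : V.valuation (b : F) ≤ 1 := (V.valuation_le_one_iff _).2 (hV b)
    rcases lt_or_eq_of_le h1 with h | h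
    · exact absurd (ht b ((V.mem_nonunits_iff).2 h)) hb
    · exact h
  have hxe : x = (a : F) * (b : F)⁻¹ := by
    rw [← e]
    field_simp
  rw [hxe, ← V.valuation_le_one_iff, map_mul, map_inv₀, hbu, inv_one, mul_one]
  exact (V.valuation_le_one_iff _).2 (hV a)

/-- The inclusion `locAlg R 𝔫 → V` as a ring homomorphism. -/
def inclV {V : ValuationSubring F} (hV : ∀ r : R, (r : F) ∈ V) (ht : Through V 𝔫) :
    ↥(locAlg R 𝔫) →+* ↥V where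
  toFun x := ⟨(x : F), locAlg_le_of_through R 𝔫 hV ht x.2⟩
  map_one' := rfl
  map_mul' _ _ := rfl
  map_zero' := rfl
  map_add' _ _ := rfl

@[simp] theorem coe_inclV {V : ValuationSubring F} (hV : ∀ r : R, (r : F) ∈ V) (ht : Through V 𝔫)
    (x : ↥(locAlg R 𝔫)) : ((inclV R 𝔫 hV ht x : ↥V) : F) = (x : F) := rfl

/-- The canonical algebra structure `locAlg R 𝔫 → V` (NOT an instance). -/
@[reducible] def algV {V : ValuationSubring F} (hV : ∀ r : R, (r : F) ∈ V) (ht : Through V 𝔫) :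
    Algebra ↥(locAlg R 𝔫) ↥V := (inclV R 𝔫 hV ht).toAlgebra

/-- The canonical (diagonal) algebra structure `locAlg R 𝔫 → V₁ × V₂` at a node (NOT an
instance). -/
@[reducible] def algNode {V₁ V₂ : ValuationSubring F} (hV₁ : ∀ r : R, (r : F) ∈ V₁)
    (hV₂ : ∀ r : R, (r : F) ∈ V₂) (ht₁ : Through V₁ 𝔫) (ht₂ : Through V₂ 𝔫) :
    Algebra ↥(locAlg R 𝔫) (↥V₁ × ↥V₂) :=
  ((inclV R 𝔫 hV₁ ht₁).prod (inclV R 𝔫 hV₂ ht₂)).toAlgebra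

/-! ### The three packages -/

variable (K)

/-- **(K-out) at a closed point on ONE branch, generic form**: `V` is one of `V₁ V₂`, it passes
through `𝔫`, the other one does not. -/
theorem kOutAt_oneBranch (V₁ V₂ V : ValuationSubring F)
    (hV : (V = V₁ ∧ Through V₁ 𝔫 ∧ ¬ Through V₂ 𝔫) ∨ (V = V₂ ∧ Through V₂ 𝔫 ∧ ¬ Through V₁ 𝔫))
    [Algebra ↥(locAlg R 𝔫) ↥V]
    (hcoe : ∀ a : ↥(locAlg R 𝔫), ((algebraMap ↥(locAlg R 𝔫) ↥V a : ↥V) : F) = (a : F))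
    {ϖ : O} {ϖA : ↥(locAlg R 𝔫)} (hϖ : (ϖA : F) = algebraMap O F ϖ) {p j₀ : ℕ}
    {υ : (↥(locAlg R 𝔫))ˣ} (H : Hyp (B := ↥V) ϖA p j₀ υ) (n : ℕ) {ζ : K}
    (hζ : IsPrimitiveRoot ζ (p ^ n)) :
    KOutAt K 𝔫 V₁ V₂ ϖ (p ^ n) (n * ((p - 1) * j₀)) := by
  refine kOutAt_of_hyp_of_primitiveRoot (I := Unit) (fun _ => V) (ιLoc R 𝔫)
    (fun _ => V.subtype) 𝔫 V₁ V₂ ?_ ?_ ?_ (fun _ a => hcoe a) (fun _ b => b.2) ?_ ?_
    (fun u hu => exists_unit_of_isUnitAt R 𝔫 hu) (fun a => isUnitAt_of_unit R 𝔫 a) hϖ H n hζ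
  · intro _
    rcases hV with ⟨e, ht, -⟩ | ⟨e, ht, -⟩
    · exact Or.inl ⟨e, ht⟩
    · exact Or.inr ⟨e, ht⟩
  · intro ht₁
    rcases hV with ⟨e, -, -⟩ | ⟨-, -, hnt⟩
    · exact ⟨(), e⟩
    · exact absurd ht₁ hnt
  · intro ht₂
    rcases hV with ⟨-, -, hnt⟩ | ⟨e, -, -⟩
    · exact absurd ht₂ hnt
    · exact ⟨(), e⟩
  · intro x hx
    exact ⟨⟨x (), hx ()⟩, fun _ => rfl⟩
  · intro b hb
    exact Subtype.ext (hb ())

/-- **(K-out) at a closed point on the first branch only.** -/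
theorem kOutAt_oneBranch₁ (V₁ V₂ : ValuationSubring F) (ht₁ : Through V₁ 𝔫)
    (hnt₂ : ¬ Through V₂ 𝔫) [Algebra ↥(locAlg R 𝔫) ↥V₁]
    (hcoe : ∀ a : ↥(locAlg R 𝔫), ((algebraMap ↥(locAlg R 𝔫) ↥V₁ a : ↥V₁) : F) = (a : F))
    {ϖ : O} {ϖA : ↥(locAlg R 𝔫)} (hϖ : (ϖA : F) = algebraMap O F ϖ) {p j₀ : ℕ}
    {υ : (↥(locAlg R 𝔫))ˣ} (H : Hyp (B := ↥V₁) ϖA p j₀ υ) (n : ℕ) {ζ : K}
    (hζ : IsPrimitiveRoot ζ (p ^ n)) :
    KOutAt K 𝔫 V₁ V₂ ϖ (p ^ n) (n * ((p - 1) * j₀)) :=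
  kOutAt_oneBranch K R 𝔫 V₁ V₂ V₁ (Or.inl ⟨rfl, ht₁, hnt₂⟩) hcoe hϖ H n hζ

/-- **(K-out) at a closed point on the second branch only.** -/
theorem kOutAt_oneBranch₂ (V₁ V₂ : ValuationSubring F) (hnt₁ : ¬ Through V₁ 𝔫)
    (ht₂ : Through V₂ 𝔫) [Algebra ↥(locAlg R 𝔫) ↥V₂]
    (hcoe : ∀ a : ↥(locAlg R 𝔫), ((algebraMap ↥(locAlg R 𝔫) ↥V₂ a : ↥V₂) : F) = (a : F))
    {ϖ : O} {ϖA : ↥(locAlg R 𝔫)} (hϖ : (ϖA : F) = algebraMap O F ϖ) {p j₀ : ℕ}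
    {υ : (↥(locAlg R 𝔫))ˣ} (H : Hyp (B := ↥V₂) ϖA p j₀ υ) (n : ℕ) {ζ : K}
    (hζ : IsPrimitiveRoot ζ (p ^ n)) :
    KOutAt K 𝔫 V₁ V₂ ϖ (p ^ n) (n * ((p - 1) * j₀)) :=
  kOutAt_oneBranch K R 𝔫 V₁ V₂ V₂ (Or.inr ⟨rfl, ht₂, hnt₁⟩) hcoe hϖ H n hζ

/-- **(K-out) at a node**: both vertical valuation rings pass through `𝔫`, `B = V₁ × V₂`. -/
theorem kOutAt_node (V₁ V₂ : ValuationSubring F) (ht₁ : Through V₁ 𝔫) (ht₂ : Through V₂ 𝔫)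
    [Algebra ↥(locAlg R 𝔫) (↥V₁ × ↥V₂)]
    (hcoe₁ : ∀ a : ↥(locAlg R 𝔫),
      (((algebraMap ↥(locAlg R 𝔫) (↥V₁ × ↥V₂) a).1 : ↥V₁) : F) = (a : F))
    (hcoe₂ : ∀ a : ↥(locAlg R 𝔫),
      (((algebraMap ↥(locAlg R 𝔫) (↥V₁ × ↥V₂) a).2 : ↥V₂) : F) = (a : F))
    {ϖ : O} {ϖA : ↥(locAlg R 𝔫)} (hϖ : (ϖA : F) = algebraMap O F ϖ) {p j₀ : ℕ}
    {υ : (↥(locAlg R 𝔫))ˣ} (H : Hyp (B := ↥V₁ × ↥V₂) ϖA p j₀ υ) (n : ℕ) {ζ : K}
    (hζ : IsPrimitiveRoot ζ (p ^ n)) :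
    KOutAt K 𝔫 V₁ V₂ ϖ (p ^ n) (n * ((p - 1) * j₀)) := by
  refine kOutAt_of_hyp_of_primitiveRoot (I := Bool) (fun i => bif i then V₁ else V₂) (ιLoc R 𝔫)
    (fun i => Bool.rec (motive := fun i => (↥V₁ × ↥V₂) →+* F)
      (V₂.subtype.comp (RingHom.snd ↥V₁ ↥V₂)) (V₁.subtype.comp (RingHom.fst ↥V₁ ↥V₂)) i)
    𝔫 V₁ V₂ ?_ (fun _ => ⟨true, rfl⟩) (fun _ => ⟨false, rfl⟩) ?_ ?_ ?_ ?_
    (fun u hu => exists_unit_of_isUnitAt R 𝔫 hu) (fun a => isUnitAt_of_unit R 𝔫 a) hϖ H n hζ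
  · intro i
    cases i
    · exact Or.inr ⟨rfl, ht₂⟩
    · exact Or.inl ⟨rfl, ht₁⟩
  · intro i a
    cases i
    · exact hcoe₂ a
    · exact hcoe₁ a
  · intro i b
    cases i
    · exact b.2.2
    · exact b.1.2
  · intro x hx
    exact ⟨(⟨x true, hx true⟩, ⟨x false, hx false⟩), fun i => by cases i <;> rfl⟩
  · intro b hb
    exact Prod.ext (Subtype.ext (hb true)) (Subtype.ext (hb false))

/-- (K-out) is empty at a prime through which no vertical valuation ring passes. -/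
theorem kOutAt_of_not_through (V₁ V₂ : ValuationSubring F) (hnt₁ : ¬ Through V₁ 𝔫)
    (hnt₂ : ¬ Through V₂ 𝔫) (ϖ : O) (e k₀ : ℕ) : KOutAt K 𝔫 V₁ V₂ ϖ e k₀ := by
  intro r u _ _ m j _ _ _
  exact ⟨1, 1, one_pow _, one_pow _, 1, isUnitAt_one, fun h => absurd h hnt₁,
    fun h => absurd h hnt₂⟩

/-- **The four-case glue.** -/
theorem kOutAt_cases (V₁ V₂ : ValuationSubring F) (ϖ : O) (e k₀ : ℕ)
    (h₁ : Through V₁ 𝔫 → ¬ Through V₂ 𝔫 → KOutAt K 𝔫 V₁ V₂ ϖ e k₀)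
    (h₂ : ¬ Through V₁ 𝔫 → Through V₂ 𝔫 → KOutAt K 𝔫 V₁ V₂ ϖ e k₀)
    (h₁₂ : Through V₁ 𝔫 → Through V₂ 𝔫 → KOutAt K 𝔫 V₁ V₂ ϖ e k₀) :
    KOutAt K 𝔫 V₁ V₂ ϖ e k₀ := by
  by_cases ht₁ : Through V₁ 𝔫
  · by_cases ht₂ : Through V₂ 𝔫
    · exact h₁₂ ht₁ ht₂
    · exact h₁ ht₁ ht₂
  · by_cases ht₂ : Through V₂ 𝔫
    · exact h₂ ht₁ ht₂
    · exact kOutAt_of_not_through K R 𝔫 V₁ V₂ ht₁ ht₂ ϖ e k₀

end Fermat.Agent.S33.L.KTWireLoc
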