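/-
S33, `moonshots` row 61, STEP K at the NODES of the finite chart (helper26; [K3-inst], `Rfin` half —
the `Rinf` mirror is helper27's `L/KOutNodeInf.lean`).

At a level `(K, O)` (`O` a discrete valuation ring with perfect residue field of characteristic `ℓ`),
`R = Rfin K (N ℓ) O`, `V₁ = gaussVS K (N ℓ) O`, `V₂ = S₂.V`, the two reductions
`θ₁ = res thetaFin`, `θ₂ = res theta2S : R → RbarFin K N O` of `P3G/TwoComponentsFinal`.  For a maximal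
ideal `𝔫` of `R` through which BOTH vertical valuation rings pass (a crossing point = supersingular
point of the special fibre):

* `NodeFacts` : the package of ring-theoretic facts at `𝔫` consumed by the abstract node instance of
  `KummerLoc.Hyp` (helper29 `New/KummerNodeHyp`, binder block of board #2930): `𝔓ᵢ = ker θᵢ` primes
  `≤ 𝔫`, `ϖ ∈ 𝔓₁ ⊓ 𝔓₂`, `𝔓₁ ⊓ 𝔓₂ = (ϖ)`, `(node)`, `R ⧸ 𝔓ᵢ` integrally closed, `ℓ ∈ 𝔫`, the separating
  elements, `𝔓ᵢ = 𝔪_{Vᵢ} ∩ R`, `Vᵢ = R_{𝔓ᵢ}` (`hloc`), `𝔓ᵢ R_{𝔓ᵢ} = ϖ R_{𝔓ᵢ}` (`e = 1`);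
* `nodeFacts_fin` : `NodeFacts` for the finite chart at every crossing point.
-/
import Mathlib
import Fermat.Agent.P4.BranchNormalLevel
import Fermat.Agent.P4.NodeGlue
import Fermat.Agent.S33.L.KTWireLoc
import Fermat.Agent.S33.New.KummerSmoothTheta
import Fermat.Agent.S33.New.KummerNodeAbs
import Fermat.Agent.S33.L.CycloLevelInst
import Fermat.Agent.S33.L.Contracts
import Fermat.Agent.S33.L.PointsUniform

set_option autoImplicit false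
set_option linter.unusedSectionVars false
set_option linter.style.haveILetI false
set_option linter.style.longLine false

open ModularCurve Fermat.Agent.S28.Gauss Fermat.Agent.N4.Setting Fermat.Agent.N4.FibreEmbedding
open Fermat.Agent.N4.Chart
open Fermat.Agent.N4F.E.DegreeLevelRaise Fermat.Agent.N4F.E.GaussDVR AlgebraicCurve Polynomial
open Fermat.Agent.N4F.E IsLocalRing Fermat.Agent.P3G.RbarFin Fermat.Agent.P3G.TwoComponents
open Fermat.Agent.P3G.TwoComponentsFinal Fermat.Agent.P3G Fermat.Agent.P4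
open Fermat.Agent.P4.TwistRoots

noncomputable section

namespace Fermat.Agent.S33.L.KOutNode

/-! ### The abstract package of facts at a crossing point -/

section Abstract

variable {O F R Rb : Type*} [CommRing O] [Field F] [Algebra O F]
  [CommRing R] [IsDomain R] [Algebra R F] [IsFractionRing R F] [Algebra O R] [IsScalarTower O R F]
  [CommRing Rb] [IsDomain Rb]

/-- **The facts at a crossing point `𝔫`** of a chart `R` with two reductions `θ₁ θ₂ : R → Rb`,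
vertical valuation rings `V₁ V₂` and uniformiser `ϖ`, residue characteristic `ℓ`. -/
structure NodeFacts (θ₁ θ₂ : R →+* Rb) (V₁ V₂ : ValuationSubring F) (ϖ : O) (ℓ : ℕ)
    (𝔫 : Ideal R) : Prop where
  surj₁ : Function.Surjective θ₁
  surj₂ : Function.Surjective θ₂
  mem₁ : ∀ r : R, algebraMap R F r ∈ V₁
  mem₂ : ∀ r : R, algebraMap R F r ∈ V₂
  ker₁ : ∀ r : R, θ₁ r = 0 ↔ algebraMap R F r ∈ V₁.nonunits
  ker₂ : ∀ r : R, θ₂ r = 0 ↔ algebraMap R F r ∈ V₂.nonunits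
  le₁ : RingHom.ker θ₁ ≤ 𝔫
  le₂ : RingHom.ker θ₂ ≤ 𝔫
  pi_mem : algebraMap O R ϖ ∈ RingHom.ker θ₁ ⊓ RingHom.ker θ₂
  inf_le : RingHom.ker θ₁ ⊓ RingHom.ker θ₂ ≤ Ideal.span {algebraMap O R ϖ}
  node : ∀ r ∈ 𝔫, ∃ c, c ∉ 𝔫 ∧ ∃ p₁ ∈ RingHom.ker θ₁, ∃ p₂ ∈ RingHom.ker θ₂, c * r = p₁ + p₂
  loc₁ : ∀ x ∈ V₁, ∃ a d : R, algebraMap R F d ∉ V₁.nonunits ∧
    x * algebraMap R F d = algebraMap R F a
  loc₂ : ∀ x ∈ V₂, ∃ a d : R, algebraMap R F d ∉ V₂.nonunits ∧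
    x * algebraMap R F d = algebraMap R F a
  sep₁₂ : ∃ ε : R, ε ∈ RingHom.ker θ₁ ∧ ε ∉ RingHom.ker θ₂
  sep₂₁ : ∃ ε : R, ε ∈ RingHom.ker θ₂ ∧ ε ∉ RingHom.ker θ₁
  char_mem : (ℓ : R) ∈ 𝔫
  pi_ne : algebraMap O F ϖ ≠ 0
  unif₁ : ∀ x, V₁.valuation x < 1 → V₁.valuation x ≤ V₁.valuation (algebraMap O F ϖ)
  unif₂ : ∀ x, V₂.valuation x < 1 → V₂.valuation x ≤ V₂.valuation (algebraMap O F ϖ)

namespace NodeFacts

variable {θ₁ θ₂ : R →+* Rb} {V₁ V₂ : ValuationSubring F} {ϖ : O} {ℓ : ℕ} {𝔫 : Ideal R}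

/-- `e = 1` on the first branch: locally at `𝔓₁` the prime `𝔓₁` is generated by `ϖ`. -/
theorem prin₁ (h : NodeFacts θ₁ θ₂ V₁ V₂ ϖ ℓ 𝔫) :
    ∀ x ∈ RingHom.ker θ₁, ∃ t, t ∉ RingHom.ker θ₁ ∧ ∃ y, t * x = algebraMap O R ϖ * y := by
  intro x hx
  obtain ⟨ε, hε2, hε1⟩ := h.sep₂₁
  have hmem : ε * x ∈ RingHom.ker θ₁ ⊓ RingHom.ker θ₂ :=
    ⟨Ideal.mul_mem_left _ _ hx, Ideal.mul_mem_right _ _ hε2⟩
  obtain ⟨y, hy⟩ := Ideal.mem_span_singleton'.1 (h.inf_le hmem)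
  exact ⟨ε, hε1, y, by rw [← hy, mul_comm]⟩

/-- `e = 1` on the second branch. -/
theorem prin₂ (h : NodeFacts θ₁ θ₂ V₁ V₂ ϖ ℓ 𝔫) :
    ∀ x ∈ RingHom.ker θ₂, ∃ t, t ∉ RingHom.ker θ₂ ∧ ∃ y, t * x = algebraMap O R ϖ * y := by
  intro x hx
  obtain ⟨ε, hε1, hε2⟩ := h.sep₁₂
  have hmem : ε * x ∈ RingHom.ker θ₁ ⊓ RingHom.ker θ₂ :=
    ⟨Ideal.mul_mem_right _ _ hε1, Ideal.mul_mem_left _ _ hx⟩
  obtain ⟨y, hy⟩ := Ideal.mem_span_singleton'.1 (h.inf_le hmem)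
  exact ⟨ε, hε2, y, by rw [← hy, mul_comm]⟩

theorem through₁ (h : NodeFacts θ₁ θ₂ V₁ V₂ ϖ ℓ 𝔫) : Through V₁ 𝔫 :=
  fun r hr => h.le₁ ((RingHom.mem_ker).2 ((h.ker₁ r).2 hr))

theorem through₂ (h : NodeFacts θ₁ θ₂ V₁ V₂ ϖ ℓ 𝔫) : Through V₂ 𝔫 :=
  fun r hr => h.le₂ ((RingHom.mem_ker).2 ((h.ker₂ r).2 hr))

theorem isIntegrallyClosed_quot₁ [IsIntegrallyClosed Rb] (h : NodeFacts θ₁ θ₂ V₁ V₂ ϖ ℓ 𝔫) :
    IsIntegrallyClosed (R ⧸ RingHom.ker θ₁) :=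
  Fermat.Agent.S33.New.KummerSmoothTheta.isIntegrallyClosed_quot_ker θ₁ h.surj₁

theorem isIntegrallyClosed_quot₂ [IsIntegrallyClosed Rb] (h : NodeFacts θ₁ θ₂ V₁ V₂ ϖ ℓ 𝔫) :
    IsIntegrallyClosed (R ⧸ RingHom.ker θ₂) :=
  Fermat.Agent.S33.New.KummerSmoothTheta.isIntegrallyClosed_quot_ker θ₂ h.surj₂

/-- The saturation in `F`-form. -/
theorem sat (h : NodeFacts θ₁ θ₂ V₁ V₂ ϖ ℓ 𝔫) :
    ∀ r : R, algebraMap R F r ∈ V₁.nonunits → algebraMap R F r ∈ V₂.nonunits →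
      algebraMap O R ϖ ∣ r := by
  intro r h1 h2
  have hmem : r ∈ RingHom.ker θ₁ ⊓ RingHom.ker θ₂ :=
    ⟨(RingHom.mem_ker).2 ((h.ker₁ r).2 h1), (RingHom.mem_ker).2 ((h.ker₂ r).2 h2)⟩
  obtain ⟨y, hy⟩ := Ideal.mem_span_singleton'.1 (h.inf_le hmem)
  exact ⟨y, by rw [← hy, mul_comm]⟩

/-- `(node)` in `F`-form (the shape of `TwistRoots.CrossingFrob`). -/
theorem node' (h : NodeFacts θ₁ θ₂ V₁ V₂ ϖ ℓ 𝔫) :
    ∀ r ∈ 𝔫, ∃ c p₁ p₂ : R, c ∉ 𝔫 ∧ algebraMap R F p₁ ∈ V₁.nonunits ∧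
      algebraMap R F p₂ ∈ V₂.nonunits ∧ c * r = p₁ + p₂ := by
  intro r hr
  obtain ⟨c, hc, p₁, hp₁, p₂, hp₂, e⟩ := h.node r hr
  exact ⟨c, p₁, p₂, hc, (h.ker₁ p₁).1 hp₁, (h.ker₂ p₂).1 hp₂, e⟩

end NodeFacts

end Abstract

/-! ### One branch: `BranchHyp` and integral closedness for `A = locAlg R 𝔫`, `B = V` -/

section Branch

open Fermat.Agent.G.PointsLoc Fermat.Agent.S33.L.KTWireLoc Fermat.Agent.S33.New.KummerNodeAbs

variable {O K F : Type*} [CommRing O] [IsDomain O] [IsDiscreteValuationRing O]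
  [Field K] [Algebra O K] [IsFractionRing O K]
  [Field F] [Algebra K F] [Algebra O F] [IsScalarTower O K F]
  (R : Subalgebra O F) [IsFractionRing ↥R F] (𝔫 : Ideal ↥R) [h𝔫 : 𝔫.IsPrime]
  {Rb : Type*} [CommRing Rb] [IsDomain Rb]
  (θ : ↥R →+* Rb) (V : ValuationSubring F) (ϖ : O)

/-- `(ϖ)` is the maximal ideal of `V` (`e = 1`). -/
theorem span_pi_eq_maximalIdeal (hϖV : algebraMap O F ϖ ∈ V.nonunits)
    (hϖ0 : algebraMap O F ϖ ≠ 0)
    (hunif : ∀ x, V.valuation x < 1 → V.valuation x ≤ V.valuation (algebraMap O F ϖ)) :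
    Ideal.span {(⟨algebraMap O F ϖ, V.nonunits_subset hϖV⟩ : ↥V)} =
      IsLocalRing.maximalIdeal ↥V := by
  apply le_antisymm
  · rw [Ideal.span_singleton_le_iff_mem, IsLocalRing.mem_maximalIdeal, mem_nonunits_iff]
    intro hu
    have h1 : V.valuation (algebraMap O F ϖ) = 1 := (V.valuation_eq_one_iff _).1 hu
    have h2 := (V.mem_nonunits_iff).1 hϖV
    rw [h1] at h2
    exact lt_irrefl _ h2
  · intro x hx
    rw [IsLocalRing.mem_maximalIdeal, mem_nonunits_iff] at hx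
    have hx1 : V.valuation (x : F) < 1 := by
      have h1 : V.valuation (x : F) ≤ 1 := (V.valuation_le_one_iff _).2 x.2
      rcases lt_or_eq_of_le h1 with h | h
      · exact h
      · exact absurd ((V.valuation_eq_one_iff x).2 h) hx
    have h2 := hunif _ hx1
    have hmem : (x : F) * (algebraMap O F ϖ)⁻¹ ∈ V := by
      rw [← V.valuation_le_one_iff, map_mul, map_inv₀]
      have hpos : V.valuation (algebraMap O F ϖ) ≠ 0 := (Valuation.ne_zero_iff _).2 hϖ0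
      rw [mul_inv_le_iff₀ (zero_lt_iff.2 hpos), one_mul]
      exact h2
    rw [Ideal.mem_span_singleton']
    refine ⟨⟨_, hmem⟩, ?_⟩
    apply Subtype.ext
    show (x : F) * (algebraMap O F ϖ)⁻¹ * algebraMap O F ϖ = x
    rw [mul_assoc, inv_mul_cancel₀ hϖ0, mul_one]

variable (hV : ∀ r : R, algebraMap ↥R F r ∈ V) (ht : Through V 𝔫)

/-- The uniformiser in `locAlg R 𝔫`. -/
abbrev piA : ↥(locAlg R 𝔫) := algebraMap O ↥(locAlg R 𝔫) ϖ

theorem coe_piA : ((piA R 𝔫 ϖ : ↥(locAlg R 𝔫)) : F) = algebraMap O F ϖ := rfl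

/-- Membership in the branch ideal `A ∩ ϖ V`, in `F`-form. -/
theorem mem_branch_iff (hϖV : algebraMap O F ϖ ∈ V.nonunits) (hϖ0 : algebraMap O F ϖ ≠ 0)
    (hunif : ∀ x, V.valuation x < 1 → V.valuation x ≤ V.valuation (algebraMap O F ϖ))
    (a : ↥(locAlg R 𝔫)) :
    letI := algV R 𝔫 hV ht
    a ∈ branch (piA R 𝔫 ϖ) ↥V ↔ (a : F) ∈ V.nonunits := by
  letI := algV R 𝔫 hV ht
  rw [mem_branch]
  constructor
  · rintro ⟨c, hc⟩
    have h1 : (a : F) = algebraMap O F ϖ * (c : F) := congrArg Subtype.val hc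
    rw [h1]
    exact nonunits_mul_mem hϖV c.2
  · intro ha
    have h2 := hunif _ ((V.mem_nonunits_iff).1 ha)
    have hmem : (algebraMap O F ϖ)⁻¹ * (a : F) ∈ V := by
      rw [← V.valuation_le_one_iff, map_mul, map_inv₀]
      have hpos : V.valuation (algebraMap O F ϖ) ≠ 0 := (Valuation.ne_zero_iff _).2 hϖ0
      rw [inv_mul_le_iff₀ (zero_lt_iff.2 hpos), mul_one]
      exact h2
    refine ⟨⟨_, hmem⟩, ?_⟩
    apply Subtype.ext
    show (a : F) = algebraMap O F ϖ * ((algebraMap O F ϖ)⁻¹ * (a : F))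
    rw [← mul_assoc, mul_inv_cancel₀ hϖ0, one_mul]

/-- **`BranchHyp` for `A = locAlg R 𝔫 → V`**: `ϖ V` is prime and `V / ϖ` is the fraction field of
`A / (A ∩ ϖ V)`. -/
theorem branchHyp_V (hϖV : algebraMap O F ϖ ∈ V.nonunits) (hϖ0 : algebraMap O F ϖ ≠ 0)
    (hunif : ∀ x, V.valuation x < 1 → V.valuation x ≤ V.valuation (algebraMap O F ϖ))
    (hloc : ∀ x ∈ V, ∃ a d : ↥R, algebraMap ↥R F d ∉ V.nonunits ∧
      x * algebraMap ↥R F d = algebraMap ↥R F a) :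
    letI := algV R 𝔫 hV ht
    BranchHyp (piA R 𝔫 ϖ) ↥V := by
  letI := algV R 𝔫 hV ht
  have hπ : algebraMap ↥(locAlg R 𝔫) ↥V (piA R 𝔫 ϖ) =
      ⟨algebraMap O F ϖ, V.nonunits_subset hϖV⟩ := Subtype.ext rfl
  refine ⟨?_, ?_⟩
  · rw [hπ, span_pi_eq_maximalIdeal V ϖ hϖV hϖ0 hunif]
    exact (IsLocalRing.maximalIdeal.isMaximal _).isPrime
  · intro b
    obtain ⟨a, d, hd, e⟩ := hloc b b.2
    refine ⟨algebraMap ↥R ↥(locAlg R 𝔫) a, algebraMap ↥R ↥(locAlg R 𝔫) d, ?_, 0, ?_⟩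
    · intro hmem
      exact hd ((mem_branch_iff R 𝔫 V ϖ hV ht hϖV hϖ0 hunif _).1 hmem)
    · apply Subtype.ext
      show (d : F) * (b : F) = (a : F) + algebraMap O F ϖ * ((0 : ↥V) : F)
      rw [ZeroMemClass.coe_zero, mul_zero, add_zero, mul_comm]
      exact e

/-- The branch ideal is the extension of `ker θ`. -/
theorem branch_eq_map (hker : ∀ r : ↥R, θ r = 0 ↔ algebraMap ↥R F r ∈ V.nonunits)
    (hϖV : algebraMap O F ϖ ∈ V.nonunits) (hϖ0 : algebraMap O F ϖ ≠ 0)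
    (hunif : ∀ x, V.valuation x < 1 → V.valuation x ≤ V.valuation (algebraMap O F ϖ)) :
    letI := algV R 𝔫 hV ht
    branch (piA R 𝔫 ϖ) ↥V = (RingHom.ker θ).map (algebraMap ↥R ↥(locAlg R 𝔫)) := by
  letI := algV R 𝔫 hV ht
  ext a
  rw [mem_branch_iff R 𝔫 V ϖ hV ht hϖV hϖ0 hunif,
    IsLocalization.mem_map_algebraMap_iff 𝔫.primeCompl ↥(locAlg R 𝔫)]
  constructor
  · intro ha
    obtain ⟨r, b, hb, e⟩ := (mem_locAlg_iff R 𝔫).1 a.2
    have hr : r ∈ RingHom.ker θ := by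
      rw [RingHom.mem_ker, hker]
      show (r : F) ∈ V.nonunits
      rw [← e]
      exact nonunits_mul_mem ha (hV b)
    exact ⟨(⟨r, hr⟩, ⟨b, hb⟩), Subtype.ext e⟩
  · rintro ⟨⟨⟨r, hr⟩, ⟨b, hb⟩⟩, e⟩
    have e' : (a : F) * (b : F) = (r : F) := congrArg Subtype.val e
    have hrV : (r : F) ∈ V.nonunits := (hker r).1 ((RingHom.mem_ker).1 hr)
    have hb1 : V.valuation (b : F) = 1 := valuation_eq_one_of_notMem hV ht hb
    rw [V.mem_nonunits_iff]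
    have := (V.mem_nonunits_iff).1 hrV
    rw [← e', map_mul, hb1, mul_one] at this
    exact this

/-- `A ⧸ (A ∩ ϖ V)` is integrally closed when `R ⧸ ker θ` is. -/
theorem isIntegrallyClosed_quot_branch [IsIntegrallyClosed Rb] (hθ : Function.Surjective θ)
    (hker : ∀ r : ↥R, θ r = 0 ↔ algebraMap ↥R F r ∈ V.nonunits)
    (hϖV : algebraMap O F ϖ ∈ V.nonunits) (hϖ0 : algebraMap O F ϖ ≠ 0)
    (hunif : ∀ x, V.valuation x < 1 → V.valuation x ≤ V.valuation (algebraMap O F ϖ)) :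
    letI := algV R 𝔫 hV ht
    IsIntegrallyClosed (↥(locAlg R 𝔫) ⧸ branch (piA R 𝔫 ϖ) ↥V) := by
  letI := algV R 𝔫 hV ht
  haveI : (RingHom.ker θ).IsPrime := RingHom.ker_isPrime θ
  haveI : IsIntegrallyClosed (↥R ⧸ RingHom.ker θ) :=
    Fermat.Agent.S33.New.KummerSmoothTheta.isIntegrallyClosed_quot_ker θ hθ
  have hle : RingHom.ker θ ≤ 𝔫 := fun r hr => ht r ((hker r).1 ((RingHom.mem_ker).1 hr))
  haveI := Fermat.Agent.S33.New.KummerSmoothInst.isDomain_quot_map (A := ↥(locAlg R 𝔫)) 𝔫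
    (RingHom.ker θ) hle
  haveI := Fermat.Agent.S33.New.KummerSmoothInst.isIntegrallyClosed_quot_map
    (A := ↥(locAlg R 𝔫)) 𝔫 (RingHom.ker θ) hle
  exact IsIntegrallyClosed.of_equiv
    (Ideal.quotEquivOfEq (branch_eq_map R 𝔫 θ V ϖ hV ht hker hϖV hϖ0 hunif)).symm

end Branch

/-! ### The node: `NodeHyp` and `KOutAt` from `NodeFacts` -/

section Node

open Fermat.Agent.G.PointsLoc Fermat.Agent.S33.L.KTWireLoc Fermat.Agent.S33.New.KummerNodeAbs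
  Fermat.Agent.S33.New.KummerLoc Fermat.Agent.S33.L.Skeleton

variable {O K F : Type*} [CommRing O] [IsDomain O] [IsDiscreteValuationRing O]
  [Field K] [Algebra O K] [IsFractionRing O K]
  [Field F] [Algebra K F] [Algebra O F] [IsScalarTower O K F]
  (R : Subalgebra O F) [IsFractionRing ↥R F] (𝔫 : Ideal ↥R) [h𝔫 : 𝔫.IsMaximal]
  {Rb : Type*} [CommRing Rb] [IsDomain Rb] [IsIntegrallyClosed Rb]
  {θ₁ θ₂ : ↥R →+* Rb} {V₁ V₂ : ValuationSubring F} {ϖ : O} {ℓ : ℕ}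

/-- **helper19's `NodeHyp` at a crossing point of a chart**, `A = locAlg R 𝔫`, `Bᵢ = Vᵢ`. -/
theorem nodeHyp_of_nodeFacts (h : NodeFacts θ₁ θ₂ V₁ V₂ ϖ ℓ 𝔫)
    {p j₀ : ℕ} (hp : p.Prime) (hj₀ : 1 ≤ j₀) (υ₀ lam0 : Oˣ) (ζ₀ : O)
    (hpυ : (p : O) = υ₀ * ϖ ^ ((p - 1) * j₀)) (hζ₀ : ζ₀ ^ p = 1)
    (hζd : ζ₀ - 1 = lam0 * ϖ ^ j₀) :
    letI := algV R 𝔫 h.mem₁ h.through₁
    letI := algV R 𝔫 h.mem₂ h.through₂
    NodeHyp ↥V₁ ↥V₂ (piA R 𝔫 ϖ) p j₀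
      (Units.map ((algebraMap O ↥(locAlg R 𝔫) : O →+* ↥(locAlg R 𝔫)) : O →* ↥(locAlg R 𝔫)) υ₀)
      (algebraMap O ↥(locAlg R 𝔫) ζ₀) (algebraMap O ↥(locAlg R 𝔫) (lam0 : O)) := by
  letI := algV R 𝔫 h.mem₁ h.through₁
  letI := algV R 𝔫 h.mem₂ h.through₂
  have hϖV₁ : algebraMap O F ϖ ∈ V₁.nonunits := by
    have := (h.ker₁ _).1 ((RingHom.mem_ker).1 h.pi_mem.1)
    rwa [← IsScalarTower.algebraMap_apply O ↥R F] at this
  have hϖV₂ : algebraMap O F ϖ ∈ V₂.nonunits := by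
    have := (h.ker₂ _).1 ((RingHom.mem_ker).1 h.pi_mem.2)
    rwa [← IsScalarTower.algebraMap_apply O ↥R F] at this
  have hϖ0 := h.pi_ne
  haveI := isIntegrallyClosed_quot_branch R 𝔫 θ₁ V₁ ϖ h.mem₁ h.through₁ h.surj₁ h.ker₁ hϖV₁ hϖ0
    h.unif₁
  haveI := isIntegrallyClosed_quot_branch R 𝔫 θ₂ V₂ ϖ h.mem₂ h.through₂ h.surj₂ h.ker₂ hϖV₂ hϖ0
    h.unif₂
  have hB₁ := branchHyp_V R 𝔫 V₁ ϖ h.mem₁ h.through₁ hϖV₁ hϖ0 h.unif₁ h.loc₁
  have hB₂ := branchHyp_V R 𝔫 V₂ ϖ h.mem₂ h.through₂ hϖV₂ hϖ0 h.unif₂ h.loc₂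
  have hπA0 : piA R 𝔫 ϖ ≠ 0 := by
    intro h0
    exact hϖ0 (congrArg Subtype.val h0)
  refine NodeHyp.of_branches hB₁ hB₂ ?_ ?_ ?_ ?_ ?_ hp hj₀ ?_ ?_ ?_ ?_
  · -- regA
    intro a ha
    exact (mul_eq_zero.1 ha).resolve_left hπA0
  · -- reg₁
    intro b hb
    refine (mul_eq_zero.1 hb).resolve_left ?_
    intro h0
    exact hϖ0 (congrArg Subtype.val h0)
  · -- reg₂
    intro b hb
    refine (mul_eq_zero.1 hb).resolve_left ?_
    intro h0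
    exact hϖ0 (congrArg Subtype.val h0)
  · -- sat
    intro a ha₁ ha₂
    rw [mem_branch_iff R 𝔫 V₁ ϖ h.mem₁ h.through₁ hϖV₁ hϖ0 h.unif₁] at ha₁
    rw [mem_branch_iff R 𝔫 V₂ ϖ h.mem₂ h.through₂ hϖV₂ hϖ0 h.unif₂] at ha₂
    obtain ⟨r, b, hb, e⟩ := (mem_locAlg_iff R 𝔫).1 a.2
    have hr₁ : algebraMap ↥R F r ∈ V₁.nonunits := by
      show (r : F) ∈ V₁.nonunits
      rw [← e]; exact nonunits_mul_mem ha₁ (h.mem₁ b)
    have hr₂ : algebraMap ↥R F r ∈ V₂.nonunits := by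
      show (r : F) ∈ V₂.nonunits
      rw [← e]; exact nonunits_mul_mem ha₂ (h.mem₂ b)
    obtain ⟨y, hy⟩ := h.sat r hr₁ hr₂
    have hb0 : (b : F) ≠ 0 := algebraMap_ne_zero_of_notMem 𝔫 hb
    have hmem : (y : F) * (b : F)⁻¹ ∈ locAlg R 𝔫 := by
      refine (mem_locAlg_iff R 𝔫).2 ⟨y, b, hb, ?_⟩
      rw [mul_assoc, inv_mul_cancel₀ hb0, mul_one]
    refine ⟨⟨_, hmem⟩, ?_⟩
    apply Subtype.ext
    show (a : F) = algebraMap O F ϖ * ((y : F) * (b : F)⁻¹)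
    have hy' : (r : F) = algebraMap O F ϖ * (y : F) := by
      have := congrArg (fun z : ↥R => (z : F)) hy
      exact this
    rw [← mul_assoc, ← hy', ← e, mul_assoc, mul_inv_cancel₀ hb0, mul_one]
  · -- node
    intro a ha
    obtain ⟨r, b, hb, e⟩ := (mem_locAlg_iff R 𝔫).1 a.2
    have hr : r ∈ 𝔫 := by
      rw [← algebraMap_mem_maximalIdeal_locAlg_iff R 𝔫 r]
      have h1 : algebraMap ↥R ↥(locAlg R 𝔫) r = a * algebraMap ↥R ↥(locAlg R 𝔫) b :=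
        Subtype.ext e.symm
      rw [h1]
      exact Ideal.mul_mem_right _ _ ha
    obtain ⟨c, hc, q₁, hq₁, q₂, hq₂, hcr⟩ := h.node r hr
    have hcb : c * b ∉ 𝔫 := fun hmem => (h𝔫.isPrime.mem_or_mem hmem).elim hc hb
    have hcb0 : ((c * b : ↥R) : F) ≠ 0 := algebraMap_ne_zero_of_notMem 𝔫 hcb
    have hb0 : (b : F) ≠ 0 := algebraMap_ne_zero_of_notMem 𝔫 hb
    have hc0 : (c : F) ≠ 0 := algebraMap_ne_zero_of_notMem 𝔫 hc
    have hmem : ∀ q : ↥R, (q : F) * ((c * b : ↥R) : F)⁻¹ ∈ locAlg R 𝔫 := by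
      intro q
      refine (mem_locAlg_iff R 𝔫).2 ⟨q, c * b, hcb, ?_⟩
      rw [mul_assoc, inv_mul_cancel₀ hcb0, mul_one]
    have hval : ∀ (V : ValuationSubring F) (hV : ∀ r : ↥R, algebraMap ↥R F r ∈ V)
        (ht : Through V 𝔫) (q : ↥R), algebraMap ↥R F q ∈ V.nonunits →
        (q : F) * ((c * b : ↥R) : F)⁻¹ ∈ V.nonunits := by
      intro V hV ht q hq
      rw [V.mem_nonunits_iff, map_mul, map_inv₀]
      have h1 : V.valuation ((c * b : ↥R) : F) = 1 := valuation_eq_one_of_notMem hV ht hcb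
      rw [h1, inv_one, mul_one]
      exact (V.mem_nonunits_iff).1 hq
    refine ⟨⟨_, hmem q₁⟩, ?_, ⟨_, hmem q₂⟩, ?_, ?_⟩
    · rw [mem_branch_iff R 𝔫 V₁ ϖ h.mem₁ h.through₁ hϖV₁ hϖ0 h.unif₁]
      exact hval V₁ h.mem₁ h.through₁ q₁ ((h.ker₁ q₁).1 ((RingHom.mem_ker).1 hq₁))
    · rw [mem_branch_iff R 𝔫 V₂ ϖ h.mem₂ h.through₂ hϖV₂ hϖ0 h.unif₂]
      exact hval V₂ h.mem₂ h.through₂ q₂ ((h.ker₂ q₂).1 ((RingHom.mem_ker).1 hq₂))
    · apply Subtype.ext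
      show (a : F) = (q₁ : F) * ((c * b : ↥R) : F)⁻¹ + (q₂ : F) * ((c * b : ↥R) : F)⁻¹
      have hcr' : (c : F) * (r : F) = (q₁ : F) + (q₂ : F) := by
        have := congrArg (fun z : ↥R => (z : F)) hcr
        exact this
      have hcb' : ((c * b : ↥R) : F) = (c : F) * (b : F) := rfl
      rw [← add_mul, ← hcr', hcb', ← e]
      field_simp
  · -- hpυ
    have := congrArg (algebraMap O ↥(locAlg R 𝔫)) hpυ
    rw [map_natCast, map_mul, map_pow] at this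
    exact this
  · -- hζ
    rw [← map_pow, hζ₀, map_one]
  · -- hζd
    have h1 : ζ₀ = 1 + ϖ ^ j₀ * (lam0 : O) := by
      have : ζ₀ = (ζ₀ - 1) + 1 := by ring
      rw [this, hζd]; ring
    have := congrArg (algebraMap O ↥(locAlg R 𝔫)) h1
    rw [map_add, map_one, map_mul, map_pow] at this
    exact this
  · -- hd₀
    exact lam0.isUnit.map _

variable (K)

/-- **(K-out) at a crossing point of a chart from `NodeFacts`**, `F`-form of `L/Skeleton`. -/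
theorem kOutAt_of_nodeFacts (h : NodeFacts θ₁ θ₂ V₁ V₂ ϖ ℓ 𝔫)
    {p j₀ : ℕ} (hp : p.Prime) (hj₀ : 1 ≤ j₀) (υ₀ lam0 : Oˣ) (ζ₀ : O)
    (hpυ : (p : O) = υ₀ * ϖ ^ ((p - 1) * j₀)) (hζ₀ : ζ₀ ^ p = 1)
    (hζd : ζ₀ - 1 = lam0 * ϖ ^ j₀) (n : ℕ) {ζ : K} (hζ : IsPrimitiveRoot ζ (p ^ n)) :
    KOutAt K 𝔫 V₁ V₂ ϖ (p ^ n) (n * ((p - 1) * j₀)) := by
  letI := algV R 𝔫 h.mem₁ h.through₁
  letI := algV R 𝔫 h.mem₂ h.through₂
  have H := (nodeHyp_of_nodeFacts R 𝔫 h hp hj₀ υ₀ lam0 ζ₀ hpυ hζ₀ hζd).toHyp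
  exact kOutAt_node K R 𝔫 V₁ V₂ h.through₁ h.through₂ (fun _ => rfl) (fun _ => rfl)
    (coe_piA R 𝔫 ϖ) H n hζ

end Node

/-! ### The finite chart of level `N ℓ` -/

section Fin

variable (K : Type) [Field K] [CharZero K] (N : ℕ) [NeZero N] (ℓ : ℕ) [Fact ℓ.Prime]
  (O : Subring K) [IsDiscreteValuationRing ↥O] [IsFractionRing ↥O K]
  [CharP (IsLocalRing.ResidueField ↥O) ℓ] [PerfectRing (IsLocalRing.ResidueField ↥O) ℓ]

set_option synthInstance.maxHeartbeats 400000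

variable (hN : IsUnit ((N : ℕ) : ↥O)) (ι : K →+* ℂ) (hℓN : ¬ ℓ ∣ N)
  (hprime : (fibreIdeal K N O (Rfin K N O)).IsPrime)
  (hsmooth : IsDedekindDomain (↥(Rfin K N O) ⧸ fibreIdeal K N O (Rfin K N O)))
  (hA2 : ∀ x : ↥(gaussSubalgebra K N O),
    theta K N O x ∈ modularFunctionFieldFullC (IsLocalRing.ResidueField ↥O) N)
  (S₂ : FibreTwo.SecondVal K N ℓ O)
  {ϖ : ↥O} (hϖ : Irreducible ϖ)

include hN ι hℓN hprime hsmooth hA2 hϖ in
/-- **`NodeFacts` at every crossing point of the finite chart of level `N ℓ`.** -/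
theorem nodeFacts_fin (hℓO : ((ℓ : ℕ) : ↥O) ∈ IsLocalRing.maximalIdeal ↥O)
    (𝔫 : Ideal ↥(Rfin K (N * ℓ) O)) [h𝔫 : 𝔫.IsMaximal]
    (ht₁ : Through (gaussVS K (N * ℓ) O) 𝔫) (ht₂ : Through S₂.V 𝔫) :
    NodeFacts
      (CrossingLaurent.res (RbarFin K N O) (thetaFin K (N * ℓ) O)
        (thetaFin_mem_rbar K N ℓ O hN ι hℓN hprime hsmooth hA2 S₂))
      (CrossingLaurent.res (RbarFin K N O) (theta2S K N ℓ O S₂)
        (theta2S_mem_rbar K N ℓ O hN hprime hsmooth hA2 S₂))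
      (gaussVS K (N * ℓ) O) S₂.V ϖ ℓ 𝔫 := by
  haveI := Fermat.Agent.N4.ModPolySetting.finiteDimensional_FF K (N * ℓ)
  haveI : IsDedekindDomain ↥(RbarFin K N O) := isDedekindDomain_RbarFin K N O hprime hsmooth
  have hD := crossingData_fin K N ℓ O hN ι hℓN hprime hsmooth hA2 S₂
  have hS := BranchNormalLevel.setup_fin K N ℓ O hN ι hℓN hprime hsmooth hA2 S₂ hϖ
  have hk₁ := BranchNormalLevel.res_thetaFin_eq_zero_iff K N ℓ O hN ι hℓN hprime hsmooth hA2 S₂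
  have hk₂ := BranchNormalLevel.res_theta2S_eq_zero_iff K N ℓ O hN hprime hsmooth hA2 S₂
  have hV := ker_inf_ker_eq_fin K N ℓ O hN ι hℓN hprime hsmooth hA2 S₂ hϖ
  have hle₁ : RingHom.ker (CrossingLaurent.res (RbarFin K N O) (thetaFin K (N * ℓ) O)
      (thetaFin_mem_rbar K N ℓ O hN ι hℓN hprime hsmooth hA2 S₂)) ≤ 𝔫 :=
    fun r hr => ht₁ r ((hk₁ r).1 hr)
  have hle₂ : RingHom.ker (CrossingLaurent.res (RbarFin K N O) (theta2S K N ℓ O S₂)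
      (theta2S_mem_rbar K N ℓ O hN hprime hsmooth hA2 S₂)) ≤ 𝔫 :=
    fun r hr => ht₂ r ((hk₂ r).1 hr)
  have hϖmem : algebraMap ↥O ↥(Rfin K (N * ℓ) O) ϖ ∈
      RingHom.ker (CrossingLaurent.res (RbarFin K N O) (thetaFin K (N * ℓ) O)
        (thetaFin_mem_rbar K N ℓ O hN ι hℓN hprime hsmooth hA2 S₂)) ⊓
      RingHom.ker (CrossingLaurent.res (RbarFin K N O) (theta2S K N ℓ O S₂)
        (theta2S_mem_rbar K N ℓ O hN hprime hsmooth hA2 S₂)) :=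
    hV.ge (Ideal.mem_span_singleton_self _)
  have hbot : 𝔫.map (CrossingLaurent.res (RbarFin K N O) (thetaFin K (N * ℓ) O)
      (thetaFin_mem_rbar K N ℓ O hN ι hℓN hprime hsmooth hA2 S₂)) ≠ ⊥ := by
    haveI := Crossing.isMaximal_map _ hD.surj₁ 𝔫 hle₁
    exact Ring.ne_bot_of_isMaximal_of_not_isField inferInstance
      (not_isField_RbarFin K N O hprime)
  refine
    { surj₁ := hD.surj₁
      surj₂ := hD.surj₂
      mem₁ := hS.mem₁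
      mem₂ := hS.mem₂
      ker₁ := hk₁
      ker₂ := hk₂
      le₁ := hle₁
      le₂ := hle₂
      pi_mem := hϖmem
      inf_le := hV.le
      node := NodeGlue.node_of_crossingData hD 𝔫 hle₁ hle₂ hbot hV.le hϖmem.1
      loc₁ := hS.loc₁
      loc₂ := hS.loc₂
      sep₁₂ := ?_
      sep₂₁ := ?_
      char_mem := ?_
      pi_ne := ?_
      unif₁ := ?_
      unif₂ := ?_ }
  · obtain ⟨ε, h1, h2⟩ := hS.sep₁₂
    exact ⟨ε, (RingHom.mem_ker).2 ((hk₁ ε).2 h1), fun h => h2 ((hk₂ ε).1 h)⟩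
  · obtain ⟨ε, h2, h1⟩ := hS.sep₂₁
    exact ⟨ε, (RingHom.mem_ker).2 ((hk₂ ε).2 h2), fun h => h1 ((hk₁ ε).1 h)⟩
  · -- `ℓ ∈ (ϖ) ⊆ 𝔫`
    have h1 : ((ℓ : ℕ) : ↥O) ∈ Ideal.span {ϖ} := by
      rw [← hϖ.maximalIdeal_eq]; exact hℓO
    obtain ⟨y, hy⟩ := Ideal.mem_span_singleton'.1 h1
    have h2 : ((ℓ : ℕ) : ↥(Rfin K (N * ℓ) O)) =
        algebraMap ↥O ↥(Rfin K (N * ℓ) O) y * algebraMap ↥O ↥(Rfin K (N * ℓ) O) ϖ := by
      rw [← map_mul, hy, map_natCast]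
    rw [h2]
    exact Ideal.mul_mem_left _ _ (hle₁ hϖmem.1)
  · intro h0
    have hinj : Function.Injective (algebraMap ↥O (FF K (N * ℓ))) := by
      rw [IsScalarTower.algebraMap_eq ↥O K (FF K (N * ℓ))]
      exact (algebraMap K (FF K (N * ℓ))).injective.comp (IsFractionRing.injective ↥O K)
    exact hϖ.ne_zero (hinj (by rw [h0, map_zero]))
  · intro x hx
    have := hS.unif₁ x hx
    rwa [← IsScalarTower.algebraMap_apply ↥O ↥(Rfin K (N * ℓ) O) (FF K (N * ℓ))] at this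
  · intro x hx
    have := hS.unif₂ x hx
    rwa [← IsScalarTower.algebraMap_apply ↥O ↥(Rfin K (N * ℓ) O) (FF K (N * ℓ))] at this

end Fin

/-! ### The finite chart at a good level -/

section Good

open Fermat.Agent.N4.BigDVR Fermat.Agent.N4.S18Glue Fermat.Agent.P3G.Assembly.LevelStep
  Fermat.Agent.P3G.Gamma Fermat.Agent.P3G.GammaAut
  Fermat.Agent.N4F.C Fermat.Agent.N4F.C.Levels Fermat.Agent.N4F.C.Galois
  Fermat.Agent.S33.L.Skeleton IntermediateField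

local notation "Qbar" => AlgebraicClosure ℚ

set_option maxHeartbeats 1600000 in
set_option synthInstance.maxHeartbeats 400000 in
/-- **(K-out) at every crossing point of the finite chart of level `M p` at a good level**, with the
loss `k (p - 1) j₀` of the cyclotomic constants of the level (`CycloLevelInst.exists_cyclo_const_level`). -/
theorem kOutAt_node_fin (M p : ℕ) [NeZero M] [Fact p.Prime] (hpM : ¬ p ∣ M)
    (A : ValuationSubring Qbar) (hA : A.LiesOverPrime p)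
    (K : IntermediateField ℚ Qbar) (hK : IsGoodLevel A p K)
    [IsDiscreteValuationRing ↥(baseRing A K)]
    (S₂ : Fermat.Agent.P3G.FibreTwo.SecondVal (Lvl K) M p (baseRing A K))
    (ϖ : ↥(baseRing A K)) (hϖ : Irreducible ϖ) {k : ℕ} (hk : 1 ≤ k)
    {z : ↥(baseRing A K)} (hz : IsPrimitiveRoot z (p ^ k))
    {j₀ : ℕ} (lam0 υ : (↥(baseRing A K))ˣ) (hj₀ : 1 ≤ j₀)
    (hlam : z ^ p ^ (k - 1) - 1 = lam0 * ϖ ^ j₀)
    (hpυ : ((p : ℕ) : ↥(baseRing A K)) = υ * ϖ ^ ((p - 1) * j₀))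
    (𝔫 : Ideal (chartAlg ↥(baseRing A K) (FF (Lvl K) (M * p)) {jF (Lvl K) (M * p)}))
    (h𝔫 : 𝔫.IsMaximal) (ht₁ : Through (gaussVS (Lvl K) (M * p) (baseRing A K)) 𝔫)
    (ht₂ : Through S₂.V 𝔫) :
    KOutAt (Lvl K) 𝔫 (gaussVS (Lvl K) (M * p) (baseRing A K)) S₂.V ϖ (p ^ k)
      (k * ((p - 1) * j₀)) := by
  have hq : p.Prime := Fact.out
  haveI := h𝔫
  haveI : IsAlgClosed (IsLocalRing.ResidueField ↥(baseRing A K)) := hK.algClosed
  have hGB : GoodBase (Lvl K) M (baseRing A K) p := ⟨hq, hpM, inferInstance, hK.not_unit⟩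
  haveI : CharP (IsLocalRing.ResidueField ↥(baseRing A K)) p :=
    Fermat.Agent.N4F.E.GaussResidue.charP_residueField (Lvl K) M (baseRing A K) hGB
  haveI : PerfectRing (IsLocalRing.ResidueField ↥(baseRing A K)) p := inferInstance
  have hstar := LevelStatements.starStatement_lvl hq hA K hGB hK.roots
  have hsmooth := LevelStatements.smoothStatement_lvl hq hA hpM K hGB hK.roots
  have hprime := hstar.1.isPrime
  have hred : PGI.RedMem (Lvl K) M (baseRing A K) := fun s hs =>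
    ChartReduction.red_mem_full (Lvl K) M (baseRing A K) hGB hstar s hs
  have hA2 := Fermat.Agent.N4F.E.NormReduction.theta_mem_full (Lvl K) M (baseRing A K) hred
  have hN : IsUnit ((M : ℕ) : ↥(baseRing A K)) :=
    Fermat.Agent.P3G.GammaUnits.isUnit_natCast_baseRing K hq hA hpM
  have hpO : ((p : ℕ) : ↥(baseRing A K)) ∈ IsLocalRing.maximalIdeal ↥(baseRing A K) := by
    rw [IsLocalRing.mem_maximalIdeal, mem_nonunits_iff]
    exact hK.not_unit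
  have hF := nodeFacts_fin (Lvl K) M p (baseRing A K) hN
    (Fermat.Agent.P3G.GammaV2.lvlToComplex K) hpM hprime hsmooth.1 hA2 S₂ hϖ hpO 𝔫 ht₁ ht₂
  haveI : IsDedekindDomain ↥(RbarFin (Lvl K) M (baseRing A K)) :=
    isDedekindDomain_RbarFin (Lvl K) M (baseRing A K) hprime hsmooth.1
  have hζ₀ : (z ^ p ^ (k - 1)) ^ p = 1 := by
    rw [← pow_mul, ← pow_succ, Nat.sub_add_cancel hk]
    exact hz.pow_eq_one
  have hζK : IsPrimitiveRoot ((z : ↥(baseRing A K)) : Lvl K) (p ^ k) :=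
    hz.map_of_injective (f := (baseRing A K).subtype) Subtype.val_injective
  exact kOutAt_of_nodeFacts (Lvl K) (Rfin (Lvl K) (M * p) (baseRing A K)) 𝔫 hF hq hj₀ υ lam0
    (z ^ p ^ (k - 1)) hpυ hζ₀ hlam k hζK

end Good

end Fermat.Agent.S33.L.KOutNode
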