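/-
S33 (row 61), STEP K at a closed point on ONE branch, in the `F`-form of `S33/L/Skeleton.lean`
(helper14).

Setting of `L/Skeleton` / `P4/TwistRoots`: a chart `R` with fraction field `F`, vertical valuation rings
`V₁ V₂ ⊇ R`, a closed point `𝔫` of the special fibre, `IsUnitAt 𝔫 x` (`x` is a unit of `R_𝔫`),
`Through V 𝔫`, `CongrMod V ϖ j x y` (`x - y ∈ ϖ ^ j V`).  The restriction to the branch is a surjection
`θ : R → Rb` onto an integrally closed domain with `ker θ = 𝔪_V ∩ R`, `V = R_{ker θ}` — exactly the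
hypotheses of `P4/TwistRoots.branchNormal_of_surjective` (`hker`, `hloc`), available at a good level
from `P4/BranchNormalLevel(Inf)` (`res_thetaFin_eq_zero_iff`, …, `setup_fin.loc₁`, `crossingData_fin`).

* `exists_unit_of_isUnitAt`, `isUnitAt_of_unit` : `IsUnitAt 𝔫 x ↔ x` is a unit of `locAt 𝔫 ⊆ F`;
* `exists_isUnitAt_congrMod` : (K-out) along one branch `V` through `𝔫`: `r ^ p ^ k ≡ u` mod `ϖ ^ m V`,
  `u` a unit of `R_𝔫` ⟹ `r ≡ a₀` mod `ϖ ^ j V`, `a₀` a unit of `R_𝔫` (`k (p-1) j₀ + j ≤ m`); NO root of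
  unity survives (`η = 1`).  Proof: `A = locAt 𝔫`, `B = locAt (ker θ) = V`, `KummerSmoothInst.hyp_of_loc`
  and `KummerSmoothOut.approx_of_pow_eq_of_isPrimitiveRoot`;
* `kOutAt_of_through₁`, `kOutAt_of_through₂` : `Skeleton.KOutAt K 𝔫 V₁ V₂ ϖ (p ^ k) (k ((p-1) j₀))` at a
  closed point lying on exactly one of the two branches;
* `kOutAt_of_not_through` : the void case.
-/
import Mathlib
import Fermat.Agent.N4.Cover.Globalize
import Fermat.Agent.S33.L.Skeleton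
import Fermat.Agent.S33.New.KummerSmoothTheta
import Fermat.Agent.S33.New.KummerSmoothOut

set_option autoImplicit false
set_option linter.style.haveILetI false
set_option linter.unusedSectionVars false

namespace Fermat.Agent.S33.L.KOutSmooth

open Fermat.Agent.P4.TwistRoots Fermat.Agent.S33.L.Skeleton Fermat.Agent.N4.Cover.Globalize
  Fermat.Agent.S33.New.KummerLoc Fermat.Agent.S33.New.KummerIter

/-! ### `locAt 𝔫` versus `IsUnitAt 𝔫` -/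

section LocAt

variable {F R : Type*} [Field F] [CommRing R] [IsDomain R] [Algebra R F] [IsFractionRing R F]

theorem locAt_mono {𝔓 𝔫 : Ideal R} [𝔓.IsPrime] [𝔫.IsPrime] (h : 𝔓 ≤ 𝔫) :
    locAt (F := F) 𝔫 ≤ locAt (F := F) 𝔓 := by
  intro x hx
  obtain ⟨a, s, hs, e⟩ := (mem_locAt_iff 𝔫 x).1 hx
  exact (mem_locAt_iff 𝔓 x).2 ⟨a, s, fun h' => hs (h h'), e⟩

/-- A unit of `R_𝔫` (as an element of `F`) gives a unit of the subalgebra `locAt 𝔫`. -/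
theorem exists_unit_of_isUnitAt (𝔫 : Ideal R) [𝔫.IsPrime] {u : F} (hu : IsUnitAt 𝔫 u) :
    ∃ a : (locAt (F := F) 𝔫)ˣ, ((a : locAt (F := F) 𝔫) : F) = u := by
  have hu0 := hu.ne_zero
  obtain ⟨a', r', ha', hr', e⟩ := hu
  have h1 : u ∈ locAt (F := F) 𝔫 := (mem_locAt_iff 𝔫 u).2 ⟨r', a', ha', e⟩
  have h2 : u⁻¹ ∈ locAt (F := F) 𝔫 := by
    refine (mem_locAt_iff 𝔫 u⁻¹).2 ⟨a', r', hr', ?_⟩
    rw [← e]
    field_simp
  exact ⟨⟨⟨u, h1⟩, ⟨u⁻¹, h2⟩, Subtype.ext (mul_inv_cancel₀ hu0), Subtype.ext (inv_mul_cancel₀ hu0)⟩,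
    rfl⟩

/-- Conversely. -/
theorem isUnitAt_of_unit (𝔫 : Ideal R) [h𝔫 : 𝔫.IsPrime] (a : (locAt (F := F) 𝔫)ˣ) :
    IsUnitAt 𝔫 ((a : locAt (F := F) 𝔫) : F) := by
  obtain ⟨n₁, s₁, hs₁, e₁⟩ := (mem_locAt_iff 𝔫 _).1 (a : locAt (F := F) 𝔫).2
  obtain ⟨n₂, s₂, hs₂, e₂⟩ := (mem_locAt_iff 𝔫 _).1 ((a⁻¹ : (locAt (F := F) 𝔫)ˣ) : locAt (F := F) 𝔫).2
  refine ⟨s₁, n₁, hs₁, fun hn₁ => ?_, e₁⟩
  have h3 : ((a : locAt (F := F) 𝔫) : F) * (((a⁻¹ : (locAt (F := F) 𝔫)ˣ) : locAt (F := F) 𝔫) : F) = 1 :=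
    congrArg Subtype.val a.mul_inv
  have h4 : algebraMap R F (n₁ * n₂) = algebraMap R F (s₁ * s₂) := by
    rw [map_mul, map_mul, ← e₁, ← e₂]
    calc _ = (((a : locAt (F := F) 𝔫) : F) * (((a⁻¹ : (locAt (F := F) 𝔫)ˣ) : locAt (F := F) 𝔫) : F)) *
          (algebraMap R F s₁ * algebraMap R F s₂) := by ring
      _ = _ := by rw [h3, one_mul]
  have h5 : n₁ * n₂ = s₁ * s₂ := IsFractionRing.injective R F h4
  have h6 : s₁ * s₂ ∈ 𝔫 := h5 ▸ 𝔫.mul_mem_right _ hn₁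
  exact (h𝔫.mem_or_mem h6).elim hs₁ hs₂

end LocAt

/-! ### (K-out) in one vertical valuation ring through `𝔫` -/

section OneBranch

variable {O F R Rb : Type*} [CommRing O] [Field F] [Algebra O F]
  [CommRing R] [IsDomain R] [Algebra R F] [IsFractionRing R F] [Algebra O R] [IsScalarTower O R F]
  [CommRing Rb] [IsDomain Rb] [IsIntegrallyClosed Rb]

/-- **(K-out) at a closed point `𝔫` of the chart `R`, along ONE vertical valuation ring `V` through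
`𝔫`** near which the special fibre is the single branch `V` (`hprin`: the centre of `V` is generated by
`ϖ` locally at `𝔫`).  `θ : R → Rb` is the restriction to the branch (surjective onto an integrally
closed domain, kernel = centre of `V`, `V = R_{ker θ}`), `p = υ₀ ϖ ^ ((p-1) j₀)` in `O`, `ζ ∈ O` a
primitive `p ^ k`-th root of unity.  If `r ^ p ^ k ≡ u` modulo `ϖ ^ m V` with `u` a unit of `R_𝔫`, then
`r ≡ a₀` modulo `ϖ ^ j V` for a unit `a₀` of `R_𝔫`, whenever `k (p-1) j₀ + j ≤ m`. -/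
theorem exists_isUnitAt_congrMod (θ : R →+* Rb) (hθ : Function.Surjective θ)
    (V : ValuationSubring F) (hV : ∀ r : R, algebraMap R F r ∈ V)
    (hker : ∀ r : R, θ r = 0 ↔ algebraMap R F r ∈ V.nonunits)
    (hloc : ∀ x ∈ V, ∃ a d : R, algebraMap R F d ∉ V.nonunits ∧
      x * algebraMap R F d = algebraMap R F a)
    (ϖ : O) (hϖV : algebraMap O F ϖ ∈ V.nonunits) (hϖ0 : algebraMap O F ϖ ≠ 0)
    (𝔫 : Ideal R) [h𝔫 : 𝔫.IsPrime] (ht : Through V 𝔫)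
    (hprin : ∀ x : R, algebraMap R F x ∈ V.nonunits →
      ∃ t, t ∉ 𝔫 ∧ ∃ y, t * x = algebraMap O R ϖ * y)
    {p j₀ k : ℕ} (hp : p.Prime) (hj₀ : 1 ≤ j₀) (υ₀ : Oˣ)
    (hpυ : (p : O) = υ₀ * ϖ ^ ((p - 1) * j₀))
    (ζ : O) (hζ : IsPrimitiveRoot ζ (p ^ k)) (hOF : Function.Injective (algebraMap O F))
    {r u : F} (hu : IsUnitAt 𝔫 u) {m j : ℕ} (hm : k * ((p - 1) * j₀) + j ≤ m)
    (hr : CongrMod V ϖ m (r ^ p ^ k) u) :
    ∃ a₀ : F, IsUnitAt 𝔫 a₀ ∧ CongrMod V ϖ j r a₀ := by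
  classical
  -- the two primes
  set 𝔓 : Ideal R := RingHom.ker θ with h𝔓def
  haveI h𝔓 : 𝔓.IsPrime := RingHom.ker_isPrime θ
  haveI : IsIntegrallyClosed (R ⧸ 𝔓) :=
    Fermat.Agent.S33.New.KummerSmoothTheta.isIntegrallyClosed_quot_ker θ hθ
  have hmem𝔓 : ∀ x : R, x ∈ 𝔓 ↔ algebraMap R F x ∈ V.nonunits := fun x => by
    rw [h𝔓def, RingHom.mem_ker]; exact hker x
  have h𝔓𝔫 : 𝔓 ≤ 𝔫 := fun x hx => ht x ((hmem𝔓 x).1 hx)
  -- the two local rings inside `F`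
  set A : Subalgebra R F := locAt (F := F) 𝔫 with hA
  set B : Subalgebra R F := locAt (F := F) 𝔓 with hB
  have hAB : A ≤ B := locAt_mono h𝔓𝔫
  letI : Algebra A B := (Subalgebra.inclusion hAB).toRingHom.toAlgebra
  haveI : IsScalarTower R A B := IsScalarTower.of_algebraMap_eq fun _ => rfl
  -- `V = B`
  have hvone : ∀ d : R, d ∉ 𝔓 → V.valuation (algebraMap R F d) = 1 := fun d hd =>
    le_antisymm ((V.valuation_le_one_iff _).2 (hV d))
      (not_lt.1 fun hlt => hd ((hmem𝔓 d).2 ((V.mem_nonunits_iff).2 hlt)))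
  have hVB : ∀ x : F, x ∈ V ↔ x ∈ B := by
    intro x
    constructor
    · intro hx
      obtain ⟨a, d, hd, e⟩ := hloc x hx
      exact (mem_locAt_iff 𝔓 x).2 ⟨a, d, fun h => hd ((hmem𝔓 d).1 h), e⟩
    · intro hx
      obtain ⟨a, s, hs, e⟩ := (mem_locAt_iff 𝔓 x).1 hx
      have h1 := congrArg V.valuation e
      rw [map_mul, hvone s hs, mul_one] at h1
      rw [← V.valuation_le_one_iff, h1]
      exact (V.valuation_le_one_iff _).2 (hV a)
  -- the uniformiser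
  set ϖR : R := algebraMap O R ϖ with hϖR
  have hϖRF : algebraMap R F ϖR = algebraMap O F ϖ :=
    (IsScalarTower.algebraMap_apply O R F ϖ).symm
  have hϖ𝔓 : ϖR ∈ 𝔓 := (hmem𝔓 ϖR).2 (by rw [hϖRF]; exact hϖV)
  have hϖB0 : algebraMap R B ϖR ≠ 0 := by
    intro h
    have h1 : algebraMap R F ϖR = 0 := congrArg Subtype.val h
    exact hϖ0 (by rw [← hϖRF]; exact h1)
  have hloc' : ∀ x ∈ 𝔓, ∃ t, t ∉ 𝔫 ∧ ∃ y, t * x = ϖR * y := fun x hx =>
    hprin x ((hmem𝔓 x).1 hx)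
  -- the constants `υ`, `ζ` in `A`
  let φ : O →+* A := (algebraMap R A).comp (algebraMap O R)
  let υ : Aˣ := Units.map (φ : O →* A) υ₀
  have hpυA : (p : A) = υ * algebraMap R A ϖR ^ ((p - 1) * j₀) := by
    have h1 := congrArg φ hpυ
    rw [map_natCast, map_mul, map_pow] at h1
    exact h1
  have H := Fermat.Agent.S33.New.KummerSmoothInst.hyp_of_loc (A := A) (B := B) 𝔫 𝔓 ϖR h𝔓𝔫 hϖ𝔓
    hϖB0 hloc' hp hj₀ υ hpυA
  have hζu : IsUnit ζ := hζ.isUnit (pow_pos hp.pos k).ne'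
  let ζA : Aˣ := Units.map (φ : O →* A) hζu.unit
  have hφinj : Function.Injective ((algebraMap A B).comp φ) := by
    intro x y hxy
    apply hOF
    have h1 : algebraMap R F (algebraMap O R x) = algebraMap R F (algebraMap O R y) :=
      congrArg Subtype.val hxy
    rwa [← IsScalarTower.algebraMap_apply O R F, ← IsScalarTower.algebraMap_apply O R F] at h1
  have hζB : IsPrimitiveRoot (algebraMap A B (ζA : A)) (p ^ k) :=
    hζ.map_of_injective (f := (algebraMap A B).comp φ) hφinj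
  -- the elements
  obtain ⟨d, hdV, hrd⟩ := hr
  obtain ⟨uA, huA⟩ := exists_unit_of_isUnitAt 𝔫 hu
  have huV : u ∈ V := by rw [← V.valuation_le_one_iff, hu.valuation_eq_one hV ht]
  have hϖVm : algebraMap O F ϖ ∈ V := V.nonunits_subset hϖV
  have hrV : r ∈ V := by
    have h1 : r ^ p ^ k ∈ V := by
      have h2 : r ^ p ^ k = u + algebraMap O F ϖ ^ m * d := by rw [← hrd]; ring
      rw [h2]
      exact add_mem huV (mul_mem (pow_mem hϖVm _) hdV)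
    rw [← V.valuation_le_one_iff, map_pow] at h1
    rw [← V.valuation_le_one_iff]
    exact (pow_le_one_iff (pow_pos hp.pos k).ne').1 h1
  let rB : B := ⟨r, (hVB r).1 hrV⟩
  let dB : B := ⟨d, (hVB d).1 hdV⟩
  have heq : rB ^ p ^ k =
      algebraMap A B (uA : A) + algebraMap A B (algebraMap R A ϖR) ^ m * dB := by
    apply Subtype.ext
    show r ^ p ^ k = ((uA : A) : F) + algebraMap R F ϖR ^ m * d
    rw [huA, hϖRF, ← hrd]
    ring
  obtain ⟨a, s, has⟩ := Fermat.Agent.S33.New.KummerSmoothOut.approx_of_pow_eq_of_isPrimitiveRoot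
    H hp k ζA hζB uA rB dB m heq j hm
  have has' : r = ((a : A) : F) * (1 + algebraMap R F ϖR ^ j * (s : F)) :=
    congrArg Subtype.val has
  refine ⟨((a : A) : F), isUnitAt_of_unit 𝔫 a, ((a : A) : F) * (s : F),
    mul_mem ((hVB _).2 (hAB (a : A).2)) ((hVB _).2 s.2), ?_⟩
  rw [← hϖRF]
  conv_lhs => rw [has']
  ring

end OneBranch

/-! ### `KOutAt` at a closed point on one branch -/

section KOut

variable {O K F R Rb : Type*} [CommRing O] [Field K] [Field F] [Algebra K F] [Algebra O F]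
  [CommRing R] [IsDomain R] [Algebra R F] [IsFractionRing R F] [Algebra O R] [IsScalarTower O R F]
  [CommRing Rb] [IsDomain Rb] [IsIntegrallyClosed Rb]

omit [IsDomain R] [IsFractionRing R F] [IsScalarTower O R F] in
/-- At a closed point off the branch `V'`, the centre of `V` is generated by `ϖ` (reduced special
fibre: `𝔪_V ∩ 𝔪_{V'} ∩ R = ϖ R`). -/
theorem hprin_of_sat {V V' : ValuationSubring F} (hV : ∀ r : R, algebraMap R F r ∈ V)
    (hV' : ∀ r : R, algebraMap R F r ∈ V') {ϖ : O}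
    (hsat : ∀ r : R, algebraMap R F r ∈ V.nonunits → algebraMap R F r ∈ V'.nonunits →
      algebraMap O R ϖ ∣ r)
    {𝔫 : Ideal R} (ht' : ¬ Through V' 𝔫) :
    ∀ x : R, algebraMap R F x ∈ V.nonunits → ∃ t, t ∉ 𝔫 ∧ ∃ y, t * x = algebraMap O R ϖ * y := by
  intro x hx
  obtain ⟨e₂, he₂, he₂𝔫⟩ := not_through_iff.1 ht'
  have hdvd : algebraMap O R ϖ ∣ e₂ * x := by
    refine hsat _ ?_ ?_
    · rw [map_mul, mul_comm]; exact nonunits_mul_mem hx (hV e₂)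
    · rw [map_mul]; exact nonunits_mul_mem he₂ (hV' x)
  obtain ⟨y, hy⟩ := hdvd
  exact ⟨e₂, he₂𝔫, y, hy⟩

variable (K)

/-- **`KOutAt` at a closed point lying on the first branch only.** -/
theorem kOutAt_of_through₁ (θ : R →+* Rb) (hθ : Function.Surjective θ)
    (V₁ V₂ : ValuationSubring F) (hV₁ : ∀ r : R, algebraMap R F r ∈ V₁)
    (hV₂ : ∀ r : R, algebraMap R F r ∈ V₂)
    (hker : ∀ r : R, θ r = 0 ↔ algebraMap R F r ∈ V₁.nonunits)
    (hloc : ∀ x ∈ V₁, ∃ a d : R, algebraMap R F d ∉ V₁.nonunits ∧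
      x * algebraMap R F d = algebraMap R F a)
    (ϖ : O) (hϖV : algebraMap O F ϖ ∈ V₁.nonunits) (hϖ0 : algebraMap O F ϖ ≠ 0)
    (hsat : ∀ r : R, algebraMap R F r ∈ V₁.nonunits → algebraMap R F r ∈ V₂.nonunits →
      algebraMap O R ϖ ∣ r)
    (𝔫 : Ideal R) [h𝔫 : 𝔫.IsPrime] (ht₁ : Through V₁ 𝔫) (ht₂ : ¬ Through V₂ 𝔫)
    {p j₀ : ℕ} (k : ℕ) (hp : p.Prime) (hj₀ : 1 ≤ j₀) (υ₀ : Oˣ)
    (hpυ : (p : O) = υ₀ * ϖ ^ ((p - 1) * j₀))
    (ζ : O) (hζ : IsPrimitiveRoot ζ (p ^ k)) (hOF : Function.Injective (algebraMap O F)) :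
    KOutAt K 𝔫 V₁ V₂ ϖ (p ^ k) (k * ((p - 1) * j₀)) := by
  intro r u _ hu m j hm h₁ _
  obtain ⟨a₀, ha₀, hc⟩ := exists_isUnitAt_congrMod θ hθ V₁ hV₁ hker hloc ϖ hϖV hϖ0 𝔫 ht₁
    (hprin_of_sat hV₁ hV₂ hsat ht₂) hp hj₀ υ₀ hpυ ζ hζ hOF hu hm (h₁ ht₁)
  refine ⟨1, 1, one_pow _, one_pow _, a₀, ha₀, fun _ => ?_, fun h => absurd h ht₂⟩
  rwa [map_one, one_mul]

/-- **`KOutAt` at a closed point lying on the second branch only.** -/
theorem kOutAt_of_through₂ (θ : R →+* Rb) (hθ : Function.Surjective θ)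
    (V₁ V₂ : ValuationSubring F) (hV₁ : ∀ r : R, algebraMap R F r ∈ V₁)
    (hV₂ : ∀ r : R, algebraMap R F r ∈ V₂)
    (hker : ∀ r : R, θ r = 0 ↔ algebraMap R F r ∈ V₂.nonunits)
    (hloc : ∀ x ∈ V₂, ∃ a d : R, algebraMap R F d ∉ V₂.nonunits ∧
      x * algebraMap R F d = algebraMap R F a)
    (ϖ : O) (hϖV : algebraMap O F ϖ ∈ V₂.nonunits) (hϖ0 : algebraMap O F ϖ ≠ 0)
    (hsat : ∀ r : R, algebraMap R F r ∈ V₁.nonunits → algebraMap R F r ∈ V₂.nonunits →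
      algebraMap O R ϖ ∣ r)
    (𝔫 : Ideal R) [h𝔫 : 𝔫.IsPrime] (ht₁ : ¬ Through V₁ 𝔫) (ht₂ : Through V₂ 𝔫)
    {p j₀ : ℕ} (k : ℕ) (hp : p.Prime) (hj₀ : 1 ≤ j₀) (υ₀ : Oˣ)
    (hpυ : (p : O) = υ₀ * ϖ ^ ((p - 1) * j₀))
    (ζ : O) (hζ : IsPrimitiveRoot ζ (p ^ k)) (hOF : Function.Injective (algebraMap O F)) :
    KOutAt K 𝔫 V₁ V₂ ϖ (p ^ k) (k * ((p - 1) * j₀)) := by
  intro r u _ hu m j hm _ h₂
  obtain ⟨a₀, ha₀, hc⟩ := exists_isUnitAt_congrMod θ hθ V₂ hV₂ hker hloc ϖ hϖV hϖ0 𝔫 ht₂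
    (hprin_of_sat hV₂ hV₁ (fun r h2 h1 => hsat r h1 h2) ht₁) hp hj₀ υ₀ hpυ ζ hζ hOF hu hm (h₂ ht₂)
  refine ⟨1, 1, one_pow _, one_pow _, a₀, ha₀, fun h => absurd h ht₁, fun _ => ?_⟩
  rwa [map_one, one_mul]

omit [IsDomain R] [IsFractionRing R F] [IsScalarTower O R F] in
/-- `KOutAt` is void at a point lying on neither branch. -/
theorem kOutAt_of_not_through (V₁ V₂ : ValuationSubring F) (ϖ : O) (𝔫 : Ideal R)
    [h𝔫 : 𝔫.IsPrime] (ht₁ : ¬ Through V₁ 𝔫) (ht₂ : ¬ Through V₂ 𝔫) (e k₀ : ℕ) :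
    KOutAt K 𝔫 V₁ V₂ ϖ e k₀ := by
  intro r u _ _ m j _ _ _
  exact ⟨1, 1, one_pow _, one_pow _, 1, isUnitAt_one, fun h => absurd h ht₁, fun h => absurd h ht₂⟩

end KOut

end Fermat.Agent.S33.L.KOutSmooth
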