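/-
S33 (row 61), STEP K at a NODE, in the `F`-form of `S33/L/Skeleton.lean` (helper29; the two-branch
companion of helper14's `L/KOutSmooth.kOutAt_of_through₁/₂`, same hypothesis language).

Setting of `L/Skeleton` / `P4/TwistRoots`: a chart `R` with fraction field `F`, vertical valuation rings
`V₁ V₂ ⊇ R`, a closed point `𝔫` through which BOTH pass.  The restrictions to the branches are
surjections `θᵢ : R → Rbᵢ` onto integrally closed domains with `ker θᵢ = 𝔪_{Vᵢ} ∩ R`, `Vᵢ = R_{ker θᵢ}`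
(`hkerᵢ`, `hlocᵢ`: `P4/BranchNormalLevel(Inf)`), `𝔪_{V₁} ∩ 𝔪_{V₂} ∩ R = ϖ R` (`hsat`), the centres are
incomparable (`hsep₁₂`, `hsep₂₁` = `TwistRoots.Setup.sep₁₂/sep₂₁`), and `𝔫` is a node
(`hnode` = `P4/NodeGlue.node_of_crossingData`).  Constants: `p = υ₀ ϖ^((p-1) j₀)` in `O`,
`ζp ∈ O` with `ζp ^ p = 1`, `ζp - 1 = lam0 ϖ^{j₀}`, `lam0` a unit (`L/CycloLevel.exists_cyclo_const`), and a
primitive `p ^ k`-th root of unity of the constant field `K`.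

* `kOutAt_of_through₁₂` : `Skeleton.KOutAt K 𝔫 V₁ V₂ ϖ (p ^ k) (k ((p-1) j₀))`.

Proof: `A = locAt 𝔫`, `Bᵢ = locAt (ker θᵢ) = Vᵢ` inside `F`, `L/NodeLoc.hyp_of_theta_node`
(`KummerLoc.Hyp (B := B₁ × B₂)`, through helper19's `KummerNodeAbs`), and helper5's
`L/KTWire.kOutAt_of_hyp_of_primitiveRoot` with `I = Bool`.
-/
import Mathlib
import Fermat.Agent.S33.L.KOutSmooth
import Fermat.Agent.S33.L.KTWire
import Fermat.Agent.S33.L.NodeLoc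

set_option autoImplicit false
set_option linter.style.haveILetI false
set_option linter.unusedSectionVars false
set_option linter.style.longLine false

namespace Fermat.Agent.S33.L.KOutNodeF

open Fermat.Agent.P4.TwistRoots Fermat.Agent.S33.L.Skeleton Fermat.Agent.N4.Cover.Globalize
  Fermat.Agent.S33.New.KummerLoc Fermat.Agent.S33.L.KOutSmooth Fermat.Agent.S33.L.KTWire

section LocAt

variable {F R : Type*} [Field F] [CommRing R] [IsDomain R] [Algebra R F] [IsFractionRing R F]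

/-- `V = R_𝔓` inside `F`, from the fraction form. -/
theorem mem_iff_mem_locAt (V : ValuationSubring F) (hV : ∀ r : R, algebraMap R F r ∈ V)
    (𝔓 : Ideal R) [𝔓.IsPrime] (hmem : ∀ x : R, x ∈ 𝔓 ↔ algebraMap R F x ∈ V.nonunits)
    (hloc : ∀ x ∈ V, ∃ a d : R, algebraMap R F d ∉ V.nonunits ∧
      x * algebraMap R F d = algebraMap R F a) (x : F) :
    x ∈ V ↔ x ∈ locAt (F := F) 𝔓 := by
  have hvone : ∀ d : R, d ∉ 𝔓 → V.valuation (algebraMap R F d) = 1 := fun d hd =>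
    le_antisymm ((V.valuation_le_one_iff _).2 (hV d))
      (not_lt.1 fun hlt => hd ((hmem d).2 ((V.mem_nonunits_iff).2 hlt)))
  constructor
  · intro hx
    obtain ⟨a, d, hd, e⟩ := hloc x hx
    exact (mem_locAt_iff 𝔓 x).2 ⟨a, d, fun h => hd ((hmem d).1 h), e⟩
  · intro hx
    obtain ⟨a, s, hs, e⟩ := (mem_locAt_iff 𝔓 x).1 hx
    have h1 := congrArg V.valuation e
    rw [map_mul, hvone s hs, mul_one] at h1
    rw [← V.valuation_le_one_iff, h1]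
    exact (V.valuation_le_one_iff _).2 (hV a)

end LocAt

section KOut

variable {O K F R Rb₁ Rb₂ : Type*} [CommRing O] [Field K] [Field F] [Algebra K F] [Algebra O F]
  [CommRing R] [IsDomain R] [Algebra R F] [IsFractionRing R F] [Algebra O R] [IsScalarTower O R F]
  [CommRing Rb₁] [IsDomain Rb₁] [IsIntegrallyClosed Rb₁]
  [CommRing Rb₂] [IsDomain Rb₂] [IsIntegrallyClosed Rb₂]

variable (K)

/-- **`KOutAt` at a closed point lying on both branches (a node).** -/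
theorem kOutAt_of_through₁₂ (θ₁ : R →+* Rb₁) (hθ₁ : Function.Surjective θ₁)
    (θ₂ : R →+* Rb₂) (hθ₂ : Function.Surjective θ₂)
    (V₁ V₂ : ValuationSubring F) (hV₁ : ∀ r : R, algebraMap R F r ∈ V₁)
    (hV₂ : ∀ r : R, algebraMap R F r ∈ V₂)
    (hker₁ : ∀ r : R, θ₁ r = 0 ↔ algebraMap R F r ∈ V₁.nonunits)
    (hker₂ : ∀ r : R, θ₂ r = 0 ↔ algebraMap R F r ∈ V₂.nonunits)
    (hloc₁ : ∀ x ∈ V₁, ∃ a d : R, algebraMap R F d ∉ V₁.nonunits ∧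
      x * algebraMap R F d = algebraMap R F a)
    (hloc₂ : ∀ x ∈ V₂, ∃ a d : R, algebraMap R F d ∉ V₂.nonunits ∧
      x * algebraMap R F d = algebraMap R F a)
    (ϖ : O) (hϖV₁ : algebraMap O F ϖ ∈ V₁.nonunits) (hϖV₂ : algebraMap O F ϖ ∈ V₂.nonunits)
    (hϖ0 : algebraMap O F ϖ ≠ 0)
    (hsat : ∀ r : R, algebraMap R F r ∈ V₁.nonunits → algebraMap R F r ∈ V₂.nonunits →
      algebraMap O R ϖ ∣ r)
    (hsep₁₂ : ∃ ε : R, algebraMap R F ε ∈ V₁.nonunits ∧ algebraMap R F ε ∉ V₂.nonunits)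
    (hsep₂₁ : ∃ ε : R, algebraMap R F ε ∈ V₂.nonunits ∧ algebraMap R F ε ∉ V₁.nonunits)
    (𝔫 : Ideal R) [h𝔫 : 𝔫.IsPrime] (ht₁ : Through V₁ 𝔫) (ht₂ : Through V₂ 𝔫)
    (hnode : ∀ r ∈ 𝔫, ∃ c, c ∉ 𝔫 ∧ ∃ p₁ ∈ RingHom.ker θ₁, ∃ p₂ ∈ RingHom.ker θ₂,
      c * r = p₁ + p₂)
    {p j₀ : ℕ} (k : ℕ) (hp : p.Prime) (hj₀ : 1 ≤ j₀) (υ₀ : Oˣ)
    (hpυ : (p : O) = υ₀ * ϖ ^ ((p - 1) * j₀))
    (ζp : O) (hζp : ζp ^ p = 1) (lam0 : Oˣ) (hlam : ζp - 1 = lam0 * ϖ ^ j₀)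
    {ζ : K} (hζ : IsPrimitiveRoot ζ (p ^ k)) :
    KOutAt K 𝔫 V₁ V₂ ϖ (p ^ k) (k * ((p - 1) * j₀)) := by
  classical
  -- the two centres
  haveI h𝔓₁ : (RingHom.ker θ₁).IsPrime := RingHom.ker_isPrime θ₁
  haveI h𝔓₂ : (RingHom.ker θ₂).IsPrime := RingHom.ker_isPrime θ₂
  have hmem₁ : ∀ x : R, x ∈ RingHom.ker θ₁ ↔ algebraMap R F x ∈ V₁.nonunits := fun x => by
    rw [RingHom.mem_ker]; exact hker₁ x
  have hmem₂ : ∀ x : R, x ∈ RingHom.ker θ₂ ↔ algebraMap R F x ∈ V₂.nonunits := fun x => by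
    rw [RingHom.mem_ker]; exact hker₂ x
  have h₁ : RingHom.ker θ₁ ≤ 𝔫 := fun x hx => ht₁ x ((hmem₁ x).1 hx)
  have h₂ : RingHom.ker θ₂ ≤ 𝔫 := fun x hx => ht₂ x ((hmem₂ x).1 hx)
  -- the three local rings inside `F`
  set A : Subalgebra R F := locAt (F := F) 𝔫 with hA
  set B₁ : Subalgebra R F := locAt (F := F) (RingHom.ker θ₁) with hB₁
  set B₂ : Subalgebra R F := locAt (F := F) (RingHom.ker θ₂) with hB₂
  have hAB₁ : A ≤ B₁ := locAt_mono h₁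
  have hAB₂ : A ≤ B₂ := locAt_mono h₂
  letI alg₁ : Algebra A B₁ := (Subalgebra.inclusion hAB₁).toRingHom.toAlgebra
  letI alg₂ : Algebra A B₂ := (Subalgebra.inclusion hAB₂).toRingHom.toAlgebra
  haveI : IsScalarTower R A B₁ := IsScalarTower.of_algebraMap_eq fun _ => rfl
  haveI : IsScalarTower R A B₂ := IsScalarTower.of_algebraMap_eq fun _ => rfl
  have hVB₁ : ∀ x : F, x ∈ V₁ ↔ x ∈ B₁ := mem_iff_mem_locAt V₁ hV₁ _ hmem₁ hloc₁
  have hVB₂ : ∀ x : F, x ∈ V₂ ↔ x ∈ B₂ := mem_iff_mem_locAt V₂ hV₂ _ hmem₂ hloc₂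
  -- the uniformiser
  set ϖR : R := algebraMap O R ϖ with hϖR
  have hϖRF : algebraMap R F ϖR = algebraMap O F ϖ :=
    (IsScalarTower.algebraMap_apply O R F ϖ).symm
  have hϖ𝔓₁ : ϖR ∈ RingHom.ker θ₁ := (hmem₁ ϖR).2 (by rw [hϖRF]; exact hϖV₁)
  have hϖ𝔓₂ : ϖR ∈ RingHom.ker θ₂ := (hmem₂ ϖR).2 (by rw [hϖRF]; exact hϖV₂)
  have hϖR0 : ϖR ≠ 0 := by
    intro h
    apply hϖ0
    rw [← hϖRF, h, map_zero]
  -- incomparable centres, reduced fibre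
  have hne₁₂ : ¬ RingHom.ker θ₁ ≤ RingHom.ker θ₂ := by
    obtain ⟨ε, hε₁, hε₂⟩ := hsep₁₂
    exact fun hle => hε₂ ((hmem₂ ε).1 (hle ((hmem₁ ε).2 hε₁)))
  have hne₂₁ : ¬ RingHom.ker θ₂ ≤ RingHom.ker θ₁ := by
    obtain ⟨ε, hε₂, hε₁⟩ := hsep₂₁
    exact fun hle => hε₁ ((hmem₁ ε).1 (hle ((hmem₂ ε).2 hε₂)))
  have hinf : RingHom.ker θ₁ ⊓ RingHom.ker θ₂ ≤ Ideal.span {ϖR} := by
    rintro x ⟨hx₁, hx₂⟩
    exact Ideal.mem_span_singleton.2 (hsat x ((hmem₁ x).1 hx₁) ((hmem₂ x).1 hx₂))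
  -- the constants in `A`
  let φ : O →+* A := (algebraMap R A).comp (algebraMap O R)
  let υ : Aˣ := Units.map (φ : O →* A) υ₀
  have hpυA : (p : A) = υ * algebraMap R A ϖR ^ ((p - 1) * j₀) := by
    have h1 := congrArg φ hpυ
    rw [map_natCast, map_mul, map_pow] at h1
    exact h1
  have hζA : (φ ζp) ^ p = 1 := by rw [← map_pow, hζp, map_one]
  have hζd : φ ζp = 1 + algebraMap R A ϖR ^ j₀ * φ lam0 := by
    have h1 : ζp = 1 + ϖ ^ j₀ * lam0 := by linear_combination hlam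
    have h2 := congrArg φ h1
    rw [map_add, map_one, map_mul, map_pow] at h2
    exact h2
  have hd₀ : IsUnit (φ (lam0 : O)) := lam0.isUnit.map φ
  have H := Fermat.Agent.S33.L.NodeLoc.hyp_of_theta_node (A := A) (B₁ := B₁) (B₂ := B₂)
    θ₁ θ₂ 𝔫 ϖR hθ₁ hθ₂ h₁ h₂ hϖ𝔓₁ hϖ𝔓₂ hϖR0 hne₁₂ hne₂₁ hinf hnode hp hj₀ υ hpυA hζA hζd hd₀
  -- the wire
  refine kOutAt_of_hyp_of_primitiveRoot (I := Bool) (fun i => bif i then V₁ else V₂)
    (A.val.toRingHom)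
    (fun i => Bool.rec (motive := fun _ => (↥B₁ × ↥B₂) →+* F)
      (B₂.val.toRingHom.comp (RingHom.snd ↥B₁ ↥B₂)) (B₁.val.toRingHom.comp (RingHom.fst ↥B₁ ↥B₂)) i)
    𝔫 V₁ V₂ ?_ (fun _ => ⟨true, rfl⟩) (fun _ => ⟨false, rfl⟩) ?_ ?_ ?_ ?_
    (fun u hu => exists_unit_of_isUnitAt 𝔫 hu) (fun a => isUnitAt_of_unit 𝔫 a) ?_ H k hζ
  · intro i
    cases i
    · exact Or.inr ⟨rfl, ht₂⟩
    · exact Or.inl ⟨rfl, ht₁⟩
  · intro i a
    cases i <;> rfl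
  · intro i b
    cases i
    · exact (hVB₂ _).2 b.2.2
    · exact (hVB₁ _).2 b.1.2
  · intro x hx
    exact ⟨(⟨x true, (hVB₁ _).1 (hx true)⟩, ⟨x false, (hVB₂ _).1 (hx false)⟩),
      fun i => by cases i <;> rfl⟩
  · intro b hb
    exact Prod.ext (Subtype.ext (hb true)) (Subtype.ext (hb false))
  · exact hϖRF

end KOut

end Fermat.Agent.S33.L.KOutNodeF
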