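/-
S33, `moonshots` row 61, STEP K, [K-PKG2] (helper5): **the vertical valuation ring `V` as a
localisation of the chart — instance plumbing.**

The abstract instances of `KummerLoc.Hyp` (helper14 `KummerSmoothInst.hyp_of_loc`, the node version
of helper29/helper19) are stated for ANY localisation `A` of the chart `R` at the closed point `𝔫` and
ANY localisations `Bᵢ` of `R` at the centres `𝔓ᵢ` of the vertical valuation rings.  The bridge
`L/KTWireLoc` wants `A = locAlg R 𝔫` and `Bᵢ = ↥Vᵢ` (subrings of the function field `F`).  Here: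

* `inclRV`, `algRV` : the algebra structure `R → V` (`R ⊆ V`);
* `isScalarTower_loc_V` : `R → locAlg R 𝔫 → V` is a tower (`algV` of `L/KTWireLoc`);
* `isLocalization_V` : `V` is the localisation of `R` at its centre `𝔓`, from the fraction form `hloc`
  of `V = R_𝔓` (`P4/VertCentre.exists_frac_of_mem`, `TwistSetup.loc_of_minimal`);
* `hprin_of_sep`, `map_eq_span`, `span_eq_maximalIdeal` : `𝔓 V = ϖ V` (`e = 1`) from the saturation
  `𝔓 ∩ 𝔓' ⊆ ϖ R` and an element of `𝔓' ∖ 𝔓`;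
* `kOutAt_node_of_prod` : `KTWireLoc.kOutAt_node` for the product algebra structure
  `locAlg R 𝔫 → V₁ × V₂` built from the two `algV`.
-/
import Mathlib
import Fermat.Agent.S33.L.KTWireLoc

set_option autoImplicit false
set_option linter.unusedSectionVars false
set_option linter.style.haveILetI false

namespace Fermat.Agent.S33.L.VLoc

open Fermat.Agent.S33.L.Skeleton Fermat.Agent.S33.L.KTWire Fermat.Agent.S33.L.KTWireLoc
  Fermat.Agent.S33.New.KummerLoc Fermat.Agent.P4.TwistRoots Fermat.Agent.G.PointsLoc AlgebraicCurve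

variable {O K F : Type*} [CommRing O] [IsDomain O] [IsDiscreteValuationRing O]
  [Field K] [Algebra O K] [IsFractionRing O K]
  [Field F] [Algebra K F] [Algebra O F] [IsScalarTower O K F]

variable (R : Subalgebra O F) [IsFractionRing ↥R F] {V : ValuationSubring F}
  (hV : ∀ r : R, (r : F) ∈ V)

/-! ### `R → V` -/

/-- The inclusion `R → V`. -/
def inclRV : ↥R →+* ↥V where
  toFun r := ⟨(r : F), hV r⟩
  map_one' := rfl
  map_mul' _ _ := rfl
  map_zero' := rfl
  map_add' _ _ := rfl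

@[simp] theorem coe_inclRV (r : R) : ((inclRV R hV r : ↥V) : F) = (r : F) := rfl

/-- The algebra structure `R → V` (NOT an instance). -/
@[reducible] def algRV : Algebra ↥R ↥V := (inclRV R hV).toAlgebra

theorem coe_algebraMap_RV (r : R) :
    letI := algRV R hV
    ((algebraMap ↥R ↥V r : ↥V) : F) = (r : F) := rfl

theorem algebraMap_RV_injective :
    letI := algRV R hV
    Function.Injective (algebraMap ↥R ↥V) := by
  letI := algRV R hV
  intro a b h
  exact Subtype.ext (congrArg (fun z : ↥V => (z : F)) h)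

/-- `R → locAlg R 𝔫 → V` is a tower. -/
theorem isScalarTower_loc_V (𝔫 : Ideal ↥R) [𝔫.IsPrime] (ht : Through V 𝔫) :
    letI := algRV R hV
    letI := algV R 𝔫 hV ht
    IsScalarTower ↥R ↥(locAlg R 𝔫) ↥V := by
  letI := algRV R hV
  letI := algV R 𝔫 hV ht
  exact IsScalarTower.of_algebraMap_eq fun _ => rfl

/-! ### `V = R_𝔓` -/

/-- **`V` is the localisation of `R` at its centre `𝔓`**, from the fraction form of `V = R_𝔓`. -/
theorem isLocalization_V (𝔓 : Ideal ↥R) [h𝔓p : 𝔓.IsPrime]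
    (h𝔓 : ∀ r : R, r ∈ 𝔓 ↔ (r : F) ∈ V.nonunits)
    (hloc : ∀ x ∈ V, ∃ a d : R, (d : F) ∉ V.nonunits ∧ x * (d : F) = (a : F)) :
    letI := algRV R hV
    IsLocalization.AtPrime ↥V 𝔓 := by
  letI := algRV R hV
  refine ⟨?_, ?_, ?_⟩
  · rintro ⟨d, hd⟩
    have hd' : (d : F) ∉ V.nonunits := fun h => hd ((h𝔓 d).2 h)
    have hval : V.valuation (d : F) = 1 := by
      have h1 : V.valuation (d : F) ≤ 1 := (V.valuation_le_one_iff _).2 (hV d)
      rcases lt_or_eq_of_le h1 with h | h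
      · exact absurd ((V.mem_nonunits_iff).2 h) hd'
      · exact h
    exact (V.valuation_eq_one_iff (⟨(d : F), hV d⟩ : ↥V)).2 hval
  · rintro ⟨x, hx⟩
    obtain ⟨a, d, hd, e⟩ := hloc x hx
    refine ⟨(a, ⟨d, fun h => hd ((h𝔓 d).1 h)⟩), ?_⟩
    apply Subtype.ext
    exact e
  · intro a b h
    exact ⟨1, by rw [algebraMap_RV_injective R hV h]⟩

/-! ### `𝔓 V = ϖ V` -/

include hV in
/-- The centre of `V` is generated by `ϖ` away from the other branch `V'`: if
`𝔪_V ∩ 𝔪_{V'} ∩ R ⊆ ϖ R` and `ε ∈ 𝔪_{V'} ∖ 𝔪_V`, then every `x ∈ 𝔪_V ∩ R` satisfies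
`ε x ∈ ϖ R`. -/
theorem hprin_of_sep {V' : ValuationSubring F} (hV' : ∀ r : R, (r : F) ∈ V') {ϖR : ↥R}
    (hsat : ∀ r : R, (r : F) ∈ V.nonunits → (r : F) ∈ V'.nonunits → ϖR ∣ r)
    {ε : ↥R} (hε' : (ε : F) ∈ V'.nonunits) :
    ∀ x : R, (x : F) ∈ V.nonunits → ∃ y, ε * x = ϖR * y := by
  intro x hx
  have hdvd : ϖR ∣ ε * x := by
    refine hsat _ ?_ ?_
    · show (ε : F) * (x : F) ∈ V.nonunits
      rw [mul_comm]; exact nonunits_mul_mem hx (hV ε)
    · show (ε : F) * (x : F) ∈ V'.nonunits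
      exact nonunits_mul_mem hε' (hV' x)
  obtain ⟨y, hy⟩ := hdvd
  exact ⟨y, hy⟩

/-- **`𝔓 V = ϖ V`** (ramification index one), elementwise hypothesis. -/
theorem map_eq_span (𝔓 : Ideal ↥R) (h𝔓 : ∀ r : R, r ∈ 𝔓 ↔ (r : F) ∈ V.nonunits) {ϖR : ↥R}
    (hϖ : ϖR ∈ 𝔓)
    (hprin : ∀ x ∈ 𝔓, ∃ t, t ∉ 𝔓 ∧ ∃ y, t * x = ϖR * y) :
    letI := algRV R hV
    𝔓.map (algebraMap ↥R ↥V) = Ideal.span {algebraMap ↥R ↥V ϖR} := by
  letI := algRV R hV
  apply le_antisymm
  · rw [Ideal.map_le_iff_le_comap]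
    intro x hx
    obtain ⟨t, ht, y, hty⟩ := hprin x hx
    have ht' : (t : F) ∉ V.nonunits := fun h => ht ((h𝔓 t).2 h)
    have hval : V.valuation (t : F) = 1 := by
      have h1 : V.valuation (t : F) ≤ 1 := (V.valuation_le_one_iff _).2 (hV t)
      rcases lt_or_eq_of_le h1 with h | h
      · exact absurd ((V.mem_nonunits_iff).2 h) ht'
      · exact h
    have htu : IsUnit (algebraMap ↥R ↥V t) :=
      (V.valuation_eq_one_iff (⟨(t : F), hV t⟩ : ↥V)).2 hval
    rw [Ideal.mem_comap]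
    have h1 : algebraMap ↥R ↥V t * algebraMap ↥R ↥V x ∈
        Ideal.span {algebraMap ↥R ↥V ϖR} := by
      rw [← map_mul, hty, map_mul]
      exact Ideal.mul_mem_right _ _ (Ideal.mem_span_singleton_self _)
    exact (Ideal.unit_mul_mem_iff_mem _ htu).1 h1
  · rw [Ideal.span_singleton_le_iff_mem]
    exact Ideal.mem_map_of_mem _ hϖ

/-- **`ϖ V = 𝔪_V`.** -/
theorem span_eq_maximalIdeal (𝔓 : Ideal ↥R) (h𝔓 : ∀ r : R, r ∈ 𝔓 ↔ (r : F) ∈ V.nonunits)
    (hloc : ∀ x ∈ V, ∃ a d : R, (d : F) ∉ V.nonunits ∧ x * (d : F) = (a : F)) {ϖR : ↥R}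
    (hϖ : ϖR ∈ 𝔓) (hprin : ∀ x ∈ 𝔓, ∃ t, t ∉ 𝔓 ∧ ∃ y, t * x = ϖR * y) :
    letI := algRV R hV
    Ideal.span {algebraMap ↥R ↥V ϖR} = IsLocalRing.maximalIdeal ↥V := by
  letI := algRV R hV
  apply le_antisymm
  · rw [Ideal.span_singleton_le_iff_mem, IsLocalRing.mem_maximalIdeal, mem_nonunits_iff]
    intro hu
    have h1 : V.valuation ((algebraMap ↥R ↥V ϖR : ↥V) : F) = 1 :=
      (V.valuation_eq_one_iff _).1 hu
    have h2 : (ϖR : F) ∈ V.nonunits := (h𝔓 ϖR).1 hϖ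
    rw [V.mem_nonunits_iff] at h2
    exact absurd h1 (ne_of_lt h2)
  · intro x hx
    rw [IsLocalRing.mem_maximalIdeal, mem_nonunits_iff] at hx
    have hxv : V.valuation (x : F) < 1 := by
      have h1 : V.valuation (x : F) ≤ 1 := (V.valuation_le_one_iff _).2 x.2
      rcases lt_or_eq_of_le h1 with h | h
      · exact h
      · exact absurd ((V.valuation_eq_one_iff x).2 h) hx
    obtain ⟨a, d, hd, e⟩ := hloc (x : F) x.2
    have hdval : V.valuation (d : F) = 1 := by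
      have h1 : V.valuation (d : F) ≤ 1 := (V.valuation_le_one_iff _).2 (hV d)
      rcases lt_or_eq_of_le h1 with h | h
      · exact absurd ((V.mem_nonunits_iff).2 h) hd
      · exact h
    have ha : a ∈ 𝔓 := by
      rw [h𝔓, V.mem_nonunits_iff, ← e, map_mul, hdval, mul_one]
      exact hxv
    obtain ⟨t, ht, y, hty⟩ := hprin a ha
    have ht' : (t : F) ∉ V.nonunits := fun h => ht ((h𝔓 t).2 h)
    have htval : V.valuation (t : F) = 1 := by
      have h1 : V.valuation (t : F) ≤ 1 := (V.valuation_le_one_iff _).2 (hV t)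
      rcases lt_or_eq_of_le h1 with h | h
      · exact absurd ((V.mem_nonunits_iff).2 h) ht'
      · exact h
    have htdu : IsUnit (algebraMap ↥R ↥V (t * d)) := by
      refine (V.valuation_eq_one_iff _).2 ?_
      show V.valuation ((t : F) * (d : F)) = 1
      rw [map_mul, htval, hdval, mul_one]
    have h1 : algebraMap ↥R ↥V (t * d) * x ∈ Ideal.span {algebraMap ↥R ↥V ϖR} := by
      have : algebraMap ↥R ↥V (t * d) * x = algebraMap ↥R ↥V ϖR * algebraMap ↥R ↥V y := by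
        apply Subtype.ext
        show (t : F) * (d : F) * (x : F) = (ϖR : F) * (y : F)
        have h2 : (t : F) * (a : F) = (ϖR : F) * (y : F) :=
          congrArg (fun z : ↥R => (z : F)) hty
        rw [← h2, ← e]
        ring
      rw [this]
      exact Ideal.mul_mem_right _ _ (Ideal.mem_span_singleton_self _)
    exact (Ideal.unit_mul_mem_iff_mem _ htdu).1 h1

/-! ### The node with the product algebra structure -/

variable (K) (𝔫 : Ideal ↥R) [h𝔫 : 𝔫.IsPrime]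

/-- **(K-out) at a node** for the product algebra structure `locAlg R 𝔫 → V₁ × V₂` built from the
two `algV`. -/
theorem kOutAt_node_of_prod {V₁ V₂ : ValuationSubring F} (hV₁ : ∀ r : R, (r : F) ∈ V₁)
    (hV₂ : ∀ r : R, (r : F) ∈ V₂) (ht₁ : Through V₁ 𝔫) (ht₂ : Through V₂ 𝔫)
    {ϖ : O} {ϖA : ↥(locAlg R 𝔫)} (hϖ : (ϖA : F) = algebraMap O F ϖ) {p j₀ : ℕ}
    {υ : (↥(locAlg R 𝔫))ˣ}
    (H : letI := algV R 𝔫 hV₁ ht₁
         letI := algV R 𝔫 hV₂ ht₂
         Hyp (B := ↥V₁ × ↥V₂) ϖA p j₀ υ) (n : ℕ) {ζ : K}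
    (hζ : IsPrimitiveRoot ζ (p ^ n)) :
    KOutAt K 𝔫 V₁ V₂ ϖ (p ^ n) (n * ((p - 1) * j₀)) := by
  letI := algV R 𝔫 hV₁ ht₁
  letI := algV R 𝔫 hV₂ ht₂
  exact kOutAt_node K R 𝔫 V₁ V₂ ht₁ ht₂ (fun _ => rfl) (fun _ => rfl) hϖ H n hζ

end Fermat.Agent.S33.L.VLoc
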