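/-
S33, `moonshots` row 61, STEP K at the NODES, chart-independent instance (helper27, [K3-inst]).

`R : Subalgebra O F` a chart, `𝔫` a maximal ideal through which BOTH vertical valuation rings
`V₁ V₂` pass, `A := locAlg R 𝔫`, `Bᵢ := ↥Vᵢ` with the canonical `KTWireLoc.algV`.  From

* the vertical set-up `TwistRoots.Setup ↥R ϖ V₁ V₂` (`mem sat unif loc …`),
* two reductions `θᵢ : R → Rb` onto an integrally closed domain with `ker θᵢ = 𝔪_{Vᵢ} ∩ R`,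
* the node property at `𝔫` (`c r = p₁ + p₂`, `c ∉ 𝔫`, `pᵢ ∈ ker θᵢ`),
* the cyclotomic constants of the base (`p = υ ϖ^{(p-1)j₀}`, `ζ^{p^{k-1}} - 1 = λ₀ ϖ^{j₀}`),

we discharge every field of helper19's `KummerNodeAbs.NodeHyp.of_branches` and conclude, through
`NodeHyp.toHyp` and helper5's `VLoc.kOutAt_node_of_prod`, the `F`-form contract
`Skeleton.KOutAt K 𝔫 V₁ V₂ ϖ (p ^ k) (k * ((p - 1) * j₀))`.

Main statements: `mem_branch_iff`, `branchHyp`, `branch_eq_map`, `isIntegrallyClosed_quot_branch`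
(one branch), `nodeHyp`, `kOutAt_of_through_both` (the node).
-/
import Mathlib
import Fermat.Agent.S33.L.VLoc
import Fermat.Agent.S33.New.KummerNodeAbs
import Fermat.Agent.S33.New.KummerSmoothTheta

set_option autoImplicit false
set_option linter.unusedSectionVars false
set_option linter.style.haveILetI false
set_option linter.style.longLine false

namespace Fermat.Agent.S33.L.KOutNodeGen

open Fermat.Agent.S33.L.Skeleton Fermat.Agent.S33.L.KTWire Fermat.Agent.S33.L.KTWireLoc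
  Fermat.Agent.S33.New.KummerLoc Fermat.Agent.S33.New.KummerNodeAbs
  Fermat.Agent.P4.TwistRoots Fermat.Agent.G.PointsLoc AlgebraicCurve

variable {O K F : Type*} [CommRing O] [IsDomain O] [IsDiscreteValuationRing O]
  [Field K] [Algebra O K] [IsFractionRing O K]
  [Field F] [Algebra K F] [Algebra O F] [IsScalarTower O K F]

variable (R : Subalgebra O F) [IsFractionRing ↥R F] (𝔫 : Ideal ↥R) [h𝔫 : 𝔫.IsPrime]

include K in
variable (K) in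
/-- `O → F` is injective. -/
theorem algebraMap_OF_injective : Function.Injective (algebraMap O F) := by
  rw [IsScalarTower.algebraMap_eq O K F]
  exact (algebraMap K F).injective.comp (IsFractionRing.injective O K)

/-- The image of `ϖ` in the local ring of the chart at `𝔫`. -/
def ϖLoc (ϖ : O) : ↥(locAlg R 𝔫) := algebraMap O ↥(locAlg R 𝔫) ϖ

@[simp] theorem coe_ϖLoc (ϖ : O) : ((ϖLoc R 𝔫 ϖ : ↥(locAlg R 𝔫)) : F) = algebraMap O F ϖ := rfl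

/-! ### One branch -/

section Branch

variable {V : ValuationSubring F} (hV : ∀ r : R, (r : F) ∈ V) (ht : Through V 𝔫) (ϖ : O)

/-- An element of `V` which is not in `𝔪_V` has valuation one. -/
theorem valuation_eq_one_of_notMem {x : F} (hx : x ∈ V) (hx' : x ∉ V.nonunits) :
    V.valuation x = 1 := by
  have h1 : V.valuation x ≤ 1 := (V.valuation_le_one_iff _).2 hx
  rcases lt_or_eq_of_le h1 with h | h
  · exact absurd ((V.mem_nonunits_iff).2 h) hx'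
  · exact h

include hV ht in
/-- Elements of `R ∖ 𝔫` are units of `V`. -/
theorem valuation_eq_one_of_notMem_ideal {s : R} (hs : s ∉ 𝔫) : V.valuation (s : F) = 1 :=
  valuation_eq_one_of_notMem (hV s) (fun h => hs (ht s h))

/-- **The branch ideal of `locAlg R 𝔫 → V` is `𝔪_V ∩ locAlg R 𝔫`** (`ϖ` a uniformiser of `V`). -/
theorem mem_branch_iff (hϖ0 : algebraMap O F ϖ ≠ 0)
    (hϖV : algebraMap O F ϖ ∈ V.nonunits)
    (hunif : ∀ x, V.valuation x < 1 → V.valuation x ≤ V.valuation (algebraMap O F ϖ))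
    (a : ↥(locAlg R 𝔫)) :
    letI := algV R 𝔫 hV ht
    a ∈ branch (ϖLoc R 𝔫 ϖ) ↥V ↔ (a : F) ∈ V.nonunits := by
  letI := algV R 𝔫 hV ht
  rw [mem_branch, V.mem_nonunits_iff]
  constructor
  · rintro ⟨c, hc⟩
    have hc' : (a : F) = algebraMap O F ϖ * (c : F) := congrArg (fun z : ↥V => (z : F)) hc
    rw [hc', map_mul]
    have h1 : V.valuation (c : F) ≤ 1 := (V.valuation_le_one_iff _).2 c.2
    have h2 : V.valuation (algebraMap O F ϖ) < 1 := (V.mem_nonunits_iff).1 hϖV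
    calc V.valuation (algebraMap O F ϖ) * V.valuation (c : F)
        ≤ V.valuation (algebraMap O F ϖ) * 1 := mul_le_mul_right h1 _
      _ < 1 := by rw [mul_one]; exact h2
  · intro h
    have h1 := hunif _ h
    have hmem : (a : F) / algebraMap O F ϖ ∈ V := by
      rw [← V.valuation_le_one_iff, map_div₀]
      have hv0 : V.valuation (algebraMap O F ϖ) ≠ 0 := (V.valuation.ne_zero_iff).2 hϖ0
      exact div_le_one_of_le₀ h1 zero_le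
    refine ⟨⟨_, hmem⟩, ?_⟩
    apply Subtype.ext
    show (a : F) = algebraMap O F ϖ * ((a : F) / algebraMap O F ϖ)
    field_simp

/-- **`BranchHyp` for `locAlg R 𝔫 → V`**: `ϖ V = 𝔪_V` is prime and `V/ϖ` is the fraction field of
the branch (`V` is the localisation of `R` at its centre). -/
theorem branchHyp (hϖ0 : algebraMap O F ϖ ≠ 0)
    (hϖV : algebraMap O F ϖ ∈ V.nonunits)
    (hunif : ∀ x, V.valuation x < 1 → V.valuation x ≤ V.valuation (algebraMap O F ϖ))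
    (hloc : ∀ x ∈ V, ∃ a d : R, (d : F) ∉ V.nonunits ∧ x * (d : F) = (a : F)) :
    letI := algV R 𝔫 hV ht
    BranchHyp (ϖLoc R 𝔫 ϖ) ↥V := by
  letI := algV R 𝔫 hV ht
  constructor
  · -- `ϖ V = 𝔪_V`
    have hmax : Ideal.span {algebraMap ↥(locAlg R 𝔫) ↥V (ϖLoc R 𝔫 ϖ)} =
        IsLocalRing.maximalIdeal ↥V := by
      apply le_antisymm
      · rw [Ideal.span_singleton_le_iff_mem, IsLocalRing.mem_maximalIdeal, mem_nonunits_iff]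
        intro hu
        have h1 : V.valuation ((algebraMap ↥(locAlg R 𝔫) ↥V (ϖLoc R 𝔫 ϖ) : ↥V) : F) = 1 :=
          (V.valuation_eq_one_iff _).1 hu
        have h2 : V.valuation (algebraMap O F ϖ) < 1 := (V.mem_nonunits_iff).1 hϖV
        exact absurd h1 (ne_of_lt h2)
      · intro x hx
        rw [IsLocalRing.mem_maximalIdeal, mem_nonunits_iff] at hx
        have hxv : V.valuation (x : F) < 1 := by
          have h1 : V.valuation (x : F) ≤ 1 := (V.valuation_le_one_iff _).2 x.2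
          rcases lt_or_eq_of_le h1 with h | h
          · exact h
          · exact absurd ((V.valuation_eq_one_iff x).2 h) hx
        have h1 := hunif _ hxv
        have hmem : (x : F) / algebraMap O F ϖ ∈ V := by
          rw [← V.valuation_le_one_iff, map_div₀]
          exact div_le_one_of_le₀ h1 zero_le
        rw [Ideal.mem_span_singleton']
        refine ⟨⟨_, hmem⟩, ?_⟩
        apply Subtype.ext
        show (x : F) / algebraMap O F ϖ * algebraMap O F ϖ = (x : F)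
        field_simp
    rw [hmax]
    exact (IsLocalRing.maximalIdeal.isMaximal ↥V).isPrime
  · intro b
    obtain ⟨a, d, hd, e⟩ := hloc (b : F) b.2
    refine ⟨algebraMap ↥R ↥(locAlg R 𝔫) a, algebraMap ↥R ↥(locAlg R 𝔫) d, ?_, 0, ?_⟩
    · rw [mem_branch_iff R 𝔫 hV ht ϖ hϖ0 hϖV hunif]
      exact hd
    · apply Subtype.ext
      show (d : F) * (b : F) = (a : F) + algebraMap O F ϖ * (0 : F)
      rw [mul_zero, add_zero, ← e, mul_comm]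

/-- **The branch ideal is the extension of the centre of `V`.** -/
theorem branch_eq_map (hϖ0 : algebraMap O F ϖ ≠ 0)
    (hϖV : algebraMap O F ϖ ∈ V.nonunits)
    (hunif : ∀ x, V.valuation x < 1 → V.valuation x ≤ V.valuation (algebraMap O F ϖ))
    (𝔓 : Ideal ↥R) (h𝔓 : ∀ r : R, r ∈ 𝔓 ↔ (r : F) ∈ V.nonunits) :
    letI := algV R 𝔫 hV ht
    branch (ϖLoc R 𝔫 ϖ) ↥V = 𝔓.map (algebraMap ↥R ↥(locAlg R 𝔫)) := by
  letI := algV R 𝔫 hV ht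
  apply le_antisymm
  · intro a ha
    rw [mem_branch_iff R 𝔫 hV ht ϖ hϖ0 hϖV hunif] at ha
    obtain ⟨r, s, hs, e⟩ := (mem_locAlg_iff R 𝔫).1 a.2
    have hr : r ∈ 𝔓 := by
      rw [h𝔓, ← e]
      exact nonunits_mul_mem ha (hV s)
    have hsu : IsUnit (algebraMap ↥R ↥(locAlg R 𝔫) s) :=
      IsLocalization.map_units ↥(locAlg R 𝔫) (⟨s, hs⟩ : 𝔫.primeCompl)
    have h1 : algebraMap ↥R ↥(locAlg R 𝔫) s * a ∈ 𝔓.map (algebraMap ↥R ↥(locAlg R 𝔫)) := by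
      have : algebraMap ↥R ↥(locAlg R 𝔫) s * a = algebraMap ↥R ↥(locAlg R 𝔫) r := by
        apply Subtype.ext
        show (s : F) * (a : F) = (r : F)
        rw [← e, mul_comm]
      rw [this]
      exact Ideal.mem_map_of_mem _ hr
    exact (Ideal.unit_mul_mem_iff_mem _ hsu).1 h1
  · rw [Ideal.map_le_iff_le_comap]
    intro r hr
    rw [Ideal.mem_comap, mem_branch_iff R 𝔫 hV ht ϖ hϖ0 hϖV hunif]
    exact (h𝔓 r).1 hr

/-- **The branch is normal**: `locAlg R 𝔫 ⧸ branch` is integrally closed, being the localisation of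
`R ⧸ ker θ ≃ Rb` at the image of `𝔫`. -/
theorem isIntegrallyClosed_quot_branch {Rb : Type*} [CommRing Rb] [IsDomain Rb]
    [IsIntegrallyClosed Rb] (θ : ↥R →+* Rb) (hθ : Function.Surjective θ)
    (hker : ∀ r : R, θ r = 0 ↔ (r : F) ∈ V.nonunits)
    (hϖ0 : algebraMap O F ϖ ≠ 0) (hϖV : algebraMap O F ϖ ∈ V.nonunits)
    (hunif : ∀ x, V.valuation x < 1 → V.valuation x ≤ V.valuation (algebraMap O F ϖ)) :
    letI := algV R 𝔫 hV ht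
    IsIntegrallyClosed (↥(locAlg R 𝔫) ⧸ branch (ϖLoc R 𝔫 ϖ) ↥V) := by
  letI := algV R 𝔫 hV ht
  haveI : (RingHom.ker θ).IsPrime := RingHom.ker_isPrime θ
  haveI := Fermat.Agent.S33.New.KummerSmoothTheta.isIntegrallyClosed_quot_ker θ hθ
  have hle : RingHom.ker θ ≤ 𝔫 := fun r hr => ht r ((hker r).1 ((RingHom.mem_ker).1 hr))
  haveI := Fermat.Agent.S33.New.KummerSmoothInst.isIntegrallyClosed_quot_map
    (A := ↥(locAlg R 𝔫)) 𝔫 (RingHom.ker θ) hle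
  have heq := branch_eq_map R 𝔫 hV ht ϖ hϖ0 hϖV hunif (RingHom.ker θ)
    (fun r => by rw [RingHom.mem_ker]; exact hker r)
  exact IsIntegrallyClosed.of_equiv (Ideal.quotEquivOfEq heq).symm

end Branch

/-! ### The node -/

section Node

variable {V₁ V₂ : ValuationSubring F} {ϖ : O}

/-- The first-branch data extracted from the vertical set-up. -/
theorem setup_hV₁ (hS : Setup ↥R ϖ V₁ V₂) : ∀ r : R, (r : F) ∈ V₁ := hS.mem₁

theorem setup_hV₂ (hS : Setup ↥R ϖ V₁ V₂) : ∀ r : R, (r : F) ∈ V₂ := hS.mem₂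

theorem setup_pi₁ (hS : Setup ↥R ϖ V₁ V₂) : algebraMap O F ϖ ∈ V₁.nonunits := hS.pi₁

theorem setup_pi₂ (hS : Setup ↥R ϖ V₁ V₂) : algebraMap O F ϖ ∈ V₂.nonunits := hS.pi₂

theorem setup_unif₁ (hS : Setup ↥R ϖ V₁ V₂) :
    ∀ x, V₁.valuation x < 1 → V₁.valuation x ≤ V₁.valuation (algebraMap O F ϖ) := hS.unif₁

theorem setup_unif₂ (hS : Setup ↥R ϖ V₁ V₂) :
    ∀ x, V₂.valuation x < 1 → V₂.valuation x ≤ V₂.valuation (algebraMap O F ϖ) := hS.unif₂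

theorem setup_loc₁ (hS : Setup ↥R ϖ V₁ V₂) :
    ∀ x ∈ V₁, ∃ a d : R, (d : F) ∉ V₁.nonunits ∧ x * (d : F) = (a : F) := hS.loc₁

theorem setup_loc₂ (hS : Setup ↥R ϖ V₁ V₂) :
    ∀ x ∈ V₂, ∃ a d : R, (d : F) ∉ V₂.nonunits ∧ x * (d : F) = (a : F) := hS.loc₂

theorem setup_sat (hS : Setup ↥R ϖ V₁ V₂) : ∀ r : R, (r : F) ∈ V₁.nonunits →
    (r : F) ∈ V₂.nonunits → algebraMap O ↥R ϖ ∣ r := hS.sat

variable (hS : Setup ↥R ϖ V₁ V₂) (ht₁ : Through V₁ 𝔫) (ht₂ : Through V₂ 𝔫)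

/-- **(sat) at a node**: `𝔓₁ A ∩ 𝔓₂ A = ϖ A`. -/
theorem sat_loc (hϖ0 : algebraMap O F ϖ ≠ 0) (a : ↥(locAlg R 𝔫)) :
    letI := algV R 𝔫 (setup_hV₁ R hS) ht₁
    letI := algV R 𝔫 (setup_hV₂ R hS) ht₂
    a ∈ branch (ϖLoc R 𝔫 ϖ) ↥V₁ → a ∈ branch (ϖLoc R 𝔫 ϖ) ↥V₂ →
      ∃ a' : ↥(locAlg R 𝔫), a = ϖLoc R 𝔫 ϖ * a' := by
  letI := algV R 𝔫 (setup_hV₁ R hS) ht₁
  letI := algV R 𝔫 (setup_hV₂ R hS) ht₂
  intro h1 h2
  rw [mem_branch_iff R 𝔫 (setup_hV₁ R hS) ht₁ ϖ hϖ0 (setup_pi₁ R hS) (setup_unif₁ R hS)] at h1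
  rw [mem_branch_iff R 𝔫 (setup_hV₂ R hS) ht₂ ϖ hϖ0 (setup_pi₂ R hS) (setup_unif₂ R hS)] at h2
  obtain ⟨r, s, hs, e⟩ := (mem_locAlg_iff R 𝔫).1 a.2
  have hr1 : (r : F) ∈ V₁.nonunits := by
    rw [← e]; exact nonunits_mul_mem h1 (setup_hV₁ R hS s)
  have hr2 : (r : F) ∈ V₂.nonunits := by
    rw [← e]; exact nonunits_mul_mem h2 (setup_hV₂ R hS s)
  obtain ⟨r', hr'⟩ := setup_sat R hS r hr1 hr2
  have hs0 : (s : F) ≠ 0 := algebraMap_ne_zero_of_notMem 𝔫 hs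
  have hmem : (r' : F) * ((s : F))⁻¹ ∈ locAlg R 𝔫 :=
    mul_mem (le_locAlg R 𝔫 r'.2) (inv_mem_locAlg R 𝔫 hs)
  refine ⟨⟨_, hmem⟩, ?_⟩
  apply Subtype.ext
  show (a : F) = algebraMap O F ϖ * ((r' : F) * ((s : F))⁻¹)
  have hr'' : (r : F) = algebraMap O F ϖ * (r' : F) := congrArg (fun z : ↥R => (z : F)) hr'
  rw [← mul_assoc, ← hr'', ← e]
  field_simp

/-- **(node)**: `𝔪_A = 𝔓₁ A + 𝔓₂ A` from the node property of the chart at `𝔫`. -/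
theorem node_loc (hϖ0 : algebraMap O F ϖ ≠ 0) (𝔓₁ 𝔓₂ : Ideal ↥R)
    (h𝔓₁ : ∀ r : R, r ∈ 𝔓₁ → (r : F) ∈ V₁.nonunits)
    (h𝔓₂ : ∀ r : R, r ∈ 𝔓₂ → (r : F) ∈ V₂.nonunits)
    (hnode : ∀ r ∈ 𝔫, ∃ c, c ∉ 𝔫 ∧ ∃ p₁ ∈ 𝔓₁, ∃ p₂ ∈ 𝔓₂, c * r = p₁ + p₂)
    (a : ↥(locAlg R 𝔫)) (ha : a ∈ IsLocalRing.maximalIdeal ↥(locAlg R 𝔫)) :
    letI := algV R 𝔫 (setup_hV₁ R hS) ht₁
    letI := algV R 𝔫 (setup_hV₂ R hS) ht₂
    ∃ p₁ ∈ branch (ϖLoc R 𝔫 ϖ) ↥V₁, ∃ p₂ ∈ branch (ϖLoc R 𝔫 ϖ) ↥V₂, a = p₁ + p₂ := by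
  letI := algV R 𝔫 (setup_hV₁ R hS) ht₁
  letI := algV R 𝔫 (setup_hV₂ R hS) ht₂
  obtain ⟨r, s, hs, e⟩ := (mem_locAlg_iff R 𝔫).1 a.2
  have hr : r ∈ 𝔫 := by
    rw [← algebraMap_mem_maximalIdeal_locAlg_iff R 𝔫 r]
    have : algebraMap ↥R ↥(locAlg R 𝔫) r = a * algebraMap ↥R ↥(locAlg R 𝔫) s := by
      apply Subtype.ext
      exact e.symm
    rw [this]
    exact Ideal.mul_mem_right _ _ ha
  obtain ⟨c, hc, p₁, hp₁, p₂, hp₂, hcr⟩ := hnode r hr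
  have hcs : c * s ∉ 𝔫 := fun h => (h𝔫.mem_or_mem h).elim hc hs
  have hcs0 : ((c * s : ↥R) : F) ≠ 0 := algebraMap_ne_zero_of_notMem 𝔫 hcs
  have hinv : (((c * s : ↥R) : F))⁻¹ ∈ locAlg R 𝔫 := inv_mem_locAlg R 𝔫 hcs
  have hm1 : (p₁ : F) * (((c * s : ↥R) : F))⁻¹ ∈ locAlg R 𝔫 :=
    mul_mem (le_locAlg R 𝔫 p₁.2) hinv
  have hm2 : (p₂ : F) * (((c * s : ↥R) : F))⁻¹ ∈ locAlg R 𝔫 :=
    mul_mem (le_locAlg R 𝔫 p₂.2) hinv
  have hinvV₁ : (((c * s : ↥R) : F))⁻¹ ∈ V₁ :=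
    locAlg_le_of_through R 𝔫 (setup_hV₁ R hS) ht₁ hinv
  have hinvV₂ : (((c * s : ↥R) : F))⁻¹ ∈ V₂ :=
    locAlg_le_of_through R 𝔫 (setup_hV₂ R hS) ht₂ hinv
  refine ⟨⟨_, hm1⟩, ?_, ⟨_, hm2⟩, ?_, ?_⟩
  · rw [mem_branch_iff R 𝔫 (setup_hV₁ R hS) ht₁ ϖ hϖ0 (setup_pi₁ R hS) (setup_unif₁ R hS)]
    exact nonunits_mul_mem (h𝔓₁ p₁ hp₁) hinvV₁
  · rw [mem_branch_iff R 𝔫 (setup_hV₂ R hS) ht₂ ϖ hϖ0 (setup_pi₂ R hS) (setup_unif₂ R hS)]
    exact nonunits_mul_mem (h𝔓₂ p₂ hp₂) hinvV₂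
  · apply Subtype.ext
    show (a : F) = (p₁ : F) * (((c * s : ↥R) : F))⁻¹ + (p₂ : F) * (((c * s : ↥R) : F))⁻¹
    have h1 : (c : F) * (r : F) = (p₁ : F) + (p₂ : F) :=
      congrArg (fun z : ↥R => (z : F)) hcr
    have h2 : ((c * s : ↥R) : F) = (c : F) * (s : F) := rfl
    rw [← add_mul, ← h1, ← e, h2]
    rw [h2] at hcs0
    rw [eq_mul_inv_iff_mul_eq₀ hcs0]
    ring

/-- **`NodeHyp` at a node of a chart** (every field of `KummerNodeAbs.NodeHyp.of_branches`). -/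
theorem nodeHyp {Rb : Type*} [CommRing Rb] [IsDomain Rb] [IsIntegrallyClosed Rb]
    (θ₁ θ₂ : ↥R →+* Rb) (hθ₁ : Function.Surjective θ₁) (hθ₂ : Function.Surjective θ₂)
    (hker₁ : ∀ r : R, θ₁ r = 0 ↔ (r : F) ∈ V₁.nonunits)
    (hker₂ : ∀ r : R, θ₂ r = 0 ↔ (r : F) ∈ V₂.nonunits)
    (hnode : ∀ r ∈ 𝔫, ∃ c, c ∉ 𝔫 ∧ ∃ p₁ ∈ RingHom.ker θ₁, ∃ p₂ ∈ RingHom.ker θ₂,
      c * r = p₁ + p₂)
    (hϖ0 : algebraMap O F ϖ ≠ 0)
    {p j₀ : ℕ} (hp : p.Prime) (hj₀ : 1 ≤ j₀) (υ₀ lam0 : Oˣ)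
    (hpυ : (p : O) = υ₀ * ϖ ^ ((p - 1) * j₀))
    (ζ₀ : O) (hζ₀ : ζ₀ ^ p = 1) (hζd : ζ₀ - 1 = lam0 * ϖ ^ j₀) :
    letI := algV R 𝔫 (setup_hV₁ R hS) ht₁
    letI := algV R 𝔫 (setup_hV₂ R hS) ht₂
    NodeHyp ↥V₁ ↥V₂ (ϖLoc R 𝔫 ϖ) p j₀
      (Units.map (algebraMap O ↥(locAlg R 𝔫)).toMonoidHom υ₀)
      (algebraMap O ↥(locAlg R 𝔫) ζ₀) (algebraMap O ↥(locAlg R 𝔫) lam0) := by
  letI := algV R 𝔫 (setup_hV₁ R hS) ht₁
  letI := algV R 𝔫 (setup_hV₂ R hS) ht₂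
  haveI := isIntegrallyClosed_quot_branch R 𝔫 (setup_hV₁ R hS) ht₁ ϖ θ₁ hθ₁ hker₁ hϖ0
    (setup_pi₁ R hS) (setup_unif₁ R hS)
  haveI := isIntegrallyClosed_quot_branch R 𝔫 (setup_hV₂ R hS) ht₂ ϖ θ₂ hθ₂ hker₂ hϖ0
    (setup_pi₂ R hS) (setup_unif₂ R hS)
  have hϖA0 : ϖLoc R 𝔫 ϖ ≠ 0 := by
    intro h
    exact hϖ0 (congrArg (fun z : ↥(locAlg R 𝔫) => (z : F)) h)
  refine NodeHyp.of_branches
    (branchHyp R 𝔫 (setup_hV₁ R hS) ht₁ ϖ hϖ0 (setup_pi₁ R hS) (setup_unif₁ R hS)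
      (setup_loc₁ R hS))
    (branchHyp R 𝔫 (setup_hV₂ R hS) ht₂ ϖ hϖ0 (setup_pi₂ R hS) (setup_unif₂ R hS)
      (setup_loc₂ R hS))
    ?_ ?_ ?_ (sat_loc R 𝔫 hS ht₁ ht₂ hϖ0)
    (node_loc R 𝔫 hS ht₁ ht₂ hϖ0 (RingHom.ker θ₁) (RingHom.ker θ₂)
      (fun r hr => (hker₁ r).1 ((RingHom.mem_ker).1 hr))
      (fun r hr => (hker₂ r).1 ((RingHom.mem_ker).1 hr)) hnode)
    hp hj₀ ?_ ?_ ?_ (lam0.isUnit.map _)
  · intro a ha
    exact (mul_eq_zero.1 ha).resolve_left hϖA0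
  · intro b hb
    refine (mul_eq_zero.1 hb).resolve_left ?_
    intro h
    exact hϖ0 (congrArg (fun z : ↥V₁ => (z : F)) h)
  · intro b hb
    refine (mul_eq_zero.1 hb).resolve_left ?_
    intro h
    exact hϖ0 (congrArg (fun z : ↥V₂ => (z : F)) h)
  · have := congrArg (algebraMap O ↥(locAlg R 𝔫)) hpυ
    rw [map_natCast, map_mul, map_pow] at this
    exact this
  · rw [← map_pow, hζ₀, map_one]
  · have h1 : ζ₀ = 1 + ϖ ^ j₀ * lam0 := by linear_combination hζd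
    have := congrArg (algebraMap O ↥(locAlg R 𝔫)) h1
    rw [map_add, map_one, map_mul, map_pow] at this
    exact this

variable (K)

include hS ht₁ ht₂ in
/-- **(K-out) at a node of a chart**: both vertical valuation rings pass through `𝔫`. -/
theorem kOutAt_of_through_both {Rb : Type*} [CommRing Rb] [IsDomain Rb] [IsIntegrallyClosed Rb]
    (θ₁ θ₂ : ↥R →+* Rb) (hθ₁ : Function.Surjective θ₁) (hθ₂ : Function.Surjective θ₂)
    (hker₁ : ∀ r : R, θ₁ r = 0 ↔ (r : F) ∈ V₁.nonunits)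
    (hker₂ : ∀ r : R, θ₂ r = 0 ↔ (r : F) ∈ V₂.nonunits)
    (hnode : ∀ r ∈ 𝔫, ∃ c, c ∉ 𝔫 ∧ ∃ p₁ ∈ RingHom.ker θ₁, ∃ p₂ ∈ RingHom.ker θ₂,
      c * r = p₁ + p₂)
    (hϖ0 : ϖ ≠ 0)
    {p j₀ : ℕ} (k : ℕ) (hk : 1 ≤ k) (hp : p.Prime) (hj₀ : 1 ≤ j₀) (υ₀ lam0 : Oˣ)
    (hpυ : (p : O) = υ₀ * ϖ ^ ((p - 1) * j₀))
    (z : O) (hz : IsPrimitiveRoot z (p ^ k)) (hzd : z ^ p ^ (k - 1) - 1 = lam0 * ϖ ^ j₀) :
    KOutAt K 𝔫 V₁ V₂ ϖ (p ^ k) (k * ((p - 1) * j₀)) := by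
  have hOF := algebraMap_OF_injective (O := O) (F := F) K
  have hϖ0F : algebraMap O F ϖ ≠ 0 := fun h => hϖ0 (hOF (by rw [h, map_zero]))
  have hzp : (z ^ p ^ (k - 1)) ^ p = 1 := by
    obtain ⟨d, rfl⟩ : ∃ d, k = d + 1 := ⟨k - 1, by omega⟩
    rw [Nat.add_sub_cancel, ← pow_mul, ← pow_succ]
    exact hz.pow_eq_one
  letI := algV R 𝔫 (setup_hV₁ R hS) ht₁
  letI := algV R 𝔫 (setup_hV₂ R hS) ht₂
  have H := nodeHyp R 𝔫 hS ht₁ ht₂ θ₁ θ₂ hθ₁ hθ₂ hker₁ hker₂ hnode hϖ0F hp hj₀ υ₀ lam0 hpυ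
    (z ^ p ^ (k - 1)) hzp hzd
  exact VLoc.kOutAt_node_of_prod K R 𝔫 (setup_hV₁ R hS) (setup_hV₂ R hS) ht₁ ht₂
    (ϖ := ϖ) (ϖA := ϖLoc R 𝔫 ϖ) rfl
    (υ := Units.map (algebraMap O ↥(locAlg R 𝔫)).toMonoidHom υ₀) H.toHyp k
    (ζ := algebraMap O K z) (hz.map_of_injective (IsFractionRing.injective O K))

end Node

end Fermat.Agent.S33.L.KOutNodeGen
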