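/-
S33, `moonshots` row 61, STEP K at the NODES, level instance for the chart at infinity
(helper27, [K3-inst] `Rinf`; the `Rfin` copy is helper26's `L/KOutNode.lean`).

At a good level `K` (`O = baseRing A K`), level `M p` with `p ∤ M`, chart `R = Rinf (Lvl K) (M p) O`,
`V₁ = gaussVS`, `V₂ = S₂.V`:

* `nodeData_inf` : the two reductions `θ₁ θ₂ : R → Rb` onto the Dedekind domain `Rb = RbarInf`, surjective,
  with `ker θᵢ = 𝔪_{Vᵢ} ∩ R`, `ker θ₁ ⊓ ker θ₂ = (ϖ)`, the vertical set-up `TwistRoots.Setup`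
  (`mem sat loc₁ loc₂ …`) and the node property at every maximal ideal containing both kernels —
  everything the abstract node theorem asks of the chart, with NO geometric hypothesis left;
* `kOutAt_node_inf` : `Skeleton.KOutAt (Lvl K) 𝔫 gaussVS S₂.V ϖ (p ^ k) (k * ((p - 1) * j₀))` at every
  maximal ideal `𝔫` of the chart at infinity through which both vertical valuation rings pass
  (`L/KOutNodeGen.kOutAt_of_through_both` = helper19's `KummerNodeAbs.NodeHyp.of_branches` + `toHyp` +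
  helper5's `VLoc.kOutAt_node_of_prod`), for the constants `j₀ lam0 υ` of
  `CycloLevelInst.exists_cyclo_const_level`.
-/
import Mathlib
import Fermat.Agent.P4.BranchNormalLevelInf
import Fermat.Agent.P4.NodeGlue
import Fermat.Agent.P3G.Assembly.LevelStep
import Fermat.Agent.P3G.GammaV2
import Fermat.Agent.P3G.GammaUnits
import Fermat.Agent.N4F.C.LevelStatements
import Fermat.Agent.N4F.C.ChartReduction
import Fermat.Agent.N4F.E.NormReduction
import Fermat.Agent.N4F.E.GaussResidue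
import Fermat.Agent.S33.L.Contracts
import Fermat.Agent.S33.L.KOutNodeGen

set_option autoImplicit false
set_option linter.unusedSectionVars false
set_option linter.dupNamespace false
set_option linter.style.haveILetI false

open ModularCurve AlgebraicCurve IntermediateField

noncomputable section

namespace Fermat.Agent.S33.L.KOutNodeInf

open Fermat.Agent.N4.Setting Fermat.Agent.N4.Chart Fermat.Agent.N4.S18Glue Fermat.Agent.N4.BigDVR
  Fermat.Agent.P3G.Gamma Fermat.Agent.P3G.GammaAut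
  Fermat.Agent.N4F.C Fermat.Agent.N4F.C.Levels Fermat.Agent.N4F.C.Galois
  Fermat.Agent.N4F.E.GaussDVR
  Fermat.Agent.P3G Fermat.Agent.P3G.RbarInf Fermat.Agent.P3G.TwoComponentsInf
  Fermat.Agent.P3G.TwoComponentsInfFinal Fermat.Agent.P4 Fermat.Agent.P4.NodeGlue
  Fermat.Agent.P4.BranchNormalLevelInf Fermat.Agent.P3G.Crossing
  Fermat.Agent.P3G.Assembly.LevelStep

local notation "Qbar" => AlgebraicClosure ℚ
local notation "Γ" => (AlgebraicClosure ℚ ≃ₐ[ℚ] AlgebraicClosure ℚ)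

set_option maxHeartbeats 1600000 in
set_option synthInstance.maxHeartbeats 400000 in
/-- **The node data of the chart at infinity of level `M p` at a good level.** -/
theorem nodeData_inf (M p : ℕ) [NeZero M] [Fact p.Prime] (hpM : ¬ p ∣ M)
    (A : ValuationSubring Qbar) (hA : A.LiesOverPrime p)
    (K : IntermediateField ℚ Qbar) (hK : IsGoodLevel A p K)
    [IsDiscreteValuationRing ↥(baseRing A K)] [IsFractionRing ↥(baseRing A K) (Lvl K)]
    (S₂ : Fermat.Agent.P3G.FibreTwo.SecondVal (Lvl K) M p (baseRing A K))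
    (ϖ : ↥(baseRing A K)) (hϖ : Irreducible ϖ) :
    ∃ (Rb : Type) (_ : CommRing Rb) (_ : IsDedekindDomain Rb)
      (θ₁ θ₂ : ↥(Rinf (Lvl K) (M * p) (baseRing A K)) →+* Rb),
      Function.Surjective θ₁ ∧ Function.Surjective θ₂ ∧
      (∀ r : ↥(Rinf (Lvl K) (M * p) (baseRing A K)), θ₁ r = 0 ↔
        algebraMap ↥(Rinf (Lvl K) (M * p) (baseRing A K)) (FF (Lvl K) (M * p)) r ∈
          (gaussVS (Lvl K) (M * p) (baseRing A K)).nonunits) ∧
      (∀ r : ↥(Rinf (Lvl K) (M * p) (baseRing A K)), θ₂ r = 0 ↔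
        algebraMap ↥(Rinf (Lvl K) (M * p) (baseRing A K)) (FF (Lvl K) (M * p)) r ∈
          S₂.V.nonunits) ∧
      TwistRoots.Setup ↥(Rinf (Lvl K) (M * p) (baseRing A K)) ϖ
        (gaussVS (Lvl K) (M * p) (baseRing A K)) S₂.V ∧
      RingHom.ker θ₁ ⊓ RingHom.ker θ₂ =
        Ideal.span {algebraMap ↥(baseRing A K) ↥(Rinf (Lvl K) (M * p) (baseRing A K)) ϖ} ∧
      ∀ 𝔫 : Ideal ↥(Rinf (Lvl K) (M * p) (baseRing A K)), 𝔫.IsMaximal →
        RingHom.ker θ₁ ≤ 𝔫 → RingHom.ker θ₂ ≤ 𝔫 →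
        ∀ r ∈ 𝔫, ∃ c, c ∉ 𝔫 ∧ ∃ p₁ ∈ RingHom.ker θ₁, ∃ p₂ ∈ RingHom.ker θ₂, c * r = p₁ + p₂ := by
  have hq : p.Prime := Fact.out
  haveI : IsAlgClosed (IsLocalRing.ResidueField ↥(baseRing A K)) := hK.algClosed
  have hGB : GoodBase (Lvl K) M (baseRing A K) p := ⟨hq, hpM, inferInstance, hK.not_unit⟩
  haveI : CharP (IsLocalRing.ResidueField ↥(baseRing A K)) p :=
    Fermat.Agent.N4F.E.GaussResidue.charP_residueField (Lvl K) M (baseRing A K) hGB
  haveI : PerfectRing (IsLocalRing.ResidueField ↥(baseRing A K)) p := inferInstance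
  have hstar := LevelStatements.starStatement_lvl hq hA K hGB hK.roots
  have hsmooth := LevelStatements.smoothStatement_lvl hq hA hpM K hGB hK.roots
  have hprime := hstar.1.isPrime
  have hprimeInf := hstar.2.isPrime
  have hred : PGI.RedMem (Lvl K) M (baseRing A K) := fun s hs =>
    ChartReduction.red_mem_full (Lvl K) M (baseRing A K) hGB hstar s hs
  have hA2 := Fermat.Agent.N4F.E.NormReduction.theta_mem_full (Lvl K) M (baseRing A K) hred
  have hN : IsUnit ((M : ℕ) : ↥(baseRing A K)) :=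
    Fermat.Agent.P3G.GammaUnits.isUnit_natCast_baseRing K hq hA hpM
  haveI : IsDedekindDomain ↥(RbarInf (Lvl K) M (baseRing A K)) :=
    isDedekindDomain_RbarInf (Lvl K) M (baseRing A K) hprimeInf hsmooth.2
  have hD := crossingData_inf (Lvl K) M p (baseRing A K) hN
    (Fermat.Agent.P3G.GammaV2.lvlToComplex K) hpM hprime hprimeInf hsmooth.2 hA2 S₂
  have hVeq := ker_inf_ker_eq_inf (Lvl K) M p (baseRing A K) hN
    (Fermat.Agent.P3G.GammaV2.lvlToComplex K) hpM hprime hprimeInf hsmooth.2 hA2 S₂ hϖ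
  refine ⟨↥(RbarInf (Lvl K) M (baseRing A K)), inferInstance, inferInstance, _, _,
    hD.surj₁, hD.surj₂,
    res_thetaInf_eq_zero_iff (Lvl K) M p (baseRing A K) hN
      (Fermat.Agent.P3G.GammaV2.lvlToComplex K) hpM hprimeInf hsmooth.2 hA2 S₂,
    res_theta2InfS_eq_zero_iff (Lvl K) M p (baseRing A K) hN hprimeInf hsmooth.2 hA2 S₂,
    setup_inf (Lvl K) M p (baseRing A K) hN (Fermat.Agent.P3G.GammaV2.lvlToComplex K) hpM hprime
      hprimeInf hsmooth.2 hA2 S₂ hϖ,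
    hVeq, ?_⟩
  intro 𝔫 h𝔫 hk1 hk2
  haveI := h𝔫
  have hϖ1 : algebraMap ↥(baseRing A K) ↥(Rinf (Lvl K) (M * p) (baseRing A K)) ϖ ∈
      RingHom.ker (CrossingLaurent.res (RbarInf (Lvl K) M (baseRing A K))
        (thetaInf (Lvl K) (M * p) (baseRing A K))
        (thetaInf_mem_rbar (Lvl K) M p (baseRing A K) hN
          (Fermat.Agent.P3G.GammaV2.lvlToComplex K) hpM hprimeInf hsmooth.2 hA2 S₂)) :=
    (hVeq.ge (Ideal.mem_span_singleton_self _)).1
  have hbot : 𝔫.map (CrossingLaurent.res (RbarInf (Lvl K) M (baseRing A K))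
        (thetaInf (Lvl K) (M * p) (baseRing A K))
        (thetaInf_mem_rbar (Lvl K) M p (baseRing A K) hN
          (Fermat.Agent.P3G.GammaV2.lvlToComplex K) hpM hprimeInf hsmooth.2 hA2 S₂)) ≠ ⊥ := by
    haveI := isMaximal_map _ hD.surj₁ 𝔫 hk1
    exact Ring.ne_bot_of_isMaximal_of_not_isField inferInstance
      (not_isField_RbarInf (Lvl K) M (baseRing A K) hprimeInf)
  exact node_of_crossingData hD 𝔫 hk1 hk2 hbot hVeq.le hϖ1

open Fermat.Agent.S33.L.Skeleton Fermat.Agent.P4.TwistRoots in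
/-- **(K-out) at a node of the chart at infinity, at a good level**: both vertical valuation rings
pass through `𝔫`.  The constants `j₀ lam0 υ` are those of
`CycloLevelInst.exists_cyclo_const_level` (one choice for the whole level). -/
theorem kOutAt_node_inf (M p : ℕ) [NeZero M] [Fact p.Prime] (hpM : ¬ p ∣ M)
    (A : ValuationSubring Qbar) (hA : A.LiesOverPrime p)
    (K : IntermediateField ℚ Qbar) (hK : IsGoodLevel A p K)
    [IsDiscreteValuationRing ↥(baseRing A K)]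
    (S₂ : Fermat.Agent.P3G.FibreTwo.SecondVal (Lvl K) M p (baseRing A K))
    (ϖ : ↥(baseRing A K)) (hϖ : Irreducible ϖ)
    (k : ℕ) (hk : 1 ≤ k) {z : ↥(baseRing A K)} (hz : IsPrimitiveRoot z (p ^ k))
    {j₀ : ℕ} (hj₀ : 1 ≤ j₀) (lam0 υ : (↥(baseRing A K))ˣ)
    (hzd : z ^ p ^ (k - 1) - 1 = lam0 * ϖ ^ j₀)
    (hpυ : ((p : ℕ) : ↥(baseRing A K)) = υ * ϖ ^ ((p - 1) * j₀))
    (𝔫 : Ideal (chartAlg ↥(baseRing A K) (FF (Lvl K) (M * p)) {(jF (Lvl K) (M * p))⁻¹}))
    (h𝔫 : 𝔫.IsMaximal)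
    (ht₁ : Through (gaussVS (Lvl K) (M * p) (baseRing A K)) 𝔫) (ht₂ : Through S₂.V 𝔫) :
    KOutAt (Lvl K) 𝔫 (gaussVS (Lvl K) (M * p) (baseRing A K)) S₂.V ϖ (p ^ k)
      (k * ((p - 1) * j₀)) := by
  obtain ⟨Rb, _, _, θ₁, θ₂, hs₁, hs₂, hker₁, hker₂, hS, -, hnode⟩ :=
    nodeData_inf M p hpM A hA K hK S₂ ϖ hϖ
  haveI := h𝔫.isPrime
  have hk1 : RingHom.ker θ₁ ≤ 𝔫 := fun r hr => ht₁ r ((hker₁ r).1 ((RingHom.mem_ker).1 hr))
  have hk2 : RingHom.ker θ₂ ≤ 𝔫 := fun r hr => ht₂ r ((hker₂ r).1 ((RingHom.mem_ker).1 hr))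
  exact Fermat.Agent.S33.L.KOutNodeGen.kOutAt_of_through_both (Lvl K)
    (chartAlg ↥(baseRing A K) (FF (Lvl K) (M * p)) {(jF (Lvl K) (M * p))⁻¹}) 𝔫 hS ht₁ ht₂
    θ₁ θ₂ hs₁ hs₂ hker₁ hker₂ (hnode 𝔫 h𝔫 hk1 hk2) hϖ.ne_zero k hk Fact.out hj₀ υ lam0 hpυ
    z hz hzd

end Fermat.Agent.S33.L.KOutNodeInf
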