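/-
S33 (row 61), STEP K at a GOOD LEVEL: the one-branch points of both charts, and `Contracts.KProv`
from the node case (helper14).

Setting of `L/Contracts`: `O = baseRing A K`, `F = FF (Lvl K) (M p)`, charts `chartAlg O F {jF}`,
`chartAlg O F {jF⁻¹}`, `V₁ = gaussVS`, `V₂ = S₂.V`.

* `kOutAt_oneBranch_good` : `Skeleton.KOutAt (Lvl K) 𝔫 V₁ V₂ ϖ (p ^ k) (k ((p-1) j₀))` at every prime `𝔫`
  of either chart through which NOT both of `V₁ V₂` pass (one branch, or the void case), given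
  `p = υ₀ ϖ ^ ((p-1) j₀)` and a primitive `p ^ k`-th root of unity in `O`;
* `kOutAt_exp_one` : the exponent `1` needs nothing;  `unif_mem_good` : `ϖ ∈ V₁ ∩ V₂`;
* `NodeProv M p A k` : the named node hypothesis (closed points on BOTH branches; providers
  `L/KOutNode`, `L/KOutNodeInf`), with the constants of `CycloLevelInst.exists_cyclo_const_level`;
* `kProv_of_nodeProv : NodeProv M p A k → Contracts.KProv M p A k`.
-/
import Mathlib
import Fermat.Agent.S33.L.KOutSmoothLevel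
import Fermat.Agent.S33.L.Contracts
import Fermat.Agent.S33.L.CycloLevelInst
import Fermat.Agent.S33.L.PointsUniform

set_option autoImplicit false
set_option linter.unusedSectionVars false
set_option linter.dupNamespace false
set_option linter.style.haveILetI false

open ModularCurve AlgebraicCurve IntermediateField

noncomputable section

namespace Fermat.Agent.S33.L.KOutSmoothGood

open Fermat.Agent.N4.Setting Fermat.Agent.N4.Chart Fermat.Agent.N4.S18Glue Fermat.Agent.N4.BigDVR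
  Fermat.Agent.P3G.Cover.Lift Fermat.Agent.P3G.Cover.OfValuations Fermat.Agent.P3G.Assembly.PowCover
  Fermat.Agent.P3G.Assembly.StepOfLevel Fermat.Agent.P3G.Assembly.LevelStep
  Fermat.Agent.P3G.Assembly.LevelGeomOfPoints
  Fermat.Agent.P3G.Gamma Fermat.Agent.P3G.GammaAut
  Fermat.Agent.N4F.C Fermat.Agent.N4F.C.Levels Fermat.Agent.N4F.C.Galois
  Fermat.Agent.N4F.E.GaussDVR
  Fermat.Agent.P4.TwistRoots Fermat.Agent.S33.L.Skeleton Fermat.Agent.S33.L.Contracts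
  Fermat.Agent.S33.L.KOutSmooth Fermat.Agent.S33.L.KOutSmoothLevel

local notation "Qbar" => AlgebraicClosure ℚ

set_option maxHeartbeats 1600000 in
set_option synthInstance.maxHeartbeats 400000 in
/-- **(K-out) at the closed points on ONE branch, both charts, at a good level.** -/
theorem kOutAt_oneBranch_good (M p : ℕ) [NeZero M] [Fact p.Prime] (hpM : ¬ p ∣ M)
    (A : ValuationSubring Qbar) (hA : A.LiesOverPrime p)
    (K : IntermediateField ℚ Qbar) (hK : IsGoodLevel A p K)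
    [IsDiscreteValuationRing ↥(baseRing A K)]
    (S₂ : Fermat.Agent.P3G.FibreTwo.SecondVal (Lvl K) M p (baseRing A K))
    (ϖ : ↥(baseRing A K)) (hϖ : Irreducible ϖ)
    {j₀ : ℕ} (k : ℕ) (hj₀ : 1 ≤ j₀) (υ₀ : (↥(baseRing A K))ˣ)
    (hpυ : ((p : ℕ) : ↥(baseRing A K)) = υ₀ * ϖ ^ ((p - 1) * j₀))
    (ζ : ↥(baseRing A K)) (hζ : IsPrimitiveRoot ζ (p ^ k)) :
    (∀ 𝔫 : Ideal (chartAlg ↥(baseRing A K) (FF (Lvl K) (M * p)) {jF (Lvl K) (M * p)}),
      𝔫.IsPrime →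
      ¬ (Through (gaussVS (Lvl K) (M * p) (baseRing A K)) 𝔫 ∧ Through S₂.V 𝔫) →
      KOutAt (Lvl K) 𝔫 (gaussVS (Lvl K) (M * p) (baseRing A K)) S₂.V ϖ (p ^ k)
        (k * ((p - 1) * j₀))) ∧
    (∀ 𝔫 : Ideal (chartAlg ↥(baseRing A K) (FF (Lvl K) (M * p)) {(jF (Lvl K) (M * p))⁻¹}),
      𝔫.IsPrime →
      ¬ (Through (gaussVS (Lvl K) (M * p) (baseRing A K)) 𝔫 ∧ Through S₂.V 𝔫) →
      KOutAt (Lvl K) 𝔫 (gaussVS (Lvl K) (M * p) (baseRing A K)) S₂.V ϖ (p ^ k)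
        (k * ((p - 1) * j₀))) := by
  have hq : p.Prime := Fact.out
  haveI : IsAlgClosed (IsLocalRing.ResidueField ↥(baseRing A K)) := hK.algClosed
  have hGB : GoodBase (Lvl K) M (baseRing A K) p := ⟨hq, hpM, inferInstance, hK.not_unit⟩
  haveI : CharP (IsLocalRing.ResidueField ↥(baseRing A K)) p :=
    Fermat.Agent.N4F.E.GaussResidue.charP_residueField (Lvl K) M (baseRing A K) hGB
  haveI : PerfectRing (IsLocalRing.ResidueField ↥(baseRing A K)) p := inferInstance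
  have hstar := LevelStatements.starStatement_lvl hq hA K hGB hK.roots
  have hsmooth := LevelStatements.smoothStatement_lvl hq hA hpM K hGB hK.roots
  have hprime := hstar.1.isPrime
  have hprimeInf := hstar.2.isPrime
  have hred : PGI.RedMem (Lvl K) M (baseRing A K) := fun s hs =>
    ChartReduction.red_mem_full (Lvl K) M (baseRing A K) hGB hstar s hs
  have hA2 := Fermat.Agent.N4F.E.NormReduction.theta_mem_full (Lvl K) M (baseRing A K) hred
  have hN : IsUnit ((M : ℕ) : ↥(baseRing A K)) :=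
    Fermat.Agent.P3G.GammaUnits.isUnit_natCast_baseRing K hq hA hpM
  refine ⟨fun 𝔫 h𝔫 hnot => ?_, fun 𝔫 h𝔫 hnot => ?_⟩
  · haveI := h𝔫
    by_cases ht₁ : Through (gaussVS (Lvl K) (M * p) (baseRing A K)) 𝔫
    · have ht₂ : ¬ Through S₂.V 𝔫 := fun h => hnot ⟨ht₁, h⟩
      exact kOutAt_fin₁ (Lvl K) M p (baseRing A K) hN (Fermat.Agent.P3G.GammaV2.lvlToComplex K)
        hpM hprime hsmooth.1 hA2 S₂ hϖ 𝔫 ht₁ ht₂ k hj₀ υ₀ hpυ ζ hζ
    · by_cases ht₂ : Through S₂.V 𝔫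
      · exact kOutAt_fin₂ (Lvl K) M p (baseRing A K) hN (Fermat.Agent.P3G.GammaV2.lvlToComplex K)
          hpM hprime hsmooth.1 hA2 S₂ hϖ 𝔫 ht₁ ht₂ k hj₀ υ₀ hpυ ζ hζ
      · exact kOutAt_of_not_through (Lvl K) _ _ ϖ 𝔫 ht₁ ht₂ _ _
  · haveI := h𝔫
    by_cases ht₁ : Through (gaussVS (Lvl K) (M * p) (baseRing A K)) 𝔫
    · have ht₂ : ¬ Through S₂.V 𝔫 := fun h => hnot ⟨ht₁, h⟩
      exact kOutAt_inf₁ (Lvl K) M p (baseRing A K) hN (Fermat.Agent.P3G.GammaV2.lvlToComplex K)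
        hpM hprime hprimeInf hsmooth.2 hA2 S₂ hϖ 𝔫 ht₁ ht₂ k hj₀ υ₀ hpυ ζ hζ
    · by_cases ht₂ : Through S₂.V 𝔫
      · exact kOutAt_inf₂ (Lvl K) M p (baseRing A K) hN (Fermat.Agent.P3G.GammaV2.lvlToComplex K)
          hpM hprime hprimeInf hsmooth.2 hA2 S₂ hϖ 𝔫 ht₁ ht₂ k hj₀ υ₀ hpυ ζ hζ
      · exact kOutAt_of_not_through (Lvl K) _ _ ϖ 𝔫 ht₁ ht₂ _ _

/-- `KOutAt` for the exponent `1` (no loss): `a₀ = u`. -/
theorem kOutAt_exp_one {O K₀ F R : Type*} [CommRing O] [Field K₀] [Field F] [Algebra K₀ F]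
    [Algebra O F] [CommRing R] [IsDomain R] [Algebra R F] [IsFractionRing R F] [Algebra O R]
    (𝔫 : Ideal R) (V₁ V₂ : ValuationSubring F) (ϖ : O) (hϖ₁ : algebraMap O F ϖ ∈ V₁)
    (hϖ₂ : algebraMap O F ϖ ∈ V₂) (k₀ : ℕ) : KOutAt K₀ 𝔫 V₁ V₂ ϖ 1 k₀ := by
  intro r u _ hu m j hm h₁ h₂
  refine ⟨1, 1, one_pow _, one_pow _, u, hu, fun ht => ?_, fun ht => ?_⟩
  · have h := (h₁ ht).mono (i := j) (by omega) hϖ₁
    rwa [pow_one, ← one_mul r, ← map_one (algebraMap K₀ F)] at h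
  · have h := (h₂ ht).mono (i := j) (by omega) hϖ₂
    rwa [pow_one, ← one_mul r, ← map_one (algebraMap K₀ F)] at h

set_option maxHeartbeats 1600000 in
set_option synthInstance.maxHeartbeats 400000 in
/-- The uniformiser lies in both vertical valuation rings at a good level. -/
theorem unif_mem_good (M p : ℕ) [NeZero M] [Fact p.Prime] (hpM : ¬ p ∣ M)
    (A : ValuationSubring Qbar) (hA : A.LiesOverPrime p)
    (K : IntermediateField ℚ Qbar) (hK : IsGoodLevel A p K)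
    [IsDiscreteValuationRing ↥(baseRing A K)]
    (S₂ : Fermat.Agent.P3G.FibreTwo.SecondVal (Lvl K) M p (baseRing A K))
    (ϖ : ↥(baseRing A K)) (hϖ : Irreducible ϖ) :
    algebraMap ↥(baseRing A K) (FF (Lvl K) (M * p)) ϖ ∈ gaussVS (Lvl K) (M * p) (baseRing A K) ∧
      algebraMap ↥(baseRing A K) (FF (Lvl K) (M * p)) ϖ ∈ S₂.V := by
  have hq : p.Prime := Fact.out
  haveI : IsAlgClosed (IsLocalRing.ResidueField ↥(baseRing A K)) := hK.algClosed
  have hGB : GoodBase (Lvl K) M (baseRing A K) p := ⟨hq, hpM, inferInstance, hK.not_unit⟩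
  haveI : CharP (IsLocalRing.ResidueField ↥(baseRing A K)) p :=
    Fermat.Agent.N4F.E.GaussResidue.charP_residueField (Lvl K) M (baseRing A K) hGB
  haveI : PerfectRing (IsLocalRing.ResidueField ↥(baseRing A K)) p := inferInstance
  have hstar := LevelStatements.starStatement_lvl hq hA K hGB hK.roots
  have hsmooth := LevelStatements.smoothStatement_lvl hq hA hpM K hGB hK.roots
  have hprime := hstar.1.isPrime
  have hred : PGI.RedMem (Lvl K) M (baseRing A K) := fun s hs =>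
    ChartReduction.red_mem_full (Lvl K) M (baseRing A K) hGB hstar s hs
  have hA2 := Fermat.Agent.N4F.E.NormReduction.theta_mem_full (Lvl K) M (baseRing A K) hred
  have hN : IsUnit ((M : ℕ) : ↥(baseRing A K)) :=
    Fermat.Agent.P3G.GammaUnits.isUnit_natCast_baseRing K hq hA hpM
  have hS := Fermat.Agent.P4.BranchNormalLevel.setup_fin (Lvl K) M p (baseRing A K) hN
    (Fermat.Agent.P3G.GammaV2.lvlToComplex K) hpM hprime hsmooth.1 hA2 S₂ hϖ
  exact ⟨(gaussVS (Lvl K) (M * p) (baseRing A K)).nonunits_subset hS.pi₁,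
    S₂.V.nonunits_subset hS.pi₂⟩

section Prov

variable (M p : ℕ) [NeZero M] [Fact p.Prime] (A : ValuationSubring Qbar)

/-- **STEP K at the NODES** (named hypothesis; providers: `L/KOutNode`, `L/KOutNodeInf`): at every good
level, with the cyclotomic constants `j₀`, `lam0`, `υ` of `CycloLevelInst.exists_cyclo_const_level`,
(K-out) with loss `k (p-1) j₀` at every closed point of the special fibre of either chart through
which BOTH vertical valuation rings pass. -/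
def NodeProv (k : ℕ) : Prop :=
  ∀ (K : IntermediateField ℚ Qbar) (_ : IsGoodLevel A p K)
    [IsDiscreteValuationRing ↥(baseRing A K)]
    (S₂ : Fermat.Agent.P3G.FibreTwo.SecondVal (Lvl K) M p (baseRing A K))
    (ϖ : ↥(baseRing A K)), Irreducible ϖ →
    ∀ (z : ↥(baseRing A K)), IsPrimitiveRoot z (p ^ k) → 1 ≤ k →
    ∀ (j₀ : ℕ) (lam0 υ : (↥(baseRing A K))ˣ), 1 ≤ j₀ →
      z ^ p ^ (k - 1) - 1 = lam0 * ϖ ^ j₀ →
      ((p : ℕ) : ↥(baseRing A K)) = υ * ϖ ^ ((p - 1) * j₀) →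
    (∀ 𝔫 : Ideal (chartAlg ↥(baseRing A K) (FF (Lvl K) (M * p)) {jF (Lvl K) (M * p)}),
      𝔫.IsMaximal →
      algebraMap ↥(baseRing A K)
        (chartAlg ↥(baseRing A K) (FF (Lvl K) (M * p)) {jF (Lvl K) (M * p)}) ϖ ∈ 𝔫 →
      Through (gaussVS (Lvl K) (M * p) (baseRing A K)) 𝔫 → Through S₂.V 𝔫 →
      KOutAt (Lvl K) 𝔫 (gaussVS (Lvl K) (M * p) (baseRing A K)) S₂.V ϖ (p ^ k)
        (k * ((p - 1) * j₀))) ∧
    (∀ 𝔫 : Ideal (chartAlg ↥(baseRing A K) (FF (Lvl K) (M * p)) {(jF (Lvl K) (M * p))⁻¹}),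
      𝔫.IsMaximal →
      algebraMap ↥(baseRing A K)
        (chartAlg ↥(baseRing A K) (FF (Lvl K) (M * p)) {(jF (Lvl K) (M * p))⁻¹}) ϖ ∈ 𝔫 →
      Through (gaussVS (Lvl K) (M * p) (baseRing A K)) 𝔫 → Through S₂.V 𝔫 →
      KOutAt (Lvl K) 𝔫 (gaussVS (Lvl K) (M * p) (baseRing A K)) S₂.V ϖ (p ^ k)
        (k * ((p - 1) * j₀)))

variable {M p A}

/-- **`Contracts.KProv` from the node case**: the one-branch points are `kOutAt_oneBranch_good`, the
constants are `CycloLevelInst.exists_cyclo_const_level`, the exponent `p ^ 0 = 1` is trivial. -/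
theorem kProv_of_nodeProv (hpM : ¬ p ∣ M) (hA : A.LiesOverPrime p) {k : ℕ}
    (hnode : NodeProv M p A k) : KProv M p A k := by
  intro K hK _ S₂ ϖ hϖ hz
  obtain ⟨z, hz⟩ := hz
  have hp : p.Prime := Fact.out
  rcases Nat.eq_zero_or_pos k with rfl | hk
  · obtain ⟨h₁, h₂⟩ := unif_mem_good M p hpM A hA K hK S₂ ϖ hϖ
    rw [pow_zero]
    exact ⟨0, fun 𝔫 _ _ => kOutAt_exp_one 𝔫 _ _ ϖ h₁ h₂ 0,
      fun 𝔫 _ _ => kOutAt_exp_one 𝔫 _ _ ϖ h₁ h₂ 0⟩
  · obtain ⟨j₀, lam0, υ, hj₀, hlam, hpυ⟩ :=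
      Fermat.Agent.S33.L.CycloLevelInst.exists_cyclo_const_level (A := A) (K := K) hp hK hϖ hk hz
    obtain ⟨hone_fin, hone_inf⟩ := kOutAt_oneBranch_good M p hpM A hA K hK S₂ ϖ hϖ k hj₀ υ hpυ z hz
    obtain ⟨hnode_fin, hnode_inf⟩ := hnode K hK S₂ ϖ hϖ z hz hk j₀ lam0 υ hj₀ hlam hpυ
    refine ⟨k * ((p - 1) * j₀), fun 𝔫 h𝔫 hϖ𝔫 => ?_, fun 𝔫 h𝔫 hϖ𝔫 => ?_⟩
    · by_cases hb : Through (gaussVS (Lvl K) (M * p) (baseRing A K)) 𝔫 ∧ Through S₂.V 𝔫
      · exact hnode_fin 𝔫 h𝔫 hϖ𝔫 hb.1 hb.2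
      · exact hone_fin 𝔫 h𝔫.isPrime hb
    · by_cases hb : Through (gaussVS (Lvl K) (M * p) (baseRing A K)) 𝔫 ∧ Through S₂.V 𝔫
      · exact hnode_inf 𝔫 h𝔫 hϖ𝔫 hb.1 hb.2
      · exact hone_inf 𝔫 h𝔫.isPrime hb

end Prov

end Fermat.Agent.S33.L.KOutSmoothGood
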