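/-
S33, `moonshots` row 61, STEP K at the NODES of the chart AT INFINITY (helper10; insurance copy of the
`Rinf` conjunct of `KOutSmoothGood.NodeProv`) = the mirror of helper26's `L/KOutNode.lean`
(`nodeFacts_fin`, `kOutAt_node_fin`) for `R = Rinf K (N ℓ) O`, `θ₁ = res thetaInf`,
`θ₂ = res theta2InfS : R → RbarInf K N O` of `P3G/TwoComponentsInfFinal`, via the chart-independent
`KOutNode.NodeFacts` / `KOutNode.kOutAt_of_nodeFacts`.

* `nodeFacts_inf`   : `KOutNode.NodeFacts` at every crossing point of the chart at infinity;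
* `kOutAt_node_inf` : `Skeleton.KOutAt` at every crossing point of the chart at infinity at a good
  level, loss `k (p - 1) j₀` — the second conjunct of `KOutSmoothGood.NodeProv`;
* `nodeProv`, `kProv` : `KOutSmoothGood.NodeProv M p A k` and `Contracts.KProv M p A k`.
-/
import Mathlib
import Fermat.Agent.P4.BranchNormalLevelInf
import Fermat.Agent.S33.L.KOutNode
import Fermat.Agent.S33.L.KOutSmoothGood

set_option autoImplicit false
set_option linter.unusedSectionVars false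
set_option linter.style.haveILetI false
set_option linter.style.longLine false

open ModularCurve Fermat.Agent.S28.Gauss Fermat.Agent.N4.Setting Fermat.Agent.N4.FibreEmbedding
open Fermat.Agent.N4.Chart
open Fermat.Agent.N4F.E.DegreeLevelRaise Fermat.Agent.N4F.E.GaussDVR AlgebraicCurve Polynomial
open Fermat.Agent.N4F.E IsLocalRing Fermat.Agent.P3G.RbarFin Fermat.Agent.P3G.TwoComponents
open Fermat.Agent.P3G.RbarInf Fermat.Agent.P3G.TwoComponentsInf
open Fermat.Agent.P3G.TwoComponentsFinal Fermat.Agent.P3G.TwoComponentsInfFinal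
open Fermat.Agent.P3G Fermat.Agent.P4
open Fermat.Agent.P4.TwistRoots Fermat.Agent.S33.L.KOutNode

noncomputable section

namespace Fermat.Agent.S33.L.KOutNodeInfC

/-! ### The chart at infinity of level `N ℓ` -/

section Inf

variable (K : Type) [Field K] [CharZero K] (N : ℕ) [NeZero N] (ℓ : ℕ) [Fact ℓ.Prime]
  (O : Subring K) [IsDiscreteValuationRing ↥O] [IsFractionRing ↥O K]
  [CharP (IsLocalRing.ResidueField ↥O) ℓ] [PerfectRing (IsLocalRing.ResidueField ↥O) ℓ]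

set_option synthInstance.maxHeartbeats 400000

variable (hN : IsUnit ((N : ℕ) : ↥O)) (ι : K →+* ℂ) (hℓN : ¬ ℓ ∣ N)
  (hprime : (fibreIdeal K N O (Rfin K N O)).IsPrime)
  (hprimeInf : (fibreIdeal K N O (Rinf K N O)).IsPrime)
  (hsmoothInf : IsDedekindDomain (↥(Rinf K N O) ⧸ fibreIdeal K N O (Rinf K N O)))
  (hA2 : ∀ x : ↥(gaussSubalgebra K N O),
    theta K N O x ∈ modularFunctionFieldFullC (IsLocalRing.ResidueField ↥O) N)
  (S₂ : FibreTwo.SecondVal K N ℓ O)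
  {ϖ : ↥O} (hϖ : Irreducible ϖ)

include hN ι hℓN hprime hprimeInf hsmoothInf hA2 hϖ in
/-- **`NodeFacts` at every crossing point of the chart at infinity of level `N ℓ`.** -/
theorem nodeFacts_inf (hℓO : ((ℓ : ℕ) : ↥O) ∈ IsLocalRing.maximalIdeal ↥O)
    (𝔫 : Ideal ↥(Rinf K (N * ℓ) O)) [h𝔫 : 𝔫.IsMaximal]
    (ht₁ : Through (gaussVS K (N * ℓ) O) 𝔫) (ht₂ : Through S₂.V 𝔫) :
    NodeFacts
      (CrossingLaurent.res (RbarInf K N O) (thetaInf K (N * ℓ) O)
        (thetaInf_mem_rbar K N ℓ O hN ι hℓN hprimeInf hsmoothInf hA2 S₂))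
      (CrossingLaurent.res (RbarInf K N O) (theta2InfS K N ℓ O S₂)
        (theta2InfS_mem_rbar K N ℓ O hN hprimeInf hsmoothInf hA2 S₂))
      (gaussVS K (N * ℓ) O) S₂.V ϖ ℓ 𝔫 := by
  haveI := Fermat.Agent.N4.ModPolySetting.finiteDimensional_FF K (N * ℓ)
  haveI : IsDedekindDomain ↥(RbarInf K N O) :=
    isDedekindDomain_RbarInf K N O hprimeInf hsmoothInf
  have hD := crossingData_inf K N ℓ O hN ι hℓN hprime hprimeInf hsmoothInf hA2 S₂
  have hS := BranchNormalLevelInf.setup_inf K N ℓ O hN ι hℓN hprime hprimeInf hsmoothInf hA2 S₂ hϖ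
  have hk₁ :=
    BranchNormalLevelInf.res_thetaInf_eq_zero_iff K N ℓ O hN ι hℓN hprimeInf hsmoothInf hA2 S₂
  have hk₂ :=
    BranchNormalLevelInf.res_theta2InfS_eq_zero_iff K N ℓ O hN hprimeInf hsmoothInf hA2 S₂
  have hV := ker_inf_ker_eq_inf K N ℓ O hN ι hℓN hprime hprimeInf hsmoothInf hA2 S₂ hϖ
  have hle₁ : RingHom.ker (CrossingLaurent.res (RbarInf K N O) (thetaInf K (N * ℓ) O)
      (thetaInf_mem_rbar K N ℓ O hN ι hℓN hprimeInf hsmoothInf hA2 S₂)) ≤ 𝔫 :=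
    fun r hr => ht₁ r ((hk₁ r).1 hr)
  have hle₂ : RingHom.ker (CrossingLaurent.res (RbarInf K N O) (theta2InfS K N ℓ O S₂)
      (theta2InfS_mem_rbar K N ℓ O hN hprimeInf hsmoothInf hA2 S₂)) ≤ 𝔫 :=
    fun r hr => ht₂ r ((hk₂ r).1 hr)
  have hϖmem : algebraMap ↥O ↥(Rinf K (N * ℓ) O) ϖ ∈
      RingHom.ker (CrossingLaurent.res (RbarInf K N O) (thetaInf K (N * ℓ) O)
        (thetaInf_mem_rbar K N ℓ O hN ι hℓN hprimeInf hsmoothInf hA2 S₂)) ⊓
      RingHom.ker (CrossingLaurent.res (RbarInf K N O) (theta2InfS K N ℓ O S₂)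
        (theta2InfS_mem_rbar K N ℓ O hN hprimeInf hsmoothInf hA2 S₂)) :=
    hV.ge (Ideal.mem_span_singleton_self _)
  have hbot : 𝔫.map (CrossingLaurent.res (RbarInf K N O) (thetaInf K (N * ℓ) O)
      (thetaInf_mem_rbar K N ℓ O hN ι hℓN hprimeInf hsmoothInf hA2 S₂)) ≠ ⊥ := by
    haveI := Crossing.isMaximal_map _ hD.surj₁ 𝔫 hle₁
    exact Ring.ne_bot_of_isMaximal_of_not_isField inferInstance
      (Fermat.Agent.P3G.RbarInf.not_isField_RbarInf K N O hprimeInf)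
  refine
    { surj₁ := hD.surj₁
      surj₂ := hD.surj₂
      mem₁ := hS.mem₁
      mem₂ := hS.mem₂
      ker₁ := hk₁
      ker₂ := hk₂
      le₁ := hle₁
      le₂ := hle₂
      pi_mem := hϖmem
      inf_le := hV.le
      node := NodeGlue.node_of_crossingData hD 𝔫 hle₁ hle₂ hbot hV.le hϖmem.1
      loc₁ := hS.loc₁
      loc₂ := hS.loc₂
      sep₁₂ := ?_
      sep₂₁ := ?_
      char_mem := ?_
      pi_ne := ?_
      unif₁ := ?_
      unif₂ := ?_ }
  · obtain ⟨ε, h1, h2⟩ := hS.sep₁₂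
    exact ⟨ε, (RingHom.mem_ker).2 ((hk₁ ε).2 h1), fun h => h2 ((hk₂ ε).1 h)⟩
  · obtain ⟨ε, h2, h1⟩ := hS.sep₂₁
    exact ⟨ε, (RingHom.mem_ker).2 ((hk₂ ε).2 h2), fun h => h1 ((hk₁ ε).1 h)⟩
  · -- `ℓ ∈ (ϖ) ⊆ 𝔫`
    have h1 : ((ℓ : ℕ) : ↥O) ∈ Ideal.span {ϖ} := by
      rw [← hϖ.maximalIdeal_eq]; exact hℓO
    obtain ⟨y, hy⟩ := Ideal.mem_span_singleton'.1 h1
    have h2 : ((ℓ : ℕ) : ↥(Rinf K (N * ℓ) O)) =
        algebraMap ↥O ↥(Rinf K (N * ℓ) O) y * algebraMap ↥O ↥(Rinf K (N * ℓ) O) ϖ := by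
      rw [← map_mul, hy, map_natCast]
    rw [h2]
    exact Ideal.mul_mem_left _ _ (hle₁ hϖmem.1)
  · intro h0
    have hinj : Function.Injective (algebraMap ↥O (FF K (N * ℓ))) := by
      rw [IsScalarTower.algebraMap_eq ↥O K (FF K (N * ℓ))]
      exact (algebraMap K (FF K (N * ℓ))).injective.comp (IsFractionRing.injective ↥O K)
    exact hϖ.ne_zero (hinj (by rw [h0, map_zero]))
  · intro x hx
    have := hS.unif₁ x hx
    rwa [← IsScalarTower.algebraMap_apply ↥O ↥(Rinf K (N * ℓ) O) (FF K (N * ℓ))] at this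
  · intro x hx
    have := hS.unif₂ x hx
    rwa [← IsScalarTower.algebraMap_apply ↥O ↥(Rinf K (N * ℓ) O) (FF K (N * ℓ))] at this

end Inf

/-! ### The chart at infinity at a good level -/

section Good

open Fermat.Agent.N4.BigDVR Fermat.Agent.N4.S18Glue Fermat.Agent.P3G.Assembly.LevelStep
  Fermat.Agent.P3G.Gamma Fermat.Agent.P3G.GammaAut
  Fermat.Agent.N4F.C Fermat.Agent.N4F.C.Levels Fermat.Agent.N4F.C.Galois
  Fermat.Agent.S33.L.Skeleton IntermediateField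

local notation "Qbar" => AlgebraicClosure ℚ

set_option maxHeartbeats 1600000 in
set_option synthInstance.maxHeartbeats 400000 in
/-- **(K-out) at every crossing point of the chart at infinity of level `M p` at a good level**, with
the loss `k (p - 1) j₀` of the cyclotomic constants of the level. -/
theorem kOutAt_node_inf (M p : ℕ) [NeZero M] [Fact p.Prime] (hpM : ¬ p ∣ M)
    (A : ValuationSubring Qbar) (hA : A.LiesOverPrime p)
    (K : IntermediateField ℚ Qbar) (hK : IsGoodLevel A p K)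
    [IsDiscreteValuationRing ↥(baseRing A K)]
    (S₂ : Fermat.Agent.P3G.FibreTwo.SecondVal (Lvl K) M p (baseRing A K))
    (ϖ : ↥(baseRing A K)) (hϖ : Irreducible ϖ) {k : ℕ} (hk : 1 ≤ k)
    {z : ↥(baseRing A K)} (hz : IsPrimitiveRoot z (p ^ k))
    {j₀ : ℕ} (lam0 υ : (↥(baseRing A K))ˣ) (hj₀ : 1 ≤ j₀)
    (hlam : z ^ p ^ (k - 1) - 1 = lam0 * ϖ ^ j₀)
    (hpυ : ((p : ℕ) : ↥(baseRing A K)) = υ * ϖ ^ ((p - 1) * j₀))
    (𝔫 : Ideal (chartAlg ↥(baseRing A K) (FF (Lvl K) (M * p)) {(jF (Lvl K) (M * p))⁻¹}))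
    (h𝔫 : 𝔫.IsMaximal) (ht₁ : Through (gaussVS (Lvl K) (M * p) (baseRing A K)) 𝔫)
    (ht₂ : Through S₂.V 𝔫) :
    KOutAt (Lvl K) 𝔫 (gaussVS (Lvl K) (M * p) (baseRing A K)) S₂.V ϖ (p ^ k)
      (k * ((p - 1) * j₀)) := by
  have hq : p.Prime := Fact.out
  haveI := h𝔫
  haveI : IsAlgClosed (IsLocalRing.ResidueField ↥(baseRing A K)) := hK.algClosed
  have hGB : GoodBase (Lvl K) M (baseRing A K) p := ⟨hq, hpM, inferInstance, hK.not_unit⟩
  haveI : CharP (IsLocalRing.ResidueField ↥(baseRing A K)) p :=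
    Fermat.Agent.N4F.E.GaussResidue.charP_residueField (Lvl K) M (baseRing A K) hGB
  haveI : PerfectRing (IsLocalRing.ResidueField ↥(baseRing A K)) p := inferInstance
  have hstar := LevelStatements.starStatement_lvl hq hA K hGB hK.roots
  have hsmooth := LevelStatements.smoothStatement_lvl hq hA hpM K hGB hK.roots
  have hprime := hstar.1.isPrime
  have hprimeInf := hstar.2.isPrime
  have hred : PGI.RedMem (Lvl K) M (baseRing A K) := fun s hs =>
    ChartReduction.red_mem_full (Lvl K) M (baseRing A K) hGB hstar s hs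
  have hA2 := Fermat.Agent.N4F.E.NormReduction.theta_mem_full (Lvl K) M (baseRing A K) hred
  have hN : IsUnit ((M : ℕ) : ↥(baseRing A K)) :=
    Fermat.Agent.P3G.GammaUnits.isUnit_natCast_baseRing K hq hA hpM
  have hpO : ((p : ℕ) : ↥(baseRing A K)) ∈ IsLocalRing.maximalIdeal ↥(baseRing A K) := by
    rw [IsLocalRing.mem_maximalIdeal, mem_nonunits_iff]
    exact hK.not_unit
  have hF := nodeFacts_inf (Lvl K) M p (baseRing A K) hN
    (Fermat.Agent.P3G.GammaV2.lvlToComplex K) hpM hprime hprimeInf hsmooth.2 hA2 S₂ hϖ hpO 𝔫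
    ht₁ ht₂
  haveI : IsDedekindDomain ↥(RbarInf (Lvl K) M (baseRing A K)) :=
    isDedekindDomain_RbarInf (Lvl K) M (baseRing A K) hprimeInf hsmooth.2
  have hζ₀ : (z ^ p ^ (k - 1)) ^ p = 1 := by
    rw [← pow_mul, ← pow_succ, Nat.sub_add_cancel hk]
    exact hz.pow_eq_one
  have hζK : IsPrimitiveRoot ((z : ↥(baseRing A K)) : Lvl K) (p ^ k) :=
    hz.map_of_injective (f := (baseRing A K).subtype) Subtype.val_injective
  exact kOutAt_of_nodeFacts (Lvl K) (Rinf (Lvl K) (M * p) (baseRing A K)) 𝔫 hF hq hj₀ υ lam0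
    (z ^ p ^ (k - 1)) hpυ hζ₀ hlam k hζK

/-- **STEP K at the nodes, both charts** = `KOutSmoothGood.NodeProv`. -/
theorem nodeProv (M p : ℕ) [NeZero M] [Fact p.Prime] (hpM : ¬ p ∣ M)
    (A : ValuationSubring Qbar) (hA : A.LiesOverPrime p) (k : ℕ) :
    Fermat.Agent.S33.L.KOutSmoothGood.NodeProv M p A k := by
  intro K hK _ S₂ ϖ hϖ z hz hk j₀ lam0 υ hj₀ hlam hpυ
  exact ⟨fun 𝔫 h𝔫 _ ht₁ ht₂ => kOutAt_node_fin M p hpM A hA K hK S₂ ϖ hϖ hk hz lam0 υ hj₀ hlam hpυ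
      𝔫 h𝔫 ht₁ ht₂,
    fun 𝔫 h𝔫 _ ht₁ ht₂ => kOutAt_node_inf M p hpM A hA K hK S₂ ϖ hϖ hk hz lam0 υ hj₀ hlam hpυ
      𝔫 h𝔫 ht₁ ht₂⟩

/-- **STEP K provider**: `Contracts.KProv M p A k` at every place over `p`, every `k`. -/
theorem kProv (M p : ℕ) [NeZero M] [Fact p.Prime] (hpM : ¬ p ∣ M)
    (A : ValuationSubring Qbar) (hA : A.LiesOverPrime p) (k : ℕ) :
    Fermat.Agent.S33.L.Contracts.KProv M p A k :=
  Fermat.Agent.S33.L.KOutSmoothGood.kProv_of_nodeProv hpM hA (nodeProv M p hpM A hA k)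

end Good

end Fermat.Agent.S33.L.KOutNodeInfC
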