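/-
S33, `moonshots` row 61, STEP K, (K3-inst) piece (helper4; dispatcher R13): **the non-integrality
fields of helper19's `KummerNodeAbs.NodeHyp` at a crossing point of a concrete chart.**

Setting of `L/KTWireLoc` (helper5): `R : Subalgebra O F` a chart, `𝔫` a prime of `R`,
`A := locAlg R 𝔫` (the local ring of the chart at `𝔫`, inside `F`), `Bᵢ := ↥Vᵢ` the two vertical
valuation rings, with ANY algebra structures `A → ↥Vᵢ` compatible with the coercions to `F`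
(`hcoe`; e.g. `letI := KTWireLoc.algV R 𝔫 hVᵢ htᵢ`, `hcoe := fun _ => rfl`), `ϖA := algebraMap O A ϖ`.
All hypotheses are fields of `P4/TwistRoots.Setup` (`pi₁ pi₂ sat unif₁ unif₂`) or the node clause of
`P4/TwistRoots.CrossingFrob` / `P4/NodeGlue.node_of_crossingData`.

* `mem_branch_iff`, `mem_branch_iff_nonunits` : `a ∈ branch ϖA ↥V ↔ a ∈ ϖ V ↔ a ∈ 𝔪_V`;
* `regA`, `regV` : `ϖ` is a non-zero-divisor on `A`, `↥V`;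
* `branch_le_maximalIdeal` ;
* `sat` : `𝔓₁ ∩ 𝔓₂ ⊆ ϖ A` from `Setup.sat` (`= ker θ₁ ⊓ ker θ₂ ≤ (ϖ)`);
* `node` : every `a ∈ 𝔪_A` is `p₁ + p₂`, `pᵢ ∈ 𝔓ᵢ`, from the (node) clause;
* `constants` : `hζ hζd hd₀ hpυ` transported along `O → A` from
  `CycloLevelInst.exists_cyclo_const_level`;
* `nodeHyp_of_branches` : `NodeHyp ↥V₁ ↥V₂ ϖA p j₀ υA ζA d₀A` from the two `BranchHyp`s (helper29,
  `L/NodeBranch`) and the data above; `hyp_of_branches` : the `KummerLoc.Hyp (B := ↥V₁ × ↥V₂)`;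
* `kOutAt_node_of_branches` : `Skeleton.KOutAt` at the node via `KTWireLoc.kOutAt_node`;
  `kOutAt_node_of_setup` : the same with `KTWireLoc.algV` and a `TwistRoots.Setup`;
* `hnode_of_ker`, `hnode_of_crossingData` : the (node) clause from `P4/NodeGlue.node_of_crossingData`.
-/
import Mathlib
import Fermat.Agent.S33.New.KummerNodeAbs
import Fermat.Agent.S33.L.KTWireLoc
import Fermat.Agent.P4.NodeGlue

set_option autoImplicit false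
set_option linter.unusedSectionVars false
set_option linter.style.haveILetI false
set_option linter.style.longLine false

namespace Fermat.Agent.S33.L.NodeSat

open Fermat.Agent.G.PointsLoc Fermat.Agent.S33.New.KummerNodeAbs Fermat.Agent.P4.TwistRoots
  IsLocalRing

variable {O K F : Type*} [CommRing O] [IsDomain O] [IsDiscreteValuationRing O]
  [Field K] [Algebra O K] [IsFractionRing O K]
  [Field F] [Algebra K F] [Algebra O F] [IsScalarTower O K F]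

variable (R : Subalgebra O F) (𝔫 : Ideal ↥R) [h𝔫 : 𝔫.IsPrime]

/-! ### Elements of `locAlg R 𝔫` -/

/-- The fraction `r / s`, `s ∉ 𝔫`, as an element of `locAlg R 𝔫`. -/
def frac (r s : R) (hs : s ∉ 𝔫) : ↥(locAlg R 𝔫) :=
  ⟨(r : F) * ((s : F))⁻¹, (locAlg R 𝔫).mul_mem (le_locAlg R 𝔫 r.2) (inv_mem_locAlg R 𝔫 hs)⟩

theorem coe_frac (r s : R) (hs : s ∉ 𝔫) : ((frac R 𝔫 r s hs : ↥(locAlg R 𝔫)) : F) =
    (r : F) * ((s : F))⁻¹ := rfl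

theorem coe_ne_zero_of_notMem {s : R} (hs : s ∉ 𝔫) : (s : F) ≠ 0 := by
  intro h0
  apply hs
  have : s = 0 := Subtype.ext h0
  rw [this]
  exact 𝔫.zero_mem

/-- Every element of the maximal ideal of `locAlg R 𝔫` is `r / s` with `r ∈ 𝔫`, `s ∉ 𝔫`. -/
theorem exists_of_mem_maximalIdeal {a : ↥(locAlg R 𝔫)} (ha : a ∈ maximalIdeal ↥(locAlg R 𝔫)) :
    ∃ r s : R, r ∈ 𝔫 ∧ s ∉ 𝔫 ∧ (a : F) * (s : F) = (r : F) := by
  rw [maximalIdeal_locAlg, IsLocalization.mem_map_algebraMap_iff 𝔫.primeCompl] at ha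
  obtain ⟨⟨r, s⟩, e⟩ := ha
  refine ⟨r.1, s.1, r.2, s.2, ?_⟩
  have := congrArg (fun z : ↥(locAlg R 𝔫) => (z : F)) e
  exact this

/-! ### One branch -/

section OneBranch

variable (V : ValuationSubring F) [Algebra ↥(locAlg R 𝔫) ↥V]
  (hcoe : ∀ a : ↥(locAlg R 𝔫), ((algebraMap ↥(locAlg R 𝔫) ↥V a : ↥V) : F) = (a : F))
  (ϖ : O)

include hcoe

/-- `locAlg R 𝔫 ⊆ V`. -/
theorem coe_mem (a : ↥(locAlg R 𝔫)) : (a : F) ∈ V := by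
  rw [← hcoe a]
  exact (algebraMap ↥(locAlg R 𝔫) ↥V a).2

/-- Elements of `R` outside `𝔫` are units of `V`. -/
theorem valuation_eq_one_of_notMem {s : R} (hs : s ∉ 𝔫) : V.valuation (s : F) = 1 := by
  have h1 : V.valuation (s : F) ≤ 1 :=
    (V.valuation_le_one_iff _).2
      (coe_mem R 𝔫 V hcoe ⟨(s : F), le_locAlg R 𝔫 s.2⟩)
  have h2 : V.valuation ((s : F))⁻¹ ≤ 1 :=
    (V.valuation_le_one_iff _).2
      (coe_mem R 𝔫 V hcoe ⟨((s : F))⁻¹, inv_mem_locAlg R 𝔫 hs⟩)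
  have hs0 : (s : F) ≠ 0 := coe_ne_zero_of_notMem R 𝔫 hs
  have h3 : V.valuation (s : F) * V.valuation ((s : F))⁻¹ = 1 := by
    rw [← map_mul, mul_inv_cancel₀ hs0, map_one]
  refine le_antisymm h1 ?_
  by_contra hlt
  push Not at hlt
  have h4 : V.valuation (s : F) * V.valuation ((s : F))⁻¹ < 1 := by
    calc V.valuation (s : F) * V.valuation ((s : F))⁻¹
        ≤ V.valuation (s : F) * 1 := mul_le_mul_right h2 _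
      _ = V.valuation (s : F) := mul_one _
      _ < 1 := hlt
  rw [h3] at h4
  exact lt_irrefl _ h4

/-- `V` passes through `𝔫`. -/
theorem through : Through V 𝔫 := by
  intro r hr
  by_contra hrn
  have h1 := valuation_eq_one_of_notMem R 𝔫 V hcoe hrn
  have h2 : V.valuation (r : F) < 1 := (V.mem_nonunits_iff).1 hr
  rw [h1] at h2
  exact lt_irrefl _ h2

/-- The branch ideal of `V` in `locAlg R 𝔫`: membership read in `F`. -/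
theorem mem_branch_iff {a : ↥(locAlg R 𝔫)} :
    a ∈ branch (algebraMap O ↥(locAlg R 𝔫) ϖ) ↥V ↔
      ∃ c ∈ V, (a : F) = algebraMap O F ϖ * c := by
  rw [mem_branch]
  constructor
  · rintro ⟨c, hc⟩
    refine ⟨(c : F), c.2, ?_⟩
    have h1 := congrArg (fun z : ↥V => (z : F)) hc
    have h2 : (((algebraMap ↥(locAlg R 𝔫) ↥V (algebraMap O ↥(locAlg R 𝔫) ϖ) * c : ↥V)) : F) =
        ((algebraMap ↥(locAlg R 𝔫) ↥V (algebraMap O ↥(locAlg R 𝔫) ϖ) : ↥V) : F) * (c : F) := rfl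
    simp only [h2, hcoe] at h1
    exact h1
  · rintro ⟨c, hc, e⟩
    refine ⟨⟨c, hc⟩, Subtype.ext ?_⟩
    have h2 : (((algebraMap ↥(locAlg R 𝔫) ↥V (algebraMap O ↥(locAlg R 𝔫) ϖ) * ⟨c, hc⟩ : ↥V)) : F) =
        ((algebraMap ↥(locAlg R 𝔫) ↥V (algebraMap O ↥(locAlg R 𝔫) ϖ) : ↥V) : F) * c := rfl
    rw [h2, hcoe, hcoe]
    exact e

/-- If `ϖ` is a uniformiser of `V`, the branch ideal is the centre of `V` on `locAlg R 𝔫`. -/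
theorem mem_branch_iff_nonunits (hϖV : algebraMap O F ϖ ∈ V.nonunits)
    (hϖ0 : algebraMap O F ϖ ≠ 0)
    (hunif : ∀ x : F, V.valuation x < 1 → V.valuation x ≤ V.valuation (algebraMap O F ϖ))
    {a : ↥(locAlg R 𝔫)} :
    a ∈ branch (algebraMap O ↥(locAlg R 𝔫) ϖ) ↥V ↔ (a : F) ∈ V.nonunits := by
  rw [mem_branch_iff R 𝔫 V hcoe ϖ]
  constructor
  · rintro ⟨c, hc, e⟩
    rw [V.mem_nonunits_iff, e, map_mul]
    have h1 : V.valuation (algebraMap O F ϖ) < 1 := (V.mem_nonunits_iff).1 hϖV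
    have h2 : V.valuation c ≤ 1 := (V.valuation_le_one_iff _).2 hc
    calc V.valuation (algebraMap O F ϖ) * V.valuation c
        ≤ V.valuation (algebraMap O F ϖ) * 1 := mul_le_mul_right h2 _
      _ = V.valuation (algebraMap O F ϖ) := mul_one _
      _ < 1 := h1
  · intro ha
    have h1 := hunif _ ((V.mem_nonunits_iff).1 ha)
    refine ⟨(a : F) * (algebraMap O F ϖ)⁻¹, ?_, ?_⟩
    · rw [← V.valuation_le_one_iff, map_mul, map_inv₀]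
      have hv0 : V.valuation (algebraMap O F ϖ) ≠ 0 := (V.valuation.ne_zero_iff).2 hϖ0
      calc V.valuation (a : F) * (V.valuation (algebraMap O F ϖ))⁻¹
          ≤ V.valuation (algebraMap O F ϖ) * (V.valuation (algebraMap O F ϖ))⁻¹ :=
            mul_le_mul_left h1 _
        _ = 1 := mul_inv_cancel₀ hv0
    · field_simp

omit hcoe in
/-- `ϖ` is a non-zero-divisor of `V`. -/
theorem regV (hϖ0 : algebraMap O F ϖ ≠ 0) (b : ↥V)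
    (h : algebraMap ↥(locAlg R 𝔫) ↥V (algebraMap O ↥(locAlg R 𝔫) ϖ) * b = 0)
    (hcoe : ∀ a : ↥(locAlg R 𝔫), ((algebraMap ↥(locAlg R 𝔫) ↥V a : ↥V) : F) = (a : F)) :
    b = 0 := by
  rcases mul_eq_zero.1 h with h1 | h1
  · exfalso
    apply hϖ0
    have := congrArg (fun z : ↥V => (z : F)) h1
    simp only [hcoe] at this
    exact this
  · exact h1

/-- The branch ideal lies in the maximal ideal. -/
theorem branch_le_maximalIdeal (hϖV : algebraMap O F ϖ ∈ V.nonunits) :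
    branch (algebraMap O ↥(locAlg R 𝔫) ϖ) ↥V ≤ maximalIdeal ↥(locAlg R 𝔫) := by
  intro a ha
  rw [mem_maximalIdeal, mem_nonunits_iff]
  intro hu
  obtain ⟨c, hc, e⟩ := (mem_branch_iff R 𝔫 V hcoe ϖ).1 ha
  obtain ⟨b, hb⟩ := isUnit_iff_exists_inv.1 hu
  have h1 : (a : F) * (b : F) = 1 := congrArg (fun z : ↥(locAlg R 𝔫) => (z : F)) hb
  have h2 : V.valuation ((a : F) * (b : F)) < 1 := by
    rw [e, map_mul, map_mul]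
    have h3 : V.valuation (algebraMap O F ϖ) < 1 := (V.mem_nonunits_iff).1 hϖV
    have h4 : V.valuation c ≤ 1 := (V.valuation_le_one_iff _).2 hc
    have h5 : V.valuation (b : F) ≤ 1 := (V.valuation_le_one_iff _).2 (coe_mem R 𝔫 V hcoe b)
    calc V.valuation (algebraMap O F ϖ) * V.valuation c * V.valuation (b : F)
        ≤ V.valuation (algebraMap O F ϖ) * 1 * 1 := by gcongr
      _ = V.valuation (algebraMap O F ϖ) := by rw [mul_one, mul_one]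
      _ < 1 := h3
  rw [h1, map_one] at h2
  exact lt_irrefl _ h2

end OneBranch

/-! ### `ϖ` is a non-zero-divisor of `locAlg R 𝔫` -/

theorem regA {ϖ : O} (hϖ0 : algebraMap O F ϖ ≠ 0) (a : ↥(locAlg R 𝔫))
    (h : algebraMap O ↥(locAlg R 𝔫) ϖ * a = 0) : a = 0 := by
  have h1 : algebraMap O F ϖ * (a : F) = 0 := congrArg (fun z : ↥(locAlg R 𝔫) => (z : F)) h
  rcases mul_eq_zero.1 h1 with h2 | h2
  · exact absurd h2 hϖ0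
  · exact Subtype.ext h2

/-! ### The node -/

section Node

variable (V₁ V₂ : ValuationSubring F) [Algebra ↥(locAlg R 𝔫) ↥V₁] [Algebra ↥(locAlg R 𝔫) ↥V₂]
  (hcoe₁ : ∀ a : ↥(locAlg R 𝔫), ((algebraMap ↥(locAlg R 𝔫) ↥V₁ a : ↥V₁) : F) = (a : F))
  (hcoe₂ : ∀ a : ↥(locAlg R 𝔫), ((algebraMap ↥(locAlg R 𝔫) ↥V₂ a : ↥V₂) : F) = (a : F))
  (ϖ : O)

include hcoe₁ hcoe₂

/-- **`sat`**: `𝔓₁ ∩ 𝔓₂ ⊆ ϖ A`, from the saturation `𝔪_{V₁} ∩ 𝔪_{V₂} ∩ R = ϖ R` of the chart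
(`TwistRoots.Setup.sat`, i.e. `ker θ₁ ⊓ ker θ₂ = (ϖ)`). -/
theorem sat (hϖ₁ : algebraMap O F ϖ ∈ V₁.nonunits) (hϖ₂ : algebraMap O F ϖ ∈ V₂.nonunits)
    (hsat : ∀ r : R, (r : F) ∈ V₁.nonunits → (r : F) ∈ V₂.nonunits →
      algebraMap O ↥R ϖ ∣ r)
    (a : ↥(locAlg R 𝔫)) (ha₁ : a ∈ branch (algebraMap O ↥(locAlg R 𝔫) ϖ) ↥V₁)
    (ha₂ : a ∈ branch (algebraMap O ↥(locAlg R 𝔫) ϖ) ↥V₂) :
    ∃ a' : ↥(locAlg R 𝔫), a = algebraMap O ↥(locAlg R 𝔫) ϖ * a' := by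
  obtain ⟨r, s, hs, e⟩ := (mem_locAlg_iff R 𝔫).1 a.2
  have hs0 : (s : F) ≠ 0 := coe_ne_zero_of_notMem R 𝔫 hs
  have key : ∀ (V : ValuationSubring F) [Algebra ↥(locAlg R 𝔫) ↥V]
      (hcoe : ∀ a : ↥(locAlg R 𝔫), ((algebraMap ↥(locAlg R 𝔫) ↥V a : ↥V) : F) = (a : F)),
      algebraMap O F ϖ ∈ V.nonunits → a ∈ branch (algebraMap O ↥(locAlg R 𝔫) ϖ) ↥V →
      (r : F) ∈ V.nonunits := by
    intro V _ hcoe hϖV ha
    obtain ⟨c, hc, ec⟩ := (mem_branch_iff R 𝔫 V hcoe ϖ).1 ha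
    rw [V.mem_nonunits_iff, ← e, ec, map_mul, map_mul,
      valuation_eq_one_of_notMem R 𝔫 V hcoe hs, mul_one]
    have h1 : V.valuation (algebraMap O F ϖ) < 1 := (V.mem_nonunits_iff).1 hϖV
    have h2 : V.valuation c ≤ 1 := (V.valuation_le_one_iff _).2 hc
    calc V.valuation (algebraMap O F ϖ) * V.valuation c
        ≤ V.valuation (algebraMap O F ϖ) * 1 := mul_le_mul_right h2 _
      _ = V.valuation (algebraMap O F ϖ) := mul_one _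
      _ < 1 := h1
  obtain ⟨r', hr'⟩ := hsat r (key V₁ hcoe₁ hϖ₁ ha₁) (key V₂ hcoe₂ hϖ₂ ha₂)
  refine ⟨frac R 𝔫 r' s hs, Subtype.ext ?_⟩
  show (a : F) = algebraMap O F ϖ * ((r' : F) * ((s : F))⁻¹)
  have h3 : (r : F) = algebraMap O F ϖ * (r' : F) := by
    rw [hr']
    rfl
  rw [← mul_assoc, ← h3, ← e]
  field_simp

/-- **`node`**: every element of the maximal ideal of `A` is a sum `p₁ + p₂` of elements of the two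
branch ideals, from the (node) clause of `TwistRoots.CrossingFrob` (resp.
`NodeGlue.node_of_crossingData` + `hker`). -/
theorem node (hϖ₁ : algebraMap O F ϖ ∈ V₁.nonunits) (hϖ₂ : algebraMap O F ϖ ∈ V₂.nonunits)
    (hϖ0 : algebraMap O F ϖ ≠ 0)
    (hunif₁ : ∀ x : F, V₁.valuation x < 1 → V₁.valuation x ≤ V₁.valuation (algebraMap O F ϖ))
    (hunif₂ : ∀ x : F, V₂.valuation x < 1 → V₂.valuation x ≤ V₂.valuation (algebraMap O F ϖ))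
    (hnode : ∀ r ∈ 𝔫, ∃ c p₁ p₂ : R, c ∉ 𝔫 ∧ (p₁ : F) ∈ V₁.nonunits ∧
      (p₂ : F) ∈ V₂.nonunits ∧ c * r = p₁ + p₂)
    (a : ↥(locAlg R 𝔫)) (ha : a ∈ maximalIdeal ↥(locAlg R 𝔫)) :
    ∃ p₁ ∈ branch (algebraMap O ↥(locAlg R 𝔫) ϖ) ↥V₁,
      ∃ p₂ ∈ branch (algebraMap O ↥(locAlg R 𝔫) ϖ) ↥V₂, a = p₁ + p₂ := by
  obtain ⟨r, s, hr, hs, e⟩ := exists_of_mem_maximalIdeal R 𝔫 ha
  obtain ⟨c, p₁, p₂, hc, hp₁, hp₂, ec⟩ := hnode r hr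
  have hcs : c * s ∉ 𝔫 := fun h => (h𝔫.mem_or_mem h).elim hc hs
  have hcs0 : ((c * s : R) : F) ≠ 0 := coe_ne_zero_of_notMem R 𝔫 hcs
  have key : ∀ (V : ValuationSubring F) [Algebra ↥(locAlg R 𝔫) ↥V]
      (hcoe : ∀ a : ↥(locAlg R 𝔫), ((algebraMap ↥(locAlg R 𝔫) ↥V a : ↥V) : F) = (a : F)),
      algebraMap O F ϖ ∈ V.nonunits →
      (∀ x : F, V.valuation x < 1 → V.valuation x ≤ V.valuation (algebraMap O F ϖ)) →
      ∀ q : R, (q : F) ∈ V.nonunits →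
      frac R 𝔫 q (c * s) hcs ∈ branch (algebraMap O ↥(locAlg R 𝔫) ϖ) ↥V := by
    intro V _ hcoe hϖV hunif q hq
    rw [mem_branch_iff_nonunits R 𝔫 V hcoe ϖ hϖV hϖ0 hunif, coe_frac, V.mem_nonunits_iff,
      map_mul, map_inv₀, valuation_eq_one_of_notMem R 𝔫 V hcoe hcs, inv_one, mul_one]
    exact (V.mem_nonunits_iff).1 hq
  refine ⟨frac R 𝔫 p₁ (c * s) hcs, key V₁ hcoe₁ hϖ₁ hunif₁ p₁ hp₁,
    frac R 𝔫 p₂ (c * s) hcs, key V₂ hcoe₂ hϖ₂ hunif₂ p₂ hp₂, Subtype.ext ?_⟩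
  show (a : F) = (p₁ : F) * (((c * s : R) : F))⁻¹ + (p₂ : F) * (((c * s : R) : F))⁻¹
  have h1 : ((c * s : R) : F) = (c : F) * (s : F) := rfl
  have h2 : (c : F) * (r : F) = (p₁ : F) + (p₂ : F) :=
    congrArg (fun z : R => (z : F)) ec
  rw [← add_mul, ← h2, ← e, h1]
  have hc0 : (c : F) ≠ 0 := coe_ne_zero_of_notMem R 𝔫 hc
  have hs0 : (s : F) ≠ 0 := coe_ne_zero_of_notMem R 𝔫 hs
  field_simp

end Node

/-! ### The constants -/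

section Constants

variable {O' A' : Type*} [CommRing O'] [CommRing A'] (φ : O' →+* A')

/-- The cyclotomic constants of `L/CycloLevel.exists_cyclo_const(_level)` transported along a ring
homomorphism `φ : O → A`: the fields `hζ hζd hd₀ hpυ` of `KummerNodeAbs.NodeHyp`
(`ζ₀ := z ^ p ^ (n - 1)`). -/
theorem constants {p j₀ : ℕ} {ϖ ζ₀ : O'} {lam0 υ : O'ˣ} (hζ₀ : ζ₀ ^ p = 1)
    (hlam : ζ₀ - 1 = lam0 * ϖ ^ j₀) (hpυ : ((p : ℕ) : O') = υ * ϖ ^ ((p - 1) * j₀)) :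
    φ ζ₀ ^ p = 1 ∧ φ ζ₀ = 1 + φ ϖ ^ j₀ * φ lam0 ∧ IsUnit (φ lam0) ∧
      ((p : ℕ) : A') = ((Units.map (φ : O' →* A') υ : A'ˣ) : A') * φ ϖ ^ ((p - 1) * j₀) := by
  refine ⟨?_, ?_, ?_, ?_⟩
  · rw [← map_pow, hζ₀, map_one]
  · have h1 : ζ₀ = 1 + ϖ ^ j₀ * lam0 := by linear_combination hlam
    conv_lhs => rw [h1]
    rw [map_add, map_one, map_mul, map_pow]
  · exact lam0.isUnit.map φ
  · have h1 := congrArg φ hpυ
    rw [map_natCast, map_mul, map_pow] at h1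
    exact h1

/-- `(z ^ p ^ (n - 1)) ^ p = 1` for a `p ^ n`-th root of unity, `1 ≤ n`. -/
theorem pow_pow_pred_pow {M : Type*} [Monoid M] {p n : ℕ} (hn : 1 ≤ n) {z : M}
    (hz : z ^ p ^ n = 1) : (z ^ p ^ (n - 1)) ^ p = 1 := by
  obtain ⟨d, rfl⟩ : ∃ d, n = d + 1 := ⟨n - 1, by omega⟩
  rw [Nat.add_sub_cancel, ← pow_mul, ← pow_succ]
  exact hz

end Constants

/-! ### The packaged statements -/

section Package

variable (V₁ V₂ : ValuationSubring F) [Algebra ↥(locAlg R 𝔫) ↥V₁] [Algebra ↥(locAlg R 𝔫) ↥V₂]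
  (hcoe₁ : ∀ a : ↥(locAlg R 𝔫), ((algebraMap ↥(locAlg R 𝔫) ↥V₁ a : ↥V₁) : F) = (a : F))
  (hcoe₂ : ∀ a : ↥(locAlg R 𝔫), ((algebraMap ↥(locAlg R 𝔫) ↥V₂ a : ↥V₂) : F) = (a : F))
  {ϖ : O}

include hcoe₁ hcoe₂

/-- **`NodeHyp` at a crossing point of a chart**, from the two `BranchHyp`s + integral closedness
(helper29 `L/NodeBranch`), a `TwistRoots.Setup`-style description of the chart
(`hϖ₁ hϖ₂ hsat hunif₁ hunif₂` are `Setup.pi₁ pi₂ sat unif₁ unif₂` verbatim), the (node) clause, and the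
cyclotomic constants of `CycloLevelInst.exists_cyclo_const_level` in `O`. -/
theorem nodeHyp_of_branches
    [IsIntegrallyClosed (↥(locAlg R 𝔫) ⧸ branch (algebraMap O ↥(locAlg R 𝔫) ϖ) ↥V₁)]
    [IsIntegrallyClosed (↥(locAlg R 𝔫) ⧸ branch (algebraMap O ↥(locAlg R 𝔫) ϖ) ↥V₂)]
    (H₁ : BranchHyp (algebraMap O ↥(locAlg R 𝔫) ϖ) ↥V₁)
    (H₂ : BranchHyp (algebraMap O ↥(locAlg R 𝔫) ϖ) ↥V₂)
    (hϖ₁ : algebraMap O F ϖ ∈ V₁.nonunits) (hϖ₂ : algebraMap O F ϖ ∈ V₂.nonunits)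
    (hϖ0 : algebraMap O F ϖ ≠ 0)
    (hsat : ∀ r : R, (r : F) ∈ V₁.nonunits → (r : F) ∈ V₂.nonunits → algebraMap O ↥R ϖ ∣ r)
    (hunif₁ : ∀ x : F, V₁.valuation x < 1 → V₁.valuation x ≤ V₁.valuation (algebraMap O F ϖ))
    (hunif₂ : ∀ x : F, V₂.valuation x < 1 → V₂.valuation x ≤ V₂.valuation (algebraMap O F ϖ))
    (hnode : ∀ r ∈ 𝔫, ∃ c p₁ p₂ : R, c ∉ 𝔫 ∧ (p₁ : F) ∈ V₁.nonunits ∧
      (p₂ : F) ∈ V₂.nonunits ∧ c * r = p₁ + p₂)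
    {p j₀ : ℕ} (hp : p.Prime) (hj₀ : 1 ≤ j₀) {ζ₀ : O} {lam0 υ : Oˣ} (hζ₀ : ζ₀ ^ p = 1)
    (hlam : ζ₀ - 1 = lam0 * ϖ ^ j₀) (hpυ : ((p : ℕ) : O) = υ * ϖ ^ ((p - 1) * j₀)) :
    NodeHyp ↥V₁ ↥V₂ (algebraMap O ↥(locAlg R 𝔫) ϖ) p j₀
      (Units.map ((algebraMap O ↥(locAlg R 𝔫) : O →+* ↥(locAlg R 𝔫)) : O →* ↥(locAlg R 𝔫)) υ)
      (algebraMap O ↥(locAlg R 𝔫) ζ₀) (algebraMap O ↥(locAlg R 𝔫) lam0) := by
  obtain ⟨c1, c2, c3, c4⟩ := constants (algebraMap O ↥(locAlg R 𝔫)) hζ₀ hlam hpυ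
  exact NodeHyp.of_branches H₁ H₂ (regA R 𝔫 hϖ0)
    (fun b h => regV R 𝔫 V₁ ϖ hϖ0 b h hcoe₁) (fun b h => regV R 𝔫 V₂ ϖ hϖ0 b h hcoe₂)
    (sat R 𝔫 V₁ V₂ hcoe₁ hcoe₂ ϖ hϖ₁ hϖ₂ hsat)
    (node R 𝔫 V₁ V₂ hcoe₁ hcoe₂ ϖ hϖ₁ hϖ₂ hϖ0 hunif₁ hunif₂ hnode)
    hp hj₀ c4 c1 c2 c3

/-- The same with output `KummerLoc.Hyp (B := ↥V₁ × ↥V₂)` (product algebra = Mathlib's
`Prod.algebra`), ready for `KTWireLoc.kOutAt_node`. -/
theorem hyp_of_branches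
    [IsIntegrallyClosed (↥(locAlg R 𝔫) ⧸ branch (algebraMap O ↥(locAlg R 𝔫) ϖ) ↥V₁)]
    [IsIntegrallyClosed (↥(locAlg R 𝔫) ⧸ branch (algebraMap O ↥(locAlg R 𝔫) ϖ) ↥V₂)]
    (H₁ : BranchHyp (algebraMap O ↥(locAlg R 𝔫) ϖ) ↥V₁)
    (H₂ : BranchHyp (algebraMap O ↥(locAlg R 𝔫) ϖ) ↥V₂)
    (hϖ₁ : algebraMap O F ϖ ∈ V₁.nonunits) (hϖ₂ : algebraMap O F ϖ ∈ V₂.nonunits)
    (hϖ0 : algebraMap O F ϖ ≠ 0)
    (hsat : ∀ r : R, (r : F) ∈ V₁.nonunits → (r : F) ∈ V₂.nonunits → algebraMap O ↥R ϖ ∣ r)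
    (hunif₁ : ∀ x : F, V₁.valuation x < 1 → V₁.valuation x ≤ V₁.valuation (algebraMap O F ϖ))
    (hunif₂ : ∀ x : F, V₂.valuation x < 1 → V₂.valuation x ≤ V₂.valuation (algebraMap O F ϖ))
    (hnode : ∀ r ∈ 𝔫, ∃ c p₁ p₂ : R, c ∉ 𝔫 ∧ (p₁ : F) ∈ V₁.nonunits ∧
      (p₂ : F) ∈ V₂.nonunits ∧ c * r = p₁ + p₂)
    {p j₀ : ℕ} (hp : p.Prime) (hj₀ : 1 ≤ j₀) {ζ₀ : O} {lam0 υ : Oˣ} (hζ₀ : ζ₀ ^ p = 1)
    (hlam : ζ₀ - 1 = lam0 * ϖ ^ j₀) (hpυ : ((p : ℕ) : O) = υ * ϖ ^ ((p - 1) * j₀)) :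
    Fermat.Agent.S33.New.KummerLoc.Hyp (B := ↥V₁ × ↥V₂) (algebraMap O ↥(locAlg R 𝔫) ϖ) p j₀
      (Units.map ((algebraMap O ↥(locAlg R 𝔫) : O →+* ↥(locAlg R 𝔫)) : O →* ↥(locAlg R 𝔫)) υ) :=
  (nodeHyp_of_branches R 𝔫 V₁ V₂ hcoe₁ hcoe₂ H₁ H₂ hϖ₁ hϖ₂ hϖ0 hsat hunif₁ hunif₂ hnode hp hj₀
    hζ₀ hlam hpυ).toHyp

/-- **(K-out) at a node of a chart**, from the two `BranchHyp`s: `hyp_of_branches` fed into helper5's
`KTWireLoc.kOutAt_node` (the product algebra is Mathlib's `Prod.algebra`). -/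
theorem kOutAt_node_of_branches (K : Type*) [Field K] [Algebra O K] [IsFractionRing O K]
    [Algebra K F] [IsScalarTower O K F] [IsFractionRing ↥R F]
    [IsIntegrallyClosed (↥(locAlg R 𝔫) ⧸ branch (algebraMap O ↥(locAlg R 𝔫) ϖ) ↥V₁)]
    [IsIntegrallyClosed (↥(locAlg R 𝔫) ⧸ branch (algebraMap O ↥(locAlg R 𝔫) ϖ) ↥V₂)]
    (H₁ : BranchHyp (algebraMap O ↥(locAlg R 𝔫) ϖ) ↥V₁)
    (H₂ : BranchHyp (algebraMap O ↥(locAlg R 𝔫) ϖ) ↥V₂)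
    (hϖ₁ : algebraMap O F ϖ ∈ V₁.nonunits) (hϖ₂ : algebraMap O F ϖ ∈ V₂.nonunits)
    (hϖ0 : algebraMap O F ϖ ≠ 0)
    (hsat : ∀ r : R, (r : F) ∈ V₁.nonunits → (r : F) ∈ V₂.nonunits → algebraMap O ↥R ϖ ∣ r)
    (hunif₁ : ∀ x : F, V₁.valuation x < 1 → V₁.valuation x ≤ V₁.valuation (algebraMap O F ϖ))
    (hunif₂ : ∀ x : F, V₂.valuation x < 1 → V₂.valuation x ≤ V₂.valuation (algebraMap O F ϖ))
    (hnode : ∀ r ∈ 𝔫, ∃ c p₁ p₂ : R, c ∉ 𝔫 ∧ (p₁ : F) ∈ V₁.nonunits ∧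
      (p₂ : F) ∈ V₂.nonunits ∧ c * r = p₁ + p₂)
    {p j₀ : ℕ} (hp : p.Prime) (hj₀ : 1 ≤ j₀) {ζ₀ : O} {lam0 υ : Oˣ} (hζ₀ : ζ₀ ^ p = 1)
    (hlam : ζ₀ - 1 = lam0 * ϖ ^ j₀) (hpυ : ((p : ℕ) : O) = υ * ϖ ^ ((p - 1) * j₀))
    (n : ℕ) {ζ : K} (hζ : IsPrimitiveRoot ζ (p ^ n)) :
    Fermat.Agent.S33.L.Skeleton.KOutAt K 𝔫 V₁ V₂ ϖ (p ^ n) (n * ((p - 1) * j₀)) :=
  Fermat.Agent.S33.L.KTWireLoc.kOutAt_node K R 𝔫 V₁ V₂ (through R 𝔫 V₁ hcoe₁)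
    (through R 𝔫 V₂ hcoe₂) hcoe₁ hcoe₂ rfl
    (hyp_of_branches R 𝔫 V₁ V₂ hcoe₁ hcoe₂ H₁ H₂ hϖ₁ hϖ₂ hϖ0 hsat hunif₁ hunif₂ hnode hp hj₀
      hζ₀ hlam hpυ) n hζ

end Package

/-! ### Usage with `TwistRoots.Setup` and `KTWireLoc.algV` -/

section Usage

open Fermat.Agent.S33.L.KTWireLoc

/-- The instantiation pattern: with the canonical algebra structures `algV` the compatibility
hypotheses are `rfl`, and the chart hypotheses are fields of `TwistRoots.Setup` verbatim. -/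
theorem kOutAt_node_of_setup (K : Type*) [Field K] [Algebra O K] [IsFractionRing O K]
    [Algebra K F] [IsScalarTower O K F] [IsFractionRing ↥R F] (V₁ V₂ : ValuationSubring F) {ϖ : O}
    (hS : Setup ↥R ϖ V₁ V₂) (ht₁ : Through V₁ 𝔫) (ht₂ : Through V₂ 𝔫)
    (hϖ0 : algebraMap O F ϖ ≠ 0)
    (hnode : ∀ r ∈ 𝔫, ∃ c p₁ p₂ : R, c ∉ 𝔫 ∧ (p₁ : F) ∈ V₁.nonunits ∧
      (p₂ : F) ∈ V₂.nonunits ∧ c * r = p₁ + p₂)
    (hbr : letI := algV R 𝔫 hS.mem₁ ht₁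
      letI := algV R 𝔫 hS.mem₂ ht₂
      BranchHyp (algebraMap O ↥(locAlg R 𝔫) ϖ) ↥V₁ ∧ BranchHyp (algebraMap O ↥(locAlg R 𝔫) ϖ) ↥V₂ ∧
      IsIntegrallyClosed (↥(locAlg R 𝔫) ⧸ branch (algebraMap O ↥(locAlg R 𝔫) ϖ) ↥V₁) ∧
      IsIntegrallyClosed (↥(locAlg R 𝔫) ⧸ branch (algebraMap O ↥(locAlg R 𝔫) ϖ) ↥V₂))
    {p j₀ : ℕ} (hp : p.Prime) (hj₀ : 1 ≤ j₀) {ζ₀ : O} {lam0 υ : Oˣ} (hζ₀ : ζ₀ ^ p = 1)
    (hlam : ζ₀ - 1 = lam0 * ϖ ^ j₀) (hpυ : ((p : ℕ) : O) = υ * ϖ ^ ((p - 1) * j₀))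
    (n : ℕ) {ζ : K} (hζ : IsPrimitiveRoot ζ (p ^ n)) :
    Fermat.Agent.S33.L.Skeleton.KOutAt K 𝔫 V₁ V₂ ϖ (p ^ n) (n * ((p - 1) * j₀)) := by
  letI := algV R 𝔫 hS.mem₁ ht₁
  letI := algV R 𝔫 hS.mem₂ ht₂
  obtain ⟨H₁, H₂, hi₁, hi₂⟩ := hbr
  haveI := hi₁
  haveI := hi₂
  exact kOutAt_node_of_branches R 𝔫 V₁ V₂ (fun _ => rfl) (fun _ => rfl) K H₁ H₂ hS.pi₁ hS.pi₂ hϖ0
    hS.sat hS.unif₁ hS.unif₂ hnode hp hj₀ hζ₀ hlam hpυ n hζ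

end Usage

/-! ### The (node) clause from `Crossing.CrossingData` -/

section NodeClause

open Fermat.Agent.P3G.Crossing Fermat.Agent.P4.NodeGlue

omit h𝔫 in
/-- The (node) clause in the `F`-form used above, from the `θ`-form. -/
theorem hnode_of_ker {Rb : Type*} [CommRing Rb] (θ₁ θ₂ : ↥R →+* Rb) (V₁ V₂ : ValuationSubring F)
    (hker₁ : ∀ r : R, θ₁ r = 0 ↔ (r : F) ∈ V₁.nonunits)
    (hker₂ : ∀ r : R, θ₂ r = 0 ↔ (r : F) ∈ V₂.nonunits)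
    (h : ∀ r ∈ 𝔫, ∃ c, c ∉ 𝔫 ∧ ∃ p₁ ∈ RingHom.ker θ₁, ∃ p₂ ∈ RingHom.ker θ₂, c * r = p₁ + p₂) :
    ∀ r ∈ 𝔫, ∃ c p₁ p₂ : R, c ∉ 𝔫 ∧ (p₁ : F) ∈ V₁.nonunits ∧ (p₂ : F) ∈ V₂.nonunits ∧
      c * r = p₁ + p₂ := by
  intro r hr
  obtain ⟨c, hc, p₁, hp₁, p₂, hp₂, he⟩ := h r hr
  exact ⟨c, p₁, p₂, hc, (hker₁ p₁).1 hp₁, (hker₂ p₂).1 hp₂, he⟩

omit h𝔫 in
/-- **The (node) clause at a crossing point of a chart carrying `Crossing.CrossingData`**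
(`crossingData_fin/inf`), with (V) `ker θ₁ ⊓ ker θ₂ = (ϖ)` (`ker_inf_ker_eq_fin/inf`) and the
identification of the kernels with the centres of `V₁ V₂` (`res_theta…_eq_zero_iff`).  Copy of the last
clause of `P4/CrossingFrobLevel.crossingFrob_of_crossingData` (no Frobenius needed). -/
theorem hnode_of_crossingData {RM Rb : Type*} [CommRing RM] [CommRing Rb] [IsDedekindDomain Rb]
    (hfield : ¬ IsField Rb) {ℓ : ℕ} {α β : RM → ↥R} {θ : RM →+* Rb} {θ₁ θ₂ : ↥R →+* Rb}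
    {ψ : Rb ≃+* Rb} (D : CrossingData ℓ α β θ θ₁ θ₂ ψ) (V₁ V₂ : ValuationSubring F)
    (hker₁ : ∀ r : R, θ₁ r = 0 ↔ (r : F) ∈ V₁.nonunits)
    (hker₂ : ∀ r : R, θ₂ r = 0 ↔ (r : F) ∈ V₂.nonunits) {ϖ : O}
    (hV : RingHom.ker θ₁ ⊓ RingHom.ker θ₂ = Ideal.span {algebraMap O ↥R ϖ})
    [hmax : 𝔫.IsMaximal] (ht₁ : Through V₁ 𝔫) (ht₂ : Through V₂ 𝔫) :
    ∀ r ∈ 𝔫, ∃ c p₁ p₂ : R, c ∉ 𝔫 ∧ (p₁ : F) ∈ V₁.nonunits ∧ (p₂ : F) ∈ V₂.nonunits ∧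
      c * r = p₁ + p₂ := by
  have hk1 : RingHom.ker θ₁ ≤ 𝔫 := fun r hr => ht₁ r ((hker₁ r).1 hr)
  have hk2 : RingHom.ker θ₂ ≤ 𝔫 := fun r hr => ht₂ r ((hker₂ r).1 hr)
  have hϖ1 : algebraMap O ↥R ϖ ∈ RingHom.ker θ₁ :=
    (hV.ge (Ideal.mem_span_singleton_self _)).1
  have hbot : 𝔫.map θ₁ ≠ ⊥ := by
    haveI := isMaximal_map θ₁ D.surj₁ 𝔫 hk1
    exact Ring.ne_bot_of_isMaximal_of_not_isField inferInstance hfield
  exact hnode_of_ker R 𝔫 θ₁ θ₂ V₁ V₂ hker₁ hker₂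
    (node_of_crossingData D 𝔫 hk1 hk2 hbot hV.le hϖ1)

end NodeClause

end Fermat.Agent.S33.L.NodeSat
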