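/-
S33 (row 61), STEP K at the NODES of the special fibre, at a level (helper8; referee copy).

Binder block of helper14's `L/KOutSmoothLevel`.  The two instances of helper19's
`New/KummerNodeInst.kOutAt_of_through₁₂`:

* `kOutAt_fin₁₂`, `kOutAt_inf₁₂` : `Skeleton.KOutAt K 𝔫 V₁ V₂ ϖ (ℓ ^ k) (k ((ℓ - 1) j₀))` at a maximal
  ideal `𝔫` of the chart through which BOTH `V₁ = gaussVS`, `V₂ = S₂.V` pass.
-/
import Mathlib
import Fermat.Agent.S33.L.KOutSmoothLevel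
import Fermat.Agent.S33.New.KummerNodeInst
import Fermat.Agent.S33.L.NodeSat

set_option autoImplicit false
set_option linter.unusedSectionVars false
set_option linter.style.haveILetI false

open ModularCurve Fermat.Agent.S28.Gauss Fermat.Agent.N4.Setting Fermat.Agent.N4.FibreEmbedding
open Fermat.Agent.N4.Chart
open Fermat.Agent.N4F.E.DegreeLevelRaise Fermat.Agent.N4F.E.GaussDVR AlgebraicCurve Polynomial
open Fermat.Agent.N4F.E IsLocalRing Fermat.Agent.P3G.RbarFin Fermat.Agent.P3G.TwoComponents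
open Fermat.Agent.P3G.RbarInf Fermat.Agent.P3G.TwoComponentsInf
open Fermat.Agent.P3G.TwoComponentsFinal Fermat.Agent.P3G.TwoComponentsInfFinal
open Fermat.Agent.P3G Fermat.Agent.P4
open Fermat.Agent.P4.TwistRoots Fermat.Agent.S33.L.Skeleton Fermat.Agent.S33.L.KOutSmooth
open Fermat.Agent.S33.L.KOutSmoothLevel
open IntermediateField

noncomputable section

namespace Fermat.Agent.S33.L.KOutNodeRef

variable (K : Type) [Field K] [CharZero K] (N : ℕ) [NeZero N] (ℓ : ℕ) [Fact ℓ.Prime]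
  (O : Subring K) [IsDiscreteValuationRing ↥O] [IsFractionRing ↥O K]
  [CharP (IsLocalRing.ResidueField ↥O) ℓ] [PerfectRing (IsLocalRing.ResidueField ↥O) ℓ]
  [IsFractionRing ↥(Rfin K (N * ℓ) O) (FF K (N * ℓ))]
  [IsFractionRing ↥(Rinf K (N * ℓ) O) (FF K (N * ℓ))]

set_option synthInstance.maxHeartbeats 400000

variable (hN : IsUnit ((N : ℕ) : ↥O)) (ι : K →+* ℂ) (hℓN : ¬ ℓ ∣ N)
  (hprime : (fibreIdeal K N O (Rfin K N O)).IsPrime)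
  (hsmooth : IsDedekindDomain (↥(Rfin K N O) ⧸ fibreIdeal K N O (Rfin K N O)))
  (hprimeInf : (fibreIdeal K N O (Rinf K N O)).IsPrime)
  (hsmoothInf : IsDedekindDomain (↥(Rinf K N O) ⧸ fibreIdeal K N O (Rinf K N O)))
  (hA2 : ∀ x : ↥(gaussSubalgebra K N O),
    theta K N O x ∈ modularFunctionFieldFullC (IsLocalRing.ResidueField ↥O) N)
  (S₂ : FibreTwo.SecondVal K N ℓ O)
  {ϖ : ↥O} (hϖ : Irreducible ϖ)

include hN ι hℓN hprime hsmooth hA2 hϖ in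
/-- **Finite chart, a crossing point.** -/
theorem kOutAt_fin₁₂ (𝔫 : Ideal ↥(Rfin K (N * ℓ) O)) [h𝔫 : 𝔫.IsMaximal]
    (ht₁ : Through (gaussVS K (N * ℓ) O) 𝔫) (ht₂ : Through S₂.V 𝔫)
    {j₀ : ℕ} (k : ℕ) (hj₀ : 1 ≤ j₀) (υ₀ : (↥O)ˣ)
    (hpυ : ((ℓ : ℕ) : ↥O) = υ₀ * ϖ ^ ((ℓ - 1) * j₀))
    (ζp : ↥O) (hζp : ζp ^ ℓ = 1) (lam0 : (↥O)ˣ) (hlam : ζp - 1 = lam0 * ϖ ^ j₀)
    {ζ : K} (hζ : IsPrimitiveRoot ζ (ℓ ^ k)) :
    KOutAt K 𝔫 (gaussVS K (N * ℓ) O) S₂.V ϖ (ℓ ^ k) (k * ((ℓ - 1) * j₀)) := by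
  haveI : IsDedekindDomain ↥(RbarFin K N O) := isDedekindDomain_RbarFin K N O hprime hsmooth
  haveI : 𝔫.IsPrime := h𝔫.isPrime
  have hS := BranchNormalLevel.setup_fin K N ℓ O hN ι hℓN hprime hsmooth hA2 S₂ hϖ
  have hD := crossingData_fin K N ℓ O hN ι hℓN hprime hsmooth hA2 S₂
  have hinj := injective_algebraMap_base K O (N * ℓ)
  have hϖ0 : algebraMap ↥O (FF K (N * ℓ)) ϖ ≠ 0 := fun h =>
    hϖ.ne_zero (hinj (by rw [h, map_zero]))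
  have hker₁ := BranchNormalLevel.res_thetaFin_eq_zero_iff K N ℓ O hN ι hℓN hprime hsmooth hA2 S₂
  have hker₂ := BranchNormalLevel.res_theta2S_eq_zero_iff K N ℓ O hN hprime hsmooth hA2 S₂
  have hnode := Fermat.Agent.S33.L.NodeSat.hnode_of_crossingData (Rfin K (N * ℓ) O) 𝔫
    (not_isField_RbarFin K N O hprime) hD (gaussVS K (N * ℓ) O) S₂.V hker₁ hker₂
    (ker_inf_ker_eq_fin K N ℓ O hN ι hℓN hprime hsmooth hA2 S₂ hϖ) ht₁ ht₂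
  exact Fermat.Agent.S33.New.KummerNodeInst.kOutAt_of_through₁₂ K _ hD.surj₁ _ hD.surj₂ _ _
    hS.mem₁ hS.mem₂ hker₁ hker₂ hS.loc₁ hS.loc₂ ϖ hS.pi₁ hS.pi₂ hϖ0 hS.sat hS.sep₁₂ hS.sep₂₁
    𝔫 ht₁ ht₂ hnode k Fact.out hj₀ υ₀ hpυ ζp hζp lam0 hlam hζ

include hN ι hℓN hprime hprimeInf hsmoothInf hA2 hϖ in
/-- **Chart at infinity, a crossing point.** -/
theorem kOutAt_inf₁₂ (𝔫 : Ideal ↥(Rinf K (N * ℓ) O)) [h𝔫 : 𝔫.IsMaximal]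
    (ht₁ : Through (gaussVS K (N * ℓ) O) 𝔫) (ht₂ : Through S₂.V 𝔫)
    {j₀ : ℕ} (k : ℕ) (hj₀ : 1 ≤ j₀) (υ₀ : (↥O)ˣ)
    (hpυ : ((ℓ : ℕ) : ↥O) = υ₀ * ϖ ^ ((ℓ - 1) * j₀))
    (ζp : ↥O) (hζp : ζp ^ ℓ = 1) (lam0 : (↥O)ˣ) (hlam : ζp - 1 = lam0 * ϖ ^ j₀)
    {ζ : K} (hζ : IsPrimitiveRoot ζ (ℓ ^ k)) :
    KOutAt K 𝔫 (gaussVS K (N * ℓ) O) S₂.V ϖ (ℓ ^ k) (k * ((ℓ - 1) * j₀)) := by
  haveI : IsDedekindDomain ↥(RbarInf K N O) :=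
    isDedekindDomain_RbarInf K N O hprimeInf hsmoothInf
  haveI : 𝔫.IsPrime := h𝔫.isPrime
  have hS := BranchNormalLevelInf.setup_inf K N ℓ O hN ι hℓN hprime hprimeInf hsmoothInf hA2 S₂ hϖ
  have hD := crossingData_inf K N ℓ O hN ι hℓN hprime hprimeInf hsmoothInf hA2 S₂
  have hinj := injective_algebraMap_base K O (N * ℓ)
  have hϖ0 : algebraMap ↥O (FF K (N * ℓ)) ϖ ≠ 0 := fun h =>
    hϖ.ne_zero (hinj (by rw [h, map_zero]))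
  have hker₁ :=
    BranchNormalLevelInf.res_thetaInf_eq_zero_iff K N ℓ O hN ι hℓN hprimeInf hsmoothInf hA2 S₂
  have hker₂ :=
    BranchNormalLevelInf.res_theta2InfS_eq_zero_iff K N ℓ O hN hprimeInf hsmoothInf hA2 S₂
  have hnode := Fermat.Agent.S33.L.NodeSat.hnode_of_crossingData (Rinf K (N * ℓ) O) 𝔫
    (not_isField_RbarInf K N O hprimeInf) hD (gaussVS K (N * ℓ) O) S₂.V hker₁ hker₂
    (ker_inf_ker_eq_inf K N ℓ O hN ι hℓN hprime hprimeInf hsmoothInf hA2 S₂ hϖ) ht₁ ht₂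
  exact Fermat.Agent.S33.New.KummerNodeInst.kOutAt_of_through₁₂ K _ hD.surj₁ _ hD.surj₂ _ _
    hS.mem₁ hS.mem₂ hker₁ hker₂ hS.loc₁ hS.loc₂ ϖ hS.pi₁ hS.pi₂ hϖ0 hS.sat hS.sep₁₂ hS.sep₂₁
    𝔫 ht₁ ht₂ hnode k Fact.out hj₀ υ₀ hpυ ζp hζp lam0 hlam hζ

end Fermat.Agent.S33.L.KOutNodeRef
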