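/-
S33, `moonshots` row 61, STEP L/K (helper6): **the edge case `k = 0` of the contract `KProv`.**

`Contracts.KProv M p A k` is quantified over ALL `k`, and for `k = 0` its hypothesis
`∃ z, IsPrimitiveRoot z (p ^ 0)` carries no information (no `ζ_p`, hence no cyclotomic constants
`j₀, υ` for `KummerLoc.Hyp`).  But for `e = p ^ 0 = 1` the statement `Skeleton.KOutAt` is trivial:
`r ≡ u` modulo `ϖ ^ m` gives `1 · r ≡ u` modulo `ϖ ^ j` for `j ≤ m` (`η = 1`, `a₀ = u`).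

* `kOutAt_one` : `KOutAt K 𝔫 V₁ V₂ ϖ 1 k₀` in the abstract chart setting (only `ϖ ∈ V₁, V₂`);
* `kOutLevel_one`, `kProv_zero : KProv M p A 0`.
-/
import Mathlib
import Fermat.Agent.S33.L.Contracts
import Fermat.Agent.P3G.GammaVert

set_option autoImplicit false
set_option linter.unusedSectionVars false
set_option linter.dupNamespace false
set_option linter.style.haveILetI false

open ModularCurve AlgebraicCurve IntermediateField

noncomputable section

namespace Fermat.Agent.S33.L.KOutOne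

open Fermat.Agent.N4.Setting Fermat.Agent.N4.Chart Fermat.Agent.N4.S18Glue Fermat.Agent.N4.BigDVR
  Fermat.Agent.P3G.Assembly.LevelStep
  Fermat.Agent.N4F.C Fermat.Agent.N4F.C.Levels
  Fermat.Agent.N4F.E.GaussDVR Fermat.Agent.N4.FibreEmbedding
  Fermat.Agent.P4.TwistRoots
  Fermat.Agent.S33.L.Skeleton Fermat.Agent.S33.L.Contracts

local notation "Qbar" => AlgebraicClosure ℚ

section Abstract

variable {O K F R : Type*} [CommRing O] [Field K] [Field F] [Algebra K F] [Algebra O F]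
  [CommRing R] [IsDomain R] [Algebra R F] [IsFractionRing R F] [Algebra O R]

/-- **(K-out) for `e = 1`** is trivial: `η₁ = η₂ = 1`, `a₀ = u`. -/
theorem kOutAt_one (𝔫 : Ideal R) (V₁ V₂ : ValuationSubring F) (ϖ : O)
    (hϖ₁ : algebraMap O F ϖ ∈ V₁) (hϖ₂ : algebraMap O F ϖ ∈ V₂) (k₀ : ℕ) :
    KOutAt K 𝔫 V₁ V₂ ϖ 1 k₀ := by
  intro r u _ hu m j hmj h1 h2
  refine ⟨1, 1, one_pow _, one_pow _, u, hu, fun ht => ?_, fun ht => ?_⟩
  · have h := (h1 ht).mono (i := j) (by omega) hϖ₁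
    rwa [pow_one, ← one_mul r, ← map_one (algebraMap K F)] at h
  · have h := (h2 ht).mono (i := j) (by omega) hϖ₂
    rwa [pow_one, ← one_mul r, ← map_one (algebraMap K F)] at h

end Abstract

section Level

variable (M p : ℕ) [NeZero M] [Fact p.Prime] (A : ValuationSubring Qbar)

/-- (K-out) at a level for `e = 1`. -/
theorem kOutLevel_one (K : IntermediateField ℚ Qbar) [IsDiscreteValuationRing ↥(baseRing A K)]
    (S₂ : Fermat.Agent.P3G.FibreTwo.SecondVal (Lvl K) M p (baseRing A K))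
    (ϖ : ↥(baseRing A K)) (k₀ : ℕ) :
    KOutLevel A K (M * p) (gaussVS (Lvl K) (M * p) (baseRing A K)) S₂.V ϖ 1 k₀ := by
  have h₁ : algebraMap ↥(baseRing A K) (FF (Lvl K) (M * p)) ϖ ∈
      gaussVS (Lvl K) (M * p) (baseRing A K) :=
    (gaussSubalgebra (Lvl K) (M * p) (baseRing A K)).algebraMap_mem ϖ
  have h₂ : algebraMap ↥(baseRing A K) (FF (Lvl K) (M * p)) ϖ ∈ S₂.V :=
    Fermat.Agent.P3G.GammaVert.algebraMap_mem_secondVal K M p A S₂ ϖ
  exact ⟨fun 𝔫 _ _ => kOutAt_one 𝔫 _ _ ϖ h₁ h₂ k₀, fun 𝔫 _ _ => kOutAt_one 𝔫 _ _ ϖ h₁ h₂ k₀⟩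

/-- **`KProv` for `k = 0`.** -/
theorem kProv_zero : KProv M p A 0 := by
  intro K _ _ S₂ ϖ _ _
  refine ⟨0, ?_⟩
  rw [pow_zero]
  exact kOutLevel_one M p A K S₂ ϖ 0

end Level

end Fermat.Agent.S33.L.KOutOne
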