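/-
S33 (row 61), STEP K at the closed points lying on ONE branch of the special fibre, at a level
(helper14).

Setting of `P4/BranchNormalLevel(Inf)`: level `N ℓ` (`ℓ ∤ N`, `ℓ` = residue characteristic of the
discrete valuation ring `O`), charts `Rfin K (N ℓ) O`, `Rinf K (N ℓ) O`, vertical valuation rings
`V₁ = gaussVS K (N ℓ) O`, `V₂ = S₂.V`.  The four instances of `KOutSmooth.kOutAt_of_through₁/₂`:

* `kOutAt_fin₁`, `kOutAt_fin₂`, `kOutAt_inf₁`, `kOutAt_inf₂` :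
  `Skeleton.KOutAt K 𝔫 V₁ V₂ ϖ (ℓ ^ k) (k ((ℓ - 1) j₀))` at a prime `𝔫` of the chart through which
  exactly one of `V₁`, `V₂` passes, given `ℓ = υ₀ ϖ ^ ((ℓ-1) j₀)` in `O` and a primitive `ℓ ^ k`-th root
  of unity `ζ ∈ O`.

Inputs: `BranchNormalLevel(Inf).setup_fin/inf` (`mem`, `pi`, `sat`, `loc`), the kernel descriptions
`res_theta…_eq_zero_iff`, `crossingData_fin/inf.surj₁/surj₂`, Dedekind `RbarFin/RbarInf`.
-/
import Mathlib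
import Fermat.Agent.P4.BranchNormalLevel
import Fermat.Agent.P4.BranchNormalLevelInf
import Fermat.Agent.S33.L.KOutSmooth

set_option autoImplicit false
set_option linter.unusedSectionVars false
set_option linter.style.haveILetI false

open ModularCurve Fermat.Agent.S28.Gauss Fermat.Agent.N4.Setting Fermat.Agent.N4.FibreEmbedding
open Fermat.Agent.N4.Chart
open Fermat.Agent.N4F.E.DegreeLevelRaise Fermat.Agent.N4F.E.GaussDVR AlgebraicCurve Polynomial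
open Fermat.Agent.N4F.E IsLocalRing Fermat.Agent.P3G.RbarFin Fermat.Agent.P3G.TwoComponents
open Fermat.Agent.P3G.RbarInf Fermat.Agent.P3G.TwoComponentsInf
open Fermat.Agent.P3G.TwoComponentsFinal Fermat.Agent.P3G.TwoComponentsInfFinal
open Fermat.Agent.P3G Fermat.Agent.P4
open Fermat.Agent.P4.TwistRoots Fermat.Agent.S33.L.Skeleton Fermat.Agent.S33.L.KOutSmooth
open IntermediateField

noncomputable section

namespace Fermat.Agent.S33.L.KOutSmoothLevel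

variable (K : Type) [Field K] [CharZero K] (N : ℕ) [NeZero N] (ℓ : ℕ) [Fact ℓ.Prime]
  (O : Subring K) [IsDiscreteValuationRing ↥O] [IsFractionRing ↥O K]
  [CharP (IsLocalRing.ResidueField ↥O) ℓ] [PerfectRing (IsLocalRing.ResidueField ↥O) ℓ]
  [IsFractionRing ↥(Rfin K (N * ℓ) O) (FF K (N * ℓ))]
  [IsFractionRing ↥(Rinf K (N * ℓ) O) (FF K (N * ℓ))]

set_option synthInstance.maxHeartbeats 400000

variable (hN : IsUnit ((N : ℕ) : ↥O)) (ι : K →+* ℂ) (hℓN : ¬ ℓ ∣ N)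
  (hprime : (fibreIdeal K N O (Rfin K N O)).IsPrime)
  (hsmooth : IsDedekindDomain (↥(Rfin K N O) ⧸ fibreIdeal K N O (Rfin K N O)))
  (hprimeInf : (fibreIdeal K N O (Rinf K N O)).IsPrime)
  (hsmoothInf : IsDedekindDomain (↥(Rinf K N O) ⧸ fibreIdeal K N O (Rinf K N O)))
  (hA2 : ∀ x : ↥(gaussSubalgebra K N O),
    theta K N O x ∈ modularFunctionFieldFullC (IsLocalRing.ResidueField ↥O) N)
  (S₂ : FibreTwo.SecondVal K N ℓ O)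
  {ϖ : ↥O} (hϖ : Irreducible ϖ)

theorem injective_algebraMap_base (M : ℕ) [NeZero M] :
    Function.Injective (algebraMap ↥O (FF K M)) := by
  rw [IsScalarTower.algebraMap_eq ↥O K (FF K M)]
  exact (algebraMap K (FF K M)).injective.comp (IsFractionRing.injective ↥O K)

include hN ι hℓN hprime hsmooth hA2 hϖ in
/-- **Finite chart, a closed point on the Gauss branch only.** -/
theorem kOutAt_fin₁ (𝔫 : Ideal ↥(Rfin K (N * ℓ) O)) [𝔫.IsPrime]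
    (ht₁ : Through (gaussVS K (N * ℓ) O) 𝔫) (ht₂ : ¬ Through S₂.V 𝔫)
    {j₀ : ℕ} (k : ℕ) (hj₀ : 1 ≤ j₀) (υ₀ : (↥O)ˣ)
    (hpυ : ((ℓ : ℕ) : ↥O) = υ₀ * ϖ ^ ((ℓ - 1) * j₀))
    (ζ : ↥O) (hζ : IsPrimitiveRoot ζ (ℓ ^ k)) :
    KOutAt K 𝔫 (gaussVS K (N * ℓ) O) S₂.V ϖ (ℓ ^ k) (k * ((ℓ - 1) * j₀)) := by
  haveI : IsDedekindDomain ↥(RbarFin K N O) := isDedekindDomain_RbarFin K N O hprime hsmooth
  have hS := BranchNormalLevel.setup_fin K N ℓ O hN ι hℓN hprime hsmooth hA2 S₂ hϖ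
  have hD := crossingData_fin K N ℓ O hN ι hℓN hprime hsmooth hA2 S₂
  have hinj := injective_algebraMap_base K O (N * ℓ)
  have hϖ0 : algebraMap ↥O (FF K (N * ℓ)) ϖ ≠ 0 := fun h =>
    hϖ.ne_zero (hinj (by rw [h, map_zero]))
  exact kOutAt_of_through₁ K _ hD.surj₁ _ _ hS.mem₁ hS.mem₂
    (BranchNormalLevel.res_thetaFin_eq_zero_iff K N ℓ O hN ι hℓN hprime hsmooth hA2 S₂)
    hS.loc₁ ϖ hS.pi₁ hϖ0 hS.sat 𝔫 ht₁ ht₂ k Fact.out hj₀ υ₀ hpυ ζ hζ hinj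

include hN ι hℓN hprime hsmooth hA2 hϖ in
/-- **Finite chart, a closed point on the second branch only.** -/
theorem kOutAt_fin₂ (𝔫 : Ideal ↥(Rfin K (N * ℓ) O)) [𝔫.IsPrime]
    (ht₁ : ¬ Through (gaussVS K (N * ℓ) O) 𝔫) (ht₂ : Through S₂.V 𝔫)
    {j₀ : ℕ} (k : ℕ) (hj₀ : 1 ≤ j₀) (υ₀ : (↥O)ˣ)
    (hpυ : ((ℓ : ℕ) : ↥O) = υ₀ * ϖ ^ ((ℓ - 1) * j₀))
    (ζ : ↥O) (hζ : IsPrimitiveRoot ζ (ℓ ^ k)) :
    KOutAt K 𝔫 (gaussVS K (N * ℓ) O) S₂.V ϖ (ℓ ^ k) (k * ((ℓ - 1) * j₀)) := by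
  haveI : IsDedekindDomain ↥(RbarFin K N O) := isDedekindDomain_RbarFin K N O hprime hsmooth
  have hS := BranchNormalLevel.setup_fin K N ℓ O hN ι hℓN hprime hsmooth hA2 S₂ hϖ
  have hD := crossingData_fin K N ℓ O hN ι hℓN hprime hsmooth hA2 S₂
  have hinj := injective_algebraMap_base K O (N * ℓ)
  have hϖ0 : algebraMap ↥O (FF K (N * ℓ)) ϖ ≠ 0 := fun h =>
    hϖ.ne_zero (hinj (by rw [h, map_zero]))
  exact kOutAt_of_through₂ K _ hD.surj₂ _ _ hS.mem₁ hS.mem₂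
    (BranchNormalLevel.res_theta2S_eq_zero_iff K N ℓ O hN hprime hsmooth hA2 S₂)
    hS.loc₂ ϖ hS.pi₂ hϖ0 hS.sat 𝔫 ht₁ ht₂ k Fact.out hj₀ υ₀ hpυ ζ hζ hinj

include hN ι hℓN hprime hprimeInf hsmoothInf hA2 hϖ in
/-- **Chart at infinity, a closed point on the Gauss branch only.** -/
theorem kOutAt_inf₁ (𝔫 : Ideal ↥(Rinf K (N * ℓ) O)) [𝔫.IsPrime]
    (ht₁ : Through (gaussVS K (N * ℓ) O) 𝔫) (ht₂ : ¬ Through S₂.V 𝔫)
    {j₀ : ℕ} (k : ℕ) (hj₀ : 1 ≤ j₀) (υ₀ : (↥O)ˣ)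
    (hpυ : ((ℓ : ℕ) : ↥O) = υ₀ * ϖ ^ ((ℓ - 1) * j₀))
    (ζ : ↥O) (hζ : IsPrimitiveRoot ζ (ℓ ^ k)) :
    KOutAt K 𝔫 (gaussVS K (N * ℓ) O) S₂.V ϖ (ℓ ^ k) (k * ((ℓ - 1) * j₀)) := by
  haveI : IsDedekindDomain ↥(RbarInf K N O) :=
    isDedekindDomain_RbarInf K N O hprimeInf hsmoothInf
  have hS := BranchNormalLevelInf.setup_inf K N ℓ O hN ι hℓN hprime hprimeInf hsmoothInf hA2 S₂ hϖ
  have hD := crossingData_inf K N ℓ O hN ι hℓN hprime hprimeInf hsmoothInf hA2 S₂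
  have hinj := injective_algebraMap_base K O (N * ℓ)
  have hϖ0 : algebraMap ↥O (FF K (N * ℓ)) ϖ ≠ 0 := fun h =>
    hϖ.ne_zero (hinj (by rw [h, map_zero]))
  exact kOutAt_of_through₁ K _ hD.surj₁ _ _ hS.mem₁ hS.mem₂
    (BranchNormalLevelInf.res_thetaInf_eq_zero_iff K N ℓ O hN ι hℓN hprimeInf hsmoothInf hA2 S₂)
    hS.loc₁ ϖ hS.pi₁ hϖ0 hS.sat 𝔫 ht₁ ht₂ k Fact.out hj₀ υ₀ hpυ ζ hζ hinj

include hN ι hℓN hprime hprimeInf hsmoothInf hA2 hϖ in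
/-- **Chart at infinity, a closed point on the second branch only.** -/
theorem kOutAt_inf₂ (𝔫 : Ideal ↥(Rinf K (N * ℓ) O)) [𝔫.IsPrime]
    (ht₁ : ¬ Through (gaussVS K (N * ℓ) O) 𝔫) (ht₂ : Through S₂.V 𝔫)
    {j₀ : ℕ} (k : ℕ) (hj₀ : 1 ≤ j₀) (υ₀ : (↥O)ˣ)
    (hpυ : ((ℓ : ℕ) : ↥O) = υ₀ * ϖ ^ ((ℓ - 1) * j₀))
    (ζ : ↥O) (hζ : IsPrimitiveRoot ζ (ℓ ^ k)) :
    KOutAt K 𝔫 (gaussVS K (N * ℓ) O) S₂.V ϖ (ℓ ^ k) (k * ((ℓ - 1) * j₀)) := by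
  haveI : IsDedekindDomain ↥(RbarInf K N O) :=
    isDedekindDomain_RbarInf K N O hprimeInf hsmoothInf
  have hS := BranchNormalLevelInf.setup_inf K N ℓ O hN ι hℓN hprime hprimeInf hsmoothInf hA2 S₂ hϖ
  have hD := crossingData_inf K N ℓ O hN ι hℓN hprime hprimeInf hsmoothInf hA2 S₂
  have hinj := injective_algebraMap_base K O (N * ℓ)
  have hϖ0 : algebraMap ↥O (FF K (N * ℓ)) ϖ ≠ 0 := fun h =>
    hϖ.ne_zero (hinj (by rw [h, map_zero]))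
  exact kOutAt_of_through₂ K _ hD.surj₂ _ _ hS.mem₁ hS.mem₂
    (BranchNormalLevelInf.res_theta2InfS_eq_zero_iff K N ℓ O hN hprimeInf hsmoothInf hA2 S₂)
    hS.loc₂ ϖ hS.pi₂ hϖ0 hS.sat 𝔫 ht₁ ht₂ k Fact.out hj₀ υ₀ hpυ ζ hζ hinj

end Fermat.Agent.S33.L.KOutSmoothLevel
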