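/-
S33 (row 61), STEP K: **`kProv : Contracts.KProv M p A k`** (helper8; referee copy of the final plug).

`nodeProv : KOutSmoothGood.NodeProv M p A k` from the two level node theorems
`KOutNodeRef.kOutAt_fin₁₂`, `kOutAt_inf₁₂` (instances of helper19's
`KummerNodeInst.kOutAt_of_through₁₂`), then helper14's `KOutSmoothGood.kProv_of_nodeProv`.
-/
import Mathlib
import Fermat.Agent.S33.L.KOutSmoothGood
import Fermat.Agent.S33.L.KOutNodeRef

set_option autoImplicit false
set_option linter.unusedSectionVars false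
set_option linter.dupNamespace false
set_option linter.style.haveILetI false

open ModularCurve AlgebraicCurve IntermediateField

noncomputable section

namespace Fermat.Agent.S33.L.KProvRef

open Fermat.Agent.N4.Setting Fermat.Agent.N4.Chart Fermat.Agent.N4.S18Glue Fermat.Agent.N4.BigDVR
  Fermat.Agent.P3G.Cover.Lift Fermat.Agent.P3G.Cover.OfValuations Fermat.Agent.P3G.Assembly.PowCover
  Fermat.Agent.P3G.Assembly.StepOfLevel Fermat.Agent.P3G.Assembly.LevelStep
  Fermat.Agent.P3G.Assembly.LevelGeomOfPoints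
  Fermat.Agent.P3G.Gamma Fermat.Agent.P3G.GammaAut
  Fermat.Agent.N4F.C Fermat.Agent.N4F.C.Levels Fermat.Agent.N4F.C.Galois
  Fermat.Agent.N4F.E.GaussDVR
  Fermat.Agent.P4.TwistRoots Fermat.Agent.S33.L.Skeleton Fermat.Agent.S33.L.Contracts
  Fermat.Agent.S33.L.KOutSmooth Fermat.Agent.S33.L.KOutSmoothLevel
  Fermat.Agent.S33.L.KOutSmoothGood Fermat.Agent.S33.L.KOutNodeRef

local notation "Qbar" => AlgebraicClosure ℚ

set_option maxHeartbeats 1600000 in
set_option synthInstance.maxHeartbeats 400000 in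
/-- **STEP K at the nodes, at every good level.** -/
theorem nodeProv (M p : ℕ) [NeZero M] [Fact p.Prime] (hpM : ¬ p ∣ M)
    (A : ValuationSubring Qbar) (hA : A.LiesOverPrime p) (k : ℕ) : NodeProv M p A k := by
  intro K hK _ S₂ ϖ hϖ z hz hk j₀ lam0 υ hj₀ hlam hpυ
  have hq : p.Prime := Fact.out
  haveI : IsAlgClosed (IsLocalRing.ResidueField ↥(baseRing A K)) := hK.algClosed
  have hGB : GoodBase (Lvl K) M (baseRing A K) p := ⟨hq, hpM, inferInstance, hK.not_unit⟩
  haveI : CharP (IsLocalRing.ResidueField ↥(baseRing A K)) p :=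
    Fermat.Agent.N4F.E.GaussResidue.charP_residueField (Lvl K) M (baseRing A K) hGB
  haveI : PerfectRing (IsLocalRing.ResidueField ↥(baseRing A K)) p := inferInstance
  have hstar := LevelStatements.starStatement_lvl hq hA K hGB hK.roots
  have hsmooth := LevelStatements.smoothStatement_lvl hq hA hpM K hGB hK.roots
  have hprime := hstar.1.isPrime
  have hprimeInf := hstar.2.isPrime
  have hred : PGI.RedMem (Lvl K) M (baseRing A K) := fun s hs =>
    ChartReduction.red_mem_full (Lvl K) M (baseRing A K) hGB hstar s hs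
  have hA2 := Fermat.Agent.N4F.E.NormReduction.theta_mem_full (Lvl K) M (baseRing A K) hred
  have hN : IsUnit ((M : ℕ) : ↥(baseRing A K)) :=
    Fermat.Agent.P3G.GammaUnits.isUnit_natCast_baseRing K hq hA hpM
  -- `ζ_p := z ^ p ^ (k - 1)`
  have hζp : (z ^ p ^ (k - 1)) ^ p = 1 := by
    rw [← pow_mul, ← pow_succ, Nat.sub_add_cancel hk]
    exact hz.pow_eq_one
  -- the primitive root in the constant field
  have hζ : IsPrimitiveRoot (algebraMap ↥(baseRing A K) (Lvl K) z) (p ^ k) :=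
    hz.map_of_injective (IsFractionRing.injective ↥(baseRing A K) (Lvl K))
  refine ⟨fun 𝔫 h𝔫 _ ht₁ ht₂ => ?_, fun 𝔫 h𝔫 _ ht₁ ht₂ => ?_⟩
  · haveI := h𝔫
    exact kOutAt_fin₁₂ (Lvl K) M p (baseRing A K) hN (Fermat.Agent.P3G.GammaV2.lvlToComplex K)
      hpM hprime hsmooth.1 hA2 S₂ hϖ 𝔫 ht₁ ht₂ k hj₀ υ hpυ (z ^ p ^ (k - 1)) hζp lam0 hlam hζ
  · haveI := h𝔫
    exact kOutAt_inf₁₂ (Lvl K) M p (baseRing A K) hN (Fermat.Agent.P3G.GammaV2.lvlToComplex K)
      hpM hprime hprimeInf hsmooth.2 hA2 S₂ hϖ 𝔫 ht₁ ht₂ k hj₀ υ hpυ (z ^ p ^ (k - 1)) hζp lam0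
      hlam hζ

/-- **STEP K: the provider of `L/Contracts`.** -/
theorem kProv (M p : ℕ) [NeZero M] [Fact p.Prime] (hpM : ¬ p ∣ M)
    (A : ValuationSubring Qbar) (hA : A.LiesOverPrime p) (k : ℕ) : KProv M p A k :=
  kProv_of_nodeProv hpM hA (nodeProv M p hpM A hA k)

end Fermat.Agent.S33.L.KProvRef
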