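/-
S33, `moonshots` row 61, STEP L, slice 4 (helper17) — [M1] of helper8's R8(5): THE DIVISOR
BOOK-KEEPING BETWEEN `L/Skeleton.exists_section` AND `L/LevelOrd.NewLevelKOrdAt`.

At a Galois-stable level `K`, `F = FF (Lvl K) M`, `σ'_K τ_K` the coefficientwise actions
(`levelFF K hK M ·`), `f ≠ 0` with `e ∣ ord_Q f` at every place `Q` of `F / K`:

* `tauRE K hK M τ` : `τ_K` as a ring automorphism of `F`; `tauPl K hK M τ` the permutation of the places
  (`= tauPerm (levelFF K hK M τ)`), `compat_tauPl`;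
* `twNewK_eq_tw` : `twNewK K hK M τ σ' a f = FirstDiff.tw τ_K a (fdK K hK M σ' f)` (`a : ℕ`) — the
  function of `L/Descent` is the `ρ`-twist of `L/Skeleton` applied to `h = σ'_K f / f`;
* `EDiv K hK M σ' f e` : the divisor `E = (σ'_K − 1)(div f / e)` of `(LG)`
  (VERBATIM the function in the conclusion of `FirstDiffLevel.exists_localGen_fdK`);
  `EzDiv K hK M τ σ' a f e Q = E (τ_K⁻¹ Q) − a · E Q` (VERBATIM `hEz` of `Skeleton.exists_section`);
* `ord_fdK_eq : ord_Q (σ'_K f / f) = e · E Q`, `ord_twNewK_eq : ord_Q (twNewK … f) = e · E_z Q`;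
* `finite_EzDiv_ne_zero` : `E_z` has finite support (`hE` of `G/TwoCharts.exists_section_ord`);
* `exists_ord_twNewK_le` : a nonzero `g` with `E_z ≤ div g` (the output of `Skeleton.exists_section`)
  gives the conclusion of `LevelOrd.NewLevelKOrdAt`.
-/
import Mathlib
import Fermat.Agent.S33.L.LevelOrd
import Fermat.Agent.S33.New.FirstDiffLevel

set_option autoImplicit false
set_option linter.unusedSectionVars false
set_option linter.dupNamespace false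
set_option linter.style.haveILetI false

open ModularCurve AlgebraicCurve IntermediateField

noncomputable section

namespace Fermat.Agent.S33.L.TwOrd

open Fermat.Agent.N4.Setting
  Fermat.Agent.P3G.Assembly.LevelStep Fermat.Agent.P3G.Assembly.LevelGeomOfPoints
  Fermat.Agent.P3G.GammaDict Fermat.Agent.P3G.GeomStep
  Fermat.Agent.P3G.Gamma Fermat.Agent.P3G.GammaAut Fermat.Agent.P3G.SecondDiff
  Fermat.Agent.N4F.C Fermat.Agent.N4F.C.Levels Fermat.Agent.N4F.C.Galois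
  Fermat.Agent.P4.FrobStep
  Fermat.Agent.S33.New.FirstDiff Fermat.Agent.S33.New.FirstDiffLevel
  Fermat.Agent.S33.L.Descent

local notation "Qbar" => AlgebraicClosure ℚ
local notation "Γ" => (AlgebraicClosure ℚ ≃ₐ[ℚ] AlgebraicClosure ℚ)

variable (K : IntermediateField ℚ Qbar) (hK : ∀ (τ : Γ) (x : Qbar), x ∈ K → τ x ∈ K)
  (M : ℕ) [NeZero M]

/-! ### `τ_K` as a ring automorphism and as a permutation of the places -/

/-- The coefficientwise action `τ_K` as a ring automorphism of `F_K`. -/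
def tauRE (τ : Γ) : FF (Lvl K) M ≃+* FF (Lvl K) M :=
  SemilinearAut.toRingAut (levelFF K hK M τ)

theorem tauRE_apply (τ : Γ) (x : FF (Lvl K) M) : tauRE K hK M τ x = levelFF K hK M τ • x := rfl

/-- The permutation `Q ↦ τ_K • Q` of the places of `F_K / K`. -/
def tauPl (τ : Γ) : Equiv.Perm (Place (Lvl K) (FF (Lvl K) M)) := tauPerm (levelFF K hK M τ)

theorem tauPl_symm_apply (τ : Γ) (Q : Place (Lvl K) (FF (Lvl K) M)) :
    (tauPl K hK M τ).symm Q = (levelFF K hK M τ)⁻¹ • Q := rfl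

theorem compat_tauPl (τ : Γ) :
    Compat (fun (Q : Place (Lvl K) (FF (Lvl K) M)) (x : FF (Lvl K) M) => Q.ord x)
      (tauRE K hK M τ) (tauPl K hK M τ) :=
  compat_tauPerm _

theorem ordMul_lvl :
    OrdMul (fun (Q : Place (Lvl K) (FF (Lvl K) M)) (x : FF (Lvl K) M) => Q.ord x) :=
  fun Q _ _ hf hg => Q.ord_mul hf hg

/-! ### `twNewK` is the twist of the first difference -/

/-- The function `τ_K h / h ^ a`, `h = σ'_K f / f`, of `L/Descent` is `FirstDiff.tw τ_K a` applied to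
`fdK σ' f` (natural exponent `a`). -/
theorem twNewK_eq_tw (τ σ' : Γ) (a : ℕ) (f : FF (Lvl K) M) :
    twNewK K hK M τ σ' (a : ℤ) f = tw (tauRE K hK M τ) a (fdK K hK M σ' f) := by
  rw [twNewK_eq, zpow_natCast]
  rfl

/-! ### The divisors `E` and `E_z` -/

/-- `E = (σ'_K − 1)(div f / e)` as a function on the places: the divisor of the local generators of
`(LG)` (`FirstDiffLevel.exists_localGen_fdK`). -/
def EDiv (σ' : Γ) (f : FF (Lvl K) M) (e : ℕ) : Place (Lvl K) (FF (Lvl K) M) → ℤ :=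
  fun Q => ((levelFF K hK M σ')⁻¹ • Q).ord f / (e : ℤ) - Q.ord f / (e : ℤ)

/-- `E_z = (τ_K − a) E`. -/
def EzDiv (τ σ' : Γ) (a : ℕ) (f : FF (Lvl K) M) (e : ℕ) : Place (Lvl K) (FF (Lvl K) M) → ℤ :=
  fun Q => EDiv K hK M σ' f e ((tauPl K hK M τ).symm Q) - (a : ℤ) * EDiv K hK M σ' f e Q

theorem EzDiv_apply (τ σ' : Γ) (a : ℕ) (f : FF (Lvl K) M) (e : ℕ)
    (Q : Place (Lvl K) (FF (Lvl K) M)) :
    EzDiv K hK M τ σ' a f e Q =
      EDiv K hK M σ' f e ((tauPl K hK M τ).symm Q) - (a : ℤ) * EDiv K hK M σ' f e Q := rfl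

variable {K hK M}

/-- `ord_Q (σ'_K f / f) = e · E Q`. -/
theorem ord_fdK_eq (σ' : Γ) {f : FF (Lvl K) M} (hf : f ≠ 0) {e : ℕ}
    (hdiv : ∀ Q : Place (Lvl K) (FF (Lvl K) M), (e : ℤ) ∣ Q.ord f)
    (Q : Place (Lvl K) (FF (Lvl K) M)) :
    Q.ord (fdK K hK M σ' f) = (e : ℤ) * EDiv K hK M σ' f e Q := by
  have h := ord_fd (ordMul_lvl K M) (compat_tauPl K hK M σ') Q hf
  rw [fdK_eq_fd]
  change Q.ord (fd (tauRE K hK M σ') f) = _
  rw [h, tauPl_symm_apply]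
  unfold EDiv
  rw [mul_sub, Int.mul_ediv_cancel' (hdiv _), Int.mul_ediv_cancel' (hdiv _)]

/-- `ord_Q (τ_K h / h ^ a) = e · E_z Q`, `h = σ'_K f / f`. -/
theorem ord_twNewK_eq (τ σ' : Γ) (a : ℕ) {f : FF (Lvl K) M} (hf : f ≠ 0) {e : ℕ}
    (hdiv : ∀ Q : Place (Lvl K) (FF (Lvl K) M), (e : ℤ) ∣ Q.ord f)
    (Q : Place (Lvl K) (FF (Lvl K) M)) :
    Q.ord (twNewK K hK M τ σ' (a : ℤ) f) = (e : ℤ) * EzDiv K hK M τ σ' a f e Q := by
  rw [twNewK_eq_tw]
  have h := ord_tw (ordMul_lvl K M) (compat_tauPl K hK M τ) Q a (fdK_ne_zero K hK M σ' hf)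
  rw [h, ord_fdK_eq σ' hf hdiv, ord_fdK_eq σ' hf hdiv, EzDiv_apply]
  ring

/-- `E_z` has finite support. -/
theorem finite_EzDiv_ne_zero (τ σ' : Γ) (a : ℕ) {f : FF (Lvl K) M} (hf : f ≠ 0) {e : ℕ}
    (hdiv : ∀ Q : Place (Lvl K) (FF (Lvl K) M), (e : ℤ) ∣ Q.ord f) :
    {Q : Place (Lvl K) (FF (Lvl K) M) | EzDiv K hK M τ σ' a f e Q ≠ 0}.Finite := by
  obtain ⟨S₀, hS₀⟩ := Fermat.Agent.P3G.Glue.LevelDict.exists_finset_ord_ne_zero M K
    (twNewK K hK M τ σ' (a : ℤ) f) (Fermat.Agent.S33.L.LevelOrd.twNewK_ne_zero K hK M τ σ' _ hf)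
  refine S₀.finite_toSet.subset (fun Q hQ => ?_)
  refine hS₀ Q ?_
  rw [ord_twNewK_eq τ σ' a hf hdiv]
  intro h0
  rcases mul_eq_zero.1 h0 with h1 | h1
  · -- `e = 0`: then `E_z = 0` identically
    have he : e = 0 := by exact_mod_cast h1
    subst he
    apply hQ
    rw [EzDiv_apply]
    unfold EDiv
    simp
  · exact hQ h1

/-- `E` has finite support. -/
theorem finite_EDiv_ne_zero (σ' : Γ) {f : FF (Lvl K) M} (hf : f ≠ 0) {e : ℕ}
    (hdiv : ∀ Q : Place (Lvl K) (FF (Lvl K) M), (e : ℤ) ∣ Q.ord f) :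
    {Q : Place (Lvl K) (FF (Lvl K) M) | EDiv K hK M σ' f e Q ≠ 0}.Finite := by
  obtain ⟨S₀, hS₀⟩ := Fermat.Agent.P3G.Glue.LevelDict.exists_finset_ord_ne_zero M K
    (fdK K hK M σ' f) (fdK_ne_zero K hK M σ' hf)
  refine S₀.finite_toSet.subset (fun Q hQ => ?_)
  refine hS₀ Q ?_
  rw [ord_fdK_eq σ' hf hdiv]
  intro h0
  rcases mul_eq_zero.1 h0 with h1 | h1
  · have he : e = 0 := by exact_mod_cast h1
    subst he
    apply hQ
    unfold EDiv
    simp
  · exact hQ h1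

/-- **The output of `Skeleton.exists_section` is the conclusion of `LevelOrd.NewLevelKOrdAt`**:
a nonzero `g` with `E_z ≤ div g` satisfies `div (twNewK … f) ≤ e · div g`. -/
theorem exists_ord_twNewK_le (τ σ' : Γ) (a : ℕ) {f : FF (Lvl K) M} (hf : f ≠ 0) {e : ℕ}
    (hdiv : ∀ Q : Place (Lvl K) (FF (Lvl K) M), (e : ℤ) ∣ Q.ord f)
    (h : ∃ g : FF (Lvl K) M, g ≠ 0 ∧
      ∀ Q : Place (Lvl K) (FF (Lvl K) M), EzDiv K hK M τ σ' a f e Q ≤ Q.ord g) :
    ∃ g : FF (Lvl K) M, g ≠ 0 ∧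
      ∀ Q : Place (Lvl K) (FF (Lvl K) M),
        Q.ord (twNewK K hK M τ σ' (a : ℤ) f) ≤ (e : ℤ) * Q.ord g := by
  obtain ⟨g, hg0, hg⟩ := h
  refine ⟨g, hg0, fun Q => ?_⟩
  rw [ord_twNewK_eq τ σ' a hf hdiv]
  exact mul_le_mul_of_nonneg_left (hg Q) (Int.natCast_nonneg e)

end Fermat.Agent.S33.L.TwOrd
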