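/-
S33, `moonshots` row 61, STEP L, slice 5 (helper17): THE (LG) INPUTS `hLGp`, `hLGm` OF
`L/Skeleton.exists_section` AT A LEVEL, in the contract shape `Skeleton.LGAt`, with the divisor
`TwOrd.EDiv` and from the binder block of `LevelOrd.NewLevelKOrdAt`
(`e ∣ ord_Q f_K` at every place, `K`-rational zeros and poles in the `Function.Bijective` form).

* `chartInst_fin`, `chartInst_inf` : the three chart instances (`IsNoetherianRing`, `IsFractionRing`,
  `IsIntegrallyClosed`) of `Rfin`, `Rinf` at a level, as in `LevelGeomOfPoints.levelGeomAt_of_points`;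
* `exists_finset_rat` : the finite set `S` of zeros and poles of `f_K`, all `ResidueTrivial`;
* `lgAt_fin`, `lgAt_inf` : `∀ 𝔫` maximal `∋ ϖ` of `Rfin` (`Rinf`),
  `Skeleton.LGAt (Lvl K) 𝔫 V₁ V₂ (EDiv K hKs N σ' f e) (fdK K hKs N σ' f) e`
  (= `FirstDiffLevel.exists_localGen_fdK`).
-/
import Mathlib
import Fermat.Agent.S33.L.TwOrd
import Fermat.Agent.S33.L.Skeleton
import Fermat.Agent.P3G.LevelDescent

set_option autoImplicit false
set_option linter.unusedSectionVars false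
set_option linter.dupNamespace false
set_option linter.style.haveILetI false

open ModularCurve AlgebraicCurve IntermediateField

noncomputable section

namespace Fermat.Agent.S33.L.LGInst

open Fermat.Agent.N4.Setting Fermat.Agent.N4.Chart Fermat.Agent.N4.S18Glue Fermat.Agent.N4.BigDVR
  Fermat.Agent.P3G.Assembly.LevelStep Fermat.Agent.P3G.Assembly.LevelGeomOfPoints
  Fermat.Agent.P3G.GammaDict Fermat.Agent.P3G.GeomStep
  Fermat.Agent.P3G.Gamma Fermat.Agent.P3G.GammaAut Fermat.Agent.P3G.SecondDiff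
  Fermat.Agent.P3G.UCrit
  Fermat.Agent.N4F.C Fermat.Agent.N4F.C.Levels Fermat.Agent.N4F.C.Galois
  Fermat.Agent.S33.New.FirstDiff Fermat.Agent.S33.New.FirstDiffLevel
  Fermat.Agent.S33.L.TwOrd Fermat.Agent.S33.L.Skeleton
open Fermat.Agent.S24.PlaceDeriv (ResidueTrivial)

local notation "Qbar" => AlgebraicClosure ℚ
local notation "Γ" => (AlgebraicClosure ℚ ≃ₐ[ℚ] AlgebraicClosure ℚ)

variable {A : ValuationSubring Qbar} {K : IntermediateField ℚ Qbar} {N : ℕ} [NeZero N]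

/-! ### The chart instances at a level -/

section Inst

variable (A K N)

/-- The finite chart at a level is noetherian, has fraction field `F_K`, and is integrally closed. -/
theorem chartInst_fin [IsDiscreteValuationRing ↥(baseRing A K)]
    [IsFractionRing ↥(baseRing A K) (Lvl K)] :
    IsNoetherianRing ↥(Rfin (Lvl K) N (baseRing A K)) ∧
    IsFractionRing ↥(Rfin (Lvl K) N (baseRing A K)) (FF (Lvl K) N) ∧
    IsIntegrallyClosed ↥(Rfin (Lvl K) N (baseRing A K)) := by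
  have hj : Transcendental (Lvl K) (jF (Lvl K) N) :=
    Fermat.Agent.N4.FFAlgebraic.transcendental_jF (Lvl K) N
  haveI : FiniteDimensional (IntermediateField.adjoin (Lvl K) {jF (Lvl K) N}) (FF (Lvl K) N) :=
    Fermat.Agent.N4.ModPolySetting.finiteDimensional_FF (Lvl K) N
  exact ⟨Fermat.Agent.N4.IntClosure.isNoetherianRing_chartAlg (K := Lvl K) (jF (Lvl K) N) hj,
    Fermat.Agent.N4.Cover.Main.isFractionRing_chartAlg (O := ↥(baseRing A K)) (K₀ := Lvl K)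
      (jF (Lvl K) N) hj,
    Fermat.Agent.N4.Cover.Main.isIntegrallyClosed_chartAlg (O := ↥(baseRing A K)) (K₀ := Lvl K)
      (jF (Lvl K) N) hj⟩

/-- The chart at infinity at a level is noetherian, has fraction field `F_K`, and is integrally
closed. -/
theorem chartInst_inf [IsDiscreteValuationRing ↥(baseRing A K)]
    [IsFractionRing ↥(baseRing A K) (Lvl K)] :
    IsNoetherianRing ↥(Rinf (Lvl K) N (baseRing A K)) ∧
    IsFractionRing ↥(Rinf (Lvl K) N (baseRing A K)) (FF (Lvl K) N) ∧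
    IsIntegrallyClosed ↥(Rinf (Lvl K) N (baseRing A K)) := by
  have hj : Transcendental (Lvl K) (jF (Lvl K) N) :=
    Fermat.Agent.N4.FFAlgebraic.transcendental_jF (Lvl K) N
  have hjinv : Transcendental (Lvl K) (jF (Lvl K) N)⁻¹ := fun h => hj (by simpa using h.inv)
  haveI : FiniteDimensional (IntermediateField.adjoin (Lvl K) {jF (Lvl K) N}) (FF (Lvl K) N) :=
    Fermat.Agent.N4.ModPolySetting.finiteDimensional_FF (Lvl K) N
  haveI : FiniteDimensional (IntermediateField.adjoin (Lvl K) {(jF (Lvl K) N)⁻¹}) (FF (Lvl K) N) := by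
    rw [Fermat.Agent.N4.Cover.Main.adjoin_inv_eq]
    infer_instance
  exact ⟨Fermat.Agent.N4.IntClosure.isNoetherianRing_chartAlg (K := Lvl K) (jF (Lvl K) N)⁻¹ hjinv,
    Fermat.Agent.N4.Cover.Main.isFractionRing_chartAlg (O := ↥(baseRing A K)) (K₀ := Lvl K)
      (jF (Lvl K) N)⁻¹ hjinv,
    Fermat.Agent.N4.Cover.Main.isIntegrallyClosed_chartAlg (O := ↥(baseRing A K)) (K₀ := Lvl K)
      (jF (Lvl K) N)⁻¹ hjinv⟩

end Inst

/-! ### The finite set of zeros and poles -/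

/-- The zeros and poles of `f_K ≠ 0` form a finite set of `ResidueTrivial` places, if they are
`K`-rational in the `Function.Bijective` form. -/
theorem exists_finset_rat {f : FF (Lvl K) N} (hf : f ≠ 0)
    (hrat : ∀ Q : Place (Lvl K) (FF (Lvl K) N), Q.ord f ≠ 0 →
      Function.Bijective (algebraMap (Lvl K) Q.ResidueField)) :
    ∃ S : Finset (Place (Lvl K) (FF (Lvl K) N)),
      (∀ Q : Place (Lvl K) (FF (Lvl K) N), Q.ord f ≠ 0 → Q ∈ S) ∧ ∀ Q ∈ S, ResidueTrivial Q := by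
  classical
  obtain ⟨S₀, hS₀⟩ := Fermat.Agent.P3G.Glue.LevelDict.exists_finset_ord_ne_zero N K f hf
  refine ⟨S₀.filter (fun Q => Q.ord f ≠ 0), fun Q hQ => Finset.mem_filter.2 ⟨hS₀ Q hQ, hQ⟩,
    fun Q hQ => ?_⟩
  exact (Fermat.Agent.P3G.LevelDescent.residueTrivial_iff_bijective Q).2
    (hrat Q (Finset.mem_filter.1 hQ).2)

/-! ### (LG) on the two charts -/

section LG

variable {hKs : ∀ (τ : Γ) (x : Qbar), x ∈ K → τ x ∈ K} {σ' : Γ}

/-- **(LG) at every closed point of the special fibre of the finite chart**, contract shape. -/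
theorem lgAt_fin [IsDiscreteValuationRing ↥(baseRing A K)]
    [IsFractionRing ↥(baseRing A K) (Lvl K)]
    {ϖ : ↥(baseRing A K)} {W : Subring (FF (Lvl K) N)}
    {V₁ V₂ : ValuationSubring (FF (Lvl K) N)} (hV : VertLevel A K hKs N σ' ϖ W V₁ V₂)
    (hP : LocPChart A K hKs N σ' ϖ (jF (Lvl K) N))
    {f : FF (Lvl K) N} (hf : f ≠ 0) {e : ℕ} (he : e ≠ 0)
    (hdiv : ∀ Q : Place (Lvl K) (FF (Lvl K) N), (e : ℤ) ∣ Q.ord f)
    (hrat : ∀ Q : Place (Lvl K) (FF (Lvl K) N), Q.ord f ≠ 0 →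
      Function.Bijective (algebraMap (Lvl K) Q.ResidueField))
    (𝔫 : Ideal ↥(Rfin (Lvl K) N (baseRing A K))) (h𝔫 : 𝔫.IsMaximal)
    (hϖ𝔫 : algebraMap ↥(baseRing A K) ↥(Rfin (Lvl K) N (baseRing A K)) ϖ ∈ 𝔫) :
    LGAt (Lvl K) 𝔫 V₁ V₂ (EDiv K hKs N σ' f e) (fdK K hKs N σ' f) e := by
  obtain ⟨i1, i2, i3⟩ := chartInst_fin A K N
  haveI := i1
  haveI := i2
  haveI := i3
  obtain ⟨S, hS, hSrat⟩ := exists_finset_rat hf hrat
  exact exists_localGen_fdK hV (jF (Lvl K) N) hV.semiP hP hf he hdiv S hS hSrat 𝔫 h𝔫 hϖ𝔫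

/-- **(LG) at every closed point of the special fibre of the chart at infinity**, contract shape. -/
theorem lgAt_inf [IsDiscreteValuationRing ↥(baseRing A K)]
    [IsFractionRing ↥(baseRing A K) (Lvl K)]
    {ϖ : ↥(baseRing A K)} {W : Subring (FF (Lvl K) N)}
    {V₁ V₂ : ValuationSubring (FF (Lvl K) N)} (hV : VertLevel A K hKs N σ' ϖ W V₁ V₂)
    (hP : LocPChart A K hKs N σ' ϖ (jF (Lvl K) N)⁻¹)
    {f : FF (Lvl K) N} (hf : f ≠ 0) {e : ℕ} (he : e ≠ 0)
    (hdiv : ∀ Q : Place (Lvl K) (FF (Lvl K) N), (e : ℤ) ∣ Q.ord f)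
    (hrat : ∀ Q : Place (Lvl K) (FF (Lvl K) N), Q.ord f ≠ 0 →
      Function.Bijective (algebraMap (Lvl K) Q.ResidueField))
    (𝔫 : Ideal ↥(Rinf (Lvl K) N (baseRing A K))) (h𝔫 : 𝔫.IsMaximal)
    (hϖ𝔫 : algebraMap ↥(baseRing A K) ↥(Rinf (Lvl K) N (baseRing A K)) ϖ ∈ 𝔫) :
    LGAt (Lvl K) 𝔫 V₁ V₂ (EDiv K hKs N σ' f e) (fdK K hKs N σ' f) e := by
  obtain ⟨i1, i2, i3⟩ := chartInst_inf A K N
  haveI := i1
  haveI := i2
  haveI := i3
  obtain ⟨S, hS, hSrat⟩ := exists_finset_rat hf hrat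
  exact exists_localGen_fdK hV (jF (Lvl K) N)⁻¹ hV.semiM hP hf he hdiv S hS hSrat 𝔫 h𝔫 hϖ𝔫

/-- The `centredSet` stability `hCp`/`hCm` of `Skeleton.exists_section` for `τ` is the first clause of
`LocPChart` for `τ`. -/
theorem centredSet_stable {τ : Γ} {ϖ : ↥(baseRing A K)} {s : FF (Lvl K) N}
    (hP : LocPChart A K hKs N τ ϖ s)
    (𝔫 : Ideal (chartAlg ↥(baseRing A K) (FF (Lvl K) N) {s})) (h𝔫 : 𝔫.IsMaximal)
    (hϖ𝔫 : algebraMap ↥(baseRing A K) (chartAlg ↥(baseRing A K) (FF (Lvl K) N) {s}) ϖ ∈ 𝔫)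
    (Q : Place (Lvl K) (FF (Lvl K) N)) (hQ : Q ∈ centredSet (F := FF (Lvl K) N) (Lvl K) 𝔫) :
    (tauPl K hKs N τ).symm Q ∈ centredSet (F := FF (Lvl K) N) (Lvl K) 𝔫 :=
  (hP 𝔫 h𝔫 hϖ𝔫).1 Q hQ

end LG

end Fermat.Agent.S33.L.LGInst
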