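/-
S33 (row 61), STEP K at the NODES, dispatch R13 (helper29): **the two `BranchHyp`'s and the integrally
closed branch quotients of helper19's `KummerNodeAbs.NodeHyp.of_branches`, for a chart, its local ring
at a closed point and a vertical valuation ring through it.**

LAYER 1 (generic; the binder block of helper14's `KummerSmoothInst`).  `S` a commutative ring (a chart
of the nodal model), `𝔓 ≤ 𝔫` primes (`𝔓` = the centre of a vertical valuation ring, `𝔫` the closed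
point), `A` a localisation of `S` at `𝔫`, `B` a localisation of `S` at `𝔓`, `ϖ ∈ 𝔓` with

  `he : ∀ x ∈ 𝔓, ∃ t, t ∉ 𝔓 ∧ ∃ y, t * x = ϖ * y`      (`𝔓 B = ϖ B`: the component has multiplicity one)

(at a node: `t ∈ 𝔓' ∖ 𝔓` for the other branch `𝔓'`, and `𝔓 ⊓ 𝔓' ≤ (ϖ)`; `exists_mul_eq_of_inf_le`).  Then

* `span_eq_maximalIdeal` : `ϖ B = 𝔪_B`;
* `mem_of_algebraMap_mem` : `S ∩ 𝔪_B = 𝔓`;
* `branch_eq_map` : `branch (algebraMap S A ϖ) B = 𝔓 A`  (helper19's branch ideal `A ∩ ϖ B`);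
* `branchHyp_of_loc` : `KummerNodeAbs.BranchHyp (algebraMap S A ϖ) B`;
* `isIntegrallyClosed_quot_branch` : `A ⧸ branch (algebraMap S A ϖ) B` is integrally closed if `S ⧸ 𝔓` is;

The fields `regA`, `reg`, `sat`, `node` of `NodeHyp.of_branches` in the same language and the assembled
`KummerLoc.Hyp (B := B₁ × B₂)` are in `L/NodeLoc.lean`.
-/
import Mathlib
import Fermat.Agent.S33.New.KummerNodeAbs
import Fermat.Agent.S33.New.KummerSmoothInst

set_option autoImplicit false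
set_option linter.style.haveILetI false
set_option linter.unusedSectionVars false
set_option linter.style.longLine false

namespace Fermat.Agent.S33.L.NodeBranch

open Fermat.Agent.S33.New.KummerNodeAbs

section One

variable {S A B : Type*} [CommRing S] [CommRing A] [CommRing B]
  [Algebra S A] [Algebra S B] [Algebra A B] [IsScalarTower S A B]
  (𝔫 𝔓 : Ideal S) [h𝔫 : 𝔫.IsPrime] [h𝔓 : 𝔓.IsPrime]
  [hA : IsLocalization.AtPrime A 𝔫] [hB : IsLocalization.AtPrime B 𝔓] (ϖ : S)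

/-- `e = 1` from the other branch: if `𝔓 ⊓ 𝔓' ≤ (ϖ)` and `𝔓' ⊄ 𝔓`, then `𝔓 = (ϖ)` locally at `𝔓`. -/
theorem exists_mul_eq_of_inf_le (𝔓' : Ideal S) (hne : ¬ 𝔓' ≤ 𝔓)
    (hinf : 𝔓 ⊓ 𝔓' ≤ Ideal.span {ϖ}) :
    ∀ x ∈ 𝔓, ∃ t, t ∉ 𝔓 ∧ ∃ y, t * x = ϖ * y := by
  intro x hx
  obtain ⟨w, hw', hw⟩ := SetLike.not_le_iff_exists.1 hne
  have h1 : w * x ∈ Ideal.span {ϖ} :=
    hinf ⟨Ideal.mul_mem_left _ _ hx, Ideal.mul_mem_right _ _ hw'⟩
  obtain ⟨y, hy⟩ := Ideal.mem_span_singleton'.1 h1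
  exact ⟨w, hw, y, by rw [← hy, mul_comm]⟩

/-- `ϖ B = 𝔓 B` is the maximal ideal of `B`. -/
theorem span_eq_maximalIdeal [IsLocalRing B] (hϖ : ϖ ∈ 𝔓)
    (he : ∀ x ∈ 𝔓, ∃ t, t ∉ 𝔓 ∧ ∃ y, t * x = ϖ * y) :
    Ideal.span {algebraMap S B ϖ} = IsLocalRing.maximalIdeal B := by
  rw [← IsLocalization.AtPrime.map_eq_maximalIdeal 𝔓 B]
  apply le_antisymm
  · rw [Ideal.span_singleton_le_iff_mem]
    exact Ideal.mem_map_of_mem _ hϖ
  · rw [Ideal.map_le_iff_le_comap]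
    intro x hx
    obtain ⟨t, ht, y, hty⟩ := he x hx
    have htu : IsUnit (algebraMap S B t) :=
      IsLocalization.map_units B (⟨t, ht⟩ : 𝔓.primeCompl)
    rw [Ideal.mem_comap]
    have h1 : algebraMap S B t * algebraMap S B x ∈ Ideal.span {algebraMap S B ϖ} := by
      rw [← map_mul, hty, map_mul]
      exact Ideal.mul_mem_right _ _ (Ideal.mem_span_singleton_self _)
    exact (Ideal.unit_mul_mem_iff_mem _ htu).1 h1

/-- `S ∩ ϖ B = 𝔓`. -/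
theorem mem_of_algebraMap_mem (hϖ : ϖ ∈ 𝔓)
    (he : ∀ x ∈ 𝔓, ∃ t, t ∉ 𝔓 ∧ ∃ y, t * x = ϖ * y) {s : S}
    (hs : algebraMap S B s ∈ Ideal.span {algebraMap S B ϖ}) : s ∈ 𝔓 := by
  haveI : IsLocalRing B := IsLocalization.AtPrime.isLocalRing B 𝔓
  rw [span_eq_maximalIdeal (B := B) 𝔓 ϖ hϖ he] at hs
  have := IsLocalization.AtPrime.under_maximalIdeal B 𝔓
  rw [← this]
  exact hs

theorem algebraMap_mem_span (hϖ : ϖ ∈ 𝔓)
    (he : ∀ x ∈ 𝔓, ∃ t, t ∉ 𝔓 ∧ ∃ y, t * x = ϖ * y) {s : S} (hs : s ∈ 𝔓) :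
    algebraMap S B s ∈ Ideal.span {algebraMap S B ϖ} := by
  haveI : IsLocalRing B := IsLocalization.AtPrime.isLocalRing B 𝔓
  rw [span_eq_maximalIdeal (B := B) 𝔓 ϖ hϖ he,
    ← IsLocalization.AtPrime.map_eq_maximalIdeal 𝔓 B]
  exact Ideal.mem_map_of_mem _ hs

theorem algebraMap_algebraMap (s : S) : algebraMap A B (algebraMap S A s) = algebraMap S B s :=
  (IsScalarTower.algebraMap_apply S A B s).symm

include hA in
/-- **helper19's branch ideal is `𝔓 A`.** -/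
theorem branch_eq_map (hϖ : ϖ ∈ 𝔓) (he : ∀ x ∈ 𝔓, ∃ t, t ∉ 𝔓 ∧ ∃ y, t * x = ϖ * y) :
    branch (algebraMap S A ϖ) B = 𝔓.map (algebraMap S A) := by
  apply le_antisymm
  · intro a ha
    obtain ⟨c, hc⟩ := mem_branch.1 ha
    obtain ⟨⟨x, t⟩, hxt⟩ := IsLocalization.surj 𝔫.primeCompl a
    -- `a * t = x` in `A`
    have hx𝔓 : x ∈ 𝔓 := by
      apply mem_of_algebraMap_mem (B := B) 𝔓 ϖ hϖ he
      have h1 : algebraMap S B x = algebraMap S B ϖ * (c * algebraMap S B t) := by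
        rw [← algebraMap_algebraMap (A := A) x, ← hxt, map_mul, hc, algebraMap_algebraMap,
          algebraMap_algebraMap]
        ring
      rw [h1]
      exact Ideal.mul_mem_right _ _ (Ideal.mem_span_singleton_self _)
    have htu : IsUnit (algebraMap S A t) := IsLocalization.map_units A t
    obtain ⟨u, hu⟩ := htu
    have : a = algebraMap S A x * (↑u⁻¹ : A) := by
      rw [← hxt, ← hu, mul_assoc, Units.mul_inv, mul_one]
    rw [this]
    exact Ideal.mul_mem_right _ _ (Ideal.mem_map_of_mem _ hx𝔓)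
  · rw [Ideal.map_le_iff_le_comap]
    intro x hx
    rw [Ideal.mem_comap]
    obtain ⟨c, hc⟩ := Ideal.mem_span_singleton'.1 (algebraMap_mem_span (B := B) 𝔓 ϖ hϖ he hx)
    refine mem_branch.2 ⟨c, ?_⟩
    rw [algebraMap_algebraMap, algebraMap_algebraMap, ← hc, mul_comm]

include hA in
theorem algebraMap_mem_branch_iff (hϖ : ϖ ∈ 𝔓)
    (he : ∀ x ∈ 𝔓, ∃ t, t ∉ 𝔓 ∧ ∃ y, t * x = ϖ * y) (s : S) :
    algebraMap S A s ∈ branch (algebraMap S A ϖ) B ↔ s ∈ 𝔓 := by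
  constructor
  · intro h
    obtain ⟨c, hc⟩ := mem_branch.1 h
    apply mem_of_algebraMap_mem (B := B) 𝔓 ϖ hϖ he
    rw [← algebraMap_algebraMap (A := A) s, hc, algebraMap_algebraMap]
    exact Ideal.mul_mem_right _ _ (Ideal.mem_span_singleton_self _)
  · intro h
    rw [branch_eq_map (A := A) (B := B) 𝔫 𝔓 ϖ hϖ he]
    exact Ideal.mem_map_of_mem _ h

include hA in
/-- **The branch hypotheses for `(A, B) = (S_𝔫, S_𝔓)`.** -/
theorem branchHyp_of_loc (hϖ : ϖ ∈ 𝔓) (he : ∀ x ∈ 𝔓, ∃ t, t ∉ 𝔓 ∧ ∃ y, t * x = ϖ * y) :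
    BranchHyp (algebraMap S A ϖ) B := by
  haveI : IsLocalRing B := IsLocalization.AtPrime.isLocalRing B 𝔓
  refine ⟨?_, ?_⟩
  · rw [algebraMap_algebraMap, span_eq_maximalIdeal (B := B) 𝔓 ϖ hϖ he]
    exact (IsLocalRing.maximalIdeal.isMaximal B).isPrime
  · intro b
    obtain ⟨⟨x, s⟩, hxs⟩ := IsLocalization.surj 𝔓.primeCompl b
    refine ⟨algebraMap S A x, algebraMap S A s, ?_, 0, ?_⟩
    · intro hs
      exact s.2 ((algebraMap_mem_branch_iff (A := A) (B := B) 𝔫 𝔓 ϖ hϖ he s).1 hs)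
    · rw [mul_zero, add_zero, algebraMap_algebraMap, algebraMap_algebraMap, ← hxs, mul_comm]

/-- `A ⧸ branch` is integrally closed if `S ⧸ 𝔓` is. -/
theorem isIntegrallyClosed_quot_branch [IsDomain S] [IsIntegrallyClosed (S ⧸ 𝔓)] (h𝔓𝔫 : 𝔓 ≤ 𝔫)
    (hϖ : ϖ ∈ 𝔓) (he : ∀ x ∈ 𝔓, ∃ t, t ∉ 𝔓 ∧ ∃ y, t * x = ϖ * y) :
    IsIntegrallyClosed (A ⧸ branch (algebraMap S A ϖ) B) := by
  haveI := Fermat.Agent.S33.New.KummerSmoothInst.isDomain_quot_map (A := A) 𝔫 𝔓 h𝔓𝔫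
  haveI := Fermat.Agent.S33.New.KummerSmoothInst.isIntegrallyClosed_quot_map (A := A) 𝔫 𝔓 h𝔓𝔫
  exact IsIntegrallyClosed.of_equiv
    (Ideal.quotEquivOfEq (branch_eq_map (A := A) (B := B) 𝔫 𝔓 ϖ hϖ he)).symm

end One

end Fermat.Agent.S33.L.NodeBranch
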