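/-
S33, `moonshots` row 61, STEP K at a node, [K3-branch] (helper5, insurance copy): **the branch
hypotheses of helper19's `KummerNodeAbs` for `A = locAlg R 𝔫`, `B = V`.**

Setting of `L/VLoc`: `R : Subalgebra O F` a chart, `𝔫` a prime of `R`, `V` a vertical valuation ring
through `𝔫` with centre `𝔓` on `R`, `V = R_𝔓` (`hloc`), `ϖR ∈ 𝔓` generating `𝔓` locally at `𝔓`
(`hprin`, from the saturation and a separating element: `VLoc.hprin_of_sep`), `R ⧸ 𝔓` integrally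
closed.  With `A := locAlg R 𝔫`, `ϖA := algebraMap R A ϖR` and the algebra structure
`KTWireLoc.algV`:

* `branch_eq_map` : `KummerNodeAbs.branch ϖA V = 𝔓 A`;
* `branchHyp_V` : `KummerNodeAbs.BranchHyp ϖA V`;
* `isIntegrallyClosed_quot_branch` : `A ⧸ branch ϖA V` is integrally closed.
-/
import Mathlib
import Fermat.Agent.S33.L.VLoc
import Fermat.Agent.S33.New.KummerNodeAbs
import Fermat.Agent.S33.New.KummerSmoothInst

set_option autoImplicit false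
set_option linter.unusedSectionVars false
set_option linter.style.haveILetI false

namespace Fermat.Agent.S33.L.NodeBranchLoc

open Fermat.Agent.S33.L.KTWireLoc Fermat.Agent.S33.L.VLoc Fermat.Agent.S33.New.KummerNodeAbs
  Fermat.Agent.P4.TwistRoots Fermat.Agent.G.PointsLoc

variable {O K F : Type*} [CommRing O] [IsDomain O] [IsDiscreteValuationRing O]
  [Field K] [Algebra O K] [IsFractionRing O K]
  [Field F] [Algebra K F] [Algebra O F] [IsScalarTower O K F]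

variable (R : Subalgebra O F) [IsFractionRing ↥R F] (𝔫 : Ideal ↥R) [h𝔫 : 𝔫.IsPrime]
  {V : ValuationSubring F}

/-- The valuation of an element of `R` outside the centre is one. -/
theorem valuation_eq_one_of_not_mem_nonunits {x : F} (hx : x ∈ V) (hx' : x ∉ V.nonunits) :
    V.valuation x = 1 := by
  have h1 : V.valuation x ≤ 1 := (V.valuation_le_one_iff _).2 hx
  rcases lt_or_eq_of_le h1 with h | h
  · exact absurd ((V.mem_nonunits_iff).2 h) hx'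
  · exact h

/-- An element of `A = locAlg R 𝔫` lies in `𝔓 A` iff it is a non-unit of `V`. -/
theorem mem_map_iff (hV : ∀ r : R, (r : F) ∈ V) (ht : Through V 𝔫)
    (𝔓 : Ideal ↥R) (h𝔓 : ∀ r : R, r ∈ 𝔓 ↔ (r : F) ∈ V.nonunits)
    (a : ↥(locAlg R 𝔫)) :
    a ∈ 𝔓.map (algebraMap ↥R ↥(locAlg R 𝔫)) ↔ (a : F) ∈ V.nonunits := by
  constructor
  · intro ha
    -- the set of elements of `A` which are non-units of `V` is an ideal containing the image of `𝔓`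
    let J : Ideal ↥(locAlg R 𝔫) :=
      { carrier := {a | (a : F) ∈ V.nonunits}
        zero_mem' := by
          show ((0 : ↥(locAlg R 𝔫)) : F) ∈ V.nonunits
          rw [V.mem_nonunits_iff]
          simp
        add_mem' := by
          intro x y hx hy
          have hx' : V.valuation (x : F) < 1 := (V.mem_nonunits_iff).1 hx
          have hy' : V.valuation (y : F) < 1 := (V.mem_nonunits_iff).1 hy
          show ((x : F) + (y : F)) ∈ V.nonunits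
          rw [V.mem_nonunits_iff]
          exact lt_of_le_of_lt (V.valuation.map_add _ _) (max_lt hx' hy')
        smul_mem' := by
          intro c x hx
          show ((c : F) * (x : F)) ∈ V.nonunits
          rw [mul_comm]
          exact nonunits_mul_mem hx (locAlg_le_of_through R 𝔫 hV ht c.2) }
    have hle : 𝔓.map (algebraMap ↥R ↥(locAlg R 𝔫)) ≤ J := by
      rw [Ideal.map_le_iff_le_comap]
      intro r hr
      exact (h𝔓 r).1 hr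
    exact hle ha
  · intro ha
    obtain ⟨r, s, hs, e⟩ := (mem_locAlg_iff R 𝔫).1 a.2
    -- `a s = r`, `s ∉ 𝔫`
    have hsV : V.valuation (s : F) = 1 := by
      refine valuation_eq_one_of_not_mem_nonunits (hV s) ?_
      intro h
      exact hs (ht s h)
    have hr : r ∈ 𝔓 := by
      rw [h𝔓, V.mem_nonunits_iff, ← e, map_mul, hsV, mul_one]
      exact (V.mem_nonunits_iff).1 ha
    have hsu : IsUnit (algebraMap ↥R ↥(locAlg R 𝔫) s) :=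
      IsLocalization.map_units ↥(locAlg R 𝔫) (⟨s, hs⟩ : 𝔫.primeCompl)
    have h1 : a * algebraMap ↥R ↥(locAlg R 𝔫) s ∈ 𝔓.map (algebraMap ↥R ↥(locAlg R 𝔫)) := by
      have : a * algebraMap ↥R ↥(locAlg R 𝔫) s = algebraMap ↥R ↥(locAlg R 𝔫) r :=
        Subtype.ext e
      rw [this]
      exact Ideal.mem_map_of_mem _ hr
    rw [mul_comm] at h1
    exact (Ideal.unit_mul_mem_iff_mem _ hsu).1 h1


/-- `ϖ V = 𝔪_V`, for the algebra structure `locAlg R 𝔫 → V`. -/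
theorem span_algV_eq_maximalIdeal (hV : ∀ r : R, (r : F) ∈ V) (ht : Through V 𝔫)
    (𝔓 : Ideal ↥R) (h𝔓 : ∀ r : R, r ∈ 𝔓 ↔ (r : F) ∈ V.nonunits)
    (hloc : ∀ x ∈ V, ∃ a d : R, (d : F) ∉ V.nonunits ∧ x * (d : F) = (a : F))
    {ϖR : ↥R} (hϖ : ϖR ∈ 𝔓) (hprin : ∀ x ∈ 𝔓, ∃ t, t ∉ 𝔓 ∧ ∃ y, t * x = ϖR * y) :
    letI := algV R 𝔫 hV ht
    Ideal.span {algebraMap ↥(locAlg R 𝔫) ↥V (algebraMap ↥R ↥(locAlg R 𝔫) ϖR)} =
      IsLocalRing.maximalIdeal ↥V :=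
  span_eq_maximalIdeal R hV 𝔓 h𝔓 hloc hϖ hprin

/-- `x ∈ ϖ V ↔ x` is a non-unit of `V`. -/
theorem mem_span_algV_iff (hV : ∀ r : R, (r : F) ∈ V) (ht : Through V 𝔫)
    (𝔓 : Ideal ↥R) (h𝔓 : ∀ r : R, r ∈ 𝔓 ↔ (r : F) ∈ V.nonunits)
    (hloc : ∀ x ∈ V, ∃ a d : R, (d : F) ∉ V.nonunits ∧ x * (d : F) = (a : F))
    {ϖR : ↥R} (hϖ : ϖR ∈ 𝔓) (hprin : ∀ x ∈ 𝔓, ∃ t, t ∉ 𝔓 ∧ ∃ y, t * x = ϖR * y)
    (x : ↥V) :
    letI := algV R 𝔫 hV ht
    x ∈ Ideal.span {algebraMap ↥(locAlg R 𝔫) ↥V (algebraMap ↥R ↥(locAlg R 𝔫) ϖR)} ↔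
      (x : F) ∈ V.nonunits := by
  letI := algV R 𝔫 hV ht
  rw [span_algV_eq_maximalIdeal R 𝔫 hV ht 𝔓 h𝔓 hloc hϖ hprin, IsLocalRing.mem_maximalIdeal,
    mem_nonunits_iff, V.mem_nonunits_iff, ← not_iff_not, not_not, not_lt]
  rw [V.valuation_eq_one_iff]
  constructor
  · intro h; exact le_of_eq h.symm
  · intro h; exact le_antisymm ((V.valuation_le_one_iff _).2 x.2) h

/-- **`branch ϖA V = 𝔓 A`.** -/
theorem branch_eq_map (hV : ∀ r : R, (r : F) ∈ V) (ht : Through V 𝔫)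
    (𝔓 : Ideal ↥R) (h𝔓 : ∀ r : R, r ∈ 𝔓 ↔ (r : F) ∈ V.nonunits)
    (hloc : ∀ x ∈ V, ∃ a d : R, (d : F) ∉ V.nonunits ∧ x * (d : F) = (a : F))
    {ϖR : ↥R} (hϖ : ϖR ∈ 𝔓) (hprin : ∀ x ∈ 𝔓, ∃ t, t ∉ 𝔓 ∧ ∃ y, t * x = ϖR * y) :
    letI := algV R 𝔫 hV ht
    branch (algebraMap ↥R ↥(locAlg R 𝔫) ϖR) ↥V = 𝔓.map (algebraMap ↥R ↥(locAlg R 𝔫)) := by
  letI := algV R 𝔫 hV ht
  ext a
  rw [mem_map_iff R 𝔫 hV ht 𝔓 h𝔓 a]
  unfold branch
  rw [Ideal.mem_comap]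
  exact mem_span_algV_iff R 𝔫 hV ht 𝔓 h𝔓 hloc hϖ hprin _

/-- **The branch hypotheses for `A = locAlg R 𝔫`, `B = V`.** -/
theorem branchHyp_V (hV : ∀ r : R, (r : F) ∈ V) (ht : Through V 𝔫)
    (𝔓 : Ideal ↥R) (h𝔓 : ∀ r : R, r ∈ 𝔓 ↔ (r : F) ∈ V.nonunits)
    (hloc : ∀ x ∈ V, ∃ a d : R, (d : F) ∉ V.nonunits ∧ x * (d : F) = (a : F))
    {ϖR : ↥R} (hϖ : ϖR ∈ 𝔓) (hprin : ∀ x ∈ 𝔓, ∃ t, t ∉ 𝔓 ∧ ∃ y, t * x = ϖR * y) :
    letI := algV R 𝔫 hV ht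
    BranchHyp (algebraMap ↥R ↥(locAlg R 𝔫) ϖR) ↥V := by
  letI := algV R 𝔫 hV ht
  refine ⟨?_, ?_⟩
  · rw [span_algV_eq_maximalIdeal R 𝔫 hV ht 𝔓 h𝔓 hloc hϖ hprin]
    exact (IsLocalRing.maximalIdeal.isMaximal ↥V).isPrime
  · intro b
    obtain ⟨a, d, hd, e⟩ := hloc (b : F) b.2
    refine ⟨algebraMap ↥R ↥(locAlg R 𝔫) a, algebraMap ↥R ↥(locAlg R 𝔫) d, ?_, 0, ?_⟩
    · rw [branch_eq_map R 𝔫 hV ht 𝔓 h𝔓 hloc hϖ hprin, mem_map_iff R 𝔫 hV ht 𝔓 h𝔓]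
      exact hd
    · rw [mul_zero, add_zero]
      apply Subtype.ext
      show (d : F) * (b : F) = (a : F)
      rw [mul_comm]
      exact e

/-- **`A ⧸ branch ϖA V` is integrally closed** if `R ⧸ 𝔓` is. -/
theorem isIntegrallyClosed_quot_branch (hV : ∀ r : R, (r : F) ∈ V) (ht : Through V 𝔫)
    (𝔓 : Ideal ↥R) [h𝔓p : 𝔓.IsPrime] [IsIntegrallyClosed (↥R ⧸ 𝔓)] (h𝔓 : ∀ r : R, r ∈ 𝔓 ↔ (r : F) ∈ V.nonunits)
    (hloc : ∀ x ∈ V, ∃ a d : R, (d : F) ∉ V.nonunits ∧ x * (d : F) = (a : F))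
    {ϖR : ↥R} (hϖ : ϖR ∈ 𝔓) (hprin : ∀ x ∈ 𝔓, ∃ t, t ∉ 𝔓 ∧ ∃ y, t * x = ϖR * y) :
    letI := algV R 𝔫 hV ht
    IsIntegrallyClosed (↥(locAlg R 𝔫) ⧸ branch (algebraMap ↥R ↥(locAlg R 𝔫) ϖR) ↥V) := by
  letI := algV R 𝔫 hV ht
  have h𝔓𝔫 : 𝔓 ≤ 𝔫 := fun r hr => ht r ((h𝔓 r).1 hr)
  haveI := Fermat.Agent.S33.New.KummerSmoothInst.isDomain_quot_map
    (A := ↥(locAlg R 𝔫)) 𝔫 𝔓 h𝔓𝔫
  haveI := Fermat.Agent.S33.New.KummerSmoothInst.isIntegrallyClosed_quot_map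
    (A := ↥(locAlg R 𝔫)) 𝔫 𝔓 h𝔓𝔫
  exact IsIntegrallyClosed.of_equiv
    (Ideal.quotEquivOfEq (branch_eq_map R 𝔫 hV ht 𝔓 h𝔓 hloc hϖ hprin)).symm

end Fermat.Agent.S33.L.NodeBranchLoc
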