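/-
S33, `moonshots` row 61, STEP K at a NODE, abstract chart, `F`-form (helper5; second route, carrier
`A = locAlg R 𝔫`, `Bᵢ = ↥Vᵢ`).

`R : Subalgebra O F` a chart, `𝔫` a prime through which BOTH vertical valuation rings `V₁ V₂` pass.
Hypotheses = those of helper14's `KOutSmooth.kOutAt_of_through₁` for both branches (`θᵢ : R → Rbᵢ`
surjective onto integrally closed domains with `ker θᵢ = 𝔪_{Vᵢ} ∩ R`, `Vᵢ = R_{ker θᵢ}` (`hlocᵢ`),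
`𝔪_{V₁} ∩ 𝔪_{V₂} ∩ R ⊆ ϖ R` (`hsat`)), the two separating elements (`Setup.sep₁₂`, `Setup.sep₂₁`),
the node condition (third component of `TwistRoots.CrossingFrob`, `P4/NodeGlue.node_of_crossingData`)
and the cyclotomic constants of `L/CycloLevel.exists_cyclo_const` in `O`.

* `mem_branch_iff` : `a ∈ branch ϖA Vᵢ ↔ a` is a non-unit of `Vᵢ`;
* `nodeHyp_chart` : helper19's `KummerNodeAbs.NodeHyp` for `locAlg R 𝔫 → V₁ × V₂`;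
* `kOutAt_node_chart` : `Skeleton.KOutAt K 𝔫 V₁ V₂ ϖ (p ^ k) (k * ((p - 1) * j₀))`.
-/
import Mathlib
import Fermat.Agent.S33.L.NodeBranchLoc
import Fermat.Agent.S33.New.KummerSmoothTheta

set_option autoImplicit false
set_option linter.unusedSectionVars false
set_option linter.style.haveILetI false

namespace Fermat.Agent.S33.L.NodeChart

open Fermat.Agent.S33.L.Skeleton Fermat.Agent.S33.L.KTWireLoc Fermat.Agent.S33.L.VLoc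
  Fermat.Agent.S33.L.NodeBranchLoc Fermat.Agent.S33.New.KummerNodeAbs
  Fermat.Agent.S33.New.KummerLoc Fermat.Agent.P4.TwistRoots Fermat.Agent.G.PointsLoc AlgebraicCurve

variable {O K F : Type*} [CommRing O] [IsDomain O] [IsDiscreteValuationRing O]
  [Field K] [Algebra O K] [IsFractionRing O K]
  [Field F] [Algebra K F] [Algebra O F] [IsScalarTower O K F]

variable (R : Subalgebra O F) [IsFractionRing ↥R F] (𝔫 : Ideal ↥R) [h𝔫 : 𝔫.IsPrime]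

/-! ### Elements of `locAlg R 𝔫` as fractions -/

/-- Every element of `A = locAlg R 𝔫` is `r / s` with `s` a unit of `A`. -/
theorem exists_mul_eq (a : ↥(locAlg R 𝔫)) :
    ∃ r s : R, s ∉ 𝔫 ∧ IsUnit (algebraMap ↥R ↥(locAlg R 𝔫) s) ∧
      a * algebraMap ↥R ↥(locAlg R 𝔫) s = algebraMap ↥R ↥(locAlg R 𝔫) r := by
  obtain ⟨r, s, hs, e⟩ := (mem_locAlg_iff R 𝔫).1 a.2
  exact ⟨r, s, hs, IsLocalization.map_units ↥(locAlg R 𝔫) (⟨s, hs⟩ : 𝔫.primeCompl),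
    Subtype.ext e⟩

/-- `a ∈ branch ϖA V ↔ a` is a non-unit of `V`. -/
theorem mem_branch_iff {V : ValuationSubring F} (hV : ∀ r : R, (r : F) ∈ V) (ht : Through V 𝔫)
    (𝔓 : Ideal ↥R) (h𝔓 : ∀ r : R, r ∈ 𝔓 ↔ (r : F) ∈ V.nonunits)
    (hloc : ∀ x ∈ V, ∃ a d : R, (d : F) ∉ V.nonunits ∧ x * (d : F) = (a : F))
    {ϖR : ↥R} (hϖ : ϖR ∈ 𝔓) (hprin : ∀ x ∈ 𝔓, ∃ t, t ∉ 𝔓 ∧ ∃ y, t * x = ϖR * y)
    (a : ↥(locAlg R 𝔫)) :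
    letI := algV R 𝔫 hV ht
    a ∈ branch (algebraMap ↥R ↥(locAlg R 𝔫) ϖR) ↥V ↔ (a : F) ∈ V.nonunits := by
  letI := algV R 𝔫 hV ht
  rw [branch_eq_map R 𝔫 hV ht 𝔓 h𝔓 hloc hϖ hprin, mem_map_iff R 𝔫 hV ht 𝔓 h𝔓]

/-! ### The node hypotheses -/

section Node

variable {Rb₁ Rb₂ : Type*} [CommRing Rb₁] [IsDomain Rb₁] [IsIntegrallyClosed Rb₁]
  [CommRing Rb₂] [IsDomain Rb₂] [IsIntegrallyClosed Rb₂]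

/-- **helper19's `NodeHyp` for `locAlg R 𝔫 → V₁ × V₂`** at a node of an abstract chart. -/
theorem nodeHyp_chart (θ₁ : ↥R →+* Rb₁) (hθ₁ : Function.Surjective θ₁)
    (θ₂ : ↥R →+* Rb₂) (hθ₂ : Function.Surjective θ₂)
    {V₁ V₂ : ValuationSubring F} (hV₁ : ∀ r : R, (r : F) ∈ V₁) (hV₂ : ∀ r : R, (r : F) ∈ V₂)
    (hker₁ : ∀ r : R, θ₁ r = 0 ↔ (r : F) ∈ V₁.nonunits)
    (hker₂ : ∀ r : R, θ₂ r = 0 ↔ (r : F) ∈ V₂.nonunits)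
    (hloc₁ : ∀ x ∈ V₁, ∃ a d : R, (d : F) ∉ V₁.nonunits ∧ x * (d : F) = (a : F))
    (hloc₂ : ∀ x ∈ V₂, ∃ a d : R, (d : F) ∉ V₂.nonunits ∧ x * (d : F) = (a : F))
    (ϖ : O) (hϖ₁ : algebraMap O F ϖ ∈ V₁.nonunits) (hϖ₂ : algebraMap O F ϖ ∈ V₂.nonunits)
    (hϖ0 : algebraMap O F ϖ ≠ 0)
    (hsat : ∀ r : R, (r : F) ∈ V₁.nonunits → (r : F) ∈ V₂.nonunits → algebraMap O ↥R ϖ ∣ r)
    (hsep₁₂ : ∃ ε : R, (ε : F) ∈ V₁.nonunits ∧ (ε : F) ∉ V₂.nonunits)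
    (hsep₂₁ : ∃ ε : R, (ε : F) ∈ V₂.nonunits ∧ (ε : F) ∉ V₁.nonunits)
    (ht₁ : Through V₁ 𝔫) (ht₂ : Through V₂ 𝔫)
    (hnode : ∀ r ∈ 𝔫, ∃ c p₁ p₂ : R, c ∉ 𝔫 ∧ (p₁ : F) ∈ V₁.nonunits ∧ (p₂ : F) ∈ V₂.nonunits ∧
      c * r = p₁ + p₂)
    {p j₀ : ℕ} (hp : p.Prime) (hj₀ : 1 ≤ j₀) (υ₀ : Oˣ)
    (hpυ : (p : O) = υ₀ * ϖ ^ ((p - 1) * j₀))
    (ζp : O) (hζp : ζp ^ p = 1) (lam0 : Oˣ) (hlam : ζp - 1 = lam0 * ϖ ^ j₀) :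
    letI := algV R 𝔫 hV₁ ht₁
    letI := algV R 𝔫 hV₂ ht₂
    NodeHyp ↥V₁ ↥V₂ (algebraMap ↥R ↥(locAlg R 𝔫) (algebraMap O ↥R ϖ)) p j₀
      (Units.map (algebraMap O ↥(locAlg R 𝔫)).toMonoidHom υ₀)
      (algebraMap O ↥(locAlg R 𝔫) ζp) (algebraMap O ↥(locAlg R 𝔫) lam0) := by
  classical
  letI := algV R 𝔫 hV₁ ht₁
  letI := algV R 𝔫 hV₂ ht₂
  -- the two centres
  set 𝔓₁ : Ideal ↥R := RingHom.ker θ₁ with h𝔓₁def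
  set 𝔓₂ : Ideal ↥R := RingHom.ker θ₂ with h𝔓₂def
  haveI h𝔓₁p : 𝔓₁.IsPrime := RingHom.ker_isPrime θ₁
  haveI h𝔓₂p : 𝔓₂.IsPrime := RingHom.ker_isPrime θ₂
  haveI : IsIntegrallyClosed (↥R ⧸ 𝔓₁) :=
    Fermat.Agent.S33.New.KummerSmoothTheta.isIntegrallyClosed_quot_ker θ₁ hθ₁
  haveI : IsIntegrallyClosed (↥R ⧸ 𝔓₂) :=
    Fermat.Agent.S33.New.KummerSmoothTheta.isIntegrallyClosed_quot_ker θ₂ hθ₂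
  have h𝔓₁ : ∀ r : R, r ∈ 𝔓₁ ↔ (r : F) ∈ V₁.nonunits := fun r => by
    rw [h𝔓₁def, RingHom.mem_ker]; exact hker₁ r
  have h𝔓₂ : ∀ r : R, r ∈ 𝔓₂ ↔ (r : F) ∈ V₂.nonunits := fun r => by
    rw [h𝔓₂def, RingHom.mem_ker]; exact hker₂ r
  -- the uniformiser
  set ϖR : ↥R := algebraMap O ↥R ϖ with hϖRdef
  have hϖRF : (ϖR : F) = algebraMap O F ϖ := rfl
  have hϖ𝔓₁ : ϖR ∈ 𝔓₁ := (h𝔓₁ ϖR).2 (hϖRF ▸ hϖ₁)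
  have hϖ𝔓₂ : ϖR ∈ 𝔓₂ := (h𝔓₂ ϖR).2 (hϖRF ▸ hϖ₂)
  -- `e = 1` on both branches
  have hprin₁ : ∀ x ∈ 𝔓₁, ∃ t, t ∉ 𝔓₁ ∧ ∃ y, t * x = ϖR * y := by
    obtain ⟨ε, hε₂, hε₁⟩ := hsep₂₁
    intro x hx
    exact ⟨ε, fun h => hε₁ ((h𝔓₁ ε).1 h),
      hprin_of_sep R hV₁ hV₂ hsat hε₂ x ((h𝔓₁ x).1 hx)⟩
  have hprin₂ : ∀ x ∈ 𝔓₂, ∃ t, t ∉ 𝔓₂ ∧ ∃ y, t * x = ϖR * y := by
    obtain ⟨ε, hε₁, hε₂⟩ := hsep₁₂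
    intro x hx
    exact ⟨ε, fun h => hε₂ ((h𝔓₂ ε).1 h),
      hprin_of_sep R hV₂ hV₁ (fun r h2 h1 => hsat r h1 h2) hε₁ x ((h𝔓₂ x).1 hx)⟩
  -- the branch data
  have HB₁ := branchHyp_V R 𝔫 hV₁ ht₁ 𝔓₁ h𝔓₁ hloc₁ hϖ𝔓₁ hprin₁
  have HB₂ := branchHyp_V R 𝔫 hV₂ ht₂ 𝔓₂ h𝔓₂ hloc₂ hϖ𝔓₂ hprin₂
  haveI := isIntegrallyClosed_quot_branch R 𝔫 hV₁ ht₁ 𝔓₁ h𝔓₁ hloc₁ hϖ𝔓₁ hprin₁
  haveI := isIntegrallyClosed_quot_branch R 𝔫 hV₂ ht₂ 𝔓₂ h𝔓₂ hloc₂ hϖ𝔓₂ hprin₂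
  have hb₁ := mem_branch_iff R 𝔫 hV₁ ht₁ 𝔓₁ h𝔓₁ hloc₁ hϖ𝔓₁ hprin₁
  have hb₂ := mem_branch_iff R 𝔫 hV₂ ht₂ 𝔓₂ h𝔓₂ hloc₂ hϖ𝔓₂ hprin₂
  set ϖA : ↥(locAlg R 𝔫) := algebraMap ↥R ↥(locAlg R 𝔫) ϖR with hϖAdef
  have hϖAF : (ϖA : F) = algebraMap O F ϖ := rfl
  have hϖA0 : (ϖA : F) ≠ 0 := hϖAF ▸ hϖ0
  -- coercion of `algebraMap R A`
  have hcoe : ∀ r : R, ((algebraMap ↥R ↥(locAlg R 𝔫) r : ↥(locAlg R 𝔫)) : F) = (r : F) :=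
    fun _ => rfl
  refine NodeHyp.of_branches HB₁ HB₂ ?_ ?_ ?_ ?_ ?_ hp hj₀ ?_ ?_ ?_ ?_
  · -- regA
    intro a ha
    have h1 : (ϖA : F) * (a : F) = 0 := congrArg (fun z : ↥(locAlg R 𝔫) => (z : F)) ha
    exact Subtype.ext ((mul_eq_zero.1 h1).resolve_left hϖA0)
  · -- reg₁
    intro b hb
    have h1 : (ϖA : F) * (b : F) = 0 := congrArg (fun z : ↥V₁ => (z : F)) hb
    exact Subtype.ext ((mul_eq_zero.1 h1).resolve_left hϖA0)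
  · -- reg₂
    intro b hb
    have h1 : (ϖA : F) * (b : F) = 0 := congrArg (fun z : ↥V₂ => (z : F)) hb
    exact Subtype.ext ((mul_eq_zero.1 h1).resolve_left hϖA0)
  · -- sat
    intro a ha₁ ha₂
    obtain ⟨r, s, hs, hsu, e⟩ := exists_mul_eq R 𝔫 a
    have hr₁ : (r : F) ∈ V₁.nonunits := by
      have : algebraMap ↥R ↥(locAlg R 𝔫) r ∈ branch ϖA ↥V₁ := by
        rw [← e]; exact Ideal.mul_mem_right _ _ ha₁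
      exact (hb₁ _).1 this
    have hr₂ : (r : F) ∈ V₂.nonunits := by
      have : algebraMap ↥R ↥(locAlg R 𝔫) r ∈ branch ϖA ↥V₂ := by
        rw [← e]; exact Ideal.mul_mem_right _ _ ha₂
      exact (hb₂ _).1 this
    obtain ⟨r', hr'⟩ := hsat r hr₁ hr₂
    obtain ⟨u, hu⟩ := hsu
    refine ⟨algebraMap ↥R ↥(locAlg R 𝔫) r' * (↑u⁻¹ : ↥(locAlg R 𝔫)), ?_⟩
    have h2 : a * (u : ↥(locAlg R 𝔫)) = ϖA * algebraMap ↥R ↥(locAlg R 𝔫) r' := by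
      rw [hu, e, hr', map_mul]
    calc a = a * (u : ↥(locAlg R 𝔫)) * (↑u⁻¹ : ↥(locAlg R 𝔫)) := by
          rw [mul_assoc, Units.mul_inv, mul_one]
      _ = ϖA * (algebraMap ↥R ↥(locAlg R 𝔫) r' * (↑u⁻¹ : ↥(locAlg R 𝔫))) := by
          rw [h2, mul_assoc]
  · -- node
    intro a ha
    obtain ⟨r, s, hs, hsu, e⟩ := exists_mul_eq R 𝔫 a
    have hr : r ∈ 𝔫 := by
      rw [← algebraMap_mem_maximalIdeal_locAlg_iff R 𝔫 r, ← e]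
      exact Ideal.mul_mem_right _ _ ha
    obtain ⟨c, q₁, q₂, hc, hq₁, hq₂, hcr⟩ := hnode r hr
    have hcu : IsUnit (algebraMap ↥R ↥(locAlg R 𝔫) c) :=
      IsLocalization.map_units ↥(locAlg R 𝔫) (⟨c, hc⟩ : 𝔫.primeCompl)
    obtain ⟨u, hu⟩ := hcu.mul hsu
    refine ⟨algebraMap ↥R ↥(locAlg R 𝔫) q₁ * (↑u⁻¹ : ↥(locAlg R 𝔫)),
      Ideal.mul_mem_right _ _ ((hb₁ _).2 hq₁),
      algebraMap ↥R ↥(locAlg R 𝔫) q₂ * (↑u⁻¹ : ↥(locAlg R 𝔫)),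
      Ideal.mul_mem_right _ _ ((hb₂ _).2 hq₂), ?_⟩
    have h2 : a * (u : ↥(locAlg R 𝔫)) =
        algebraMap ↥R ↥(locAlg R 𝔫) q₁ + algebraMap ↥R ↥(locAlg R 𝔫) q₂ := by
      rw [hu, ← map_add, ← hcr, map_mul, ← e]
      ring
    calc a = a * (u : ↥(locAlg R 𝔫)) * (↑u⁻¹ : ↥(locAlg R 𝔫)) := by
          rw [mul_assoc, Units.mul_inv, mul_one]
      _ = _ := by rw [h2, add_mul]
  · -- hpυ
    have := congrArg (algebraMap O ↥(locAlg R 𝔫)) hpυ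
    rw [map_natCast, map_mul, map_pow] at this
    rw [this]
    rfl
  · -- hζ
    rw [← map_pow, hζp, map_one]
  · -- hζd
    have := congrArg (algebraMap O ↥(locAlg R 𝔫)) hlam
    rw [map_sub, map_one, map_mul, map_pow] at this
    have h3 : algebraMap O ↥(locAlg R 𝔫) ϖ = ϖA := rfl
    rw [h3] at this
    rw [eq_add_of_sub_eq' this]
    ring
  · -- hd₀
    exact (lam0.isUnit).map (algebraMap O ↥(locAlg R 𝔫))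

variable (K)

/-- **(K-out) at a node of an abstract chart**, `F`-form. -/
theorem kOutAt_node_chart (θ₁ : ↥R →+* Rb₁) (hθ₁ : Function.Surjective θ₁)
    (θ₂ : ↥R →+* Rb₂) (hθ₂ : Function.Surjective θ₂)
    {V₁ V₂ : ValuationSubring F} (hV₁ : ∀ r : R, (r : F) ∈ V₁) (hV₂ : ∀ r : R, (r : F) ∈ V₂)
    (hker₁ : ∀ r : R, θ₁ r = 0 ↔ (r : F) ∈ V₁.nonunits)
    (hker₂ : ∀ r : R, θ₂ r = 0 ↔ (r : F) ∈ V₂.nonunits)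
    (hloc₁ : ∀ x ∈ V₁, ∃ a d : R, (d : F) ∉ V₁.nonunits ∧ x * (d : F) = (a : F))
    (hloc₂ : ∀ x ∈ V₂, ∃ a d : R, (d : F) ∉ V₂.nonunits ∧ x * (d : F) = (a : F))
    (ϖ : O) (hϖ₁ : algebraMap O F ϖ ∈ V₁.nonunits) (hϖ₂ : algebraMap O F ϖ ∈ V₂.nonunits)
    (hϖ0 : algebraMap O F ϖ ≠ 0)
    (hsat : ∀ r : R, (r : F) ∈ V₁.nonunits → (r : F) ∈ V₂.nonunits → algebraMap O ↥R ϖ ∣ r)
    (hsep₁₂ : ∃ ε : R, (ε : F) ∈ V₁.nonunits ∧ (ε : F) ∉ V₂.nonunits)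
    (hsep₂₁ : ∃ ε : R, (ε : F) ∈ V₂.nonunits ∧ (ε : F) ∉ V₁.nonunits)
    (ht₁ : Through V₁ 𝔫) (ht₂ : Through V₂ 𝔫)
    (hnode : ∀ r ∈ 𝔫, ∃ c p₁ p₂ : R, c ∉ 𝔫 ∧ (p₁ : F) ∈ V₁.nonunits ∧ (p₂ : F) ∈ V₂.nonunits ∧
      c * r = p₁ + p₂)
    {p j₀ : ℕ} (k : ℕ) (hp : p.Prime) (hj₀ : 1 ≤ j₀) (υ₀ : Oˣ)
    (hpυ : (p : O) = υ₀ * ϖ ^ ((p - 1) * j₀))
    (ζp : O) (hζp : ζp ^ p = 1) (lam0 : Oˣ) (hlam : ζp - 1 = lam0 * ϖ ^ j₀)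
    {ζ : K} (hζ : IsPrimitiveRoot ζ (p ^ k)) :
    KOutAt K 𝔫 V₁ V₂ ϖ (p ^ k) (k * ((p - 1) * j₀)) := by
  have H := nodeHyp_chart R 𝔫 θ₁ hθ₁ θ₂ hθ₂ hV₁ hV₂ hker₁ hker₂ hloc₁ hloc₂ ϖ hϖ₁ hϖ₂ hϖ0 hsat
    hsep₁₂ hsep₂₁ ht₁ ht₂ hnode hp hj₀ υ₀ hpυ ζp hζp lam0 hlam
  refine kOutAt_node_of_prod K R 𝔫 hV₁ hV₂ ht₁ ht₂ (ϖ := ϖ)
    (ϖA := algebraMap ↥R ↥(locAlg R 𝔫) (algebraMap O ↥R ϖ)) rfl (j₀ := j₀)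
    (υ := Units.map (algebraMap O ↥(locAlg R 𝔫)).toMonoidHom υ₀) ?_ k hζ
  letI := algV R 𝔫 hV₁ ht₁
  letI := algV R 𝔫 hV₂ ht₂
  exact H.toHyp

end Node

end Fermat.Agent.S33.L.NodeChart
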