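/-
S33 (row 61), STEP K at the NODES (helper29): **the hypotheses of (K-loc) at a crossing point of a
chart, generic `IsLocalization` language** (the node analogue of helper14's
`KummerSmoothInst.hyp_of_loc` / `KummerSmoothTheta.hyp_of_theta`).

`S` a domain (a chart of the nodal model), `𝔓₁ 𝔓₂ ≤ 𝔫` primes (`𝔓ᵢ` = the centres of the two vertical
valuation rings, `𝔫` a crossing point), `A` a localisation of `S` at `𝔫`, `Bᵢ` a localisation of `S`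
at `𝔓ᵢ`, `ϖ ∈ 𝔓₁ ⊓ 𝔓₂`, with

* `hinf  : 𝔓₁ ⊓ 𝔓₂ ≤ (ϖ)`                                  (`TwoComponentsFinal.ker_inf_ker_eq_fin/inf`),
* `hne₁₂ : ¬ 𝔓₁ ≤ 𝔓₂`, `hne₂₁ : ¬ 𝔓₂ ≤ 𝔓₁`                   (two different components),
* `hnode : ∀ r ∈ 𝔫, ∃ c ∉ 𝔫, ∃ p₁ ∈ 𝔓₁, ∃ p₂ ∈ 𝔓₂, c * r = p₁ + p₂`   (`P4/NodeGlue.node_of_crossingData`),
* `S ⧸ 𝔓ᵢ` integrally closed                                  (the Dedekind rings `RbarFin/RbarInf`),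
* `p = υ ϖ^((p-1) j₀)`, `ζ = 1 + ϖ^{j₀} d₀`, `ζ^p = 1`, `d₀` a unit (`CycloLevelInst.exists_cyclo_const_level`).

Then `hyp_of_loc_node : KummerLoc.Hyp (B := B₁ × B₂) (algebraMap S A ϖ) p j₀ υ` (Mathlib's
`Prod.algebra`), through helper19's `KummerNodeAbs.NodeHyp.of_branches` and `L/NodeBranch`.
`hyp_of_theta_node` is the same in `θ`-language (`θᵢ : S →+* Rbᵢ` surjective, `𝔓ᵢ = ker θᵢ`).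
-/
import Mathlib
import Fermat.Agent.S33.L.NodeBranch

set_option autoImplicit false
set_option linter.style.haveILetI false
set_option linter.unusedSectionVars false
set_option linter.style.longLine false

namespace Fermat.Agent.S33.L.NodeLoc

open Fermat.Agent.S33.New.KummerNodeAbs Fermat.Agent.S33.L.NodeBranch

section Fields

variable {S A : Type*} [CommRing S] [CommRing A] [Algebra S A]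
  (𝔫 : Ideal S) [h𝔫 : 𝔫.IsPrime] [hA : IsLocalization.AtPrime A 𝔫]

include hA in
/-- Every element of `A` is `x / t` with `t ∉ 𝔫`. -/
theorem exists_eq_mul_inv (a : A) :
    ∃ (x t : S) (u : Aˣ), t ∉ 𝔫 ∧ (u : A) = algebraMap S A t ∧ a * u = algebraMap S A x ∧
      a = algebraMap S A x * (↑u⁻¹ : A) := by
  obtain ⟨⟨x, t⟩, hxt⟩ := IsLocalization.surj 𝔫.primeCompl a
  obtain ⟨u, hu⟩ := IsLocalization.map_units A t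
  refine ⟨x, t, u, t.2, hu, by rw [hu]; exact hxt, ?_⟩
  rw [← hxt, ← hu, mul_assoc, Units.mul_inv, mul_one]

end Fields

section Node

variable {S A B₁ B₂ : Type*} [CommRing S] [IsDomain S] [CommRing A] [CommRing B₁] [CommRing B₂]
  [Algebra S A] [Algebra S B₁] [Algebra S B₂] [Algebra A B₁] [Algebra A B₂]
  [IsScalarTower S A B₁] [IsScalarTower S A B₂]
  (𝔫 𝔓₁ 𝔓₂ : Ideal S) [h𝔫 : 𝔫.IsPrime] [h𝔓₁ : 𝔓₁.IsPrime] [h𝔓₂ : 𝔓₂.IsPrime]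
  [hA : IsLocalization.AtPrime A 𝔫] [hB₁ : IsLocalization.AtPrime B₁ 𝔓₁]
  [hB₂ : IsLocalization.AtPrime B₂ 𝔓₂] (ϖ : S)

include hA hB₁ hB₂ in
/-- (sat) `𝔓₁ A ∩ 𝔓₂ A ⊆ ϖ A`. -/
theorem sat_of_loc (hϖ₁ : ϖ ∈ 𝔓₁) (hϖ₂ : ϖ ∈ 𝔓₂)
    (he₁ : ∀ x ∈ 𝔓₁, ∃ t, t ∉ 𝔓₁ ∧ ∃ y, t * x = ϖ * y)
    (he₂ : ∀ x ∈ 𝔓₂, ∃ t, t ∉ 𝔓₂ ∧ ∃ y, t * x = ϖ * y)
    (hinf : 𝔓₁ ⊓ 𝔓₂ ≤ Ideal.span {ϖ}) (a : A)
    (ha₁ : a ∈ branch (algebraMap S A ϖ) B₁) (ha₂ : a ∈ branch (algebraMap S A ϖ) B₂) :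
    ∃ a' : A, a = algebraMap S A ϖ * a' := by
  obtain ⟨x, t, u, -, -, hau, hax⟩ := exists_eq_mul_inv (A := A) 𝔫 a
  have hx₁ : x ∈ 𝔓₁ := by
    rw [← algebraMap_mem_branch_iff (A := A) (B := B₁) 𝔫 𝔓₁ ϖ hϖ₁ he₁, ← hau]
    exact Ideal.mul_mem_right _ _ ha₁
  have hx₂ : x ∈ 𝔓₂ := by
    rw [← algebraMap_mem_branch_iff (A := A) (B := B₂) 𝔫 𝔓₂ ϖ hϖ₂ he₂, ← hau]
    exact Ideal.mul_mem_right _ _ ha₂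
  obtain ⟨y, hy⟩ := Ideal.mem_span_singleton'.1 (hinf ⟨hx₁, hx₂⟩)
  refine ⟨algebraMap S A y * (↑u⁻¹ : A), ?_⟩
  rw [hax, ← hy, map_mul]
  ring

include hA hB₁ hB₂ in
/-- (node) `𝔪_A = 𝔓₁ A + 𝔓₂ A`. -/
theorem node_of_loc (hϖ₁ : ϖ ∈ 𝔓₁) (hϖ₂ : ϖ ∈ 𝔓₂)
    (he₁ : ∀ x ∈ 𝔓₁, ∃ t, t ∉ 𝔓₁ ∧ ∃ y, t * x = ϖ * y)
    (he₂ : ∀ x ∈ 𝔓₂, ∃ t, t ∉ 𝔓₂ ∧ ∃ y, t * x = ϖ * y)
    (hnode : ∀ r ∈ 𝔫, ∃ c, c ∉ 𝔫 ∧ ∃ p₁ ∈ 𝔓₁, ∃ p₂ ∈ 𝔓₂, c * r = p₁ + p₂)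
    [IsLocalRing A] (a : A) (ha : a ∈ IsLocalRing.maximalIdeal A) :
    ∃ p₁ ∈ branch (algebraMap S A ϖ) B₁, ∃ p₂ ∈ branch (algebraMap S A ϖ) B₂, a = p₁ + p₂ := by
  obtain ⟨x, t, u, -, -, hau, hax⟩ := exists_eq_mul_inv (A := A) 𝔫 a
  have hx : x ∈ 𝔫 := by
    rw [← IsLocalization.AtPrime.to_map_mem_maximal_iff A 𝔫 x, ← hau]
    exact Ideal.mul_mem_right _ _ ha
  obtain ⟨c, hc, p₁, hp₁, p₂, hp₂, hcx⟩ := hnode x hx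
  obtain ⟨v, hv⟩ := IsLocalization.map_units A (⟨c, hc⟩ : 𝔫.primeCompl)
  have hv' : (v : A) = algebraMap S A c := hv
  refine ⟨algebraMap S A p₁ * (↑v⁻¹ : A) * (↑u⁻¹ : A), ?_,
    algebraMap S A p₂ * (↑v⁻¹ : A) * (↑u⁻¹ : A), ?_, ?_⟩
  · exact Ideal.mul_mem_right _ _ (Ideal.mul_mem_right _ _
      ((algebraMap_mem_branch_iff (A := A) (B := B₁) 𝔫 𝔓₁ ϖ hϖ₁ he₁ p₁).2 hp₁))
  · exact Ideal.mul_mem_right _ _ (Ideal.mul_mem_right _ _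
      ((algebraMap_mem_branch_iff (A := A) (B := B₂) 𝔫 𝔓₂ ϖ hϖ₂ he₂ p₂).2 hp₂))
  · have h1 : algebraMap S A x = (algebraMap S A p₁ + algebraMap S A p₂) * (↑v⁻¹ : A) := by
      rw [← map_add, ← hcx, map_mul, ← hv', mul_comm (v : A), mul_assoc, Units.mul_inv, mul_one]
    rw [hax, h1]
    ring

include hA hB₁ hB₂ in
/-- **The hypotheses of (K-loc) at a crossing point of a chart** (`B₁ × B₂` with `Prod.algebra`). -/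
theorem hyp_of_loc_node [IsIntegrallyClosed (S ⧸ 𝔓₁)] [IsIntegrallyClosed (S ⧸ 𝔓₂)]
    (h₁ : 𝔓₁ ≤ 𝔫) (h₂ : 𝔓₂ ≤ 𝔫) (hϖ₁ : ϖ ∈ 𝔓₁) (hϖ₂ : ϖ ∈ 𝔓₂) (hϖ0 : ϖ ≠ 0)
    (hne₁₂ : ¬ 𝔓₁ ≤ 𝔓₂) (hne₂₁ : ¬ 𝔓₂ ≤ 𝔓₁) (hinf : 𝔓₁ ⊓ 𝔓₂ ≤ Ideal.span {ϖ})
    (hnode : ∀ r ∈ 𝔫, ∃ c, c ∉ 𝔫 ∧ ∃ p₁ ∈ 𝔓₁, ∃ p₂ ∈ 𝔓₂, c * r = p₁ + p₂)
    {p j₀ : ℕ} (hp : p.Prime) (hj₀ : 1 ≤ j₀) (υ : Aˣ)
    (hpυ : (p : A) = υ * algebraMap S A ϖ ^ ((p - 1) * j₀))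
    {ζ d₀ : A} (hζ : ζ ^ p = 1) (hζd : ζ = 1 + algebraMap S A ϖ ^ j₀ * d₀) (hd₀ : IsUnit d₀) :
    Fermat.Agent.S33.New.KummerLoc.Hyp (B := B₁ × B₂) (algebraMap S A ϖ) p j₀ υ := by
  haveI : IsLocalRing A := IsLocalization.AtPrime.isLocalRing A 𝔫
  haveI : IsDomain A := IsLocalization.isDomain_of_atPrime A 𝔫
  haveI : IsDomain B₁ := IsLocalization.isDomain_of_atPrime B₁ 𝔓₁
  haveI : IsDomain B₂ := IsLocalization.isDomain_of_atPrime B₂ 𝔓₂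
  have he₁ : ∀ x ∈ 𝔓₁, ∃ t, t ∉ 𝔓₁ ∧ ∃ y, t * x = ϖ * y :=
    exists_mul_eq_of_inf_le 𝔓₁ ϖ 𝔓₂ hne₂₁ hinf
  have he₂ : ∀ x ∈ 𝔓₂, ∃ t, t ∉ 𝔓₂ ∧ ∃ y, t * x = ϖ * y :=
    exists_mul_eq_of_inf_le 𝔓₂ ϖ 𝔓₁ hne₁₂ (by rw [inf_comm]; exact hinf)
  haveI := isIntegrallyClosed_quot_branch (A := A) (B := B₁) 𝔫 𝔓₁ ϖ h₁ hϖ₁ he₁
  haveI := isIntegrallyClosed_quot_branch (A := A) (B := B₂) 𝔫 𝔓₂ ϖ h₂ hϖ₂ he₂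
  have hϖA : algebraMap S A ϖ ≠ 0 := fun h => hϖ0
    (IsLocalization.injective A (Ideal.primeCompl_le_nonZeroDivisors 𝔫) (by rw [h, map_zero]))
  have hϖB₁ : algebraMap A B₁ (algebraMap S A ϖ) ≠ 0 := by
    rw [algebraMap_algebraMap]
    exact fun h => hϖ0
      (IsLocalization.injective B₁ (Ideal.primeCompl_le_nonZeroDivisors 𝔓₁) (by rw [h, map_zero]))
  have hϖB₂ : algebraMap A B₂ (algebraMap S A ϖ) ≠ 0 := by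
    rw [algebraMap_algebraMap]
    exact fun h => hϖ0
      (IsLocalization.injective B₂ (Ideal.primeCompl_le_nonZeroDivisors 𝔓₂) (by rw [h, map_zero]))
  refine (NodeHyp.of_branches (ζ := ζ) (d₀ := d₀)
    (branchHyp_of_loc (A := A) (B := B₁) 𝔫 𝔓₁ ϖ hϖ₁ he₁)
    (branchHyp_of_loc (A := A) (B := B₂) 𝔫 𝔓₂ ϖ hϖ₂ he₂) ?_ ?_ ?_ ?_ ?_ hp hj₀ hpυ hζ hζd hd₀).toHyp
  · intro a ha
    exact (mul_eq_zero.1 ha).resolve_left hϖA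
  · intro b hb
    exact (mul_eq_zero.1 hb).resolve_left hϖB₁
  · intro b hb
    exact (mul_eq_zero.1 hb).resolve_left hϖB₂
  · exact sat_of_loc (A := A) (B₁ := B₁) (B₂ := B₂) 𝔫 𝔓₁ 𝔓₂ ϖ hϖ₁ hϖ₂ he₁ he₂ hinf
  · exact node_of_loc (A := A) (B₁ := B₁) (B₂ := B₂) 𝔫 𝔓₁ 𝔓₂ ϖ hϖ₁ hϖ₂ he₁ he₂ hnode

end Node

/-! ### `θ`-language -/

section Theta

variable {S Rb₁ Rb₂ A B₁ B₂ : Type*} [CommRing S] [IsDomain S] [CommRing Rb₁] [IsDomain Rb₁]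
  [CommRing Rb₂] [IsDomain Rb₂] [CommRing A] [CommRing B₁] [CommRing B₂]
  [Algebra S A] [Algebra S B₁] [Algebra S B₂] [Algebra A B₁] [Algebra A B₂]
  [IsScalarTower S A B₁] [IsScalarTower S A B₂]
  (θ₁ : S →+* Rb₁) (θ₂ : S →+* Rb₂) (𝔫 : Ideal S) [h𝔫 : 𝔫.IsPrime]
  [hA : IsLocalization.AtPrime A 𝔫]
  [hk₁ : (RingHom.ker θ₁).IsPrime] [hk₂ : (RingHom.ker θ₂).IsPrime]
  [hB₁ : IsLocalization.AtPrime B₁ (RingHom.ker θ₁)]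
  [hB₂ : IsLocalization.AtPrime B₂ (RingHom.ker θ₂)] (ϖ : S)

include hA hB₁ hB₂ in
/-- **The hypotheses of (K-loc) at a crossing point, in `θ`-language** (`P3G/Crossing`: `θᵢ` the two
surjections of the chart onto the Dedekind rings of the components). -/
theorem hyp_of_theta_node [IsIntegrallyClosed Rb₁] [IsIntegrallyClosed Rb₂]
    (hs₁ : Function.Surjective θ₁) (hs₂ : Function.Surjective θ₂)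
    (h₁ : RingHom.ker θ₁ ≤ 𝔫) (h₂ : RingHom.ker θ₂ ≤ 𝔫)
    (hϖ₁ : ϖ ∈ RingHom.ker θ₁) (hϖ₂ : ϖ ∈ RingHom.ker θ₂) (hϖ0 : ϖ ≠ 0)
    (hne₁₂ : ¬ RingHom.ker θ₁ ≤ RingHom.ker θ₂) (hne₂₁ : ¬ RingHom.ker θ₂ ≤ RingHom.ker θ₁)
    (hinf : RingHom.ker θ₁ ⊓ RingHom.ker θ₂ ≤ Ideal.span {ϖ})
    (hnode : ∀ r ∈ 𝔫, ∃ c, c ∉ 𝔫 ∧ ∃ p₁ ∈ RingHom.ker θ₁, ∃ p₂ ∈ RingHom.ker θ₂, c * r = p₁ + p₂)
    {p j₀ : ℕ} (hp : p.Prime) (hj₀ : 1 ≤ j₀) (υ : Aˣ)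
    (hpυ : (p : A) = υ * algebraMap S A ϖ ^ ((p - 1) * j₀))
    {ζ d₀ : A} (hζ : ζ ^ p = 1) (hζd : ζ = 1 + algebraMap S A ϖ ^ j₀ * d₀) (hd₀ : IsUnit d₀) :
    Fermat.Agent.S33.New.KummerLoc.Hyp (B := B₁ × B₂) (algebraMap S A ϖ) p j₀ υ := by
  haveI : IsIntegrallyClosed (S ⧸ RingHom.ker θ₁) :=
    IsIntegrallyClosed.of_equiv (RingHom.quotientKerEquivOfSurjective hs₁).symm
  haveI : IsIntegrallyClosed (S ⧸ RingHom.ker θ₂) :=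
    IsIntegrallyClosed.of_equiv (RingHom.quotientKerEquivOfSurjective hs₂).symm
  exact hyp_of_loc_node (A := A) (B₁ := B₁) (B₂ := B₂) 𝔫 (RingHom.ker θ₁) (RingHom.ker θ₂) ϖ h₁ h₂
    hϖ₁ hϖ₂ hϖ0 hne₁₂ hne₂₁ hinf hnode hp hj₀ υ hpυ hζ hζd hd₀

end Theta

end Fermat.Agent.S33.L.NodeLoc
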