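/-
S33, `moonshots` row 61, STEP K, the last wire (helper27): **`KOutSmoothGood.NodeProv` and `Contracts.KProv`
at every good level.**

* Rfin conjunct = helper26's `L/KOutNode.kOutAt_node_fin`;
* Rinf conjunct = `L/KOutNodeInf.kOutAt_node_inf`;
* glue = helper14's `L/KOutSmoothGood.kProv_of_nodeProv`.
-/
import Mathlib
import Fermat.Agent.S33.L.KOutSmoothGood
import Fermat.Agent.S33.L.KOutNode
import Fermat.Agent.S33.L.KOutNodeInf

set_option autoImplicit false
set_option linter.unusedSectionVars false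
set_option linter.dupNamespace false
set_option linter.style.haveILetI false

namespace Fermat.Agent.S33.L.NodeProvAll

local notation "Qbar" => AlgebraicClosure ℚ

/-- **The node case of (K-out) at every good level.** -/
theorem nodeProv (M p : ℕ) [NeZero M] [Fact p.Prime] (hpM : ¬ p ∣ M)
    (A : ValuationSubring Qbar) (hA : A.LiesOverPrime p) (k : ℕ) :
    Fermat.Agent.S33.L.KOutSmoothGood.NodeProv M p A k := by
  intro K hK _ S₂ ϖ hϖ z hz hk j₀ lam0 υ hj₀ hlam hpυ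
  exact ⟨fun 𝔫 h𝔫 _ ht₁ ht₂ =>
      Fermat.Agent.S33.L.KOutNode.kOutAt_node_fin M p hpM A hA K hK S₂ ϖ hϖ hk hz lam0 υ hj₀
        hlam hpυ 𝔫 h𝔫 ht₁ ht₂,
    fun 𝔫 h𝔫 _ ht₁ ht₂ =>
      Fermat.Agent.S33.L.KOutNodeInf.kOutAt_node_inf M p hpM A hA K hK S₂ ϖ hϖ k hk hz hj₀ lam0 υ
        hlam hpυ 𝔫 h𝔫 ht₁ ht₂⟩

/-- **STEP K**: `Contracts.KProv M p A k`, with no hypothesis left. -/
theorem kProv (M p : ℕ) [NeZero M] [Fact p.Prime] (hpM : ¬ p ∣ M)
    (A : ValuationSubring Qbar) (hA : A.LiesOverPrime p) (k : ℕ) :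
    Fermat.Agent.S33.L.Contracts.KProv M p A k :=
  Fermat.Agent.S33.L.KOutSmoothGood.kProv_of_nodeProv hpM hA (nodeProv M p hpM A hA k)

end Fermat.Agent.S33.L.NodeProvAll
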