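/-
S33 (row 61), STEP K at the NODES, dispatch R15 (3) (helper6): **the remaining fields of helper19's
`KummerNodeAbs.NodeHyp.of_branches` (`regA`, `reg₁`, `reg₂`, `sat`, `node`, the cyclotomic constants)
and the assembled node theorem in the `locAlg` / `↥V` carrier** (second copy of helper4's
`L/NodeSat`, complementing helper29's `L/NodeBranch`).

LAYER 1 (generic; the binder block of helper29's `L/NodeBranch`, two branches).  `S` a domain (a chart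
of the nodal model), `𝔓₁ 𝔓₂ ≤ 𝔫` primes (`𝔓ᵢ` = the centres of the two vertical valuation rings, `𝔫`
the closed point), `A` a localisation of `S` at `𝔫`, `Bᵢ` a localisation of `S` at `𝔓ᵢ`, `ϖ ∈ 𝔓₁ ⊓ 𝔓₂`
with `𝔓₁ ⊓ 𝔓₂ ≤ (ϖ)` (the special fibre is reduced), `𝔓₁ ⊄ 𝔓₂ ⊄ 𝔓₁`, and

  `hnode : ∀ r ∈ 𝔫, ∃ c ∉ 𝔫, ∃ p₁ ∈ 𝔓₁, ∃ p₂ ∈ 𝔓₂, c * r = p₁ + p₂`     (`P4/NodeGlue.node_of_crossingData`).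

* `mem_branch_iff_of_mul_eq` : `x / t ∈ branch ϖ B ↔ x ∈ 𝔓`;
* `sat_of_loc` : `branch ϖ B₁ ⊓ branch ϖ B₂ ⊆ ϖ A`;
* `node_of_loc` : `𝔪_A = branch ϖ B₁ + branch ϖ B₂`;
* `isDomain_of_loc`, `reg_of_loc` : `ϖ` is a non zero divisor of every localisation of `S` at a prime;
* `const_hζ`, `const_hζd`, `const_hd₀` (+ `KummerSmoothTheta.natCast_eq_of_base`) : the constants of
  `L/CycloLevel.exists_cyclo_const` transported from the base ring `O` to `A`;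
* `nodeHyp_of_loc` : `KummerNodeAbs.NodeHyp B₁ B₂ (algebraMap S A ϖ) p j₀ υ ζ d₀`;
* `hyp_of_node_loc` : `KummerLoc.Hyp (B := B₁ × B₂) (algebraMap S A ϖ) p j₀ υ`.

LAYER 2 (carrier).  `R : Subalgebra O F` a chart, `A = locAlg R 𝔫`, `Bᵢ = ↥Vᵢ` with helper5's
`KTWireLoc.algV`, hypotheses in the `F`-form of helper14's `KOutSmooth.kOutAt_of_through₁`
(= fields of `P4/TwistRoots.Setup`, third component of `TwistRoots.CrossingFrob`):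

* `kOutAt_node_of_theta` : `Skeleton.KOutAt K 𝔫 V₁ V₂ ϖ (p ^ k) (k * ((p - 1) * j₀))` at a closed point
  lying on BOTH branches.
-/
import Mathlib
import Fermat.Agent.S33.L.NodeBranch
import Fermat.Agent.S33.L.VLoc
import Fermat.Agent.S33.New.KummerSmoothTheta

set_option autoImplicit false
set_option linter.style.haveILetI false
set_option linter.unusedSectionVars false
set_option linter.style.longLine false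

namespace Fermat.Agent.S33.L.NodeSatB

open Fermat.Agent.S33.New.KummerNodeAbs Fermat.Agent.S33.L.NodeBranch

/-! ### Layer 1, one branch -/

section One

variable {S A B : Type*} [CommRing S] [CommRing A] [CommRing B]
  [Algebra S A] [Algebra S B] [Algebra A B] [IsScalarTower S A B]
  (𝔫 𝔓 : Ideal S) [h𝔫 : 𝔫.IsPrime] [h𝔓 : 𝔓.IsPrime]
  [hA : IsLocalization.AtPrime A 𝔫] [hB : IsLocalization.AtPrime B 𝔓] (ϖ : S)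

include hA in
/-- `x / t ∈ branch ϖ B ↔ x ∈ 𝔓`. -/
theorem mem_branch_iff_of_mul_eq (hϖ : ϖ ∈ 𝔓)
    (he : ∀ x ∈ 𝔓, ∃ t, t ∉ 𝔓 ∧ ∃ y, t * x = ϖ * y) {a : A} {x t : S} (ht : t ∉ 𝔫)
    (hxt : a * algebraMap S A t = algebraMap S A x) :
    a ∈ branch (algebraMap S A ϖ) B ↔ x ∈ 𝔓 := by
  have htu : IsUnit (algebraMap S A t) := IsLocalization.map_units A (⟨t, ht⟩ : 𝔫.primeCompl)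
  rw [← algebraMap_mem_branch_iff (A := A) (B := B) 𝔫 𝔓 ϖ hϖ he x, ← hxt]
  exact (Ideal.mul_unit_mem_iff_mem _ htu).symm

include hA in
/-- A localisation of a domain at a prime is a domain. -/
theorem isDomain_of_loc [IsDomain S] : IsDomain A :=
  IsLocalization.isDomain_of_le_nonZeroDivisors A (Ideal.primeCompl_le_nonZeroDivisors 𝔫)

include hA in
/-- `ϖ ≠ 0` is a non zero divisor of the localisation. -/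
theorem reg_of_loc [IsDomain S] (hϖ0 : ϖ ≠ 0) (a : A) (h : algebraMap S A ϖ * a = 0) : a = 0 := by
  haveI : IsDomain A := isDomain_of_loc (A := A) 𝔫
  rcases mul_eq_zero.1 h with h | h
  · exfalso
    apply hϖ0
    apply IsLocalization.injective A (Ideal.primeCompl_le_nonZeroDivisors 𝔫)
    rw [h, map_zero]
  · exact h

end One

/-! ### The constants -/

section Const

variable {O A : Type*} [CommRing O] [CommRing A] [Algebra O A]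

theorem const_hζ {p : ℕ} {ζp : O} (hζp : ζp ^ p = 1) : algebraMap O A ζp ^ p = 1 := by
  rw [← map_pow, hζp, map_one]

theorem const_hζd {j₀ : ℕ} {ϖ ζp : O} (lam0 : Oˣ) (hlam : ζp - 1 = lam0 * ϖ ^ j₀) :
    algebraMap O A ζp = 1 + algebraMap O A ϖ ^ j₀ * algebraMap O A (lam0 : O) := by
  have h : ζp = 1 + ϖ ^ j₀ * lam0 := by
    rw [mul_comm, ← hlam]; ring
  rw [h]
  simp only [map_add, map_one, map_mul, map_pow]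

theorem const_hd₀ (lam0 : Oˣ) : IsUnit (algebraMap O A (lam0 : O)) :=
  lam0.isUnit.map (algebraMap O A)

end Const

/-! ### Layer 1, two branches -/

section Two

variable {S A B₁ B₂ : Type*} [CommRing S] [CommRing A] [CommRing B₁] [CommRing B₂]
  [Algebra S A] [Algebra S B₁] [Algebra S B₂] [Algebra A B₁] [Algebra A B₂]
  [IsScalarTower S A B₁] [IsScalarTower S A B₂]
  (𝔫 𝔓₁ 𝔓₂ : Ideal S) [h𝔫 : 𝔫.IsPrime] [h𝔓₁ : 𝔓₁.IsPrime] [h𝔓₂ : 𝔓₂.IsPrime]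
  [hA : IsLocalization.AtPrime A 𝔫] [hB₁ : IsLocalization.AtPrime B₁ 𝔓₁]
  [hB₂ : IsLocalization.AtPrime B₂ 𝔓₂] (ϖ : S)

include hA hB₁ hB₂ in
/-- **`sat`**: `branch ϖ B₁ ⊓ branch ϖ B₂ ⊆ ϖ A`. -/
theorem sat_of_loc (hϖ₁ : ϖ ∈ 𝔓₁) (hϖ₂ : ϖ ∈ 𝔓₂)
    (he₁ : ∀ x ∈ 𝔓₁, ∃ t, t ∉ 𝔓₁ ∧ ∃ y, t * x = ϖ * y)
    (he₂ : ∀ x ∈ 𝔓₂, ∃ t, t ∉ 𝔓₂ ∧ ∃ y, t * x = ϖ * y)
    (hinf : 𝔓₁ ⊓ 𝔓₂ ≤ Ideal.span {ϖ}) (a : A)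
    (h₁ : a ∈ branch (algebraMap S A ϖ) B₁) (h₂ : a ∈ branch (algebraMap S A ϖ) B₂) :
    ∃ a' : A, a = algebraMap S A ϖ * a' := by
  obtain ⟨⟨x, t⟩, hxt⟩ := IsLocalization.surj 𝔫.primeCompl a
  have hx₁ : x ∈ 𝔓₁ :=
    (mem_branch_iff_of_mul_eq (A := A) (B := B₁) 𝔫 𝔓₁ ϖ hϖ₁ he₁ t.2 hxt).1 h₁
  have hx₂ : x ∈ 𝔓₂ :=
    (mem_branch_iff_of_mul_eq (A := A) (B := B₂) 𝔫 𝔓₂ ϖ hϖ₂ he₂ t.2 hxt).1 h₂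
  obtain ⟨y, hy⟩ := Ideal.mem_span_singleton'.1 (hinf ⟨hx₁, hx₂⟩)
  obtain ⟨u, hu⟩ := IsLocalization.map_units A t
  refine ⟨algebraMap S A y * ↑u⁻¹, ?_⟩
  have h1 : a = algebraMap S A x * ↑u⁻¹ := by
    rw [← hxt, ← hu, mul_assoc, Units.mul_inv, mul_one]
  rw [h1, ← hy, map_mul]
  ring

include hA hB₁ hB₂ in
/-- **`node`**: `𝔪_A = branch ϖ B₁ + branch ϖ B₂`. -/
theorem node_of_loc [IsLocalRing A] (hϖ₁ : ϖ ∈ 𝔓₁) (hϖ₂ : ϖ ∈ 𝔓₂)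
    (he₁ : ∀ x ∈ 𝔓₁, ∃ t, t ∉ 𝔓₁ ∧ ∃ y, t * x = ϖ * y)
    (he₂ : ∀ x ∈ 𝔓₂, ∃ t, t ∉ 𝔓₂ ∧ ∃ y, t * x = ϖ * y)
    (hnode : ∀ r ∈ 𝔫, ∃ c, c ∉ 𝔫 ∧ ∃ p₁ ∈ 𝔓₁, ∃ p₂ ∈ 𝔓₂, c * r = p₁ + p₂)
    (a : A) (ha : a ∈ IsLocalRing.maximalIdeal A) :
    ∃ p₁ ∈ branch (algebraMap S A ϖ) B₁, ∃ p₂ ∈ branch (algebraMap S A ϖ) B₂, a = p₁ + p₂ := by
  obtain ⟨⟨x, t⟩, hxt⟩ := IsLocalization.surj 𝔫.primeCompl a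
  have hx : x ∈ 𝔫 := by
    rw [← IsLocalization.AtPrime.to_map_mem_maximal_iff A 𝔫 x, ← hxt]
    exact Ideal.mul_mem_right _ _ ha
  obtain ⟨c, hc, q₁, hq₁, q₂, hq₂, e⟩ := hnode x hx
  have hct : c * (t : S) ∉ 𝔫 := fun h => (h𝔫.mem_or_mem h).elim hc t.2
  obtain ⟨u, hu⟩ := IsLocalization.map_units A (⟨c * (t : S), hct⟩ : 𝔫.primeCompl)
  have hu' : (u : A) = algebraMap S A c * algebraMap S A (t : S) := by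
    rw [hu, ← map_mul]
  have h1 : a * u = algebraMap S A q₁ + algebraMap S A q₂ := by
    rw [hu', ← map_add, ← e, map_mul, ← hxt]
    ring
  refine ⟨algebraMap S A q₁ * ↑u⁻¹, Ideal.mul_mem_right _ _
      ((algebraMap_mem_branch_iff (A := A) (B := B₁) 𝔫 𝔓₁ ϖ hϖ₁ he₁ q₁).2 hq₁),
    algebraMap S A q₂ * ↑u⁻¹, Ideal.mul_mem_right _ _
      ((algebraMap_mem_branch_iff (A := A) (B := B₂) 𝔫 𝔓₂ ϖ hϖ₂ he₂ q₂).2 hq₂), ?_⟩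
  rw [← add_mul, ← h1, mul_assoc, Units.mul_inv, mul_one]

include hA hB₁ hB₂ in
/-- **The node hypotheses for `(A, B₁, B₂) = (S_𝔫, S_𝔓₁, S_𝔓₂)`.** -/
theorem nodeHyp_of_loc [IsDomain S] [IsLocalRing A] [IsIntegrallyClosed (S ⧸ 𝔓₁)]
    [IsIntegrallyClosed (S ⧸ 𝔓₂)] (h𝔓₁𝔫 : 𝔓₁ ≤ 𝔫) (h𝔓₂𝔫 : 𝔓₂ ≤ 𝔫) (hϖ₁ : ϖ ∈ 𝔓₁) (hϖ₂ : ϖ ∈ 𝔓₂)
    (hϖ0 : ϖ ≠ 0) (hne₁ : ¬ 𝔓₂ ≤ 𝔓₁) (hne₂ : ¬ 𝔓₁ ≤ 𝔓₂) (hinf : 𝔓₁ ⊓ 𝔓₂ ≤ Ideal.span {ϖ})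
    (hnode : ∀ r ∈ 𝔫, ∃ c, c ∉ 𝔫 ∧ ∃ p₁ ∈ 𝔓₁, ∃ p₂ ∈ 𝔓₂, c * r = p₁ + p₂)
    {p j₀ : ℕ} {υ : Aˣ} {ζ d₀ : A} (hp : p.Prime) (hj₀ : 1 ≤ j₀)
    (hpυ : (p : A) = υ * algebraMap S A ϖ ^ ((p - 1) * j₀)) (hζ : ζ ^ p = 1)
    (hζd : ζ = 1 + algebraMap S A ϖ ^ j₀ * d₀) (hd₀ : IsUnit d₀) :
    NodeHyp B₁ B₂ (algebraMap S A ϖ) p j₀ υ ζ d₀ := by
  have he₁ : ∀ x ∈ 𝔓₁, ∃ t, t ∉ 𝔓₁ ∧ ∃ y, t * x = ϖ * y :=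
    exists_mul_eq_of_inf_le 𝔓₁ ϖ 𝔓₂ hne₁ hinf
  have he₂ : ∀ x ∈ 𝔓₂, ∃ t, t ∉ 𝔓₂ ∧ ∃ y, t * x = ϖ * y :=
    exists_mul_eq_of_inf_le 𝔓₂ ϖ 𝔓₁ hne₂ (by rwa [inf_comm])
  haveI := isIntegrallyClosed_quot_branch (A := A) (B := B₁) 𝔫 𝔓₁ ϖ h𝔓₁𝔫 hϖ₁ he₁
  haveI := isIntegrallyClosed_quot_branch (A := A) (B := B₂) 𝔫 𝔓₂ ϖ h𝔓₂𝔫 hϖ₂ he₂
  refine NodeHyp.of_branches
    (branchHyp_of_loc (A := A) (B := B₁) 𝔫 𝔓₁ ϖ hϖ₁ he₁)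
    (branchHyp_of_loc (A := A) (B := B₂) 𝔫 𝔓₂ ϖ hϖ₂ he₂)
    (reg_of_loc (A := A) 𝔫 ϖ hϖ0) ?_ ?_
    (sat_of_loc (A := A) (B₁ := B₁) (B₂ := B₂) 𝔫 𝔓₁ 𝔓₂ ϖ hϖ₁ hϖ₂ he₁ he₂ hinf)
    (node_of_loc (A := A) (B₁ := B₁) (B₂ := B₂) 𝔫 𝔓₁ 𝔓₂ ϖ hϖ₁ hϖ₂ he₁ he₂ hnode)
    hp hj₀ hpυ hζ hζd hd₀
  · intro b hb
    rw [algebraMap_algebraMap] at hb
    exact reg_of_loc (A := B₁) 𝔓₁ ϖ hϖ0 b hb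
  · intro b hb
    rw [algebraMap_algebraMap] at hb
    exact reg_of_loc (A := B₂) 𝔓₂ ϖ hϖ0 b hb

include hA hB₁ hB₂ in
/-- **`KummerLoc.Hyp` at a node, for `(A, B) = (S_𝔫, S_𝔓₁ × S_𝔓₂)`.** -/
theorem hyp_of_node_loc [IsDomain S] [IsLocalRing A] [IsIntegrallyClosed (S ⧸ 𝔓₁)]
    [IsIntegrallyClosed (S ⧸ 𝔓₂)] (h𝔓₁𝔫 : 𝔓₁ ≤ 𝔫) (h𝔓₂𝔫 : 𝔓₂ ≤ 𝔫) (hϖ₁ : ϖ ∈ 𝔓₁) (hϖ₂ : ϖ ∈ 𝔓₂)
    (hϖ0 : ϖ ≠ 0) (hne₁ : ¬ 𝔓₂ ≤ 𝔓₁) (hne₂ : ¬ 𝔓₁ ≤ 𝔓₂) (hinf : 𝔓₁ ⊓ 𝔓₂ ≤ Ideal.span {ϖ})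
    (hnode : ∀ r ∈ 𝔫, ∃ c, c ∉ 𝔫 ∧ ∃ p₁ ∈ 𝔓₁, ∃ p₂ ∈ 𝔓₂, c * r = p₁ + p₂)
    {p j₀ : ℕ} {υ : Aˣ} {ζ d₀ : A} (hp : p.Prime) (hj₀ : 1 ≤ j₀)
    (hpυ : (p : A) = υ * algebraMap S A ϖ ^ ((p - 1) * j₀)) (hζ : ζ ^ p = 1)
    (hζd : ζ = 1 + algebraMap S A ϖ ^ j₀ * d₀) (hd₀ : IsUnit d₀) :
    Fermat.Agent.S33.New.KummerLoc.Hyp (B := B₁ × B₂) (algebraMap S A ϖ) p j₀ υ :=
  (nodeHyp_of_loc (A := A) (B₁ := B₁) (B₂ := B₂) 𝔫 𝔓₁ 𝔓₂ ϖ h𝔓₁𝔫 h𝔓₂𝔫 hϖ₁ hϖ₂ hϖ0 hne₁ hne₂ hinf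
    hnode hp hj₀ hpυ hζ hζd hd₀).toHyp

end Two

/-! ### Layer 2: the carrier `locAlg R 𝔫`, `↥V₁`, `↥V₂` -/

section Carrier

open Fermat.Agent.S33.L.Skeleton Fermat.Agent.S33.L.KTWireLoc Fermat.Agent.S33.L.VLoc
  Fermat.Agent.P4.TwistRoots Fermat.Agent.G.PointsLoc AlgebraicCurve

variable {O K F : Type*} [CommRing O] [IsDomain O] [IsDiscreteValuationRing O]
  [Field K] [Algebra O K] [IsFractionRing O K]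
  [Field F] [Algebra K F] [Algebra O F] [IsScalarTower O K F]

variable (K) (R : Subalgebra O F) [IsFractionRing ↥R F]

/-- **`KummerLoc.Hyp` at a node of a chart**, carrier `A = locAlg R 𝔫`, `B = ↥V₁ × ↥V₂` with the
product of helper5's two `algV`; hypotheses in the `F`-form of helper14's
`KOutSmooth.kOutAt_of_through₁` (fields of `TwistRoots.Setup`, third component of
`TwistRoots.CrossingFrob`, constants of `CycloLevel.exists_cyclo_const`). -/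
theorem hyp_node_of_theta {Rb₁ Rb₂ : Type*} [CommRing Rb₁] [IsDomain Rb₁] [IsIntegrallyClosed Rb₁]
    [CommRing Rb₂] [IsDomain Rb₂] [IsIntegrallyClosed Rb₂]
    (θ₁ : ↥R →+* Rb₁) (hθ₁ : Function.Surjective θ₁) (θ₂ : ↥R →+* Rb₂)
    (hθ₂ : Function.Surjective θ₂) (V₁ V₂ : ValuationSubring F)
    (hV₁ : ∀ r : R, algebraMap ↥R F r ∈ V₁) (hV₂ : ∀ r : R, algebraMap ↥R F r ∈ V₂)
    (hker₁ : ∀ r : R, θ₁ r = 0 ↔ algebraMap ↥R F r ∈ V₁.nonunits)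
    (hker₂ : ∀ r : R, θ₂ r = 0 ↔ algebraMap ↥R F r ∈ V₂.nonunits)
    (hloc₁ : ∀ x ∈ V₁, ∃ a d : R, algebraMap ↥R F d ∉ V₁.nonunits ∧
      x * algebraMap ↥R F d = algebraMap ↥R F a)
    (hloc₂ : ∀ x ∈ V₂, ∃ a d : R, algebraMap ↥R F d ∉ V₂.nonunits ∧
      x * algebraMap ↥R F d = algebraMap ↥R F a)
    (ϖ : O) (hϖV₁ : algebraMap O F ϖ ∈ V₁.nonunits) (hϖV₂ : algebraMap O F ϖ ∈ V₂.nonunits)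
    (hϖ0 : algebraMap O F ϖ ≠ 0)
    (hsat : ∀ r : R, algebraMap ↥R F r ∈ V₁.nonunits → algebraMap ↥R F r ∈ V₂.nonunits →
      algebraMap O ↥R ϖ ∣ r)
    (hsep₁₂ : ∃ ε : R, algebraMap ↥R F ε ∈ V₁.nonunits ∧ algebraMap ↥R F ε ∉ V₂.nonunits)
    (hsep₂₁ : ∃ ε : R, algebraMap ↥R F ε ∈ V₂.nonunits ∧ algebraMap ↥R F ε ∉ V₁.nonunits)
    (𝔫 : Ideal ↥R) [h𝔫 : 𝔫.IsPrime] (ht₁ : Through V₁ 𝔫) (ht₂ : Through V₂ 𝔫)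
    (hnode : ∀ r ∈ 𝔫, ∃ c p₁ p₂ : R, c ∉ 𝔫 ∧ algebraMap ↥R F p₁ ∈ V₁.nonunits ∧
      algebraMap ↥R F p₂ ∈ V₂.nonunits ∧ c * r = p₁ + p₂)
    {p j₀ : ℕ} (hp : p.Prime) (hj₀ : 1 ≤ j₀) (υ₀ : Oˣ)
    (hpυ : (p : O) = υ₀ * ϖ ^ ((p - 1) * j₀))
    (ζp : O) (hζp : ζp ^ p = 1) (lam0 : Oˣ) (hlam : ζp - 1 = lam0 * ϖ ^ j₀) :
    letI := algV R 𝔫 hV₁ ht₁
    letI := algV R 𝔫 hV₂ ht₂
    Fermat.Agent.S33.New.KummerLoc.Hyp (B := ↥V₁ × ↥V₂)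
      (algebraMap ↥R ↥(locAlg R 𝔫) (algebraMap O ↥R ϖ)) p j₀
      (Units.map (algebraMap O ↥(locAlg R 𝔫)).toMonoidHom υ₀) := by
  let 𝔓₁ : Ideal ↥R := RingHom.ker θ₁
  let 𝔓₂ : Ideal ↥R := RingHom.ker θ₂
  haveI h𝔓₁p : 𝔓₁.IsPrime := RingHom.ker_isPrime θ₁
  haveI h𝔓₂p : 𝔓₂.IsPrime := RingHom.ker_isPrime θ₂
  have h𝔓₁ : ∀ r : R, r ∈ 𝔓₁ ↔ (r : F) ∈ V₁.nonunits := fun r =>
    (RingHom.mem_ker).trans (hker₁ r)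
  have h𝔓₂ : ∀ r : R, r ∈ 𝔓₂ ↔ (r : F) ∈ V₂.nonunits := fun r =>
    (RingHom.mem_ker).trans (hker₂ r)
  haveI : IsIntegrallyClosed (↥R ⧸ 𝔓₁) :=
    Fermat.Agent.S33.New.KummerSmoothTheta.isIntegrallyClosed_quot_ker θ₁ hθ₁
  haveI : IsIntegrallyClosed (↥R ⧸ 𝔓₂) :=
    Fermat.Agent.S33.New.KummerSmoothTheta.isIntegrallyClosed_quot_ker θ₂ hθ₂
  letI a₁ := algRV R hV₁
  letI a₂ := algRV R hV₂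
  letI b₁ := algV R 𝔫 hV₁ ht₁
  letI b₂ := algV R 𝔫 hV₂ ht₂
  haveI := isScalarTower_loc_V R hV₁ 𝔫 ht₁
  haveI := isScalarTower_loc_V R hV₂ 𝔫 ht₂
  haveI := isLocalization_V R hV₁ 𝔓₁ h𝔓₁ hloc₁
  haveI := isLocalization_V R hV₂ 𝔓₂ h𝔓₂ hloc₂
  have h𝔓₁𝔫 : 𝔓₁ ≤ 𝔫 := fun r hr => ht₁ r ((h𝔓₁ r).1 hr)
  have h𝔓₂𝔫 : 𝔓₂ ≤ 𝔫 := fun r hr => ht₂ r ((h𝔓₂ r).1 hr)
  have hϖ₁ : algebraMap O ↥R ϖ ∈ 𝔓₁ := (h𝔓₁ _).2 hϖV₁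
  have hϖ₂ : algebraMap O ↥R ϖ ∈ 𝔓₂ := (h𝔓₂ _).2 hϖV₂
  have hϖR0 : algebraMap O ↥R ϖ ≠ 0 := by
    intro h
    apply hϖ0
    have := congrArg (fun z : ↥R => (z : F)) h
    exact this
  have hne₁ : ¬ 𝔓₂ ≤ 𝔓₁ := by
    obtain ⟨ε, hε₂, hε₁⟩ := hsep₂₁
    exact fun h => hε₁ ((h𝔓₁ ε).1 (h ((h𝔓₂ ε).2 hε₂)))
  have hne₂ : ¬ 𝔓₁ ≤ 𝔓₂ := by
    obtain ⟨ε, hε₁, hε₂⟩ := hsep₁₂
    exact fun h => hε₂ ((h𝔓₂ ε).1 (h ((h𝔓₁ ε).2 hε₁)))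
  have hinf : 𝔓₁ ⊓ 𝔓₂ ≤ Ideal.span {algebraMap O ↥R ϖ} := by
    rintro r ⟨h1, h2⟩
    exact Ideal.mem_span_singleton.2 (hsat r ((h𝔓₁ r).1 h1) ((h𝔓₂ r).1 h2))
  have hnode' : ∀ r ∈ 𝔫, ∃ c, c ∉ 𝔫 ∧ ∃ p₁ ∈ 𝔓₁, ∃ p₂ ∈ 𝔓₂, c * r = p₁ + p₂ := by
    intro r hr
    obtain ⟨c, p₁, p₂, hc, h1, h2, e⟩ := hnode r hr
    exact ⟨c, hc, p₁, (h𝔓₁ p₁).2 h1, p₂, (h𝔓₂ p₂).2 h2, e⟩
  exact hyp_of_node_loc (S := ↥R) (A := ↥(locAlg R 𝔫)) (B₁ := ↥V₁) (B₂ := ↥V₂) 𝔫 𝔓₁ 𝔓₂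
    (algebraMap O ↥R ϖ) h𝔓₁𝔫 h𝔓₂𝔫 hϖ₁ hϖ₂ hϖR0 hne₁ hne₂ hinf hnode' hp hj₀
    (ζ := algebraMap O ↥(locAlg R 𝔫) ζp) (d₀ := algebraMap O ↥(locAlg R 𝔫) (lam0 : O))
    (Fermat.Agent.S33.New.KummerSmoothTheta.natCast_eq_of_base υ₀ hpυ) (const_hζ hζp)
    (const_hζd lam0 hlam) (const_hd₀ lam0)

/-- **(K-out) at a node of a chart**: `Skeleton.KOutAt` at a closed point lying on BOTH vertical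
components, with the same loss `k (p - 1) j₀` as on one branch (helper14's
`KOutSmooth.kOutAt_of_through₁/₂`). -/
theorem kOutAt_node_of_theta {Rb₁ Rb₂ : Type*} [CommRing Rb₁] [IsDomain Rb₁]
    [IsIntegrallyClosed Rb₁] [CommRing Rb₂] [IsDomain Rb₂] [IsIntegrallyClosed Rb₂]
    (θ₁ : ↥R →+* Rb₁) (hθ₁ : Function.Surjective θ₁) (θ₂ : ↥R →+* Rb₂)
    (hθ₂ : Function.Surjective θ₂) (V₁ V₂ : ValuationSubring F)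
    (hV₁ : ∀ r : R, algebraMap ↥R F r ∈ V₁) (hV₂ : ∀ r : R, algebraMap ↥R F r ∈ V₂)
    (hker₁ : ∀ r : R, θ₁ r = 0 ↔ algebraMap ↥R F r ∈ V₁.nonunits)
    (hker₂ : ∀ r : R, θ₂ r = 0 ↔ algebraMap ↥R F r ∈ V₂.nonunits)
    (hloc₁ : ∀ x ∈ V₁, ∃ a d : R, algebraMap ↥R F d ∉ V₁.nonunits ∧
      x * algebraMap ↥R F d = algebraMap ↥R F a)
    (hloc₂ : ∀ x ∈ V₂, ∃ a d : R, algebraMap ↥R F d ∉ V₂.nonunits ∧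
      x * algebraMap ↥R F d = algebraMap ↥R F a)
    (ϖ : O) (hϖV₁ : algebraMap O F ϖ ∈ V₁.nonunits) (hϖV₂ : algebraMap O F ϖ ∈ V₂.nonunits)
    (hϖ0 : algebraMap O F ϖ ≠ 0)
    (hsat : ∀ r : R, algebraMap ↥R F r ∈ V₁.nonunits → algebraMap ↥R F r ∈ V₂.nonunits →
      algebraMap O ↥R ϖ ∣ r)
    (hsep₁₂ : ∃ ε : R, algebraMap ↥R F ε ∈ V₁.nonunits ∧ algebraMap ↥R F ε ∉ V₂.nonunits)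
    (hsep₂₁ : ∃ ε : R, algebraMap ↥R F ε ∈ V₂.nonunits ∧ algebraMap ↥R F ε ∉ V₁.nonunits)
    (𝔫 : Ideal ↥R) [h𝔫 : 𝔫.IsPrime] (ht₁ : Through V₁ 𝔫) (ht₂ : Through V₂ 𝔫)
    (hnode : ∀ r ∈ 𝔫, ∃ c p₁ p₂ : R, c ∉ 𝔫 ∧ algebraMap ↥R F p₁ ∈ V₁.nonunits ∧
      algebraMap ↥R F p₂ ∈ V₂.nonunits ∧ c * r = p₁ + p₂)
    {p j₀ : ℕ} (k : ℕ) (hp : p.Prime) (hj₀ : 1 ≤ j₀) (υ₀ : Oˣ)
    (hpυ : (p : O) = υ₀ * ϖ ^ ((p - 1) * j₀))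
    (ζp : O) (hζp : ζp ^ p = 1) (lam0 : Oˣ) (hlam : ζp - 1 = lam0 * ϖ ^ j₀)
    {ζ : K} (hζ : IsPrimitiveRoot ζ (p ^ k)) :
    KOutAt K 𝔫 V₁ V₂ ϖ (p ^ k) (k * ((p - 1) * j₀)) :=
  kOutAt_node_of_prod K R 𝔫 hV₁ hV₂ ht₁ ht₂ (ϖ := ϖ)
    (ϖA := algebraMap ↥R ↥(locAlg R 𝔫) (algebraMap O ↥R ϖ)) rfl
    (hyp_node_of_theta R θ₁ hθ₁ θ₂ hθ₂ V₁ V₂ hV₁ hV₂ hker₁ hker₂ hloc₁ hloc₂ ϖ hϖV₁ hϖV₂ hϖ0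
      hsat hsep₁₂ hsep₂₁ 𝔫 ht₁ ht₂ hnode hp hj₀ υ₀ hpυ ζp hζp lam0 hlam) k hζ

end Carrier

end Fermat.Agent.S33.L.NodeSatB
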