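/-
S33, row 61, STEP L, slice [M2] (helper29): **`τ η = η ^ a` on the roots of unity of a stable level, and
the level of `ζ_{p^k}`.**

* `levelAut_eq_pow` : `K` a Galois-stable level, `τ ∈ Gal(ℚ̄/ℚ)` with `τ μ = μ ^ a` on the `e`-th roots
  of unity of `ℚ̄`; then `levelAut K hK τ η = η ^ a` for every `η : Lvl K` with `η ^ e = 1`;
* `levelFF_smul_algebraMap_eq_pow`, `toRingAut_levelFF_algebraMap_eq_pow` : the same for the
  coefficientwise action on `FF (Lvl K) N`: the hypothesis `hτη` of `L/Skeleton.tOutAt_of_kOut` and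
  `exists_section` (`τ := SemilinearAut.toRingAut (levelFF K hK N τ)`, `e := p ^ k`);
* `exists_zeta_level` : a primitive `m`-th root of unity of `ℚ̄` and a number field containing it
  (to be put into `K₁`);
* `exists_zeta_baseRing` : at every level `K ⊇ K₁` it is a primitive root of unity of
  `O_K = baseRing A K` (`CycloLevelInst.exists_primitiveRoot_baseRing`).
-/
import Mathlib
import Fermat.Agent.P3G.GammaAut
import Fermat.Agent.S33.L.CycloLevelInst

set_option autoImplicit false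
set_option linter.unusedSectionVars false
set_option linter.style.haveILetI false

noncomputable section

namespace Fermat.Agent.S33.L.TauEta

open AlgebraicCurve ModularCurve
open Fermat.Agent.N4.Setting Fermat.Agent.N4F.C Fermat.Agent.N4F.C.Levels Fermat.Agent.N4F.C.Galois
  Fermat.Agent.N4F.C.CoeffAut
  Fermat.Agent.P3G.GammaAut Fermat.Agent.P3G.GammaDict

local notation "Qbar" => AlgebraicClosure ℚ
local notation "Γ" => (AlgebraicClosure ℚ ≃ₐ[ℚ] AlgebraicClosure ℚ)

section Level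

variable (K : IntermediateField ℚ Qbar) (hK : ∀ (τ : Γ) (x : Qbar), x ∈ K → τ x ∈ K)

/-- `τ η = η ^ a` on the `e`-th roots of unity of a stable level. -/
theorem levelAut_eq_pow (τ : Γ) {e a : ℕ}
    (hτ : ∀ μ : Qbar, μ ^ e = 1 → τ μ = μ ^ a) {η : Lvl K} (hη : η ^ e = 1) :
    levelAut K hK τ η = η ^ a := by
  apply (algebraMap (Lvl K) Qbar).injective
  rw [algebraMap_levelAut, map_pow]
  refine hτ _ ?_
  rw [← map_pow, hη, map_one]

variable (N : ℕ) [NeZero N]

/-- **`hτη` of `L/Skeleton`, `•`-form.** -/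
theorem levelFF_smul_algebraMap_eq_pow (τ : Γ) {e a : ℕ}
    (hτ : ∀ μ : Qbar, μ ^ e = 1 → τ μ = μ ^ a) {η : Lvl K} (hη : η ^ e = 1) :
    levelFF K hK N τ • algebraMap (Lvl K) (FF (Lvl K) N) η =
      algebraMap (Lvl K) (FF (Lvl K) N) η ^ a := by
  rw [levelFF_smul_algebraMap, levelAut_eq_pow K hK τ hτ hη, map_pow]

/-- **`hτη` of `L/Skeleton`, ring-automorphism form.** -/
theorem toRingAut_levelFF_algebraMap_eq_pow (τ : Γ) {e a : ℕ}
    (hτ : ∀ μ : Qbar, μ ^ e = 1 → τ μ = μ ^ a) :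
    ∀ η : Lvl K, η ^ e = 1 →
      SemilinearAut.toRingAut (levelFF K hK N τ) (algebraMap (Lvl K) (FF (Lvl K) N) η) =
        algebraMap (Lvl K) (FF (Lvl K) N) η ^ a :=
  fun _ hη => levelFF_smul_algebraMap_eq_pow K hK N τ hτ hη

end Level

section Zeta

/-- A primitive `m`-th root of unity of `ℚ̄` and a number field containing it. -/
theorem exists_zeta_level {m : ℕ} (hm : 0 < m) :
    ∃ (ζ : Qbar) (K₁ : IntermediateField ℚ Qbar), IsPrimitiveRoot ζ m ∧
      FiniteDimensional ℚ K₁ ∧ ζ ∈ K₁ := by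
  haveI : NeZero ((m : ℕ) : Qbar) := ⟨Nat.cast_ne_zero.mpr hm.ne'⟩
  obtain ⟨ζ, hζ⟩ := HasEnoughRootsOfUnity.exists_primitiveRoot Qbar m
  have hint : IsIntegral ℚ ζ := (hζ.isIntegral hm).tower_top
  exact ⟨ζ, IntermediateField.adjoin ℚ {ζ}, hζ,
    IntermediateField.adjoin.finiteDimensional hint,
    IntermediateField.mem_adjoin_simple_self ℚ ζ⟩

/-- At every level containing `ζ`, it is a primitive root of unity of `O_K`. -/
theorem exists_zeta_baseRing (A : ValuationSubring Qbar) {m : ℕ} (hm : 0 < m) {ζ : Qbar}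
    (hζ : IsPrimitiveRoot ζ m) {K₁ K : IntermediateField ℚ Qbar} (hζK₁ : ζ ∈ K₁) (hK : K₁ ≤ K) :
    ∃ z : ↥(baseRing A K), IsPrimitiveRoot z m ∧ algebraMap (Lvl K) Qbar (z : Lvl K) = ζ :=
  Fermat.Agent.S33.L.CycloLevelInst.exists_primitiveRoot_baseRing A K hm hζ (hK hζK₁)

end Zeta

end Fermat.Agent.S33.L.TauEta
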